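import Fermat.Agent.LT.Th.Harm5

set_option autoImplicit false
set_option linter.unusedSectionVars false
set_option linter.dupNamespace false

/-!
# Harmonicity of the theta lift: the differential equation
-/

namespace Fermat.Agent.LT.Th

open MeasureTheory Real Set ComplexConjugate HM
open scoped NNReal ENNReal
open Fermat.Agent.LT.FA

namespace Harm

/-- the series attached to `F` -/
noncomputable def Th {κ : Type*} (X : κ → HM) (F : ℝ → ℝ) (w : H3) : ℝ := ∑' k, F (t w (X k))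

/-- the basic bound -/
def BB {κ : Type*} (φ : H3 → ℂ) (X : κ → HM) : Prop :=
  ∀ c : ℝ, 0 < c → ∃ C : ℝ, ∀ w : H3, Summable (fun k => exp (-c * Q w (X k))) ∧
    ‖φ w‖ * ∑' k, exp (-c * Q w (X k)) ≤ C

section sums

variable {κ : Type*} {X : κ → HM} {n : ℝ} {φ : H3 → ℂ}

theorem dec_bound (hq : ∀ k, q (X k) = n) {F : ℝ → ℝ} {A a : ℝ} (hA : 0 ≤ A) (ha : 0 < a)
    (hF : ∀ x, |F x| ≤ A * exp (-a * x ^ 2)) {w w' : H3} (h : H3.cd w w' ≤ 3) (k : κ) :
    |F (t w' (X k))| ≤ A * exp (a * n / 2) * exp (-(a / 90) * Q w (X k)) := by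
  refine (hF _).trans ?_
  rw [mul_assoc]
  refine mul_le_mul_of_nonneg_left ?_ hA
  rw [← exp_add]
  apply exp_le_exp.mpr
  have h1 := Q_le w w' (X k)
  have h2 := H3.one_le_cd w w'
  have h3 : H3.cd w w' ^ 2 ≤ 9 := by nlinarith
  have h4 := Q_nonneg w' (X k)
  have h5 : Q w (X k) ≤ 45 * Q w' (X k) := by nlinarith
  have h6 : Q w' (X k) = n + 2 * t w' (X k) ^ 2 := by rw [Q, hq]
  have h7 : t w' (X k) ^ 2 = (Q w' (X k) - n) / 2 := by rw [h6]; ring
  rw [h7]
  nlinarith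

theorem summable_dec (hq : ∀ k, q (X k) = n) (hB : BB φ X) {F : ℝ → ℝ} (hF : Dec F) (w : H3) :
    Summable fun k => |F (t w (X k))| := by
  obtain ⟨A, a, hA, ha, hF⟩ := hF
  obtain ⟨C, hC⟩ := hB (a / 90) (by positivity)
  refine Summable.of_nonneg_of_le (fun k => abs_nonneg _)
    (fun k => dec_bound hq hA ha hF (by rw [H3.cd_self]; norm_num) k) ((hC w).1.mul_left _)

theorem summable_dec' (hq : ∀ k, q (X k) = n) (hB : BB φ X) {F : ℝ → ℝ} (hF : Dec F) (w : H3) :
    Summable fun k => F (t w (X k)) := (summable_dec hq hB hF w).of_abs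

theorem phi_bound (hq : ∀ k, q (X k) = n) (hB : BB φ X) {F : ℝ → ℝ} (hF : Dec F) :
    ∃ C : ℝ, ∀ w w', H3.cd w w' ≤ 3 → ‖φ w‖ * ∑' k, |F (t w' (X k))| ≤ C := by
  obtain ⟨A, a, hA, ha, hF'⟩ := id hF
  obtain ⟨C, hC⟩ := hB (a / 90) (by positivity)
  refine ⟨A * exp (a * n / 2) * C, fun w w' h => ?_⟩
  obtain ⟨h1, h2⟩ := hC w
  have h3 : ∑' k, |F (t w' (X k))| ≤ A * exp (a * n / 2) * ∑' k, exp (-(a / 90) * Q w (X k)) := by
    rw [← tsum_mul_left]
    exact (summable_dec hq hB hF w').tsum_le_tsum (fun k => dec_bound hq hA ha hF' h k)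
      (h1.mul_left _)
  calc ‖φ w‖ * ∑' k, |F (t w' (X k))|
      ≤ ‖φ w‖ * (A * exp (a * n / 2) * ∑' k, exp (-(a / 90) * Q w (X k))) := by gcongr
    _ = A * exp (a * n / 2) * (‖φ w‖ * ∑' k, exp (-(a / 90) * Q w (X k))) := by ring
    _ ≤ A * exp (a * n / 2) * C := by gcongr

theorem abs_Th_le (hq : ∀ k, q (X k) = n) (hB : BB φ X) {F : ℝ → ℝ} (hF : Dec F) (w : H3) :
    |Th X F w| ≤ ∑' k, |F (t w (X k))| := by
  have := norm_tsum_le_tsum_norm (f := fun k => F (t w (X k)))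
    (by simpa only [Real.norm_eq_abs] using summable_dec hq hB hF w)
  simpa only [Real.norm_eq_abs, Th] using this

theorem phi_Th_bound (hq : ∀ k, q (X k) = n) (hB : BB φ X) {F : ℝ → ℝ} (hF : Dec F) :
    ∃ C : ℝ, ∀ w w', H3.cd w w' ≤ 3 → ‖φ w‖ * ‖((Th X F w' : ℝ) : ℂ)‖ ≤ C := by
  obtain ⟨C, hC⟩ := phi_bound hq hB hF
  refine ⟨C, fun w w' h => le_trans ?_ (hC w w' h)⟩
  rw [Complex.norm_real, Real.norm_eq_abs]
  exact mul_le_mul_of_nonneg_left (abs_Th_le hq hB hF w') (norm_nonneg _)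

variable [Countable κ]

theorem measurable_Th (hq : ∀ k, q (X k) = n) (hB : BB φ X) {F : ℝ → ℝ} (hF : Dec F)
    (hc : Continuous F) : Measurable (Th X F) := by
  refine measurable_of_tendsto_metrizable' (Filter.atTop : Filter (Finset κ))
    (f := fun s w => ∑ k ∈ s, F (t w (X k))) (fun s => ?_) ?_
  · exact Finset.measurable_fun_sum s fun k _ => (hc.comp (continuous_tH (X k))).measurable
  · rw [tendsto_pi_nhds]
    intro w
    exact (summable_dec' hq hB hF w).hasSum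

/-- termwise integration against a bump -/
theorem integral_Th (hq : ∀ k, q (X k) = n) (hB : BB φ X) {F : ℝ → ℝ} (hF : Dec F)
    (hc : Continuous F) {f : ℝ → ℝ} (hf : Continuous f) (hz : ∀ x, x ∉ Icc (2 : ℝ) 3 → f x = 0)
    (w : H3) : ∫ w', f (H3.cd w w') * Th X F w' =
      ∑' k, ∫ w' : H3, f (H3.cd w w') * F (t w' (X k)) := by
  obtain ⟨A, a, hA, ha, hF'⟩ := id hF
  obtain ⟨C, hC⟩ := hB (a / 90) (by positivity)
  have hi0 : Integrable (fun w' : H3 => f (H3.cd w w')) :=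
    (continuous_cd_comp hf w).integrable_of_hasCompactSupport (hasCompactSupport_cd hz w)
  have hi : ∀ k, Integrable (fun w' : H3 => f (H3.cd w w') * F (t w' (X k))) := fun k => by
    refine Continuous.integrable_of_hasCompactSupport
      ((continuous_cd_comp hf w).mul (hc.comp (continuous_tH (X k)))) ?_
    exact (hasCompactSupport_cd hz w).mul_right
  rw [integral_tsum_of_summable_integral_norm (F := fun k w' => f (H3.cd w w') * F (t w' (X k))) hi]
  · refine integral_congr_ae (Filter.Eventually.of_forall fun w' => ?_)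
    simp only [Th]
    rw [tsum_mul_left]
  · refine Summable.of_nonneg_of_le (fun k => integral_nonneg fun w' => norm_nonneg _) (fun k => ?_)
      (((hC w).1.mul_left (A * exp (a * n / 2))).mul_left (∫ w' : H3, |f (H3.cd w w')|))
    rw [← integral_mul_const]
    refine integral_mono (hi k).norm (hi0.abs.mul_const _) fun w' => ?_
    simp only [norm_mul, Real.norm_eq_abs]
    by_cases h3 : H3.cd w w' ≤ 3
    · exact mul_le_mul_of_nonneg_left (dec_bound hq hA ha hF' h3 k) (abs_nonneg _)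
    · rw [hz _ (fun h => h3 h.2)]
      simp

/-- the integral of `φ` times the series -/
noncomputable def JJ (φ : H3 → ℂ) (ν : Measure H3) (X : κ → HM) (F : ℝ → ℝ) : ℂ :=
  ∫ w, φ w * ((Th X F w : ℝ) : ℂ) ∂ν

theorem integrable_J (hq : ∀ k, q (X k) = n) (hB : BB φ X) (hφ : Continuous φ) (ν : Measure H3)
    [IsFiniteMeasure ν] {F : ℝ → ℝ} (hF : Dec F) (hc : Continuous F) :
    Integrable (fun w => φ w * ((Th X F w : ℝ) : ℂ)) ν := by
  obtain ⟨C, hC⟩ := phi_Th_bound hq hB hF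
  refine Integrable.of_bound (C := C) ?_ (Filter.Eventually.of_forall fun w => ?_)
  · exact (hφ.measurable.mul (measurable_Th hq hB hF hc).complex_ofReal).aestronglyMeasurable
  · rw [norm_mul]
    exact hC w w (by rw [H3.cd_self]; norm_num)

theorem Th_add (hq : ∀ k, q (X k) = n) (hB : BB φ X) {F F' : ℝ → ℝ} (hF : Dec F) (hF' : Dec F')
    (w : H3) : Th X (fun x => F x + F' x) w = Th X F w + Th X F' w :=
  (summable_dec' hq hB hF w).tsum_add (summable_dec' hq hB hF' w)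

theorem Th_const_mul (r : ℝ) (F : ℝ → ℝ) (w : H3) :
    Th X (fun x => r * F x) w = r * Th X F w := tsum_mul_left

theorem JJ_add (hq : ∀ k, q (X k) = n) (hB : BB φ X) (hφ : Continuous φ) (ν : Measure H3)
    [IsFiniteMeasure ν] {F F' : ℝ → ℝ} (hF : Dec F) (hF' : Dec F') (hc : Continuous F)
    (hc' : Continuous F') : JJ φ ν X (fun x => F x + F' x) = JJ φ ν X F + JJ φ ν X F' := by
  rw [JJ, JJ, JJ, ← integral_add (integrable_J hq hB hφ ν hF hc) (integrable_J hq hB hφ ν hF' hc')]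
  refine integral_congr_ae (Filter.Eventually.of_forall fun w => ?_)
  simp only [Th_add hq hB hF hF']
  push_cast
  ring

theorem JJ_const_mul (ν : Measure H3) (r : ℝ) (F : ℝ → ℝ) :
    JJ φ ν X (fun x => r * F x) = r * JJ φ ν X F := by
  rw [JJ, JJ, ← integral_const_mul]
  refine integral_congr_ae (Filter.Eventually.of_forall fun w => ?_)
  simp only [Th_const_mul]
  push_cast
  ring

end sums

section main

variable {G : Type*} [Group G] [Countable G] [MulAction G H3] [MeasurableConstSMul G H3]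
  [SMulInvariantMeasure G H3 (volume : Measure H3)] {wt : H3 → ℝ≥0}
  {κ : Type*} [Countable κ] {X : κ → HM} {n : ℝ} {φ : H3 → ℂ}

/-- mean value property -/
def Mean (φ : H3 → ℂ) : Prop := ∀ k : ℝ → ℝ, Continuous k → HasCompactSupport k → ∀ w : H3,
    ∫ w' : H3, (k (H3.cd w w') : ℂ) * φ w' =
      ((4 * π * ∫ r in Set.Ioi (0 : ℝ), k (Real.cosh r) * (r * Real.sinh r) : ℝ) : ℂ) * φ w

/-- **harmonicity** -/
theorem JJ_LF (hcd : ∀ (g : G) (w w' : H3), H3.cd (g • w) (g • w') = H3.cd w w')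
    (hw : IsWt G (volume : Measure H3) wt) [IsFiniteMeasure (wtM (volume : Measure H3) wt)]
    (hφ : Continuous φ) (hφi : ∀ (g : G) w, φ (g • w) = φ w) (hm : Mean φ)
    (hX : ∀ (g : G) (F : ℝ → ℝ) w, Th X F (g • w) = Th X F w)
    (hq : ∀ k, q (X k) = n) (hB : BB φ X) {F F1 F2 : ℝ → ℝ} (hF : C2 F F1 F2) (hd : Dec F)
    (hd' : Dec (LF n F F1 F2)) : JJ φ (wtM (volume : Measure H3) wt) X (LF n F F1 F2) = 0 := by
  obtain ⟨k, k1, k2, hk, hk0, hk1⟩ := exists_bump
  have hcL := LF_continuous hF n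
  obtain ⟨C1, hC1⟩ := phi_Th_bound hq hB hd
  obtain ⟨C2, hC2⟩ := phi_Th_bound hq hB hd'
  have e1 := adj hcd hw hk.cLK hk.zLK hφ hφi (measurable_Th hq hB hd hF.c0).complex_ofReal
    (fun g w => by rw [hX]) hC1
  have e2 := adj hcd hw hk.c0 hk.z0 hφ hφi (measurable_Th hq hB hd' hcL).complex_ofReal
    (fun g w => by rw [hX]) hC2
  have e3 : ∀ w : H3, ∫ w', (LK k k1 k2 (H3.cd w w') : ℂ) * ((Th X F w' : ℝ) : ℂ) =
      ∫ w', (k (H3.cd w w') : ℂ) * ((Th X (LF n F F1 F2) w' : ℝ) : ℂ) := by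
    intro w
    have h1 := integral_Th hq hB hd hF.c0 hk.cLK hk.zLK w
    have h2 := integral_Th hq hB hd' hcL hk.c0 hk.z0 w
    have h3 : ∀ i, ∫ w' : H3, LK k k1 k2 (H3.cd w w') * F (t w' (X i)) =
        ∫ w' : H3, k (H3.cd w w') * LF n F F1 F2 (t w' (X i)) := fun i => by
      rw [green hk hF w (X i), hq i]
    simp_rw [h3] at h1
    rw [← h2] at h1
    simp only [← Complex.ofReal_mul]
    rw [integral_complex_ofReal, integral_complex_ofReal, h1]
  simp_rw [e3] at e1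
  rw [e2] at e1
  simp_rw [hm _ hk.c0 (hasCompactSupport_of_zero hk.z0),
    hm _ hk.cLK (hasCompactSupport_of_zero hk.zLK), khat_LK hk] at e1
  simp only [mul_zero, Complex.ofReal_zero, zero_mul, integral_zero, mul_assoc] at e1
  rw [integral_const_mul] at e1
  have h4 := khat_pos hk hk0 hk1
  have h5 : ((4 * (π * ∫ r in Set.Ioi (0 : ℝ), k (Real.cosh r) * (r * Real.sinh r)) : ℝ) : ℂ) ≠ 0 := by
    exact_mod_cast (by positivity : (4 * (π * ∫ r in Set.Ioi (0 : ℝ),
      k (Real.cosh r) * (r * Real.sinh r)) : ℝ) ≠ 0)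
  exact (mul_eq_zero.mp e1).resolve_left h5

/-- **the integral of `φ` vanishes** -/
theorem integral_zero (hcd : ∀ (g : G) (w w' : H3), H3.cd (g • w) (g • w') = H3.cd w w')
    (hw : IsWt G (volume : Measure H3) wt) [IsFiniteMeasure (wtM (volume : Measure H3) wt)]
    (hφ : Continuous φ) (hφi : ∀ (g : G) w, φ (g • w) = φ w) (hm : Mean φ)
    (hb : ∃ C : ℝ, ∀ w, ‖φ w‖ ≤ C) : ∫ w, φ w ∂(wtM (volume : Measure H3) wt) = 0 := by
  obtain ⟨k, k1, k2, hk, hk0, hk1⟩ := exists_bump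
  obtain ⟨C, hC⟩ := hb
  have e1 := adj hcd hw hk.cLK hk.zLK hφ hφi (Θ := fun _ => 1) measurable_const
    (fun g w => rfl) (C := C) (fun w w' _ => by simpa using hC w)
  simp_rw [hm _ hk.cLK (hasCompactSupport_of_zero hk.zLK), khat_LK hk] at e1
  simp only [mul_zero, mul_one, Complex.ofReal_zero, zero_mul, MeasureTheory.integral_zero] at e1
  have e2 : ∀ w : H3, ∫ w', (LK k k1 k2 (H3.cd w w') : ℂ) =
      ((∫ w', k (H3.cd H3.j w') : ℝ) : ℂ) := by
    intro w
    rw [integral_complex_ofReal, integral_cd hk w, integral_cd_const]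
  simp_rw [e2] at e1
  rw [integral_mul_const] at e1
  have h4 := integral_cd_pos hk hk0 hk1 H3.j
  have h5 : ((∫ w', k (H3.cd H3.j w') : ℝ) : ℂ) ≠ 0 := by exact_mod_cast h4.ne'
  exact (mul_eq_zero.mp e1).resolve_right h5

end main

end Harm

end Fermat.Agent.LT.Th
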