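import Fermat.Agent.LT.Th.Def
import Fermat.Agent.LT.RS.FromK

set_option autoImplicit false

/-!
# Transport from `𝓞 K` to the Eisenstein integers in `ℂ`
-/

namespace Fermat.Agent.LT.Th

open Matrix ComplexConjugate MeasureTheory Complex NumberField
open scoped Real MatrixGroups
open Fermat.Agent.LT.RS

variable {K : Type*} [Field K] [NumberField K] [IsCyclotomicExtension {3} ℚ K] (i : K →+* ℂ)

theorem io_wK : io i (wK K) = om ∨ io i (wK K) = -1 - om := by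
  have h0 : io i (wK K) = i (IsCyclotomicExtension.zeta 3 ℚ K) := rfl
  obtain ⟨h1, h2⟩ := iw_re_im i (IsCyclotomicExtension.zeta_spec 3 ℚ K)
  rw [← h0] at h1 h2
  have h3 : √3 * √3 = 3 := Real.mul_self_sqrt (by norm_num)
  have h4 : ((io i (wK K)).im - √3 / 2) * ((io i (wK K)).im + √3 / 2) = 0 := by
    nlinarith
  rcases mul_eq_zero.mp h4 with h5 | h5
  · left
    apply Complex.ext
    · rw [h1]; rfl
    · rw [sub_eq_zero.mp h5]; rfl
  · right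
    apply Complex.ext
    · rw [h1]; simp [om]; norm_num
    · rw [eq_neg_of_add_eq_zero_left h5]; simp [om]

theorem io_mem (x : 𝓞 K) : io i x ∈ Oe := by
  obtain ⟨a, b, rfl⟩ := exists_rep' x
  rw [io_add, io_mul, io_intCast, io_intCast]
  refine Oe.add_mem (intCast_mem Oe a) (Oe.mul_mem (intCast_mem Oe b) ?_)
  rcases io_wK i with h | h
  · rw [h]; exact om_mem
  · rw [h]; exact Oe.sub_mem (Oe.neg_mem Oe.one_mem) om_mem

theorem io_surj {z : ℂ} (hz : z ∈ Oe) : ∃ x : 𝓞 K, io i x = z := by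
  obtain ⟨x, y, rfl⟩ := hz
  rcases io_wK i with h | h
  · refine ⟨x + y * wK K, ?_⟩
    rw [io_add, io_mul, io_intCast, io_intCast, h]
  · refine ⟨(x : 𝓞 K) + (y : 𝓞 K) * (((-1 : ℤ) : 𝓞 K) + ((-1 : ℤ) : 𝓞 K) * wK K), ?_⟩
    rw [io_add, io_mul, io_intCast, io_intCast, io_add, io_mul, io_intCast, h]
    push_cast
    ring

/-- `io` as a ring homomorphism -/
noncomputable def ioH : 𝓞 K →+* ℂ := i.comp (algebraMap (𝓞 K) K)

/-- `𝓞 K ≃ Oe` -/
noncomputable def ioE : 𝓞 K ≃+* Oe :=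
  RingEquiv.ofBijective ((ioH i).codRestrict Oe (io_mem i))
    ⟨fun x y h => io_inj i (congrArg Subtype.val h), fun z => by
      obtain ⟨x, hx⟩ := io_surj i z.2
      exact ⟨x, Subtype.ext hx⟩⟩

theorem coe_ioE (x : 𝓞 K) : ((ioE i x : Oe) : ℂ) = io i x := rfl

theorem io_ioE_symm (z : Oe) : io i ((ioE i).symm z) = z := by
  rw [← coe_ioE, RingEquiv.apply_symm_apply]

/-- `SL(2, Oe) → SL(2, 𝓞 K)` -/
noncomputable def eSL : SL(2, Oe) →* SL(2, 𝓞 K) :=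
  Matrix.SpecialLinearGroup.map ((ioE i).symm : Oe →+* 𝓞 K)

theorem eSL_apply (h : SL(2, Oe)) (r s : Fin 2) : eSL i h r s = (ioE i).symm (h r s) := rfl

theorem slC_eSL (h : SL(2, Oe)) : slC i (eSL i h) = toGL h := by
  ext r s
  rw [slC_coe, eSL_apply, io_ioE_symm, toGL_apply]

theorem eSL_dvd {N : ℕ} {h : SL(2, Oe)} (hh : h ∈ Gam N) (r s : Fin 2) :
    (N : 𝓞 K) ∣ eSL i h r s - (1 : Matrix (Fin 2) (Fin 2) (𝓞 K)) r s := by
  have h1 := map_dvd (ioE i).symm (hh r s)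
  have h2 : (ioE i).symm ((1 : Matrix (Fin 2) (Fin 2) Oe) r s) =
      (1 : Matrix (Fin 2) (Fin 2) (𝓞 K)) r s := by
    rw [Matrix.one_apply, Matrix.one_apply]
    split_ifs
    · rw [map_one]
    · rw [map_zero]
  rw [map_sub, map_natCast, h2] at h1
  exact h1

/-- invariance -/
theorem inv_Gam {N : ℕ} {φ : H3 → ℂ}
    (hinv : ∀ g : SL(2, 𝓞 K), (∀ r s, (N : 𝓞 K) ∣ g r s - (1 : Matrix (Fin 2) (Fin 2) (𝓞 K)) r s) →
      ∀ p, φ (slC i g • p) = φ p) : ∀ g ∈ Gam N, ∀ w : H3, φ (g • w) = φ w := by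
  intro g hg w
  have := hinv (eSL i g) (eSL_dvd i hg) w
  rwa [slC_eSL] at this

/-- decay -/
theorem decay_Oe {φ : H3 → ℂ} {A : ℕ}
    (hdec : ∃ C : ℝ, ∀ (p : H3) (c d : 𝓞 K), (c ≠ 0 ∨ d ≠ 0) →
      ‖φ p‖ ≤ C * (p.q (io i c) (io i d)) ^ A) :
    ∃ C : ℝ, ∀ (p : H3) (c d : ℂ), c ∈ Oe → d ∈ Oe → (c ≠ 0 ∨ d ≠ 0) →
      ‖φ p‖ ≤ C * (p.q c d) ^ A := by
  obtain ⟨C, hC⟩ := hdec
  refine ⟨C, fun p c d hc hd hne => ?_⟩
  obtain ⟨x, rfl⟩ := io_surj i hc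
  obtain ⟨y, rfl⟩ := io_surj i hd
  refine hC p x y ?_
  rcases hne with h | h
  · left; rintro rfl; exact h (by simp [io])
  · right; rintro rfl; exact h (by simp [io])

end Fermat.Agent.LT.Th
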