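import Fermat.Agent.LT.Th.HkAlg

set_option autoImplicit false

/-!
# The Hecke correspondence at a split prime: action on `H3` and on Hermitian matrices
-/

namespace Fermat.Agent.LT.Th

open Matrix ComplexConjugate Complex MeasureTheory
open scoped Real MatrixGroups

/-- scalar matrices act trivially -/
theorem smul_eq_of_scalar (g h : GL (Fin 2) ℂ) (c : ℂ)
    (hc : (g : Matrix (Fin 2) (Fin 2) ℂ) * (h : Matrix (Fin 2) (Fin 2) ℂ) = c • 1) (w : H3) :
    g • h • w = w := by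
  rw [← mul_smul]
  have hcoe : ((g * h : GL (Fin 2) ℂ) : Matrix (Fin 2) (Fin 2) ℂ) = c • 1 := by
    rw [Units.val_mul, hc]
  have h00 : (g * h) 0 0 = c := by
    have := congrFun (congrFun hcoe 0) 0
    simpa using this
  have h01 : (g * h) 0 1 = 0 := by
    have := congrFun (congrFun hcoe 0) 1
    simpa using this
  have h10 : (g * h) 1 0 = 0 := by
    have := congrFun (congrFun hcoe 1) 0
    simpa using this
  have h11 : (g * h) 1 1 = c := by
    have := congrFun (congrFun hcoe 1) 1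
    simpa using this
  have hdet : ((g * h : GL (Fin 2) ℂ) : Matrix (Fin 2) (Fin 2) ℂ).det = c * c := by
    rw [Matrix.det_fin_two, h00, h01, h10, h11]; ring
  have hc0 : ‖c‖ ≠ 0 := by
    rw [norm_ne_zero_iff]
    rintro rfl
    exact (g * h).det_ne_zero (by rw [hdet, mul_zero])
  apply H3.ext_q
  intro u v
  rw [H3.q_smul_eq, hdet, h00, h01, h10, h11]
  have e1 : u * c + v * 0 = c * u := by ring
  have e2 : u * 0 + v * c = c * v := by ring
  rw [e1, e2, H3.q_smul, norm_mul]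
  field_simp

namespace HkData

variable {N l : ℕ} (H : HkData N l)

theorem ϖC_ne_zero : (H.ϖ : ℂ) ≠ 0 := fun h => H.ϖ_ne_zero (Subtype.ext h)

theorem normSq_ϖ : normSq (H.ϖ : ℂ) = l := by
  have h := congrArg Subtype.val H.norm
  have h1 : (H.ϖ : ℂ) * conj (H.ϖ : ℂ) = l := by
    have h2 : ((H.ϖ * cOe H.ϖ : Oe) : ℂ) = (H.ϖ : ℂ) * conj (H.ϖ : ℂ) := rfl
    rw [← h2, h]; simp
  rw [Complex.mul_conj] at h1
  exact_mod_cast h1

theorem norm_ϖ : ‖(H.ϖ : ℂ)‖ = √l := by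
  rw [← H.normSq_ϖ, Complex.normSq_eq_norm_sq, Real.sqrt_sq (norm_nonneg _)]

/-- the matrix in `M₂(ℂ)` -/
noncomputable def mC (δ : H.D) : Matrix (Fin 2) (Fin 2) ℂ := δ.1.map Oe.subtype

theorem det_mC (δ : H.D) : (H.mC δ).det = H.ϖ := by
  have := RingHom.map_det Oe.subtype δ.1
  rw [δ.2.1] at this
  exact this.symm

/-- the element of `GL₂(ℂ)` -/
noncomputable def gl (δ : H.D) : GL (Fin 2) ℂ :=
  Matrix.GeneralLinearGroup.mkOfDetNeZero (H.mC δ) (by rw [det_mC]; exact H.ϖC_ne_zero)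

theorem gl_coe (δ : H.D) : (H.gl δ : Matrix (Fin 2) (Fin 2) ℂ) = H.mC δ := rfl

theorem gl_mulD (γ : Gam N) (δ : H.D) : H.gl (H.mulD γ δ) = toGL γ.1 * H.gl δ := by
  apply Units.ext
  rw [Units.val_mul, gl_coe, gl_coe, mC, mulD_coe, Matrix.map_mul]
  rfl

theorem mC_adj (δ : H.D) : H.mC (H.adj δ) = (H.mC δ).adjugate := by
  have := RingHom.map_adjugate Oe.subtype δ.1
  exact this

/-- the action on `H3` -/
noncomputable def S (δ : H.D) (w : H3) : H3 := H.gl δ • w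

theorem S_mulD (γ : Gam N) (δ : H.D) (w : H3) : H.S (H.mulD γ δ) w = γ • H.S δ w := by
  rw [S, gl_mulD, mul_smul]
  rfl

theorem S_adj (δ : H.D) (w : H3) : H.S (H.adj δ) (H.S δ w) = w := by
  apply smul_eq_of_scalar _ _ (H.ϖ : ℂ)
  rw [gl_coe, gl_coe, mC_adj, Matrix.adjugate_mul, det_mC]

theorem S_adj' (δ : H.D) (w : H3) : H.S δ (H.S (H.adj δ) w) = w := by
  have := H.S_adj (H.adj δ) w
  rwa [adj_adj] at this

theorem measurePreserving_S (δ : H.D) : MeasurePreserving (H.S δ) :=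
  H3.measurePreserving_smul_H3 (H.gl δ)

theorem continuous_S (δ : H.D) : Continuous (H.S δ) := H3.continuous_smul_H3 (H.gl δ)

theorem actM_scalar (c : ℂ) (X : HM) : HM.actM (c • 1) X = (normSq c) • X := by
  refine Prod.ext ?_ (Prod.ext ?_ ?_)
  · simp [HM.actM]
  · simp [HM.actM]
  · simp only [HM.actM, Matrix.smul_apply, Matrix.one_apply_eq, smul_eq_mul, mul_one, ne_eq, one_ne_zero,
      not_false_eq_true, Matrix.one_apply_ne, mul_zero, map_zero, zero_ne_one, zero_mul, add_zero,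
      Prod.smul_snd]
    rw [Complex.real_smul, ← Complex.mul_conj]
    ring

theorem actM_adj (δ : H.D) (X : HM) :
    HM.actM (H.mC δ) (HM.actM (H.mC (H.adj δ)) X) = (l : ℝ) • X := by
  rw [← HM.actM_mul, mC_adj, Matrix.mul_adjugate, det_mC, actM_scalar, normSq_ϖ]

include H in
theorem sqrt_l_pos : 0 < √(l : ℝ) := by
  rw [← H.norm_ϖ]
  exact norm_pos_iff.2 H.ϖC_ne_zero

theorem t_S (δ : H.D) (w : H3) (X : HM) :
    HM.t (H.S δ w) X = HM.t w (HM.actM (H.mC (H.adj δ)) X) / √l := by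
  have h := HM.t_smul_actM (H.gl δ) w (HM.actM (H.mC (H.adj δ)) X)
  rw [gl_coe, actM_adj, HM.t_smul, det_mC, norm_ϖ] at h
  have h1 := H.sqrt_l_pos
  have h2 : √(l : ℝ) * √(l : ℝ) = l := Real.mul_self_sqrt (Nat.cast_nonneg l)
  rw [eq_div_iff h1.ne']
  apply mul_left_cancel₀ h1.ne'
  change (l : ℝ) * HM.t (H.S δ w) X = _ at h
  rw [← h]
  linear_combination (HM.t (H.S δ w) X) * h2

theorem q_adj (δ : H.D) (X : HM) : HM.q (HM.actM (H.mC (H.adj δ)) X) = l * HM.q X := by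
  rw [HM.q_actM, det_mC, normSq_ϖ]

theorem Q_S (δ : H.D) (w : H3) (X : HM) :
    HM.Q (H.S δ w) X = HM.Q w (HM.actM (H.mC (H.adj δ)) X) / l := by
  have h1 : √(l : ℝ) ^ 2 = l := Real.sq_sqrt (Nat.cast_nonneg l)
  have h2 : (l : ℝ) ≠ 0 := by exact_mod_cast H.l_pos.ne'
  rw [HM.Q, HM.Q, t_S, q_adj, div_pow, h1]
  field_simp

end HkData

end Fermat.Agent.LT.Th
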