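import Fermat.Agent.LT.Th.Inp2
import Fermat.Agent.LT.Th.HkAct

set_option autoImplicit false

/-!
# Hecke operators on translates by rational matrices
-/

namespace Fermat.Agent.LT.Th

open Matrix ComplexConjugate MeasureTheory Complex
open scoped Real MatrixGroups

/-- Hecke data at a divisor of the level -/
def HkData.down {N N' l : ℕ} (H : HkData N' l) (h : N ∣ N') : HkData N l where
  ϖ := H.ϖ
  prime := H.prime
  norm := H.norm
  cong := (Nat.cast_dvd_cast h).trans H.cong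
  ne3 := H.ne3

variable {m : ℕ} {g : GL (Fin 2) ℂ}

/-- conjugation of `D` -/
theorem Cm.exists_D (hm : Cm m g) {N N' l : ℕ} (hN : N * m ^ 2 ∣ N') (H : HkData N' l)
    (hN1 : N ∣ N') (δ : H.D) : ∃ ε : (H.down hN1).D,
      ε.1.map Oe.subtype = (g : Matrix (Fin 2) (Fin 2) ℂ) * δ.1.map Oe.subtype *
        ((g⁻¹ : GL (Fin 2) ℂ) : Matrix (Fin 2) (Fin 2) ℂ) := by
  obtain ⟨Y, hY, hdet, hmap⟩ := hm.conj_int (N := N) (X := δ.1)
    (fun i j => (Nat.cast_dvd_cast hN).trans (δ.2.2 i j))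
  exact ⟨⟨Y, by rw [hdet]; exact δ.2.1, hY⟩, hmap⟩

theorem smul_S_conj {N N' l : ℕ} (H : HkData N' l) (hN1 : N ∣ N') {δ : H.D} {ε : (H.down hN1).D}
    (h : ε.1.map Oe.subtype = (g : Matrix (Fin 2) (Fin 2) ℂ) * δ.1.map Oe.subtype *
        ((g⁻¹ : GL (Fin 2) ℂ) : Matrix (Fin 2) (Fin 2) ℂ)) (w : H3) :
    g • H.S δ w = (H.down hN1).S ε (g • w) := by
  have e : (H.down hN1).gl ε = g * H.gl δ * g⁻¹ := by
    apply Units.ext
    rw [Units.val_mul, Units.val_mul]
    exact h
  rw [HkData.S, HkData.S, e, ← mul_smul, ← mul_smul, inv_mul_cancel_right]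

/-- cancelling `ϖ` -/
theorem HkData.eq_of_dvd {N l : ℕ} (H : HkData N l) {j j' : Option (Fin l)}
    (h : ∀ r s, H.rd (((H.rep j).1 * (H.rep j').1.adjugate) r s) = 0) : j = j' := by
  have h1 : ∀ r s, ∃ z : Oe, ((H.rep j).1 * (H.rep j').1.adjugate) r s = H.ϖ * z :=
    fun r s => H.rd_eq_zero.1 (h r s)
  choose Z hZ using h1
  have e1 : (H.rep j).1 * (H.rep j').1.adjugate = H.ϖ • Matrix.of Z := by
    refine Matrix.ext fun r s => ?_
    rw [hZ]; rfl
  have e2 : (H.rep j).1 = Matrix.of Z * (H.rep j').1 := by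
    have e3 : H.ϖ • (H.rep j).1 = H.ϖ • (Matrix.of Z * (H.rep j').1) := by
      rw [← Matrix.smul_mul, ← e1, Matrix.mul_assoc, Matrix.adjugate_mul, H.rep_det,
        Matrix.mul_smul, Matrix.mul_one]
    refine Matrix.ext fun r s => ?_
    have := congrFun (congrFun e3 r) s
    rw [Matrix.smul_apply, Matrix.smul_apply, smul_eq_mul, smul_eq_mul] at this
    exact mul_left_cancel₀ H.ϖ_ne_zero this
  have hdet : (Matrix.of Z).det = 1 := by
    have h3 := congrArg Matrix.det e2
    rw [Matrix.det_mul, H.rep_det, H.rep_det] at h3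
    have h4 : H.ϖ * (Matrix.of Z).det = H.ϖ * 1 := by rw [mul_one, mul_comm, ← h3]
    exact mul_left_cancel₀ H.ϖ_ne_zero h4
  have hG : (⟨Matrix.of Z, hdet⟩ : SL(2, Oe)) ∈ Gam N := by
    intro i k
    apply H.dvd_of_dvd_mul
    change _ ∣ ((Matrix.of Z) i k - (1 : Matrix (Fin 2) (Fin 2) Oe) i k) * H.ϖ
    have h5 : ((Matrix.of Z) i k - (1 : Matrix (Fin 2) (Fin 2) Oe) i k) * H.ϖ =
        ∑ m, (((H.rep j).1 i m - (1 : Matrix (Fin 2) (Fin 2) Oe) i m) -
          ((H.rep j').1 i m - (1 : Matrix (Fin 2) (Fin 2) Oe) i m)) *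
            (H.rep j').1.adjugate m k := by
      have h6 : ((H.rep j).1 - (H.rep j').1) * (H.rep j').1.adjugate =
          H.ϖ • (Matrix.of Z - 1) := by
        rw [Matrix.sub_mul, e1, Matrix.mul_adjugate, H.rep_det, smul_sub]
      have h7 := congrFun (congrFun h6 i) k
      rw [Matrix.mul_apply, Matrix.smul_apply, Matrix.sub_apply, smul_eq_mul] at h7
      rw [mul_comm, ← h7]
      refine Finset.sum_congr rfl fun m _ => ?_
      rw [Matrix.sub_apply]
      ring
    rw [h5]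
    exact Finset.dvd_sum fun m _ => (dvd_sub ((H.rep j).2.2 i m) ((H.rep j').2.2 i m)).mul_right _
  have h8 := H.mulD_bijective.1 (a₁ := (1, j)) (a₂ := (⟨⟨Matrix.of Z, hdet⟩, hG⟩, j')) (by
    apply Subtype.ext
    change ((1 : SL(2, Oe)) : Matrix (Fin 2) (Fin 2) Oe) * (H.rep j).1 =
      Matrix.of Z * (H.rep j').1
    rw [Matrix.SpecialLinearGroup.coe_one, Matrix.one_mul, e2])
  exact (Prod.mk.inj h8).2

/-- **Transfer of the Hecke relation.** -/
theorem Cm.hecke (hm : Cm m g) {N N' l : ℕ} (hN : N * m ^ 2 ∣ N') (H : HkData N' l)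
    (hN1 : N ∣ N') {φ : H3 → ℂ} (hφ : ∀ x ∈ Gam N, ∀ w : H3, φ (x • w) = φ w) {c : ℂ}
    (hk : ∀ w, ∑ j, φ ((H.down hN1).S ((H.down hN1).rep j) w) = c * φ w) (w : H3) :
    ∑ j, φ (g • H.S (H.rep j) w) = c * φ (g • w) := by
  have : Fact l.Prime := ⟨H.prime⟩
  choose ε hε using fun j => hm.exists_D hN H hN1 (H.rep j)
  choose p hp using fun j => (H.down hN1).mulD_bijective.2 (ε j)
  have h1 : ∀ j, φ (g • H.S (H.rep j) w) =
      φ ((H.down hN1).S ((H.down hN1).rep (p j).2) (g • w)) := by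
    intro j
    rw [smul_S_conj H hN1 (hε j), ← hp j, HkData.S_mulD]
    exact hφ _ (p j).1.2 _
  have hinj : Function.Injective (fun j => (p j).2) := by
    intro j j' hjj
    simp only at hjj
    apply H.eq_of_dvd
    have e1 : (ε j).1 * (ε j').1.adjugate = H.ϖ •
        (((p j).1.1 : Matrix (Fin 2) (Fin 2) Oe) *
          ((p j').1.1 : Matrix (Fin 2) (Fin 2) Oe).adjugate) := by
      rw [← hp j, ← hp j', HkData.mulD_coe, HkData.mulD_coe, hjj, Matrix.adjugate_mul_distrib,
        Matrix.mul_assoc, ← Matrix.mul_assoc (((H.down hN1).rep (p j').2).1),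
        Matrix.mul_adjugate, HkData.rep_det, Matrix.smul_mul, Matrix.one_mul, Matrix.mul_smul]
      rfl
    -- `m² δ δ'^# = (m g⁻¹) (ε ε'^#) (m g)`
    have e2 : ((m : Oe) ^ 2) • ((H.rep j).1 * (H.rep j').1.adjugate) =
        hm.inv.mat * ((ε j).1 * (ε j').1.adjugate) * hm.mat := by
      apply map_inj
      have hgg : ((g⁻¹ : GL (Fin 2) ℂ) : Matrix (Fin 2) (Fin 2) ℂ) *
          (g : Matrix (Fin 2) (Fin 2) ℂ) = 1 := by
        rw [← Units.val_mul, inv_mul_cancel, Units.val_one]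
      have e3 : (((m : Oe) ^ 2) • ((H.rep j).1 * (H.rep j').1.adjugate)).map Oe.subtype =
          ((m : ℂ) ^ 2) • (((H.rep j).1 * (H.rep j').1.adjugate)).map Oe.subtype := by
        ext r s
        simp
      have e4 : ((ε j').1.adjugate).map Oe.subtype = (g : Matrix (Fin 2) (Fin 2) ℂ) *
          ((H.rep j').1.adjugate).map Oe.subtype *
            ((g⁻¹ : GL (Fin 2) ℂ) : Matrix (Fin 2) (Fin 2) ℂ) := by
        have h5 := RingHom.map_adjugate Oe.subtype (ε j').1
        have h6 := RingHom.map_adjugate Oe.subtype (H.rep j').1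
        rw [RingHom.mapMatrix_apply, RingHom.mapMatrix_apply] at h5 h6
        rw [h5, h6, hε, Matrix.adjugate_mul_distrib, Matrix.adjugate_mul_distrib]
        have h7 : ((g⁻¹ : GL (Fin 2) ℂ) : Matrix (Fin 2) (Fin 2) ℂ).adjugate =
            ((g : Matrix (Fin 2) (Fin 2) ℂ).det)⁻¹ • (g : Matrix (Fin 2) (Fin 2) ℂ) := by
          have h8 : (g : Matrix (Fin 2) (Fin 2) ℂ).det ≠ 0 := g.det_ne_zero
          have h9 : ((g⁻¹ : GL (Fin 2) ℂ) : Matrix (Fin 2) (Fin 2) ℂ).adjugate *
              ((g⁻¹ : GL (Fin 2) ℂ) : Matrix (Fin 2) (Fin 2) ℂ) =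
              ((g : Matrix (Fin 2) (Fin 2) ℂ).det)⁻¹ • 1 := by
            rw [Matrix.adjugate_mul]
            congr 1
            have := congrArg Matrix.det hgg
            rw [Matrix.det_mul, Matrix.det_one] at this
            exact eq_inv_of_mul_eq_one_left this
          have h10 := congrArg (fun A => A * (g : Matrix (Fin 2) (Fin 2) ℂ)) h9
          simp only [Matrix.mul_assoc, hgg, Matrix.mul_one, Matrix.smul_mul, Matrix.one_mul] at h10
          exact h10
        have h11 : (g : Matrix (Fin 2) (Fin 2) ℂ).adjugate =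
            ((g : Matrix (Fin 2) (Fin 2) ℂ).det) • ((g⁻¹ : GL (Fin 2) ℂ) :
              Matrix (Fin 2) (Fin 2) ℂ) := by
          have h12 := Matrix.adjugate_mul (g : Matrix (Fin 2) (Fin 2) ℂ)
          have h13 : (g : Matrix (Fin 2) (Fin 2) ℂ) *
            ((g⁻¹ : GL (Fin 2) ℂ) : Matrix (Fin 2) (Fin 2) ℂ) = 1 := by
            rw [← Units.val_mul, mul_inv_cancel, Units.val_one]
          have h14 := congrArg (fun A => A * ((g⁻¹ : GL (Fin 2) ℂ) :
            Matrix (Fin 2) (Fin 2) ℂ)) h12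
          simp only [Matrix.mul_assoc, h13, Matrix.mul_one, Matrix.smul_mul, Matrix.one_mul] at h14
          exact h14
        have h8 : (g : Matrix (Fin 2) (Fin 2) ℂ).det ≠ 0 := g.det_ne_zero
        rw [h7, h11, Matrix.smul_mul, Matrix.mul_smul, Matrix.mul_smul, smul_smul,
          inv_mul_cancel₀ h8, one_smul, Matrix.mul_assoc]
      rw [e3, Matrix.map_mul, Matrix.map_mul, Matrix.map_mul, Matrix.map_mul, e4, hε, hm.mat_map,
        hm.inv.mat_map]
      set G := (g : Matrix (Fin 2) (Fin 2) ℂ)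
      set G' := ((g⁻¹ : GL (Fin 2) ℂ) : Matrix (Fin 2) (Fin 2) ℂ)
      set A := (H.rep j).1.map Oe.subtype
      set B := ((H.rep j').1.adjugate).map Oe.subtype
      have h15 : G' * (G * A * G' * (G * B * G')) * G = A * B := by
        calc G' * (G * A * G' * (G * B * G')) * G
            = (G' * G) * A * (G' * G) * B * (G' * G) := by simp only [Matrix.mul_assoc]
          _ = A * B := by rw [hgg]; simp
      rw [Matrix.smul_mul, Matrix.mul_smul, Matrix.smul_mul, h15, smul_smul, sq]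
    intro r s
    have e5 := congrFun (congrFun e2 r) s
    rw [e1, Matrix.mul_smul, Matrix.smul_mul, Matrix.smul_apply, Matrix.smul_apply, smul_eq_mul,
      smul_eq_mul] at e5
    have e6 := congrArg H.rd e5
    rw [map_mul, map_mul, H.rd_eq_zero.2 dvd_rfl, zero_mul, map_pow, map_natCast] at e6
    refine (mul_eq_zero.1 e6).resolve_left (pow_ne_zero 2 ?_)
    intro h0
    apply H.N_ne_zero
    obtain ⟨k, hk⟩ := hN
    rw [hk]
    push_cast
    rw [h0]
    ring
  have hbij : Function.Bijective (fun j => (p j).2) := Finite.injective_iff_bijective.mp hinj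
  rw [← hk (g • w)]
  simp_rw [h1]
  exact Function.Bijective.sum_comp hbij
    (fun j => φ ((H.down hN1).S ((H.down hN1).rep j) (g • w)))

end Fermat.Agent.LT.Th
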