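import Fermat.Agent.LT.Th.Main
import Fermat.Agent.LT.Th.Inp1
import Fermat.Agent.LT.Th.Inp3
import Fermat.Agent.LT.RS.Plane

set_option autoImplicit false

/-!
# From the classical form on `H3` to a cusp form of weight one
-/

namespace Fermat.Agent.LT.Th

open Matrix ComplexConjugate MeasureTheory Complex HM Set UpperHalfPlane NumberField
open scoped Real MatrixGroups ENNReal NNReal
open Fermat.Agent.LT.FA Fermat.Agent.LT.Asai Fermat.Agent.LT.RS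

variable {K : Type*} [Field K] [NumberField K] [IsCyclotomicExtension {3} ℚ K]

/-- **The Hecke relations on functions** (primes `ϖ ≡ 1 mod N` of prime norm). -/
def HeckeFun (i : K →+* ℂ) (N : ℕ) (φ : H3 → ℂ) (lam : 𝓞 K → ℝ) : Prop :=
  ∀ (ϖ : 𝓞 K) (h0 : i (ϖ : K) ≠ 0) (l : ℕ), Prime ϖ → l.Prime → ‖i (ϖ : K)‖ ^ 2 = l →
    (N : 𝓞 K) ∣ ϖ - 1 → ∀ (z : ℂ) (y : ℝ) (hy : 0 < y),
      (∑ b ∈ Finset.range l, φ ⟨(z - N * b) / i (ϖ : K), y / ‖i (ϖ : K)‖,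
        div_pos hy (norm_pos_iff.mpr h0)⟩) +
      φ ⟨i (ϖ : K) * z, ‖i (ϖ : K)‖ * y, mul_pos (norm_pos_iff.mpr h0) hy⟩ =
        ((√(l : ℝ) * lam ϖ : ℝ) : ℂ) * φ ⟨z, y, hy⟩

theorem Gam_le {N N' : ℕ} (h : N ∣ N') : Gam N' ≤ Gam N :=
  fun _ hg i j => (Nat.cast_dvd_cast h).trans (hg i j)

theorem s3_ne : s3 ≠ 0 := by
  intro h
  have := s3_sq
  rw [h, mul_zero] at this
  norm_num at this

theorem inv_s3 : (3 : ℂ) / s3 = -s3 := by
  rw [div_eq_iff s3_ne]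
  linear_combination s3_sq

/-- the matrix carrying the plane `Re z = 0` to the plane `z = al x + be` -/
noncomputable def gPl (i : K →+* ℂ) (al be : K) (hal : al ≠ 0) : GL (Fin 2) ℂ :=
  Matrix.GeneralLinearGroup.mkOfDetNeZero !![i al / s3, i be; 0, 1] (by
    rw [Matrix.det_fin_two_of, mul_one, mul_zero, sub_zero]
    exact div_ne_zero ((map_ne_zero i).mpr hal) s3_ne)

theorem gPl_coe (i : K →+* ℂ) (al be : K) (hal : al ≠ 0) :
    (gPl i al be hal : Matrix (Fin 2) (Fin 2) ℂ) = !![i al / s3, i be; 0, 1] := rfl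

theorem gPl_inv_coe (i : K →+* ℂ) (al be : K) (hal : al ≠ 0) :
    (((gPl i al be hal)⁻¹ : GL (Fin 2) ℂ) : Matrix (Fin 2) (Fin 2) ℂ) =
      !![s3 / i al, -(s3 * i (be * al⁻¹)); 0, 1] := by
  have h1 : i al ≠ 0 := (map_ne_zero i).mpr hal
  have hm : (gPl i al be hal : Matrix (Fin 2) (Fin 2) ℂ) *
      !![s3 / i al, -(s3 * i (be * al⁻¹)); 0, 1] = 1 := by
    rw [gPl_coe]
    have hs := s3_ne
    ext r s
    fin_cases r <;> fin_cases s
    · simp [Matrix.mul_apply, Fin.sum_univ_two]; field_simp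
    · simp [Matrix.mul_apply, Fin.sum_univ_two]; field_simp; ring
    · simp [Matrix.mul_apply, Fin.sum_univ_two]
    · simp [Matrix.mul_apply, Fin.sum_univ_two]
  have h2 : ((gPl i al be hal)⁻¹ : GL (Fin 2) ℂ) * (gPl i al be hal) = 1 := inv_mul_cancel _
  have h3 := congrArg (Units.val) h2
  rw [Units.val_mul, Units.val_one] at h3
  calc (((gPl i al be hal)⁻¹ : GL (Fin 2) ℂ) : Matrix (Fin 2) (Fin 2) ℂ)
      = (((gPl i al be hal)⁻¹ : GL (Fin 2) ℂ) : Matrix (Fin 2) (Fin 2) ℂ) *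
          ((gPl i al be hal : Matrix (Fin 2) (Fin 2) ℂ) *
            !![s3 / i al, -(s3 * i (be * al⁻¹)); 0, 1]) := by rw [hm, Matrix.mul_one]
    _ = _ := by rw [← Matrix.mul_assoc, h3, Matrix.one_mul]

/-- the matrix is commensurable to the integral ones -/
theorem cm_gPl (i : K →+* ℂ) {al be : K} (hal : al ≠ 0) {m0 : ℕ} (hD : Den m0 al be) :
    Cm (3 * m0) (gPl i al be hal) := by
  have h1 : i al ≠ 0 := (map_ne_zero i).mpr hal
  have hO : ∀ {x : K}, (∃ y : 𝓞 K, (algebraMap (𝓞 K) K) y = m0 * x) → (m0 : ℂ) * i x ∈ Oe := by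
    rintro x ⟨y, hy⟩
    have : (m0 : ℂ) * i x = io i y := by
      change _ = i ((algebraMap (𝓞 K) K) y)
      rw [hy, map_mul, map_natCast]
    rw [this]
    exact io_mem i y
  have h3 : ((3 : ℕ) : ℂ) ∈ Oe := natCast_mem Oe 3
  refine ⟨?_, ?_, ?_⟩
  · have := hD.pos
    omega
  · intro r s
    fin_cases r <;> fin_cases s
    · change ((3 * m0 : ℕ) : ℂ) * (i al / s3) ∈ Oe
      have : ((3 * m0 : ℕ) : ℂ) * (i al / s3) = -s3 * ((m0 : ℂ) * i al) := by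
        rw [← inv_s3]; push_cast; ring
      rw [this]
      exact Oe.mul_mem (Oe.neg_mem s3_mem) (hO hD.h1)
    · change ((3 * m0 : ℕ) : ℂ) * (i be) ∈ Oe
      have : ((3 * m0 : ℕ) : ℂ) * (i be) = ((3 : ℕ) : ℂ) * ((m0 : ℂ) * i be) := by
        push_cast; ring
      rw [this]
      exact Oe.mul_mem h3 (hO hD.h3)
    · change ((3 * m0 : ℕ) : ℂ) * 0 ∈ Oe
      rw [mul_zero]; exact Oe.zero_mem
    · change ((3 * m0 : ℕ) : ℂ) * 1 ∈ Oe
      rw [mul_one]; exact natCast_mem Oe _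
  · intro r s
    have e := gPl_inv_coe i al be hal
    have e' : ∀ r s, ((gPl i al be hal)⁻¹ : GL (Fin 2) ℂ) r s =
      (!![s3 / i al, -(s3 * i (be * al⁻¹)); 0, 1] : Matrix (Fin 2) (Fin 2) ℂ) r s :=
      fun r s => congrFun (congrFun e r) s
    rw [e']
    fin_cases r <;> fin_cases s
    · change ((3 * m0 : ℕ) : ℂ) * (s3 / i al) ∈ Oe
      have : ((3 * m0 : ℕ) : ℂ) * (s3 / i al) = ((3 : ℕ) : ℂ) * s3 * ((m0 : ℂ) * i al⁻¹) := by
        rw [map_inv₀]; push_cast; ring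
      rw [this]
      exact Oe.mul_mem (Oe.mul_mem h3 s3_mem) (hO hD.h2)
    · change ((3 * m0 : ℕ) : ℂ) * (-(s3 * i (be * al⁻¹))) ∈ Oe
      have : ((3 * m0 : ℕ) : ℂ) * (-(s3 * i (be * al⁻¹))) =
          -(((3 : ℕ) : ℂ) * s3 * ((m0 : ℂ) * i (be * al⁻¹))) := by
        push_cast; ring
      rw [this]
      exact Oe.neg_mem (Oe.mul_mem (Oe.mul_mem h3 s3_mem) (hO hD.h4))
    · change ((3 * m0 : ℕ) : ℂ) * 0 ∈ Oe
      rw [mul_zero]; exact Oe.zero_mem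
    · change ((3 * m0 : ℕ) : ℂ) * 1 ∈ Oe
      rw [mul_one]; exact natCast_mem Oe _

/-- the plane -/
theorem gPl_smul_wp (i : K →+* ℂ) (φ : H3 → ℂ) {al be : K} (hal : al ≠ 0) (τ : ℍ) :
    φ (gPl i al be hal • wp τ 0) = plane i φ al be hal τ := by
  have h10 : (gPl i al be hal) 1 0 = 0 := rfl
  have h00 : (gPl i al be hal) 0 0 = i al / s3 := rfl
  have h01 : (gPl i al be hal) 0 1 = i be := rfl
  have h11 : (gPl i al be hal) 1 1 = 1 := rfl
  have hz : (wp τ 0).z = s3 * τ.re := by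
    have e1 : (wp τ 0).z = ⟨-(√3 * τ.im / √(1 + 0 ^ 2) * 0), √3 * τ.re⟩ := rfl
    rw [e1]
    apply Complex.ext
    · simp [s3]
    · simp [s3]
  have hy : (wp τ 0).y = √3 * τ.im := by
    have e1 : (wp τ 0).y = √3 * τ.im / √(1 + 0 ^ 2) := rfl
    rw [e1]
    simp
  have hs3 : ‖s3‖ = √3 := by
    rw [Complex.norm_def, Complex.normSq_apply]
    simp [s3]
  rw [plane]
  congr 1
  apply H3.ext
  · rw [H3.smul_z_of_upper h10, h00, h01, h11, hz]
    have := s3_ne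
    field_simp
  · rw [H3.smul_y_of_upper h10, h00, h11, hy, div_one, norm_div, hs3]
    have : √3 ≠ 0 := by positivity
    field_simp

/-- the element `x + y ω` of `𝓞 K` in `Oe` -/
theorem normSq_xy (i : K →+* ℂ) (x y : ℤ) :
    normSq (io i (x + y * wK K)) = ((x ^ 2 - x * y + y ^ 2 : ℤ) : ℝ) := by
  rw [io_add, io_mul, io_intCast, io_intCast]
  rcases io_wK i with h | h
  · rw [h, normSq_Oe]
  · have e : (x : ℂ) + y * (-1 - om) = ((x - y : ℤ) : ℂ) + ((-y : ℤ) : ℂ) * om := by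
      push_cast; ring
    rw [h, e, normSq_Oe]
    congr 1
    ring

/-- the Hecke data of `x + y ω` -/
noncomputable def hkOf (i : K →+* ℂ) {N l : ℕ} (hl : l.Prime) (hl3 : l ≠ 3) {x y : ℤ}
    (hxy : x ^ 2 - x * y + y ^ 2 = l) (hx : (N : ℤ) ∣ x - 1) (hy : (N : ℤ) ∣ y) : HkData N l where
  ϖ := ioE i (x + y * wK K)
  prime := hl
  norm := by
    apply Subtype.ext
    have h1 : (((ioE i (x + y * wK K) * cOe (ioE i (x + y * wK K)) : Oe)) : ℂ) =
        io i (x + y * wK K) * conj (io i (x + y * wK K)) := rfl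
    rw [h1, Complex.mul_conj, normSq_xy, hxy]
    push_cast
    rfl
  cong := by
    obtain ⟨u, hu⟩ := hx
    obtain ⟨v, hv⟩ := hy
    have hx' : x = 1 + N * u := by linarith
    refine ⟨ioE i (u + v * wK K), ?_⟩
    rw [hx', hv]
    simp only [map_add, map_mul, map_intCast, map_natCast, map_one, Int.cast_add, Int.cast_mul,
      Int.cast_one, Int.cast_natCast]
    ring
  ne3 := hl3

theorem HkData.prime_ϖ {N l : ℕ} (H : HkData N l) : Prime H.ϖ := by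
  have : Fact l.Prime := ⟨H.prime⟩
  have h0 : H.rd H.ϖ = 0 := H.rd_eq_zero.2 dvd_rfl
  refine ⟨H.ϖ_ne_zero, fun hu => ?_, fun a b hab => ?_⟩
  · have h1 := hu.map H.rd
    rw [h0] at h1
    exact not_isUnit_zero h1
  · rw [← H.rd_eq_zero, map_mul] at hab
    rcases mul_eq_zero.1 hab with h | h
    · exact Or.inl (H.rd_eq_zero.1 h)
    · exact Or.inr (H.rd_eq_zero.1 h)

/-- **T6: from the classical form with a period to a cusp form of weight one.** -/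
theorem t6_main {i : K →+* ℂ} {N : ℕ} {φ : H3 → ℂ} {a : K → ℂ} {κ : 𝓞 K → ℂ} {lam : 𝓞 K → ℝ}
    {B : ℝ → ℝ} (F : KForm i N φ a κ lam B) (hc : Continuous φ) (hm : Harm.Mean φ)
    (hper : HasPeriod i φ) (hfun : HeckeFun i N φ lam) :
    ∃ (M : ℕ) (_ : NeZero M) (f : CuspForm (CongruenceSubgroup.Gamma1 M) 1) (N' B : ℕ), f ≠ 0 ∧
      0 < N' ∧ ∀ ℓ : ℕ, ℓ.Prime → B < ℓ → (ℓ : ZMod M) = 1 → ∀ x y : ℤ,
        x ^ 2 - x * y + y ^ 2 = ℓ → (N' : ℤ) ∣ x - 1 → (N' : ℤ) ∣ y → ∀ n : ℕ,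
        ModularFormClass.qCoeff f (ℓ * n) +
          (if ℓ ∣ n then ModularFormClass.qCoeff f (n / ℓ) else 0) =
            ((lam (x + y * wK K) : ℝ) : ℂ) * ModularFormClass.qCoeff f n := by
  obtain ⟨al, be, hal, M0, hM0, -, -, -, hw⟩ := hper
  obtain ⟨m0, hm0⟩ := exists_den (ι := Unit) al (fun _ => be)
  have hD : Den m0 al be := (hm0 ()).resolve_right (by simp)
  set g := gPl i al be hal with hg
  set m := 3 * m0 with hmdef
  have hcm : Cm m g := cm_gPl i hal hD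
  have hN := F.pos
  set N1 : ℕ := 3 * (N * m ^ 2 * M0) with hN1
  have hm1 : m ≠ 0 := hcm.ne
  have hN1' : N1 ≠ 0 := by
    have : 0 < m := Nat.pos_of_ne_zero hm1
    have : 0 < N1 := by rw [hN1]; positivity
    omega
  have h3 : 3 ∣ N1 := Dvd.intro _ rfl
  have hNm : N * m ^ 2 ∣ N1 := ⟨3 * M0, by rw [hN1]; ring⟩
  have hNm4 : N * m ^ 2 ∣ 4 * N1 := hNm.mul_left 4
  have hNN1 : N ∣ 4 * N1 := (Dvd.intro _ rfl).trans hNm4
  have hM4 : M0 ∣ 4 * N1 := ⟨4 * (3 * (N * m ^ 2)), by rw [hN1]; ring⟩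
  -- the translate
  have hinv0 : ∀ x ∈ Gam N, ∀ w : H3, φ (x • w) = φ w := inv_Gam i F.inv
  have hinvm := hcm.inv_Gam hinv0
  have hinv1 : ∀ x ∈ Gam N1, ∀ w : H3, φ (g • x • w) = φ (g • w) :=
    fun x hx w => hinvm x (Gam_le hNm hx) w
  have hinv4 : ∀ x ∈ Gam (4 * N1), ∀ w : H3, φ (g • x • w) = φ (g • w) :=
    fun x hx w => hinvm x (Gam_le hNm4 hx) w
  have hIn : Input (4 * N1) (fun w => φ (g • w)) := by
    refine ⟨hc.comp (H3.continuous_smul_H3 g), hinv4, ?_, ?_⟩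
    · obtain ⟨C, hC⟩ := hcm.decay (decay_Oe i F.decay)
      exact ⟨C, fun s w _ _ => hC s w⟩
    · intro k hk hks w
      exact mean_smul g (fun w => hm k hk hks w) w
  obtain ⟨f, hf, hT⟩ := exists_lift h3 hN1' hIn hinv1 hM4 (by
    intro w hw1
    simp only [hg, gPl_smul_wp]
    exact hw w hw1)
  refine ⟨3 * (4 * N1) ^ 2, ⟨by positivity⟩, f, 4 * N1, 3, hf, by omega, ?_⟩
  intro ℓ hℓ hB _ x y hxy hx hy n
  have hl3 : ℓ ≠ 3 := by omega
  set H := hkOf i hℓ hl3 hxy hx hy with hH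
  refine hT ℓ H _ ?_ n
  -- the Hecke relation
  set ϖ : 𝓞 K := x + y * wK K with hϖ
  have hϖH : (H.ϖ : ℂ) = i (ϖ : K) := rfl
  have h0 : i (ϖ : K) ≠ 0 := by
    rw [← hϖH]
    exact H.ϖC_ne_zero
  have hnorm : ‖i (ϖ : K)‖ = √(ℓ : ℝ) := by rw [← hϖH, H.norm_ϖ]
  have hprime : Prime ϖ := (MulEquiv.prime_iff (ioE i)).1 H.prime_ϖ
  have hcong : (N : 𝓞 K) ∣ ϖ - 1 := by
    have hNZ : (N : ℤ) ∣ ((4 * N1 : ℕ) : ℤ) := by exact_mod_cast hNN1
    obtain ⟨u, hu⟩ := hNZ.trans hx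
    obtain ⟨v, hv⟩ := hNZ.trans hy
    refine ⟨u + v * wK K, ?_⟩
    have hx' : x = 1 + N * u := by linarith
    rw [hϖ, hx', hv]
    push_cast
    ring
  have hk : ∀ w, ∑ j, φ ((H.down hNN1).S ((H.down hNN1).rep j) w) =
      (√(ℓ : ℝ) * ((lam ϖ : ℝ) : ℂ)) * φ w := by
    intro w
    have h5 := hfun ϖ h0 ℓ hprime hℓ (by rw [hnorm]; exact Real.sq_sqrt (Nat.cast_nonneg _)) hcong
      w.z w.y w.pos
    rw [Fintype.sum_option]
    have e1 : (H.down hNN1).S ((H.down hNN1).rep none) w =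
        ⟨i (ϖ : K) * w.z, ‖i (ϖ : K)‖ * w.y, mul_pos (norm_pos_iff.mpr h0) w.pos⟩ := by
      apply H3.ext
      · rw [HkData.S_none_z]; rfl
      · rw [HkData.S_none_y]
        change _ = ‖i (ϖ : K)‖ * w.y
        rw [hnorm]
    have e2 : ∀ b : Fin ℓ, (H.down hNN1).S ((H.down hNN1).rep (some b)) w =
        ⟨(w.z - N * (b : ℕ)) / i (ϖ : K), w.y / ‖i (ϖ : K)‖,
          div_pos w.pos (norm_pos_iff.mpr h0)⟩ := by
      intro b
      apply H3.ext
      · rw [HkData.S_some_z]; rfl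
      · rw [HkData.S_some_y]
        change _ = w.y / ‖i (ϖ : K)‖
        rw [hnorm]
    rw [e1]
    simp only [e2]
    rw [Finset.sum_range] at h5
    rw [add_comm, h5]
    push_cast
    rfl
  intro w
  exact hcm.hecke hNm4 H hNN1 hinv0 hk w

end Fermat.Agent.LT.Th
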