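import Fermat.Agent.LT.Th.Wt
import Fermat.Agent.LT.Poisson

set_option autoImplicit false

/-!
# Bounds for sums over lattices of Hermitian matrices
-/

namespace Fermat.Agent.LT.Th

open Matrix ComplexConjugate MeasureTheory Complex HM Set
open scoped Real MatrixGroups ENNReal NNReal
open Fermat.Agent.LT.FA

/-- a norm on `HM` -/
def nm (X : HM) : ℝ := X.1 ^ 2 + X.2.1 ^ 2 + normSq X.2.2

theorem nm_smul (c : ℝ) (X : HM) : nm (c • X) = c ^ 2 * nm X := by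
  simp only [nm, Prod.smul_fst, Prod.smul_snd, Complex.real_smul, smul_eq_mul, map_mul,
    Complex.normSq_ofReal]
  ring

/-- the majorant on the Siegel set -/
theorem nm_le {w : H3} (hw : w ∈ SS) (X : HM) : nm X ≤ 2000 * w.y ^ 2 * Q w X := by
  obtain ⟨hz, hy⟩ := hw
  have hy0 := w.pos
  set a := X.1 with ha
  set d := X.2.1 with hd
  set b := X.2.2 with hb
  set s : ℝ := -2 * (b * conj w.z).re + d * normSq w.z with hs
  have hz2 : normSq w.z ≤ 1 := by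
    rw [← Complex.sq_norm]; nlinarith [norm_nonneg w.z]
  have hz0 := Complex.normSq_nonneg w.z
  set Q1 := normSq (b - d * w.z) with hQ1
  have hQ1n : 0 ≤ Q1 := Complex.normSq_nonneg _
  have hQ : Q w X = Q1 + (a + s) ^ 2 / (2 * w.y ^ 2) + d ^ 2 * w.y ^ 2 / 2 := by
    rw [Q_eq, hQ1, hs, ha, hd, hb]
    congr 3
    ring
  have hQ' : w.y ^ 2 * Q w X = w.y ^ 2 * Q1 + (a + s) ^ 2 / 2 + d ^ 2 * (w.y ^ 2) ^ 2 / 2 := by
    rw [hQ]; field_simp
  have hy2 : 1 / 4 ≤ w.y ^ 2 := by nlinarith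
  have hy4 : 1 / 16 ≤ (w.y ^ 2) ^ 2 := by nlinarith
  -- |b|²
  have hbb : normSq b ≤ 2 * Q1 + 2 * d ^ 2 := by
    have h1 : normSq b ≤ 2 * normSq (b - d * w.z) + 2 * normSq ((d : ℂ) * w.z) := by
      simp only [Complex.normSq_apply, Complex.sub_re, Complex.sub_im]
      nlinarith [sq_nonneg (b.re - 2 * ((d : ℂ) * w.z).re), sq_nonneg (b.im - 2 * ((d : ℂ) * w.z).im)]
    have h2 : normSq ((d : ℂ) * w.z) ≤ d ^ 2 := by
      rw [map_mul, Complex.normSq_ofReal]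
      have := mul_le_mul_of_nonneg_left hz2 (mul_self_nonneg d)
      linarith
    linarith
  -- s²
  have hss : s ^ 2 ≤ 8 * normSq b + 2 * d ^ 2 := by
    have h1 : (b * conj w.z).re ^ 2 ≤ normSq b := by
      have h2 : (b * conj w.z).re ^ 2 ≤ normSq (b * conj w.z) := by
        rw [Complex.normSq_apply]
        have := mul_self_nonneg (b * conj w.z).im
        linarith
      rw [map_mul, Complex.normSq_conj] at h2
      have h3 := mul_le_mul_of_nonneg_left hz2 (Complex.normSq_nonneg b)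
      linarith
    have h2 : (d * normSq w.z) ^ 2 ≤ d ^ 2 := by
      have h3 : normSq w.z ^ 2 ≤ 1 := by nlinarith
      rw [mul_pow]
      have := mul_le_mul_of_nonneg_left h3 (sq_nonneg d)
      linarith
    have h3 : s ^ 2 ≤ 2 * (2 * (b * conj w.z).re) ^ 2 + 2 * (d * normSq w.z) ^ 2 := by
      have h4 : s = -(2 * (b * conj w.z).re) + d * normSq w.z := by rw [hs]; ring
      rw [h4]
      have := sq_nonneg (2 * (b * conj w.z).re + d * normSq w.z)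
      linarith [add_sq (-(2 * (b * conj w.z).re)) (d * normSq w.z),
        add_sq (2 * (b * conj w.z).re) (d * normSq w.z)]
    have h5 : (2 * (b * conj w.z).re) ^ 2 = 4 * (b * conj w.z).re ^ 2 := by ring
    rw [h5] at h3
    linarith
  have haa : a ^ 2 ≤ 2 * (a + s) ^ 2 + 2 * s ^ 2 := by
    have := sq_nonneg (a + 2 * s)
    nlinarith
  have hdd : d ^ 2 ≤ 16 * (d ^ 2 * (w.y ^ 2) ^ 2) := by
    have := mul_le_mul_of_nonneg_left hy4 (sq_nonneg d)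
    linarith
  have hQ1' : Q1 ≤ 4 * (w.y ^ 2 * Q1) := by
    have := mul_le_mul_of_nonneg_right hy2 hQ1n
    linarith
  have hfin : nm X = a ^ 2 + d ^ 2 + normSq b := rfl
  have hT1 : 0 ≤ w.y ^ 2 * Q1 := by positivity
  have hT2 : 0 ≤ (a + s) ^ 2 := sq_nonneg _
  have hT3 : 0 ≤ d ^ 2 * (w.y ^ 2) ^ 2 := by positivity
  rw [hfin, mul_assoc, hQ']
  linarith

theorem nm_lp (k : Fin 4 → ℤ) : ((k 0 : ℝ) ^ 2 + (k 1 : ℝ) ^ 2 + (k 2 : ℝ) ^ 2 + (k 3 : ℝ) ^ 2) / 2 ≤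
    nm (lp 0 k) := by
  rw [lp_zero, nm]
  simp only
  rw [normSq_Oe]
  push_cast
  nlinarith [sq_nonneg ((k 2 : ℝ) - k 3), sq_nonneg (k 0 : ℝ), sq_nonneg (k 1 : ℝ)]

/-- decay of the norm form -/
theorem pwt_ge {k : Fin 4 → ℤ} (hk : k ≠ 0) :
    (1 / (4 * nm (lp 0 k))) ^ 4 ≤ pwt (fun i => (k i : ℝ)) := by
  have h1 := nm_lp k
  set s := (k 0 : ℝ) ^ 2 + (k 1 : ℝ) ^ 2 + (k 2 : ℝ) ^ 2 + (k 3 : ℝ) ^ 2 with hs
  have h2 : 1 ≤ s := by
    obtain ⟨i, hi⟩ : ∃ i, k i ≠ 0 := by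
      by_contra hcon
      push Not at hcon
      exact hk (funext hcon)
    have h3 : (1 : ℝ) ≤ (k i : ℝ) ^ 2 := by
      have : (1 : ℤ) ≤ (k i) ^ 2 := by
        have := sq_pos_of_ne_zero hi
        omega
      exact_mod_cast this
    have h0 := sq_nonneg (k 0 : ℝ)
    have h1 := sq_nonneg (k 1 : ℝ)
    have h2 := sq_nonneg (k 2 : ℝ)
    have h4 := sq_nonneg (k 3 : ℝ)
    fin_cases i
    · have h5 : (1 : ℝ) ≤ (k 0 : ℝ) ^ 2 := h3
      linarith
    · have h5 : (1 : ℝ) ≤ (k 1 : ℝ) ^ 2 := h3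
      linarith
    · have h5 : (1 : ℝ) ≤ (k 2 : ℝ) ^ 2 := h3
      linarith
    · have h5 : (1 : ℝ) ≤ (k 3 : ℝ) ^ 2 := h3
      linarith
  have h3 : 1 + s ≤ 4 * nm (lp 0 k) := by linarith
  have h4 : pwt (fun i => (k i : ℝ)) = ((1 + (k 0 : ℝ) ^ 2) * (1 + (k 1 : ℝ) ^ 2) *
      (1 + (k 2 : ℝ) ^ 2) * (1 + (k 3 : ℝ) ^ 2))⁻¹ := by
    rw [pwt, Fin.prod_univ_four]
    simp only [mul_inv]
  rw [h4, one_div, inv_pow]
  apply inv_anti₀ (by positivity)
  have hs1 : ∀ i, 1 + (k i : ℝ) ^ 2 ≤ 1 + s := by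
    intro i
    have h0 := sq_nonneg (k 0 : ℝ)
    have h1 := sq_nonneg (k 1 : ℝ)
    have h2 := sq_nonneg (k 2 : ℝ)
    have h4 := sq_nonneg (k 3 : ℝ)
    fin_cases i
    · show 1 + (k 0 : ℝ) ^ 2 ≤ 1 + s
      linarith
    · show 1 + (k 1 : ℝ) ^ 2 ≤ 1 + s
      linarith
    · show 1 + (k 2 : ℝ) ^ 2 ≤ 1 + s
      linarith
    · show 1 + (k 3 : ℝ) ^ 2 ≤ 1 + s
      linarith
  calc (1 + (k 0 : ℝ) ^ 2) * (1 + (k 1 : ℝ) ^ 2) * (1 + (k 2 : ℝ) ^ 2) * (1 + (k 3 : ℝ) ^ 2)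
      ≤ (1 + s) * (1 + s) * (1 + s) * (1 + s) := by
        gcongr
        · linarith [hs1 0]
        · linarith [hs1 1]
        · linarith [hs1 2]
        · linarith [hs1 3]
    _ = (1 + s) ^ 4 := by ring
    _ ≤ (4 * nm (lp 0 k)) ^ 4 := by gcongr

theorem exp_neg_le {s : ℝ} (hs : 0 < s) : Real.exp (-s) ≤ 24 / s ^ 4 := by
  rw [Real.exp_neg, le_div_iff₀ (by positivity), inv_mul_le_iff₀ (Real.exp_pos s)]
  have h := Real.pow_div_factorial_le_exp s hs.le 4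
  rw [div_le_iff₀ (by positivity)] at h
  have : ((Nat.factorial 4 : ℕ) : ℝ) = 24 := by norm_num [Nat.factorial]
  rw [this] at h
  exact h

/-- **the basic bound** -/
theorem fine_sum {M : ℕ} (hM : M ≠ 0) : ∃ C : ℝ, 0 ≤ C ∧ ∀ {ι : Type} (X : ι → HM),
    Function.Injective X → (∀ i, (M : ℝ) • X i ∈ Lat) → (∀ i, X i ≠ 0) → ∀ c : ℝ, 0 < c →
    ∀ (g : SL(2, Oe)) (w : H3), w ∈ SS → Summable (fun i => Real.exp (-c * Q (g • w) (X i))) ∧
      ∑' i, Real.exp (-c * Q (g • w) (X i)) ≤ C * w.y ^ 8 / c ^ 4 := by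
  have hM0 : (0 : ℝ) < M := by positivity
  set A : ℝ := 24 * (8000 * (M : ℝ) ^ 2) ^ 4 with hA
  have hsum : Summable (fun k : Fin 4 → ℤ => pwt (fun i => (k i : ℝ))) := summable_pwt
  refine ⟨A * ∑' k : Fin 4 → ℤ, pwt (fun i => (k i : ℝ)), by
    have : 0 ≤ ∑' k : Fin 4 → ℤ, pwt (fun i => (k i : ℝ)) := tsum_nonneg fun k => (pwt_pos _).le
    positivity, ?_⟩
  intro ι X hinj hX hX0 c hc g w hw
  set Y : ι → HM := fun i => actM (toGL g⁻¹) (X i) with hY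
  have hXY : ∀ i, X i = actM (toGL g) (Y i) := fun i => (actM_toGL_inv' g (X i)).symm
  have hYL : ∀ i, ∃ k, lp 0 k = (M : ℝ) • Y i := by
    intro i
    apply exists_lp_zero
    rw [hY]
    simp only
    rw [← actM_smul]
    exact actM_mem_Lat (toGL_mem _) (hX i)
  choose κ hκ using hYL
  have hκinj : Function.Injective κ := by
    intro i i' h
    apply hinj
    have h1 : (M : ℝ) • Y i = (M : ℝ) • Y i' := by rw [← hκ, ← hκ, h]
    have h2 : Y i = Y i' := smul_right_injective HM (r := (M : ℝ)) hM0.ne' h1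
    rw [hXY, hXY i', h2]
  have hκ0 : ∀ i, κ i ≠ 0 := by
    intro i h
    apply hX0 i
    have h1 : (M : ℝ) • Y i = 0 := by
      rw [← hκ, h, lp_zero]
      simp
    have h2 : Y i = 0 := by
      rcases smul_eq_zero.mp h1 with h3 | h3
      · exact absurd h3 hM0.ne'
      · exact h3
    rw [hXY, h2]
    have := actM_smul (toGL g) 0 (0 : HM)
    simpa using this
  have hy0 := w.pos
  have key : ∀ i, Real.exp (-c * Q (g • w) (X i)) ≤
      A * w.y ^ 8 / c ^ 4 * pwt (fun j => (κ i j : ℝ)) := by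
    intro i
    rw [hXY, Q_smul_SL]
    have h1 := nm_le hw (Y i)
    have h2 : nm (lp 0 (κ i)) = (M : ℝ) ^ 2 * nm (Y i) := by rw [hκ, nm_smul]
    have h3 := pwt_ge (hκ0 i)
    have hpos : 0 < nm (lp 0 (κ i)) := by
      have h4 := nm_lp (κ i)
      obtain ⟨j, hj⟩ : ∃ j, κ i j ≠ 0 := by
        by_contra hcon
        push Not at hcon
        exact hκ0 i (funext hcon)
      have h5 : (0 : ℝ) < (κ i j : ℝ) ^ 2 := by positivity
      have h60 := sq_nonneg (κ i 0 : ℝ)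
      have h61 := sq_nonneg (κ i 1 : ℝ)
      have h62 := sq_nonneg (κ i 2 : ℝ)
      have h63 := sq_nonneg (κ i 3 : ℝ)
      fin_cases j
      · have h5 : (0 : ℝ) < (κ i 0 : ℝ) ^ 2 := h5
        linarith
      · have h5 : (0 : ℝ) < (κ i 1 : ℝ) ^ 2 := h5
        linarith
      · have h5 : (0 : ℝ) < (κ i 2 : ℝ) ^ 2 := h5
        linarith
      · have h5 : (0 : ℝ) < (κ i 3 : ℝ) ^ 2 := h5
        linarith
    have hQ : nm (lp 0 (κ i)) / (2000 * (M : ℝ) ^ 2 * w.y ^ 2) ≤ Q w (Y i) := by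
      rw [div_le_iff₀ (by positivity), h2]
      nlinarith [sq_nonneg (M : ℝ)]
    have hs : 0 < c * (nm (lp 0 (κ i)) / (2000 * (M : ℝ) ^ 2 * w.y ^ 2)) := by positivity
    calc Real.exp (-c * Q w (Y i))
        ≤ Real.exp (-(c * (nm (lp 0 (κ i)) / (2000 * (M : ℝ) ^ 2 * w.y ^ 2)))) := by
          apply Real.exp_le_exp.mpr
          have := mul_le_mul_of_nonneg_left hQ hc.le
          linarith
      _ ≤ 24 / (c * (nm (lp 0 (κ i)) / (2000 * (M : ℝ) ^ 2 * w.y ^ 2))) ^ 4 := exp_neg_le hs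
      _ = A * w.y ^ 8 / c ^ 4 * (1 / (4 * nm (lp 0 (κ i)))) ^ 4 := by
          rw [hA]
          field_simp
          ring
      _ ≤ A * w.y ^ 8 / c ^ 4 * pwt (fun j => (κ i j : ℝ)) := by
          gcongr
  have hsk : Summable (fun i => pwt (fun j => (κ i j : ℝ))) := hsum.comp_injective hκinj
  have hle : ∑' i, pwt (fun j => (κ i j : ℝ)) ≤ ∑' k : Fin 4 → ℤ, pwt (fun i => (k i : ℝ)) :=
    tsum_comp_le_tsum_of_inj hsum (fun k => (pwt_pos _).le) hκinj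
  have hS : Summable (fun i => Real.exp (-c * Q (g • w) (X i))) :=
    Summable.of_nonneg_of_le (fun i => (Real.exp_pos _).le) key (hsk.mul_left _)
  refine ⟨hS, ?_⟩
  calc ∑' i, Real.exp (-c * Q (g • w) (X i))
      ≤ ∑' i, A * w.y ^ 8 / c ^ 4 * pwt (fun j => (κ i j : ℝ)) :=
        hS.tsum_le_tsum key (hsk.mul_left _)
    _ = A * w.y ^ 8 / c ^ 4 * ∑' i, pwt (fun j => (κ i j : ℝ)) := tsum_mul_left
    _ ≤ A * w.y ^ 8 / c ^ 4 * ∑' k : Fin 4 → ℤ, pwt (fun i => (k i : ℝ)) := by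
        gcongr
    _ = _ := by ring

end Fermat.Agent.LT.Th
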