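import Fermat.Agent.LT.Th.Bd3

set_option autoImplicit false

/-!
# Bounds for the theta kernel times `φ`; measurability and integrability
-/

namespace Fermat.Agent.LT.Th

open Matrix ComplexConjugate MeasureTheory Complex HM Set
open scoped Real MatrixGroups ENNReal NNReal
open Fermat.Agent.LT.FA

theorem x0_mem : x0 ∈ Lat := ⟨⟨0, by simp [x0]⟩, ⟨0, by simp [x0]⟩, ⟨1, 0, by simp [x0]⟩⟩

theorem Xk_mem (N : ℕ) (k : Fin 4 → ℤ) : Xk N k ∈ Lat := by
  have h : (N : ℝ) • lp 0 k = N • lp 0 k := by rw [← Nat.cast_smul_eq_nsmul ℝ]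
  rw [Xk, h]
  exact Lat.add_mem x0_mem (Lat.nsmul_mem (lp_zero_mem k) N)

theorem Xk_ne {N : ℕ} (hN : 2 ≤ N) (k : Fin 4 → ℤ) : Xk N k ≠ 0 := by
  intro h
  have h1 : (Xk N k).2.2 = 0 := by rw [h]; rfl
  rw [Xk, lp_zero] at h1
  simp only [x0, Prod.snd_add, Prod.smul_snd, Complex.real_smul, Complex.ofReal_natCast] at h1
  have h2 : ((1 + N * k 2 : ℤ) : ℂ) + ((N * k 3 : ℤ) : ℂ) * om = ((0 : ℤ) : ℂ) + ((0 : ℤ) : ℂ) * om := by
    push_cast
    linear_combination h1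
  obtain ⟨h3, -⟩ := add_om_inj h2
  have h4 : (N : ℤ) ∣ 1 := ⟨-k 2, by linarith⟩
  have h5 := Int.le_of_dvd one_pos h4
  omega

/-- integral norms -/
theorem exists_q_Lat {X : HM} (h : X ∈ Lat) : ∃ n : ℤ, q X = n := by
  obtain ⟨⟨a, ha⟩, ⟨d, hd⟩, hb⟩ := mem_Lat.mp h
  obtain ⟨n, hn⟩ := normSq_mem_Oe hb
  exact ⟨n - a * d, by rw [q, ha, hd, hn]; push_cast; ring⟩

/-- a bounding function: `O(1/c)` for `c ≥ 1` -/
structure BdFun (C : ℝ → ℝ) : Prop where
  nonneg : ∀ c, 0 < c → 0 ≤ C c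
  decay : ∃ C1, 0 ≤ C1 ∧ ∀ c, 1 ≤ c → C c ≤ C1 / c

/-- **the bound for sums times `φ`** -/
theorem phi_sum {N M : ℕ} (hM : M ≠ 0) {φ : H3 → ℂ} (hφ : Input N φ) : ∃ C : ℝ → ℝ, BdFun C ∧
    ∀ {ι : Type} (X : ι → HM), Function.Injective X → (∀ i, (M : ℝ) • X i ∈ Lat) →
    (∀ i, X i ≠ 0) → ∀ c : ℝ, 0 < c → ∀ w : H3, Summable (fun i => Real.exp (-c * Q w (X i))) ∧
      ‖φ w‖ * ∑' i, Real.exp (-c * Q w (X i)) ≤ C c := by
  obtain ⟨C0, hC0, ⟨C2, hC2⟩, hb⟩ := fine_sum2 hM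
  obtain ⟨C1, hC1⟩ := hφ.decay
  refine ⟨fun c => |C1| * C0 c, ⟨fun c hc => mul_nonneg (abs_nonneg _) (hC0 c hc),
    |C1| * |C2|, by positivity, fun c hc => ?_⟩, ?_⟩
  · have hc0 : 0 < c := by linarith
    rw [mul_div_assoc]
    apply mul_le_mul_of_nonneg_left _ (abs_nonneg _)
    refine (hC2 c hc).trans ?_
    gcongr
    exact le_abs_self _
  intro ι X h1 h2 h3 c hc w
  obtain ⟨g, w', hw', rfl⟩ := exists_eq_smul_SS w
  obtain ⟨hS, hle⟩ := hb X h1 h2 h3 c hc g w' hw'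
  refine ⟨hS, ?_⟩
  have hy := w'.pos
  have h4 : ‖φ (g • w')‖ ≤ |C1| / w'.y ^ 2 := by
    refine (hC1 g w' hw'.2 hw'.1).trans ?_
    gcongr
    exact le_abs_self _
  calc ‖φ (g • w')‖ * ∑' i, Real.exp (-c * Q (g • w') (X i))
      ≤ (|C1| / w'.y ^ 2) * (C0 c * w'.y ^ 2) := by
        gcongr
    _ = |C1| * C0 c := by field_simp

/-- a bounding function: `O(1/√v)` for `v ≥ 1` -/
structure BdFunV (D : ℝ → ℝ) : Prop where
  nonneg : ∀ v, 0 < v → 0 ≤ D v
  decay : ∃ C1, 0 ≤ C1 ∧ ∀ v, 1 ≤ v → D v ≤ C1 / √v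

/-- **the bound for the kernels times `φ`** -/
theorem phi_kv {N M : ℕ} (hM : M ≠ 0) {φ : H3 → ℂ} (hφ : Input N φ) : ∃ D : ℝ → ℝ, BdFunV D ∧
    ∀ {ι : Type} (X : ι → HM), Function.Injective X → (∀ i, (M : ℝ) • X i ∈ Lat) →
    (∀ i, X i ≠ 0) → ∀ (m : Fin 2) (v : ℝ), 0 < v → ∀ w : H3,
      Summable (fun i => |kv m v w (X i)|) ∧
      ‖φ w‖ * ∑' i, |kv m v w (X i)| ≤ D v := by
  obtain ⟨C, hC, hb⟩ := phi_sum hM hφ
  obtain ⟨C1, hC1, hdec⟩ := hC.decay
  refine ⟨fun v => √v * (5 * C (π * v)), ⟨fun v hv => ?_, 5 * C1, by positivity, fun v hv => ?_⟩, ?_⟩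
  · have := hC.nonneg (π * v) (by positivity)
    positivity
  · have hv0 : 0 < v := by linarith
    have hπ : (1 : ℝ) ≤ π := by linarith [Real.pi_gt_three]
    have h1 : (1 : ℝ) ≤ π * v := by nlinarith
    have h2 := hdec _ h1
    have h3 : C1 / (π * v) ≤ C1 / v := by
      apply div_le_div_of_nonneg_left hC1 hv0
      nlinarith
    have hs : √v * √v = v := Real.mul_self_sqrt hv0.le
    have hsp : 0 < √v := Real.sqrt_pos.mpr hv0
    calc √v * (5 * C (π * v)) ≤ √v * (5 * (C1 / v)) := by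
          gcongr
          exact h2.trans h3
      _ = 5 * C1 / √v := by
          rw [eq_div_iff hsp.ne']
          calc √v * (5 * (C1 / v)) * √v = (√v * √v) * (5 * (C1 / v)) := by ring
            _ = 5 * C1 := by rw [hs]; field_simp
  intro ι X h1 h2 h3 m v hv w
  obtain ⟨hS, hle⟩ := hb X h1 h2 h3 (π * v) (by positivity) w
  have hS' : Summable (fun i => √v * (5 * Real.exp (-(π * v) * Q w (X i)))) :=
    (hS.mul_left 5).mul_left _
  have hS2 : Summable (fun i => |kv m v w (X i)|) :=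
    Summable.of_nonneg_of_le (fun i => abs_nonneg _) (fun i => abs_kv_le m hv w (X i)) hS'
  refine ⟨hS2, ?_⟩
  have h4 : ∑' i, |kv m v w (X i)| ≤ √v * (5 * ∑' i, Real.exp (-(π * v) * Q w (X i))) := by
    rw [← tsum_mul_left, ← tsum_mul_left]
    exact hS2.tsum_le_tsum (fun i => abs_kv_le m hv w (X i)) hS'
  calc ‖φ w‖ * ∑' i, |kv m v w (X i)|
      ≤ ‖φ w‖ * (√v * (5 * ∑' i, Real.exp (-(π * v) * Q w (X i)))) := by gcongr
    _ = √v * (5 * (‖φ w‖ * ∑' i, Real.exp (-(π * v) * Q w (X i)))) := by ring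
    _ ≤ √v * (5 * C (π * v)) := by gcongr

/-- (B0) -/
theorem phi_sum_Xk {N : ℕ} (hN : 2 ≤ N) {φ : H3 → ℂ} (hφ : Input N φ) : ∃ C : ℝ → ℝ, BdFun C ∧
    ∀ c : ℝ, 0 < c → ∀ w : H3, Summable (fun k => Real.exp (-c * Q w (Xk N k))) ∧
      ‖φ w‖ * ∑' k, Real.exp (-c * Q w (Xk N k)) ≤ C c := by
  obtain ⟨C, hC, hb⟩ := phi_sum (M := 1) one_ne_zero hφ
  refine ⟨C, hC, fun c hc w => hb (Xk N) (Xk_injective (by omega)) ?_ (Xk_ne hN) c hc w⟩
  intro k
  rw [Nat.cast_one, one_smul]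
  exact Xk_mem N k

theorem phi_kv_Xk {N : ℕ} (hN : 2 ≤ N) {φ : H3 → ℂ} (hφ : Input N φ) : ∃ D : ℝ → ℝ, BdFunV D ∧
    ∀ (m : Fin 2) (v : ℝ), 0 < v → ∀ w : H3,
      Summable (fun k => |kv m v w (Xk N k)|) ∧
      ‖φ w‖ * ∑' k, |kv m v w (Xk N k)| ≤ D v := by
  obtain ⟨D, hD, hb⟩ := phi_kv (M := 1) one_ne_zero hφ
  refine ⟨D, hD, fun m v hv w => hb (Xk N) (Xk_injective (by omega)) ?_ (Xk_ne hN) m v hv w⟩
  intro k
  rw [Nat.cast_one, one_smul]
  exact Xk_mem N k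

/-! ### measurability -/

theorem continuous_t (X : HM) : Continuous (fun w : H3 => t w X) := by
  unfold t
  have h1 := H3.continuous_z
  have h2 := H3.continuous_y
  refine Continuous.div ?_ (by fun_prop) (fun w => (mul_pos two_pos w.pos).ne')
  have h3 : Continuous fun w : H3 => normSq w.z := Complex.continuous_normSq.comp h1
  have h4 : Continuous fun w : H3 => (X.2.2 * conj w.z).re :=
    Complex.continuous_re.comp (continuous_const.mul (Complex.continuous_conj.comp h1))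
  fun_prop

theorem continuous_Q (X : HM) : Continuous (fun w : H3 => Q w X) := by
  unfold Q
  have := continuous_t X
  fun_prop

theorem continuous_kv (m : Fin 2) (v : ℝ) (X : HM) : Continuous (fun w : H3 => kv m v w X) := by
  unfold kv
  have h1 := continuous_t X
  have h2 := continuous_Q X
  have h3 : Continuous (P m) := by
    unfold P
    split_ifs
    · fun_prop
    · fun_prop
  have h4 : Continuous fun w : H3 => P m (v * t w X ^ 2) := h3.comp (by fun_prop)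
  fun_prop

theorem continuous_ker (m : Fin 2) (τ : UpperHalfPlane) (X : HM) :
    Continuous (fun w : H3 => ker m τ w X) := by
  simp_rw [ker_eq]
  exact (Complex.continuous_ofReal.comp (continuous_kv m τ.im X)).mul continuous_const

theorem measurable_tsum_of_summable {α ι E : Type*} [MeasurableSpace α] [Countable ι]
    [NormedAddCommGroup E] [MeasurableSpace E] [BorelSpace E] [SecondCountableTopology E]
    {F : ι → α → E} (hF : ∀ i, Measurable (F i)) (hs : ∀ a, Summable fun i => F i a) :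
    Measurable fun a => ∑' i, F i a := by
  classical
  refine measurable_of_tendsto_metrizable' (Filter.atTop : Filter (Finset ι))
    (f := fun s a => ∑ i ∈ s, F i a) (fun s => ?_) ?_
  · exact Finset.measurable_fun_sum s fun i _ => hF i
  · rw [tendsto_pi_nhds]
    intro a
    exact (hs a).hasSum

theorem summable_ker_of {ι : Type*} {m : Fin 2} {τ : UpperHalfPlane} {w : H3} {X : ι → HM}
    (h : Summable fun i => |kv m τ.im w (X i)|) : Summable fun i => ker m τ w (X i) := by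
  apply Summable.of_norm
  simp_rw [norm_ker]
  exact h

theorem measurable_TN {N : ℕ} (hN : 2 ≤ N) {φ : H3 → ℂ} (hφ : Input N φ) (m : Fin 2)
    (τ : UpperHalfPlane) : Measurable (TN m N τ) := by
  obtain ⟨C, hC, hb⟩ := phi_kv_Xk hN hφ
  have : TN m N τ = fun w => ∑' k, ker m τ w (Xk N k) := funext fun w => TN_def m N τ w
  rw [this]
  exact measurable_tsum_of_summable (fun k => (continuous_ker m τ _).measurable)
    (fun w => summable_ker_of (hb m τ.im τ.im_pos w).1)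

/-- boundedness of `φ Θ` -/
theorem norm_phi_TN_le {N : ℕ} (hN : 2 ≤ N) {φ : H3 → ℂ} (hφ : Input N φ) : ∃ D : ℝ → ℝ,
    BdFunV D ∧ ∀ (m : Fin 2) (τ : UpperHalfPlane) (w : H3), ‖φ w * TN m N τ w‖ ≤ D τ.im := by
  obtain ⟨C, hC, hb⟩ := phi_kv_Xk hN hφ
  refine ⟨C, hC, fun m τ w => ?_⟩
  obtain ⟨hS, hle⟩ := hb m τ.im τ.im_pos w
  rw [norm_mul, TN_def]
  refine le_trans ?_ hle
  gcongr
  have h2 : Summable fun k => ‖ker m τ w (Xk N k)‖ := by simp_rw [norm_ker]; exact hS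
  refine (norm_tsum_le_tsum_norm h2).trans_eq ?_
  simp_rw [norm_ker]

theorem integrable_phi_TN {N : ℕ} (hN : 2 ≤ N) {φ : H3 → ℂ} (hφ : Input N φ) (ν : Measure H3)
    [IsFiniteMeasure ν] (m : Fin 2) (τ : UpperHalfPlane) :
    Integrable (fun w => φ w * TN m N τ w) ν := by
  obtain ⟨C, hC, hb⟩ := norm_phi_TN_le hN hφ
  refine Integrable.of_bound
    ((hφ.cont.measurable.mul (measurable_TN hN hφ m τ)).aestronglyMeasurable) _
    (Filter.Eventually.of_forall (hb m τ))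

/-- boundedness of `φ` -/
theorem norm_phi_le {N : ℕ} {φ : H3 → ℂ} (hφ : Input N φ) : ∃ C : ℝ, 0 ≤ C ∧
    ∀ w : H3, ‖φ w‖ ≤ C := by
  obtain ⟨C1, hC1⟩ := hφ.decay
  refine ⟨|C1| * 2 ^ 2, by positivity, fun w => ?_⟩
  obtain ⟨g, w', hw', rfl⟩ := exists_eq_smul_SS w
  refine (hC1 g w' hw'.2 hw'.1).trans ?_
  have hy := w'.pos
  have h2 := hw'.2
  rw [div_le_iff₀ (by positivity)]
  have h3 : (1 / 2 : ℝ) ^ 2 ≤ w'.y ^ 2 := by gcongr
  have h4 : (1 : ℝ) ≤ 2 ^ 2 * w'.y ^ 2 := by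
    have := mul_le_mul_of_nonneg_left h3 (show (0 : ℝ) ≤ 2 ^ 2 by positivity)
    norm_num at this ⊢
    linarith
  have h5 := mul_le_mul_of_nonneg_left h4 (abs_nonneg C1)
  have h6 := le_abs_self C1
  linarith

theorem integrable_phi {N : ℕ} {φ : H3 → ℂ} (hφ : Input N φ) (ν : Measure H3)
    [IsFiniteMeasure ν] : Integrable φ ν := by
  obtain ⟨C, hC, hb⟩ := norm_phi_le hφ
  exact Integrable.of_bound hφ.cont.measurable.aestronglyMeasurable _
    (Filter.Eventually.of_forall hb)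

/-- (B1) -/
theorem norm_cf_le {N : ℕ} (hN : 2 ≤ N) {φ : H3 → ℂ} (hφ : Input N φ) (ν : Measure H3)
    [IsFiniteMeasure ν] : ∃ D : ℝ → ℝ, BdFunV D ∧
    ∀ (m : Fin 2) (n : ℤ) (v : ℝ), 0 < v → ‖cf N φ ν m n v‖ ≤ D v := by
  obtain ⟨C, hC, hb⟩ := phi_kv_Xk hN hφ
  obtain ⟨C1, hC1, hdec⟩ := hC.decay
  refine ⟨fun v => C v * ν.real univ, ⟨fun v hv => mul_nonneg (hC.nonneg v hv) measureReal_nonneg,
    C1 * ν.real univ, mul_nonneg hC1 measureReal_nonneg, fun v hv => ?_⟩, fun m n v hv => ?_⟩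
  · have h1 := mul_le_mul_of_nonneg_right (hdec v hv) (measureReal_nonneg (μ := ν) (s := univ))
    refine h1.trans_eq ?_
    ring
  have h1 : ∀ w, ‖φ w * ((∑' k : Sn N n, kv m v w (Xk N k) : ℝ) : ℂ)‖ ≤ C v := by
    intro w
    obtain ⟨hS, hle⟩ := hb m v hv w
    have hS' : Summable (fun k : Sn N n => ‖kv m v w (Xk N k)‖) :=
      hS.comp_injective Subtype.val_injective
    rw [norm_mul, Complex.norm_real]
    calc ‖φ w‖ * ‖∑' k : Sn N n, kv m v w (Xk N k)‖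
        ≤ ‖φ w‖ * ∑' k : Sn N n, ‖kv m v w (Xk N k)‖ := by
          gcongr
          exact norm_tsum_le_tsum_norm hS'
      _ ≤ ‖φ w‖ * ∑' k, |kv m v w (Xk N k)| := by
          gcongr
          exact tsum_comp_le_tsum_of_inj hS (fun _ => abs_nonneg _) Subtype.val_injective
      _ ≤ C v := hle
  exact norm_integral_le_of_norm_le_const (Filter.Eventually.of_forall h1)

end Fermat.Agent.LT.Th
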