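import Fermat.Agent.LT.Th.Bd

set_option autoImplicit false

/-!
# Refined bounds for sums over lattices of Hermitian matrices
-/

namespace Fermat.Agent.LT.Th

open Matrix ComplexConjugate MeasureTheory Complex HM Set
open scoped Real MatrixGroups ENNReal NNReal

/-- `∑ 1 / p²` -/
noncomputable def zS : ℝ := ∑' p : ℤ, 1 / (p : ℝ) ^ 2

theorem summable_zS : Summable (fun p : ℤ => 1 / (p : ℝ) ^ 2) :=
  (Real.summable_one_div_int_pow (p := 2)).mpr one_lt_two

theorem zS_nonneg : 0 ≤ zS := tsum_nonneg fun p => by positivity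

theorem shift_bound {T θ : ℝ} (hT : 0 < T) (hθ : |θ| ≤ 1 / 2) (p : ℤ) :
    T / (T + (p + θ) ^ 2) ≤ (if p = 0 then (1 : ℝ) else 0) + 4 * T * (1 / (p : ℝ) ^ 2) := by
  by_cases hp : p = 0
  · subst hp
    simp only [if_true, Int.cast_zero]
    have h1 : T / (T + (0 + θ) ^ 2) ≤ 1 := by
      rw [div_le_one (by positivity)]
      have := sq_nonneg (0 + θ)
      linarith
    have h2 : (0 : ℝ) ≤ 4 * T * (1 / 0 ^ 2) := by positivity
    linarith
  · rw [if_neg hp, zero_add]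
    have h1 : (1 : ℝ) ≤ |(p : ℝ)| := by
      have := Int.one_le_abs hp
      exact_mod_cast this
    have h2 : |(p : ℝ)| / 2 ≤ |(p : ℝ) + θ| := by
      have := abs_sub_abs_le_abs_sub (p : ℝ) (-θ)
      rw [abs_neg, sub_neg_eq_add] at this
      linarith
    have h3 : (p : ℝ) ^ 2 / 4 ≤ (p + θ) ^ 2 := by
      have h4 := pow_le_pow_left₀ (by positivity) h2 2
      rw [div_pow, sq_abs, sq_abs] at h4
      linarith
    have h5 : 0 < (p : ℝ) ^ 2 := by positivity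
    calc T / (T + (p + θ) ^ 2) ≤ T / ((p : ℝ) ^ 2 / 4) := by
          apply div_le_div_of_nonneg_left hT.le (by positivity)
          linarith
      _ = 4 * T * (1 / (p : ℝ) ^ 2) := by field_simp

theorem shift_sum {T : ℝ} (hT : 0 < T) (θ : ℝ) :
    Summable (fun p : ℤ => T / (T + (p + θ) ^ 2)) ∧
      ∑' p : ℤ, T / (T + (p + θ) ^ 2) ≤ 1 + 4 * T * zS := by
  have hθ : |θ - round θ| ≤ 1 / 2 := abs_sub_round θ
  have hu : HasSum (fun p : ℤ => (if p = 0 then (1 : ℝ) else 0) + 4 * T * (1 / (p : ℝ) ^ 2))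
      (1 + 4 * T * zS) := by
    apply HasSum.add
    · exact hasSum_ite_eq 0 1
    · exact summable_zS.hasSum.mul_left _
  have h1 : Summable (fun p : ℤ => T / (T + (p + (θ - round θ)) ^ 2)) :=
    Summable.of_nonneg_of_le (fun p => by positivity) (shift_bound hT hθ) hu.summable
  have h2 : ∑' p : ℤ, T / (T + (p + (θ - round θ)) ^ 2) ≤ 1 + 4 * T * zS := by
    rw [← hu.tsum_eq]
    exact h1.tsum_le_tsum (shift_bound hT hθ) hu.summable
  have h3 : (fun p : ℤ => T / (T + (p + θ) ^ 2)) =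
      (fun p : ℤ => T / (T + (p + (θ - round θ)) ^ 2)) ∘ (Equiv.addRight (round θ)) := by
    funext p
    simp only [Function.comp_apply, Equiv.coe_addRight, Int.cast_add]
    congr 3
    ring
  refine ⟨?_, ?_⟩
  · rw [h3, (Equiv.addRight (round θ)).summable_iff]
    exact h1
  · rw [h3]
    exact ((Equiv.addRight (round θ)).tsum_eq
      (fun p : ℤ => T / (T + (p + (θ - round θ)) ^ 2))).trans_le h2

/-- the majorant of the lattice sum -/
theorem double_sum {T E : ℝ} (hT : 0 < T) (hE : 0 ≤ E) (θ : (Fin 3 → ℤ) → ℝ) :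
    Summable (fun x : (Fin 3 → ℤ) × ℤ => if x.1 = 0 then T * (1 / (x.2 : ℝ) ^ 2) else
      E * pwt (fun i => (x.1 i : ℝ)) * (T / (T + (x.2 + θ x.1) ^ 2))) ∧
      ∑' x : (Fin 3 → ℤ) × ℤ, (if x.1 = 0 then T * (1 / (x.2 : ℝ) ^ 2) else
        E * pwt (fun i => (x.1 i : ℝ)) * (T / (T + (x.2 + θ x.1) ^ 2))) ≤
      T * zS + (1 + 4 * T * zS) * (E * ∑' t : Fin 3 → ℤ, pwt (fun i => (t i : ℝ))) := by
  set f : (Fin 3 → ℤ) × ℤ → ℝ := fun x => if x.1 = 0 then T * (1 / (x.2 : ℝ) ^ 2) else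
      E * pwt (fun i => (x.1 i : ℝ)) * (T / (T + (x.2 + θ x.1) ^ 2)) with hf
  have hf0 : 0 ≤ f := by
    intro x
    rw [hf]
    simp only [Pi.zero_apply]
    split_ifs
    · positivity
    · have := (pwt_pos (fun i => (x.1 i : ℝ))).le
      positivity
  have hzS := zS_nonneg
  have hfib : ∀ t, Summable (fun p => f (t, p)) := by
    intro t
    simp only [hf]
    split_ifs with h
    · exact summable_zS.mul_left _
    · exact (shift_sum hT (θ t)).1.mul_left _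
  have hsum3 : Summable (fun t : Fin 3 → ℤ => pwt (fun i => (t i : ℝ))) := summable_pwt
  have hg : HasSum (fun t : Fin 3 → ℤ => (if t = 0 then T * zS else 0) +
      (1 + 4 * T * zS) * (E * pwt (fun i => (t i : ℝ))))
      (T * zS + (1 + 4 * T * zS) * (E * ∑' t : Fin 3 → ℤ, pwt (fun i => (t i : ℝ)))) := by
    apply HasSum.add
    · exact hasSum_ite_eq 0 _
    · exact (hsum3.hasSum.mul_left E).mul_left _
  have hle : ∀ t, ∑' p, f (t, p) ≤ (if t = 0 then T * zS else 0) +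
      (1 + 4 * T * zS) * (E * pwt (fun i => (t i : ℝ))) := by
    intro t
    have hp := (pwt_pos (fun i => (t i : ℝ))).le
    simp only [hf]
    split_ifs with h
    · rw [tsum_mul_left]
      have : 0 ≤ (1 + 4 * T * zS) * (E * pwt (fun i => (t i : ℝ))) := by positivity
      have e : ∑' p : ℤ, 1 / (p : ℝ) ^ 2 = zS := rfl
      rw [e]
      linarith
    · rw [tsum_mul_left, zero_add, mul_comm (1 + 4 * T * zS)]
      exact mul_le_mul_of_nonneg_left (shift_sum hT (θ t)).2 (by positivity)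
  have hs : Summable (fun t => ∑' p, f (t, p)) :=
    Summable.of_nonneg_of_le (fun t => tsum_nonneg fun p => hf0 _) hle hg.summable
  have hS : Summable f := (summable_prod_of_nonneg hf0).2 ⟨hfib, hs⟩
  refine ⟨hS, ?_⟩
  rw [hS.tsum_prod, ← hg.tsum_eq]
  exact hs.tsum_le_tsum hle hg.summable

theorem exp_neg_le_one_div {x : ℝ} (hx : 0 < x) : Real.exp (-x) ≤ 1 / x := by
  rw [Real.exp_neg, ← one_div]
  apply one_div_le_one_div_of_le hx
  have := Real.add_one_le_exp x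
  linarith

theorem exp_neg_le_div {T a : ℝ} (hT : 0 < T) : Real.exp (-(a ^ 2 / T)) ≤ T / (T + a ^ 2) := by
  rw [Real.exp_neg, inv_le_comm₀ (Real.exp_pos _) (by positivity), inv_div]
  have := Real.add_one_le_exp (a ^ 2 / T)
  refine le_trans (le_of_eq ?_) this
  field_simp
  ring

theorem exp_neg_le_cube {s : ℝ} (hs : 0 < s) : Real.exp (-s) ≤ 6 / s ^ 3 := by
  rw [Real.exp_neg, le_div_iff₀ (by positivity), inv_mul_le_iff₀ (Real.exp_pos s)]
  have h := Real.pow_div_factorial_le_exp s hs.le 3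
  rw [div_le_iff₀ (by positivity)] at h
  have : ((Nat.factorial 3 : ℕ) : ℝ) = 6 := by norm_num [Nat.factorial]
  rw [this] at h
  exact h

theorem pwt3_ge {t : Fin 3 → ℤ} (ht : t ≠ 0) :
    1 / (t 0 ^ 2 + t 1 ^ 2 + t 2 ^ 2 : ℝ) ^ 3 ≤ 8 * pwt (fun i => (t i : ℝ)) := by
  set s : ℝ := t 0 ^ 2 + t 1 ^ 2 + t 2 ^ 2 with hs
  have h0 := sq_nonneg (t 0 : ℝ)
  have h1 := sq_nonneg (t 1 : ℝ)
  have h2 := sq_nonneg (t 2 : ℝ)
  have h3 : 1 ≤ s := by
    obtain ⟨i, hi⟩ : ∃ i, t i ≠ 0 := by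
      by_contra hcon
      push Not at hcon
      exact ht (funext hcon)
    have h3 : (1 : ℝ) ≤ (t i : ℝ) ^ 2 := by
      have : (1 : ℤ) ≤ (t i) ^ 2 := by
        have := sq_pos_of_ne_zero hi
        omega
      exact_mod_cast this
    fin_cases i
    · have h5 : (1 : ℝ) ≤ (t 0 : ℝ) ^ 2 := h3
      linarith
    · have h5 : (1 : ℝ) ≤ (t 1 : ℝ) ^ 2 := h3
      linarith
    · have h5 : (1 : ℝ) ≤ (t 2 : ℝ) ^ 2 := h3
      linarith
  have h4 : pwt (fun i => (t i : ℝ)) = ((1 + (t 0 : ℝ) ^ 2) * (1 + (t 1 : ℝ) ^ 2) *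
      (1 + (t 2 : ℝ) ^ 2))⁻¹ := by
    rw [pwt, Fin.prod_univ_three]
    simp only [mul_inv]
  rw [h4, ← div_eq_mul_inv, div_le_div_iff₀ (by positivity) (by positivity), one_mul]
  calc (1 + (t 0 : ℝ) ^ 2) * (1 + (t 1 : ℝ) ^ 2) * (1 + (t 2 : ℝ) ^ 2)
      ≤ (2 * s) * (2 * s) * (2 * s) := by
        gcongr <;> linarith
    _ = 8 * s ^ 3 := by ring

/-- the lower bound for the part transversal to the cusp -/
theorem trans_bound {w : H3} (hw : w ∈ SS) (d : ℝ) (b : ℂ) :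
    (normSq b + d ^ 2) / 24 ≤ normSq (b - d * w.z) + d ^ 2 * w.y ^ 2 / 2 := by
  obtain ⟨hz, hy⟩ := hw
  have hy2 : 1 / 4 ≤ w.y ^ 2 := by nlinarith
  have hz2 : normSq w.z ≤ 1 := by
    rw [← Complex.sq_norm]; nlinarith [norm_nonneg w.z]
  have h1 : normSq b ≤ 2 * normSq (b - d * w.z) + 2 * normSq ((d : ℂ) * w.z) := by
    simp only [Complex.normSq_apply, Complex.sub_re, Complex.sub_im]
    nlinarith [sq_nonneg (b.re - 2 * ((d : ℂ) * w.z).re), sq_nonneg (b.im - 2 * ((d : ℂ) * w.z).im)]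
  have h2 : normSq ((d : ℂ) * w.z) ≤ d ^ 2 := by
    rw [map_mul, Complex.normSq_ofReal]
    have := mul_le_mul_of_nonneg_left hz2 (mul_self_nonneg d)
    linarith
  have h3 : d ^ 2 * (1 / 4) ≤ d ^ 2 * w.y ^ 2 := mul_le_mul_of_nonneg_left hy2 (sq_nonneg d)
  have h4 := Complex.normSq_nonneg (b - d * w.z)
  linarith

/-- **the refined bound** -/
theorem fine_sum2 {M : ℕ} (hM : M ≠ 0) : ∃ C : ℝ → ℝ, (∀ c, 0 < c → 0 ≤ C c) ∧
    (∃ C1, ∀ c, 1 ≤ c → C c ≤ C1 / c) ∧ ∀ {ι : Type} (X : ι → HM),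
    Function.Injective X → (∀ i, (M : ℝ) • X i ∈ Lat) → (∀ i, X i ≠ 0) → ∀ c : ℝ, 0 < c →
    ∀ (g : SL(2, Oe)) (w : H3), w ∈ SS → Summable (fun i => Real.exp (-c * Q (g • w) (X i))) ∧
      ∑' i, Real.exp (-c * Q (g • w) (X i)) ≤ C c * w.y ^ 2 := by
  have hM0 : (0 : ℝ) < M := by positivity
  have hzS := zS_nonneg
  set S3 : ℝ := ∑' t : Fin 3 → ℤ, pwt (fun i => (t i : ℝ)) with hS3
  have hS30 : 0 ≤ S3 := tsum_nonneg fun t => (pwt_pos _).le
  set K : ℝ := 48 * (48 * (M : ℝ) ^ 2) ^ 3 with hK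
  have hK0 : 0 ≤ K := by positivity
  refine ⟨fun c => 2 * M ^ 2 * zS / c + (4 + 8 * M ^ 2 * zS / c) * (K / c ^ 3 * S3), ?_, ?_, ?_⟩
  · intro c hc
    positivity
  · refine ⟨2 * M ^ 2 * zS + (4 + 8 * M ^ 2 * zS) * (K * S3), fun c hc => ?_⟩
    have hc0 : 0 < c := by linarith
    have h1 : 8 * (M : ℝ) ^ 2 * zS / c ≤ 8 * M ^ 2 * zS := div_le_self (by positivity) hc
    have h2 : K / c ^ 3 ≤ K / c := by
      apply div_le_div_of_nonneg_left hK0 hc0
      nlinarith [pow_le_pow_left₀ zero_le_one hc 2]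
    calc 2 * M ^ 2 * zS / c + (4 + 8 * M ^ 2 * zS / c) * (K / c ^ 3 * S3)
        ≤ 2 * M ^ 2 * zS / c + (4 + 8 * M ^ 2 * zS) * (K / c * S3) := by gcongr
      _ = _ := by ring
  intro ι X hinj hX hX0 c hc g w hw
  have hy0 := w.pos
  set Y : ι → HM := fun i => actM (toGL g⁻¹) (X i) with hY
  have hXY : ∀ i, X i = actM (toGL g) (Y i) := fun i => (actM_toGL_inv' g (X i)).symm
  have hYL : ∀ i, ∃ k, lp 0 k = (M : ℝ) • Y i := by
    intro i
    apply exists_lp_zero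
    rw [hY]
    simp only
    rw [← actM_smul]
    exact actM_mem_Lat (toGL_mem _) (hX i)
  choose κ hκ using hYL
  have hκinj : Function.Injective κ := by
    intro i i' h
    apply hinj
    have h1 : (M : ℝ) • Y i = (M : ℝ) • Y i' := by rw [← hκ, ← hκ, h]
    have h2 : Y i = Y i' := smul_right_injective HM (r := (M : ℝ)) hM0.ne' h1
    rw [hXY, hXY i', h2]
  have hκ0 : ∀ i, κ i ≠ 0 := by
    intro i h
    apply hX0 i
    have h1 : (M : ℝ) • Y i = 0 := by
      rw [← hκ, h, lp_zero]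
      simp
    have h2 : Y i = 0 := by
      rcases smul_eq_zero.mp h1 with h3 | h3
      · exact absurd h3 hM0.ne'
      · exact h3
    rw [hXY, h2]
    have := actM_smul (toGL g) 0 (0 : HM)
    simpa using this
  have hYi : ∀ i, Y i = (M : ℝ)⁻¹ • lp 0 (κ i) := fun i => by
    rw [hκ, smul_smul, inv_mul_cancel₀ hM0.ne', one_smul]
  -- the index
  let j : ι → (Fin 3 → ℤ) × ℤ := fun i => (fun l => κ i l.succ, κ i 0)
  have hj : Function.Injective j := by
    intro i i' h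
    apply hκinj
    have h1 := congrArg Prod.fst h
    have h2 := congrArg Prod.snd h
    funext l
    refine Fin.cases ?_ (fun l => ?_) l
    · exact h2
    · exact congrFun h1 l
  set T : ℝ := 2 * M ^ 2 * w.y ^ 2 / c with hT
  have hT0 : 0 < T := by positivity
  let bb : (Fin 3 → ℤ) → ℂ := fun t => (t 1 : ℂ) + t 2 * om
  let θ : (Fin 3 → ℤ) → ℝ := fun t => -2 * (bb t * conj w.z).re + (t 0 : ℝ) * normSq w.z
  obtain ⟨hsum, hle⟩ := double_sum hT0 (E := K / c ^ 3) (by positivity) θ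
  have key : ∀ i, Real.exp (-c * Q (g • w) (X i)) ≤
      (if (j i).1 = 0 then T * (1 / ((j i).2 : ℝ) ^ 2) else
      K / c ^ 3 * pwt (fun l => ((j i).1 l : ℝ)) * (T / (T + ((j i).2 + θ (j i).1) ^ 2))) := by
    intro i
    rw [hXY, Q_smul_SL, hYi, Q_smul, lp_zero, Q_eq]
    obtain ⟨k, hk⟩ : ∃ k, k = κ i := ⟨_, rfl⟩
    have hk0 : k ≠ 0 := by rw [hk]; exact hκ0 i
    simp only [j, ← hk]
    have e1 : (((k 2 : ℂ) + k 3 * om)) = bb (fun l => k l.succ) := rfl
    rw [e1]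
    obtain ⟨B, hB⟩ : ∃ B, B = bb (fun l => k l.succ) := ⟨_, rfl⟩
    obtain ⟨p, hp⟩ : ∃ p : ℤ, p = k 0 := ⟨_, rfl⟩
    obtain ⟨r, hr⟩ : ∃ r : ℤ, r = k 1 := ⟨_, rfl⟩
    have hθ : θ (fun l => k l.succ) = -2 * (B * conj w.z).re + (r : ℝ) * normSq w.z := by
      rw [hB, hr]; rfl
    rw [← hB, ← hp, ← hr, hθ]
    have e2 : -c * ((M : ℝ)⁻¹ ^ 2 * (normSq (B - (r : ℝ) * w.z) +
        ((p : ℝ) - 2 * (B * conj w.z).re + (r : ℝ) * normSq w.z) ^ 2 / (2 * w.y ^ 2) +
        (r : ℝ) ^ 2 * w.y ^ 2 / 2)) =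
        -(c / M ^ 2 * (normSq (B - (r : ℝ) * w.z) + (r : ℝ) ^ 2 * w.y ^ 2 / 2)) +
        -((p + (-2 * (B * conj w.z).re + (r : ℝ) * normSq w.z)) ^ 2 / T) := by
      rw [hT]
      field_simp
      ring
    have e3 : ((r : ℤ) : ℂ) = ((r : ℝ) : ℂ) := by push_cast; rfl
    rw [e2, Real.exp_add]
    split_ifs with h0
    · have h1 : k 1 = 0 := congrFun h0 0
      have h2 : k 2 = 0 := congrFun h0 1
      have h3 : k 3 = 0 := congrFun h0 2
      have hB0 : B = 0 := by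
        rw [hB]
        change ((k 2 : ℂ) + k 3 * om) = 0
        rw [h2, h3]; simp
      have hp0 : p ≠ 0 := by
        intro hp'
        apply hk0
        funext l
        fin_cases l
        · exact hp ▸ hp'
        · exact h1
        · exact h2
        · exact h3
      have hr0 : (r : ℝ) = 0 := by rw [hr, h1]; simp
      rw [hB0, hr0]
      simp only [zero_mul, Complex.zero_re, mul_zero, add_zero, Complex.ofReal_zero, sub_zero,
        map_zero, zero_pow, ne_eq, OfNat.ofNat_ne_zero, not_false_eq_true, zero_div, neg_zero,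
        Real.exp_zero, one_mul]
      have hpp : (0 : ℝ) < (p : ℝ) ^ 2 := by positivity
      calc Real.exp (-((p : ℝ) ^ 2 / T)) ≤ 1 / ((p : ℝ) ^ 2 / T) :=
            exp_neg_le_one_div (by positivity)
        _ = T * (1 / (p : ℝ) ^ 2) := by field_simp
    · apply mul_le_mul _ (exp_neg_le_div hT0) (Real.exp_pos _).le
        (mul_nonneg (by positivity) (pwt_pos _).le)
      have hb := trans_bound hw (r : ℝ) B
      obtain ⟨t, ht⟩ : ∃ t : Fin 3 → ℤ, t = fun l => k l.succ := ⟨_, rfl⟩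
      rw [← ht] at h0
      have h4 := pwt3_ge h0
      have hnB : normSq B = (t 1 : ℝ) ^ 2 - t 1 * t 2 + t 2 ^ 2 := by
        rw [hB, ht]
        change normSq ((k 2 : ℂ) + k 3 * om) = _
        rw [normSq_Oe]
        push_cast
        rfl
      have hrt : (r : ℝ) = t 0 := by rw [hr, ht]; rfl
      set s : ℝ := t 0 ^ 2 + t 1 ^ 2 + t 2 ^ 2 with hs
      have hs0 : 0 < s := by
        obtain ⟨i, hi⟩ : ∃ i, t i ≠ 0 := by
          by_contra hcon
          push Not at hcon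
          exact h0 (funext hcon)
        have h5 : (0 : ℝ) < (t i : ℝ) ^ 2 := by positivity
        have h50 := sq_nonneg (t 0 : ℝ)
        have h51 := sq_nonneg (t 1 : ℝ)
        have h52 := sq_nonneg (t 2 : ℝ)
        fin_cases i
        · have h5 : (0 : ℝ) < (t 0 : ℝ) ^ 2 := h5
          linarith
        · have h5 : (0 : ℝ) < (t 1 : ℝ) ^ 2 := h5
          linarith
        · have h5 : (0 : ℝ) < (t 2 : ℝ) ^ 2 := h5
          linarith
      have h6 : s / 48 ≤ normSq (B - (r : ℝ) * w.z) + (r : ℝ) ^ 2 * w.y ^ 2 / 2 := by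
        have : s / 2 ≤ normSq B + (r : ℝ) ^ 2 := by
          rw [hnB, hrt, hs]
          nlinarith [sq_nonneg ((t 1 : ℝ) - t 2), sq_nonneg (t 0 : ℝ)]
        linarith
      have h7 : Real.exp (-(c / M ^ 2 * (normSq (B - (r : ℝ) * w.z) + (r : ℝ) ^ 2 * w.y ^ 2 / 2))) ≤
          Real.exp (-(c / M ^ 2 * (s / 48))) := by
        apply Real.exp_le_exp.mpr
        have := mul_le_mul_of_nonneg_left h6 (show 0 ≤ c / (M : ℝ) ^ 2 by positivity)
        linarith
      calc Real.exp (-(c / M ^ 2 * (normSq (B - (r : ℝ) * w.z) + (r : ℝ) ^ 2 * w.y ^ 2 / 2)))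
          ≤ Real.exp (-(c / M ^ 2 * (s / 48))) := h7
        _ ≤ 6 / (c / M ^ 2 * (s / 48)) ^ 3 := exp_neg_le_cube (by positivity)
        _ = 6 * (48 * (M : ℝ) ^ 2) ^ 3 / c ^ 3 * (1 / s ^ 3) := by field_simp
        _ ≤ 6 * (48 * (M : ℝ) ^ 2) ^ 3 / c ^ 3 * (8 * pwt (fun i => (t i : ℝ))) := by gcongr
        _ = K / c ^ 3 * pwt (fun l => (t l : ℝ)) := by rw [hK]; ring
        _ = _ := by rw [ht]
  have hsj := hsum.comp_injective hj
  have hnn : ∀ x : (Fin 3 → ℤ) × ℤ, 0 ≤ (if x.1 = 0 then T * (1 / (x.2 : ℝ) ^ 2) else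
      K / c ^ 3 * pwt (fun l => (x.1 l : ℝ)) * (T / (T + (x.2 + θ x.1) ^ 2))) := by
    intro x
    split_ifs
    · positivity
    · have := (pwt_pos (fun i => (x.1 i : ℝ))).le
      positivity
  have hS : Summable (fun i => Real.exp (-c * Q (g • w) (X i))) :=
    Summable.of_nonneg_of_le (fun i => (Real.exp_pos _).le) key hsj
  refine ⟨hS, ?_⟩
  have hy2 : 1 ≤ 4 * w.y ^ 2 := by
    have := hw.2
    nlinarith
  calc ∑' i, Real.exp (-c * Q (g • w) (X i)) ≤ ∑' i, _ := hS.tsum_le_tsum key hsj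
    _ ≤ _ := tsum_comp_le_tsum_of_inj hsum hnn hj
    _ ≤ T * zS + (1 + 4 * T * zS) * (K / c ^ 3 * S3) := hle
    _ ≤ T * zS + (4 * w.y ^ 2 + 4 * T * zS) * (K / c ^ 3 * S3) := by gcongr
    _ = _ := by
      rw [hT]
      field_simp
      ring

end Fermat.Agent.LT.Th
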