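import Fermat.Agent.LT.Th.Bd2
import Fermat.Agent.LT.Asai.Unfold

set_option autoImplicit false

/-!
# Coordinates of `H3` adapted to the plane `Re z = 0`
-/

namespace Fermat.Agent.LT.Th

open Matrix ComplexConjugate MeasureTheory Complex HM Set UpperHalfPlane
open scoped Real MatrixGroups ENNReal NNReal

/-- the point over `τ` at (signed) distance `arsinh s` from the plane -/
noncomputable def wp (τ : ℍ) (s : ℝ) : H3 where
  z := ⟨-(√3 * τ.im / √(1 + s ^ 2) * s), √3 * τ.re⟩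
  y := √3 * τ.im / √(1 + s ^ 2)
  pos := by have := τ.im_pos; positivity

theorem continuous_wp : Continuous fun p : ℍ × ℝ => wp p.1 p.2 := by
  have h1 : Continuous fun p : ℍ × ℝ => p.1.im := UpperHalfPlane.continuous_im.comp continuous_fst
  have h2 : Continuous fun p : ℍ × ℝ => p.1.re := UpperHalfPlane.continuous_re.comp continuous_fst
  have h3 : Continuous fun p : ℍ × ℝ => √(1 + p.2 ^ 2) := by fun_prop
  have h4 : Continuous fun p : ℍ × ℝ => √3 * p.1.im / √(1 + p.2 ^ 2) :=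
    (continuous_const.mul h1).div h3 fun p => by positivity
  refine H3.continuous_mk ?_ h4
  have e1 : ∀ a b : ℝ, (⟨a, b⟩ : ℂ) = (a : ℂ) + b * Complex.I := fun a b => by
    apply Complex.ext <;> simp
  have : (fun p : ℍ × ℝ => (wp p.1 p.2).z) = fun p : ℍ × ℝ =>
      ((-(√3 * p.1.im / √(1 + p.2 ^ 2) * p.2) : ℝ) : ℂ) + ((√3 * p.1.re : ℝ) : ℂ) * Complex.I :=
    funext fun p => e1 _ _
  rw [this]
  have h5 : Continuous fun p : ℍ × ℝ => (-(√3 * p.1.im / √(1 + p.2 ^ 2) * p.2) : ℝ) :=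
    (h4.mul continuous_snd).neg
  exact (Complex.continuous_ofReal.comp h5).add
    ((Complex.continuous_ofReal.comp (continuous_const.mul h2)).mul continuous_const)

theorem t_wp (τ : ℍ) (s : ℝ) : t (wp τ s) x0 = s := by
  have h1 : (0 : ℝ) < √3 * τ.im / √(1 + s ^ 2) := (wp τ s).pos
  have e1 : (wp τ s).y = √3 * τ.im / √(1 + s ^ 2) := rfl
  have e2 : (wp τ s).z.re = -(√3 * τ.im / √(1 + s ^ 2) * s) := rfl
  rw [t]
  simp only [x0, one_mul, Complex.conj_re, zero_mul, add_zero, zero_sub]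
  rw [e1, e2]
  field_simp

theorem Q_wp (τ : ℍ) (s : ℝ) : Q (wp τ s) x0 = 1 + 2 * s ^ 2 := by
  rw [Q, t_wp]
  simp [q, x0]

/-- scaling of Lebesgue integrals -/
theorem lintegral_scale {a : ℝ} (h : a ≠ 0) {f : ℝ → ℝ≥0∞} (hf : Measurable f) :
    ∫⁻ x, f x = ENNReal.ofReal |a| * ∫⁻ x, f (a * x) := by
  have h1 := lintegral_map hf (measurable_const_mul a) (μ := volume)
  rw [Real.map_volume_mul_left h, lintegral_smul_measure, smul_eq_mul] at h1
  rw [← h1, ← mul_assoc, ← ENNReal.ofReal_mul (abs_nonneg _), ← abs_mul, mul_inv_cancel₀ h, abs_one,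
    ENNReal.ofReal_one, one_mul]

/-- integration over the upper half plane in coordinates -/
theorem lintegral_UHP {f : ℂ → ℝ≥0∞} (hf : Measurable f) :
    ∫⁻ τ : ℍ, f τ = ∫⁻ a : ℝ, ∫⁻ b : ℝ, (Ioi (0 : ℝ)).indicator
      (fun b => ENNReal.ofReal ((b ^ 2)⁻¹) * f ⟨a, b⟩) b := by
  have h1 : ∫⁻ τ : ℍ, f τ = ∫⁻ τ : ℍ, (fun z : ℂ => ENNReal.ofReal ((z.im ^ 2)⁻¹) * f z) τ
      ∂((volume : Measure ℂ).comap UpperHalfPlane.coe) := by
    rw [UpperHalfPlane.volume_def, lintegral_withDensity_eq_lintegral_mul₀]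
    · refine lintegral_congr fun τ => ?_
      simp only [Pi.mul_apply]
      congr 1
      rw [ENNReal.ofReal]
      congr 1
      ext
      rw [Real.coe_toNNReal _ (by positivity)]
      have : ((NNReal.mk τ.im τ.im_pos.le : ℝ≥0) : ℝ) = τ.im := rfl
      rw [NNReal.coe_pow, NNReal.coe_div, this]
      simp
    · refine Measurable.aemeasurable ?_
      refine Measurable.coe_nnreal_ennreal ?_
      refine (measurable_const.div ?_).pow_const 2
      exact (UpperHalfPlane.continuous_im.subtype_mk _).measurable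
    · exact (hf.comp UpperHalfPlane.measurable_coe).aemeasurable
  rw [h1, ← UpperHalfPlane.measurableEmbedding_coe.lintegral_map
    (fun z : ℂ => ENNReal.ofReal ((z.im ^ 2)⁻¹) * f z),
    UpperHalfPlane.measurableEmbedding_coe.map_comap]
  have hr : range UpperHalfPlane.coe = {z : ℂ | 0 < z.im} := by
    ext z
    constructor
    · rintro ⟨τ, rfl⟩; exact τ.im_pos
    · intro h; exact ⟨⟨z, h⟩, rfl⟩
  have hm : MeasurableSet {z : ℂ | 0 < z.im} := (isOpen_lt continuous_const Complex.continuous_im).measurableSet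
  rw [hr, ← lintegral_indicator hm]
  have hF : Measurable ({z : ℂ | 0 < z.im}.indicator
      (fun z : ℂ => ENNReal.ofReal ((z.im ^ 2)⁻¹) * f z)) := by
    refine Measurable.indicator ?_ hm
    exact ((Complex.measurable_im.pow_const 2).inv.ennreal_ofReal).mul hf
  have h2 := (Complex.volume_preserving_equiv_real_prod.symm).lintegral_comp_emb
    Complex.measurableEquivRealProd.symm.measurableEmbedding
    ({z : ℂ | 0 < z.im}.indicator (fun z : ℂ => ENNReal.ofReal ((z.im ^ 2)⁻¹) * f z))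
  rw [← h2, Measure.volume_eq_prod, lintegral_prod _ (by
    exact (hF.comp Complex.measurableEquivRealProd.symm.measurable).aemeasurable)]
  refine lintegral_congr fun a => lintegral_congr fun b => ?_
  rfl

/-- integration over `H3` in coordinates -/
theorem lintegral_H3 {f : H3 → ℝ≥0∞} (hf : Measurable f) :
    ∫⁻ p : H3, f p = ∫⁻ x : ℝ, ∫⁻ u : ℝ, ∫⁻ y : ℝ, (Ioi (0 : ℝ)).indicator
      (fun y => ENNReal.ofReal ((y ^ 3)⁻¹) * f (H3.ofCR (⟨x, u⟩, y))) y := by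
  rw [H3.lintegral_eq, ← lintegral_indicator H3.measurableSet_uhs, Measure.volume_eq_prod]
  have hm : Measurable (H3.uhs.indicator fun q => H3.dens q * f (H3.ofCR q)) :=
    Measurable.indicator (H3.measurable_dens.mul (hf.comp H3.measurable_ofCR)) H3.measurableSet_uhs
  rw [lintegral_prod _ hm.aemeasurable]
  have hm2 : Measurable fun z : ℂ => ∫⁻ y : ℝ,
      H3.uhs.indicator (fun q => H3.dens q * f (H3.ofCR q)) (z, y) := hm.lintegral_prod_right'
  have h2 := (Complex.volume_preserving_equiv_real_prod.symm).lintegral_comp_emb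
    Complex.measurableEquivRealProd.symm.measurableEmbedding
    (fun z : ℂ => ∫⁻ y : ℝ, H3.uhs.indicator (fun q => H3.dens q * f (H3.ofCR q)) (z, y))
  rw [← h2, Measure.volume_eq_prod, lintegral_prod _ (by
    exact (hm2.comp Complex.measurableEquivRealProd.symm.measurable).aemeasurable)]
  rfl

/-- the measure on the distance coordinate -/
noncomputable def dμ : Measure ℝ := volume.withDensity fun s => ENNReal.ofReal √(1 + s ^ 2)

instance : SFinite dμ := by unfold dμ; infer_instance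

theorem lintegral_dμ {f : ℝ → ℝ≥0∞} (hf : Measurable f) :
    ∫⁻ s, f s ∂dμ = ∫⁻ s, ENNReal.ofReal √(1 + s ^ 2) * f s := by
  rw [dμ, lintegral_withDensity_eq_lintegral_mul₀ (by fun_prop) hf.aemeasurable]
  rfl

/-- integrand on `H3` in coordinates -/
noncomputable def gg (f : H3 → ℝ≥0∞) (x u y : ℝ) : ℝ≥0∞ := (Ioi (0 : ℝ)).indicator
      (fun y => ENNReal.ofReal ((y ^ 3)⁻¹) * f (H3.ofCR (⟨x, u⟩, y))) y

theorem gg_pos (f : H3 → ℝ≥0∞) (x u : ℝ) {y : ℝ} (hy : 0 < y) :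
    gg f x u y = ENNReal.ofReal ((y ^ 3)⁻¹) * f (H3.ofCR (⟨x, u⟩, y)) :=
  Set.indicator_of_mem (show y ∈ Ioi (0 : ℝ) from hy) _

theorem gg_nonpos (f : H3 → ℝ≥0∞) (x u : ℝ) {y : ℝ} (hy : ¬ 0 < y) : gg f x u y = 0 :=
  Set.indicator_of_notMem (show y ∉ Ioi (0 : ℝ) from hy) _

theorem measurable_mk3 : Measurable fun p : ℝ × ℝ × ℝ => ((⟨p.1, p.2.1⟩ : ℂ), p.2.2) := by
  have h1 : Measurable fun p : ℝ × ℝ × ℝ => (⟨p.1, p.2.1⟩ : ℂ) :=
    Complex.measurableEquivRealProd.symm.measurable.comp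
      (measurable_fst.prodMk (measurable_fst.comp measurable_snd) :
        Measurable fun p : ℝ × ℝ × ℝ => (p.1, p.2.1))
  exact h1.prodMk (measurable_snd.comp measurable_snd)

theorem measurable_gg {f : H3 → ℝ≥0∞} (hf : Measurable f) :
    Measurable fun p : ℝ × ℝ × ℝ => gg f p.1 p.2.1 p.2.2 := by
  have h2 : (fun p : ℝ × ℝ × ℝ => gg f p.1 p.2.1 p.2.2) =
      ((fun p : ℝ × ℝ × ℝ => p.2.2) ⁻¹' (Ioi (0 : ℝ))).indicator
        (fun p => ENNReal.ofReal ((p.2.2 ^ 3)⁻¹) * f (H3.ofCR (⟨p.1, p.2.1⟩, p.2.2))) := by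
    funext p
    simp only [gg, Set.indicator, Set.mem_preimage]
  rw [h2]
  refine Measurable.indicator ?_ ((measurable_snd.comp measurable_snd) measurableSet_Ioi)
  refine Measurable.mul ?_ (hf.comp (H3.measurable_ofCR.comp measurable_mk3))
  exact (((measurable_snd.comp measurable_snd).pow_const 3).inv).ennreal_ofReal

/-- integrand on `ℍ × ℝ` in coordinates -/
noncomputable def FF (f : H3 → ℝ≥0∞) (a b s : ℝ) : ℝ≥0∞ := (Ioi (0 : ℝ)).indicator
    (fun b => ENNReal.ofReal ((b ^ 2)⁻¹) * (ENNReal.ofReal √(1 + s ^ 2) *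
      f (H3.ofCR (⟨-(√3 * b / √(1 + s ^ 2) * s), √3 * a⟩, √3 * b / √(1 + s ^ 2))))) b

theorem FF_pos (f : H3 → ℝ≥0∞) (a s : ℝ) {b : ℝ} (hb : 0 < b) : FF f a b s =
    ENNReal.ofReal ((b ^ 2)⁻¹) * (ENNReal.ofReal √(1 + s ^ 2) *
      f (H3.ofCR (⟨-(√3 * b / √(1 + s ^ 2) * s), √3 * a⟩, √3 * b / √(1 + s ^ 2)))) :=
  Set.indicator_of_mem (show b ∈ Ioi (0 : ℝ) from hb) _

theorem FF_nonpos (f : H3 → ℝ≥0∞) (a s : ℝ) {b : ℝ} (hb : ¬ 0 < b) : FF f a b s = 0 :=
  Set.indicator_of_notMem (show b ∉ Ioi (0 : ℝ) from hb) _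

theorem measurable_map3 : Measurable fun p : ℝ × ℝ × ℝ => ((-(√3 * p.2.1 / √(1 + p.2.2 ^ 2) * p.2.2) : ℝ),
        ((√3 * p.1 : ℝ), (√3 * p.2.1 / √(1 + p.2.2 ^ 2) : ℝ))) := by
  have hs : Measurable fun p : ℝ × ℝ × ℝ => √(1 + p.2.2 ^ 2) := by fun_prop
  have h4 : Measurable fun p : ℝ × ℝ × ℝ => (√3 * p.2.1 / √(1 + p.2.2 ^ 2) : ℝ) :=
    (by fun_prop : Measurable fun p : ℝ × ℝ × ℝ => √3 * p.2.1).div hs
  exact ((h4.mul (measurable_snd.comp measurable_snd)).neg).prodMk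
    ((by fun_prop : Measurable fun p : ℝ × ℝ × ℝ => √3 * p.1).prodMk h4)

theorem measurable_FF {f : H3 → ℝ≥0∞} (hf : Measurable f) :
    Measurable fun p : ℝ × ℝ × ℝ => FF f p.1 p.2.1 p.2.2 := by
  have h2 : (fun p : ℝ × ℝ × ℝ => FF f p.1 p.2.1 p.2.2) =
      ((fun p : ℝ × ℝ × ℝ => p.2.1) ⁻¹' (Ioi (0 : ℝ))).indicator
        (fun p => ENNReal.ofReal ((p.2.1 ^ 2)⁻¹) * (ENNReal.ofReal √(1 + p.2.2 ^ 2) *
    f (H3.ofCR (⟨-(√3 * p.2.1 / √(1 + p.2.2 ^ 2) * p.2.2), √3 * p.1⟩,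
      √3 * p.2.1 / √(1 + p.2.2 ^ 2))))) := by
    funext p
    simp only [FF, Set.indicator, Set.mem_preimage]
  rw [h2]
  refine Measurable.indicator ?_ ((measurable_fst.comp measurable_snd) measurableSet_Ioi)
  have hs : Measurable fun p : ℝ × ℝ × ℝ => √(1 + p.2.2 ^ 2) := by fun_prop
  refine Measurable.mul ?_ (Measurable.mul hs.ennreal_ofReal ?_)
  · exact (((measurable_fst.comp measurable_snd).pow_const 2).inv).ennreal_ofReal
  · exact hf.comp (H3.measurable_ofCR.comp (measurable_mk3.comp measurable_map3))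

/-- the inner integral -/
noncomputable def GG (f : H3 → ℝ≥0∞) (z : ℂ) : ℝ≥0∞ := ∫⁻ s : ℝ, ENNReal.ofReal √(1 + s ^ 2) *
      f (H3.ofCR (⟨-(√3 * z.im / √(1 + s ^ 2) * s), √3 * z.re⟩, √3 * z.im / √(1 + s ^ 2)))

theorem measurable_GG {f : H3 → ℝ≥0∞} (hf : Measurable f) : Measurable (GG f) := by
  refine Measurable.lintegral_prod_right' (f := fun p : ℂ × ℝ => ENNReal.ofReal √(1 + p.2 ^ 2) *
    f (H3.ofCR (⟨-(√3 * p.1.im / √(1 + p.2 ^ 2) * p.2), √3 * p.1.re⟩,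
      √3 * p.1.im / √(1 + p.2 ^ 2)))) ?_
  have hs : Measurable fun p : ℂ × ℝ => √(1 + p.2 ^ 2) := by fun_prop
  have him : Measurable fun p : ℂ × ℝ => (p.1.re, p.1.im, p.2) :=
    (Complex.measurable_re.comp measurable_fst).prodMk
      ((Complex.measurable_im.comp measurable_fst).prodMk measurable_snd)
  exact Measurable.mul hs.ennreal_ofReal
    (hf.comp (H3.measurable_ofCR.comp (measurable_mk3.comp (measurable_map3.comp him))))

theorem GG_coe (f : H3 → ℝ≥0∞) (τ : ℍ) :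
    ∫⁻ s : ℝ, ENNReal.ofReal √(1 + s ^ 2) * f (wp τ s) = GG f τ := by
  refine lintegral_congr fun s => ?_
  have h6 : H3.ofCR (⟨-(√3 * (τ : ℂ).im / √(1 + s ^ 2) * s), √3 * (τ : ℂ).re⟩,
      √3 * (τ : ℂ).im / √(1 + s ^ 2)) = wp τ s := by
    rw [H3.ofCR_of_pos (by
      have := τ.im_pos
      have h2 : 0 < (τ : ℂ).im := this
      positivity)]
    rfl
  rw [h6]

theorem lintegral_R {f : H3 → ℝ≥0∞} (hf : Measurable f) :
    ∫⁻ p : ℍ × ℝ, f (wp p.1 p.2) ∂((volume : Measure ℍ).prod dμ) =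
      ∫⁻ a : ℝ, ∫⁻ b : ℝ, ∫⁻ s : ℝ, FF f a b s := by
  have hR1 : ∫⁻ p : ℍ × ℝ, f (wp p.1 p.2) ∂((volume : Measure ℍ).prod dμ) =
      ∫⁻ τ : ℍ, GG f τ := by
    have hm : AEMeasurable (fun p : ℍ × ℝ => f (wp p.1 p.2)) ((volume : Measure ℍ).prod dμ) :=
      (hf.comp continuous_wp.measurable).aemeasurable
    rw [lintegral_prod _ hm]
    refine lintegral_congr fun τ => ?_
    rw [lintegral_dμ, GG_coe]
    exact hf.comp (continuous_wp.comp (Continuous.prodMk_right τ)).measurable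
  rw [hR1, lintegral_UHP (measurable_GG hf)]
  refine lintegral_congr fun a => lintegral_congr fun b => ?_
  by_cases hb : 0 < b
  · rw [Set.indicator_of_mem (show b ∈ Ioi (0 : ℝ) from hb)]
    simp_rw [FF_pos f a _ hb]
    rw [lintegral_const_mul' _ _ ENNReal.ofReal_ne_top]
    rfl
  · rw [Set.indicator_of_notMem (show b ∉ Ioi (0 : ℝ) from hb)]
    simp_rw [FF_nonpos f a _ hb]
    simp

theorem FF_scale (f : H3 → ℝ≥0∞) (a s y : ℝ) :
    ENNReal.ofReal |√(1 + s ^ 2) / √3| * FF f a (√(1 + s ^ 2) / √3 * y) s =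
      ENNReal.ofReal (√3 * |y|) * gg f (-(y * s)) (√3 * a) y := by
  have hc : 0 < √(1 + s ^ 2) / √3 := by positivity
  by_cases hy : 0 < y
  · have hy' : 0 < √(1 + s ^ 2) / √3 * y := mul_pos hc hy
    rw [FF_pos f a s hy', gg_pos f _ _ hy]
    have e1 : √3 * (√(1 + s ^ 2) / √3 * y) / √(1 + s ^ 2) = y := by field_simp
    rw [e1, ← mul_assoc, ← mul_assoc, ← mul_assoc, ← ENNReal.ofReal_mul (abs_nonneg _),
      ← ENNReal.ofReal_mul (by positivity), ← ENNReal.ofReal_mul (by positivity)]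
    congr 2
    rw [abs_of_pos hc, abs_of_pos hy]
    have h3 : √3 ^ 2 = 3 := Real.sq_sqrt (by norm_num)
    have h4 : √(1 + s ^ 2) ^ 2 = 1 + s ^ 2 := Real.sq_sqrt (by positivity)
    field_simp
  · have hy' : ¬ 0 < √(1 + s ^ 2) / √3 * y := by
      intro h
      exact hy ((mul_pos_iff_of_pos_left hc).mp h)
    rw [FF_nonpos f a s hy', gg_nonpos f _ _ hy, mul_zero, mul_zero]

theorem lintegral_H3' {f : H3 → ℝ≥0∞} (hf : Measurable f) :
    ∫⁻ p : H3, f p = ∫⁻ x : ℝ, ∫⁻ u : ℝ, ∫⁻ y : ℝ, gg f x u y := lintegral_H3 hf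

attribute [local irreducible] FF gg

theorem lintegral_b {f : H3 → ℝ≥0∞} (hf : Measurable f) (a s : ℝ) : ∫⁻ b : ℝ, FF f a b s =
      ∫⁻ y : ℝ, ENNReal.ofReal (√3 * |y|) * gg f (-(y * s)) (√3 * a) y := by
  have hc : 0 < √(1 + s ^ 2) / √3 := by positivity
  have h1 : Measurable fun b : ℝ => (a, b, s) := by fun_prop
  have hFb : Measurable fun b => FF f a b s := (measurable_FF hf).comp h1
  have e1 : ∫⁻ b : ℝ, FF f a b s = ENNReal.ofReal |√(1 + s ^ 2) / √3| *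
      ∫⁻ y : ℝ, FF f a (√(1 + s ^ 2) / √3 * y) s := lintegral_scale hc.ne' hFb
  have e2 : ENNReal.ofReal |√(1 + s ^ 2) / √3| * ∫⁻ y : ℝ, FF f a (√(1 + s ^ 2) / √3 * y) s =
      ∫⁻ y : ℝ, ENNReal.ofReal |√(1 + s ^ 2) / √3| * FF f a (√(1 + s ^ 2) / √3 * y) s :=
    (lintegral_const_mul' _ _ ENNReal.ofReal_ne_top).symm
  exact e1.trans (e2.trans (lintegral_congr fun y => FF_scale f a s y))

theorem measurable_g' {g : ℝ → ℝ → ℝ → ℝ≥0∞} (hgm : Measurable fun p : ℝ × ℝ × ℝ => g p.1 p.2.1 p.2.2) :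
    Measurable fun p : ℝ × ℝ × ℝ => ENNReal.ofReal |p.2.2| * g (-(p.2.2 * p.2.1)) p.1 p.2.2 := by
  have h1 : Measurable fun p : ℝ × ℝ × ℝ => ENNReal.ofReal |p.2.2| := by fun_prop
  have h2 : Measurable fun p : ℝ × ℝ × ℝ => (-(p.2.2 * p.2.1), p.1, p.2.2) := by fun_prop
  exact h1.mul (hgm.comp h2)

theorem lintegral_a {g : ℝ → ℝ → ℝ → ℝ≥0∞}
    (hgm : Measurable fun p : ℝ × ℝ × ℝ => g p.1 p.2.1 p.2.2) :
    ∫⁻ a : ℝ, ∫⁻ s : ℝ, ∫⁻ y : ℝ, ENNReal.ofReal (√3 * |y|) * g (-(y * s)) (√3 * a) y =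
      ∫⁻ u : ℝ, ∫⁻ s : ℝ, ∫⁻ y : ℝ, ENNReal.ofReal |y| * g (-(y * s)) u y := by
  have h10 : Measurable fun u : ℝ => ∫⁻ s : ℝ, ∫⁻ y : ℝ, ENNReal.ofReal |y| * g (-(y * s)) u y := by
    have h11 : Measurable fun p : ℝ × ℝ => ∫⁻ y : ℝ, ENNReal.ofReal |y| * g (-(y * p.2)) p.1 y := by
      refine Measurable.lintegral_prod_right' (f := fun p : (ℝ × ℝ) × ℝ =>
        ENNReal.ofReal |p.2| * g (-(p.2 * p.1.2)) p.1.1 p.2) ?_
      have h12 : Measurable fun p : (ℝ × ℝ) × ℝ => (p.1.1, p.1.2, p.2) := by fun_prop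
      exact (measurable_g' hgm).comp h12
    exact h11.lintegral_prod_right'
  rw [lintegral_scale (show (√3 : ℝ) ≠ 0 by positivity) h10,
    ← lintegral_const_mul' _ _ ENNReal.ofReal_ne_top]
  refine lintegral_congr fun a => ?_
  rw [← lintegral_const_mul' _ _ ENNReal.ofReal_ne_top]
  refine lintegral_congr fun s => ?_
  rw [← lintegral_const_mul' _ _ ENNReal.ofReal_ne_top]
  refine lintegral_congr fun y => ?_
  rw [← mul_assoc, ← ENNReal.ofReal_mul (abs_nonneg _), abs_of_pos (show (0 : ℝ) < √3 by positivity)]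

theorem lintegral_s {g : ℝ → ℝ → ℝ → ℝ≥0∞}
    (hgm : Measurable fun p : ℝ × ℝ × ℝ => g p.1 p.2.1 p.2.2)
    (h0 : ∀ x u y, ¬ 0 < y → g x u y = 0) (u : ℝ) :
    ∫⁻ s : ℝ, ∫⁻ y : ℝ, ENNReal.ofReal |y| * g (-(y * s)) u y =
      ∫⁻ y : ℝ, ∫⁻ x : ℝ, g x u y := by
  have hm : AEMeasurable (Function.uncurry fun s y : ℝ => ENNReal.ofReal |y| * g (-(y * s)) u y)
      (volume.prod volume) := by
    have h1 : Measurable fun p : ℝ × ℝ => (u, p.1, p.2) := by fun_prop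
    exact ((measurable_g' hgm).comp h1).aemeasurable
  rw [lintegral_lintegral_swap hm]
  refine lintegral_congr fun y => ?_
  by_cases hy : 0 < y
  · have hgx : Measurable fun x => g x u y := by
      have h1 : Measurable fun x : ℝ => (x, u, y) := by fun_prop
      exact hgm.comp h1
    rw [lintegral_scale (a := -y) (by simpa using hy.ne') hgx, abs_neg,
      ← lintegral_const_mul' _ _ ENNReal.ofReal_ne_top]
    refine lintegral_congr fun s => ?_
    rw [neg_mul]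
  · simp [h0 _ _ _ hy]

theorem lintegral_reorder {g : ℝ → ℝ → ℝ → ℝ≥0∞}
    (hgm : Measurable fun p : ℝ × ℝ × ℝ => g p.1 p.2.1 p.2.2) :
    ∫⁻ u : ℝ, ∫⁻ y : ℝ, ∫⁻ x : ℝ, g x u y = ∫⁻ x : ℝ, ∫⁻ u : ℝ, ∫⁻ y : ℝ, g x u y := by
  have h13 : ∀ u : ℝ, ∫⁻ y : ℝ, ∫⁻ x : ℝ, g x u y = ∫⁻ x : ℝ, ∫⁻ y : ℝ, g x u y := by
    intro u
    have hm : AEMeasurable (Function.uncurry fun y x : ℝ => g x u y) (volume.prod volume) := by
      have h1 : Measurable fun p : ℝ × ℝ => (p.2, u, p.1) := by fun_prop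
      exact (hgm.comp h1).aemeasurable
    exact lintegral_lintegral_swap hm
  simp_rw [h13]
  have hm : AEMeasurable (Function.uncurry fun u x : ℝ => ∫⁻ y : ℝ, g x u y)
      (volume.prod volume) := by
    refine Measurable.aemeasurable ?_
    refine Measurable.lintegral_prod_right' (f := fun p : (ℝ × ℝ) × ℝ => g p.1.2 p.1.1 p.2) ?_
    have h1 : Measurable fun p : (ℝ × ℝ) × ℝ => (p.1.2, p.1.1, p.2) := by fun_prop
    exact hgm.comp h1
  exact lintegral_lintegral_swap hm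

/-- **integration over `H3` in the coordinates `(τ, s)`** -/
theorem lintegral_wp {f : H3 → ℝ≥0∞} (hf : Measurable f) :
    ∫⁻ p : H3, f p = ∫⁻ p : ℍ × ℝ, f (wp p.1 p.2) ∂((volume : Measure ℍ).prod dμ) := by
  have hL := lintegral_H3' hf
  have hgm := measurable_gg hf
  rw [hL, lintegral_R hf]
  -- swap `b` and `s`
  have hsw : ∀ a : ℝ, ∫⁻ b : ℝ, ∫⁻ s : ℝ, FF f a b s = ∫⁻ s : ℝ, ∫⁻ b : ℝ, FF f a b s := by
    intro a
    have hm : AEMeasurable (Function.uncurry fun b s : ℝ => FF f a b s) (volume.prod volume) := by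
      have h1 : Measurable fun p : ℝ × ℝ => (a, p.1, p.2) := by fun_prop
      exact ((measurable_FF hf).comp h1).aemeasurable
    exact lintegral_lintegral_swap hm
  simp_rw [hsw, lintegral_b hf]
  rw [lintegral_a hgm]
  simp_rw [lintegral_s hgm (fun x u y hy => gg_nonpos f x u hy)]
  exact (lintegral_reorder hgm).symm

/-- **the coordinates are measure preserving** -/
theorem measurePreserving_wp : MeasurePreserving (fun p : ℍ × ℝ => wp p.1 p.2)
    ((volume : Measure ℍ).prod dμ) (volume : Measure H3) := by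
  refine ⟨continuous_wp.measurable, ?_⟩
  refine Measure.ext_of_lintegral _ fun f hf => ?_
  rw [lintegral_map hf continuous_wp.measurable, lintegral_wp hf]

end Fermat.Agent.LT.Th
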