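import Fermat.Agent.LT.H3.Inv2

set_option autoImplicit false

/-!
# The theta lift from `H3` to weight one: definitions

* `Oe`: the Eisenstein integers in `ℂ`; `Gam N`: the principal congruence subgroup of `SL(2, Oe)`;
* `HM`: Hermitian matrices `(a, b; conj b, d)` as triples `(a, d, b)`, with the quadratic form
  `q = |b|² - a d`, the polar form `B`, the function `t w X` (`= tr(X Y_w⁻¹)/2`) and the majorant
  `Q w X = q X + 2 (t w X)²`;
* `ker m τ w X` (`m = 0, 1`): the kernels, `th m j τ w X0 Y0`: the theta functions with real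
  characteristics.
-/

namespace Fermat.Agent.LT.Th

open Matrix ComplexConjugate MeasureTheory Complex
open scoped Real MatrixGroups

/-- `e(z) = exp(2πi z)` -/
noncomputable def e (z : ℂ) : ℂ := cexp (2 * π * I * z)

/-- a primitive third root of unity -/
noncomputable def om : ℂ := ⟨-1/2, √3/2⟩

/-- `√-3` -/
noncomputable def s3 : ℂ := ⟨0, √3⟩

theorem om_sq : om * om + om + 1 = 0 := by
  have h : √3 * √3 = 3 := Real.mul_self_sqrt (by norm_num)
  apply Complex.ext
  · simp only [om, Complex.add_re, Complex.mul_re, Complex.one_re, Complex.zero_re]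
    nlinarith
  · simp only [om, Complex.add_im, Complex.mul_im, Complex.one_im, Complex.zero_im]
    ring

theorem conj_om : conj om = -1 - om := by
  apply Complex.ext
  · simp only [om, Complex.conj_re, Complex.sub_re, Complex.neg_re, Complex.one_re]; norm_num
  · simp only [om, Complex.conj_im, Complex.sub_im, Complex.neg_im, Complex.one_im]; ring

theorem s3_eq : s3 = 1 + 2 * om := by
  apply Complex.ext
  · simp only [om, s3, Complex.add_re, Complex.mul_re, Complex.one_re, Complex.re_ofNat,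
      Complex.im_ofNat]; norm_num
  · simp only [om, s3, Complex.add_im, Complex.mul_im, Complex.one_im, Complex.re_ofNat,
      Complex.im_ofNat]; ring

theorem s3_sq : s3 * s3 = -3 := by
  rw [s3_eq]; linear_combination 4 * om_sq

theorem conj_s3 : conj s3 = -s3 := by
  rw [s3_eq, map_add, map_mul, conj_om, map_one, map_ofNat]; ring

/-- the Eisenstein integers -/
def Oe : Subring ℂ where
  carrier := {z | ∃ x y : ℤ, z = x + y * om}
  mul_mem' := by
    rintro _ _ ⟨x, y, rfl⟩ ⟨x', y', rfl⟩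
    refine ⟨x * x' - y * y', x * y' + y * x' - y * y', ?_⟩
    push_cast
    linear_combination (y * y' : ℂ) * om_sq
  one_mem' := ⟨1, 0, by simp⟩
  add_mem' := by
    rintro _ _ ⟨x, y, rfl⟩ ⟨x', y', rfl⟩
    exact ⟨x + x', y + y', by push_cast; ring⟩
  zero_mem' := ⟨0, 0, by simp⟩
  neg_mem' := by
    rintro _ ⟨x, y, rfl⟩
    exact ⟨-x, -y, by push_cast; ring⟩

theorem mem_Oe {z : ℂ} : z ∈ Oe ↔ ∃ x y : ℤ, z = x + y * om := Iff.rfl

theorem om_mem : om ∈ Oe := ⟨0, 1, by simp⟩

theorem s3_mem : s3 ∈ Oe := ⟨1, 2, by rw [s3_eq]; simp⟩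

theorem conj_mem {z : ℂ} (h : z ∈ Oe) : conj z ∈ Oe := by
  obtain ⟨x, y, rfl⟩ := h
  refine ⟨x - y, -y, ?_⟩
  rw [map_add, map_mul, conj_om, map_intCast, map_intCast]
  push_cast; ring

/-- norms of Eisenstein integers -/
theorem normSq_Oe (x y : ℤ) : normSq (x + y * om) = ((x ^ 2 - x * y + y ^ 2 : ℤ) : ℝ) := by
  have h : √3 * √3 = 3 := Real.mul_self_sqrt (by norm_num)
  rw [Complex.normSq_apply]
  simp only [om, Complex.add_re, Complex.add_im, Complex.mul_re, Complex.mul_im, Complex.intCast_re,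
    Complex.intCast_im]
  push_cast
  nlinarith

/-- the homomorphism `SL(2, Oe) → GL(2, ℂ)` -/
noncomputable def toGL : SL(2, Oe) →* GL (Fin 2) ℂ :=
  Matrix.SpecialLinearGroup.toGL.comp (Matrix.SpecialLinearGroup.map Oe.subtype)

theorem toGL_apply (g : SL(2, Oe)) (i j : Fin 2) : (toGL g) i j = (g i j : ℂ) := rfl

noncomputable instance : MulAction SL(2, Oe) H3 := MulAction.compHom H3 toGL

theorem smul_def (g : SL(2, Oe)) (w : H3) : g • w = toGL g • w := rfl

/-- the principal congruence subgroup -/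
def Gam (N : ℕ) : Subgroup SL(2, Oe) where
  carrier := {g | ∀ i j, ((N : ℕ) : Oe) ∣ (g i j - (1 : Matrix (Fin 2) (Fin 2) Oe) i j)}
  mul_mem' := by
    intro g h hg hh i j
    have e1 : ((g * h : SL(2, Oe)) : Matrix (Fin 2) (Fin 2) Oe) i j -
        (1 : Matrix (Fin 2) (Fin 2) Oe) i j =
        ∑ k, (g i k - (1 : Matrix (Fin 2) (Fin 2) Oe) i k) * h k j +
          (h i j - (1 : Matrix (Fin 2) (Fin 2) Oe) i j) := by
      have e2 : ∑ k, (g i k - (1 : Matrix (Fin 2) (Fin 2) Oe) i k) * h k j =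
          ((g : Matrix (Fin 2) (Fin 2) Oe) * h) i j -
            ((1 : Matrix (Fin 2) (Fin 2) Oe) * (h : Matrix (Fin 2) (Fin 2) Oe)) i j := by
        rw [Matrix.mul_apply, Matrix.mul_apply, ← Finset.sum_sub_distrib]
        exact Finset.sum_congr rfl fun k _ => sub_mul _ _ _
      rw [e2, Matrix.SpecialLinearGroup.coe_mul, Matrix.one_mul]
      ring
    show _ ∣ ((g * h : SL(2, Oe)) : Matrix (Fin 2) (Fin 2) Oe) i j - _
    rw [e1]
    exact dvd_add (Finset.dvd_sum fun k _ => (hg i k).mul_right _) (hh i j)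
  one_mem' := by
    intro i j
    rw [Matrix.SpecialLinearGroup.coe_one, sub_self]
    exact dvd_zero _
  inv_mem' := by
    intro g hg i j
    rw [Matrix.SpecialLinearGroup.coe_inv, Matrix.adjugate_fin_two]
    fin_cases i <;> fin_cases j
    · simpa using hg 1 1
    · simpa using hg 0 1
    · simpa using hg 1 0
    · simpa using hg 0 0

theorem mem_Gam {N : ℕ} {g : SL(2, Oe)} : g ∈ Gam N ↔
    ∀ i j, ((N : ℕ) : Oe) ∣ (g i j - (1 : Matrix (Fin 2) (Fin 2) Oe) i j) := Iff.rfl

/-! ### Hermitian matrices -/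

/-- Hermitian matrices `(a, b; conj b, d)` as triples `(a, d, b)` -/
abbrev HM := ℝ × ℝ × ℂ

namespace HM

/-- the quadratic form `|b|² - a d` -/
def q (X : HM) : ℝ := normSq X.2.2 - X.1 * X.2.1

/-- the polar form `B X Y = q (X + Y) - q X - q Y` -/
def B (X Y : HM) : ℝ := 2 * (X.2.2 * conj Y.2.2).re - X.1 * Y.2.1 - Y.1 * X.2.1

theorem q_add (X Y : HM) : q (X + Y) = q X + q Y + B X Y := by
  simp only [q, B, Prod.fst_add, Prod.snd_add, Complex.normSq_apply, Complex.add_re, Complex.add_im,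
    Complex.mul_re, Complex.conj_re, Complex.conj_im]
  ring

theorem B_self (X : HM) : B X X = 2 * q X := by
  simp only [q, B, Complex.normSq_apply, Complex.mul_re, Complex.conj_re, Complex.conj_im]
  ring

theorem B_comm (X Y : HM) : B X Y = B Y X := by
  simp only [B, Complex.mul_re, Complex.conj_re, Complex.conj_im]
  ring

theorem B_add_left (X X' Y : HM) : B (X + X') Y = B X Y + B X' Y := by
  simp only [B, Prod.fst_add, Prod.snd_add, Complex.add_re, Complex.add_im,
    Complex.mul_re, Complex.conj_re, Complex.conj_im]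
  ring

theorem B_add_right (X Y Y' : HM) : B X (Y + Y') = B X Y + B X Y' := by
  rw [B_comm, B_add_left, B_comm Y, B_comm Y']

theorem B_smul_left (c : ℝ) (X Y : HM) : B (c • X) Y = c * B X Y := by
  simp only [B, Prod.smul_fst, Prod.smul_snd, Complex.real_smul, smul_eq_mul,
    Complex.mul_re, Complex.mul_im, Complex.conj_re, Complex.conj_im, Complex.ofReal_re,
    Complex.ofReal_im]
  ring

theorem B_smul_right (c : ℝ) (X Y : HM) : B X (c • Y) = c * B X Y := by
  rw [B_comm, B_smul_left, B_comm]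

theorem B_neg_left (X Y : HM) : B (-X) Y = -B X Y := by
  rw [← neg_one_smul ℝ X, B_smul_left, neg_one_mul]

theorem B_neg_right (X Y : HM) : B X (-Y) = -B X Y := by
  rw [B_comm, B_neg_left, B_comm]

theorem q_smul (c : ℝ) (X : HM) : q (c • X) = c ^ 2 * q X := by
  simp only [q, Prod.smul_fst, Prod.smul_snd, Complex.real_smul, smul_eq_mul, map_mul,
    Complex.normSq_ofReal]
  ring

theorem q_neg (X : HM) : q (-X) = q X := by
  rw [← neg_one_smul ℝ X, q_smul]; norm_num

/-- `t w X = tr(X Y_w⁻¹) / 2` -/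
noncomputable def t (w : H3) (X : HM) : ℝ :=
  (X.1 - 2 * (X.2.2 * conj w.z).re + X.2.1 * normSq w.z + X.2.1 * w.y ^ 2) / (2 * w.y)

theorem t_add (w : H3) (X Y : HM) : t w (X + Y) = t w X + t w Y := by
  simp only [t, Prod.fst_add, Prod.snd_add, Complex.add_re, Complex.add_im,
    Complex.mul_re, Complex.conj_re, Complex.conj_im]
  ring

theorem t_smul (w : H3) (c : ℝ) (X : HM) : t w (c • X) = c * t w X := by
  simp only [t, Prod.smul_fst, Prod.smul_snd, Complex.real_smul, smul_eq_mul,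
    Complex.mul_re, Complex.mul_im, Complex.conj_re, Complex.conj_im, Complex.ofReal_re,
    Complex.ofReal_im]
  ring

theorem t_neg (w : H3) (X : HM) : t w (-X) = -t w X := by
  rw [← neg_one_smul ℝ X, t_smul, neg_one_mul]

/-- the majorant -/
noncomputable def Q (w : H3) (X : HM) : ℝ := q X + 2 * t w X ^ 2

theorem Q_smul (w : H3) (c : ℝ) (X : HM) : Q w (c • X) = c ^ 2 * Q w X := by
  rw [Q, Q, q_smul, t_smul]; ring

/-- the majorant as a sum of squares -/
theorem Q_eq (w : H3) (X : HM) : Q w X = normSq (X.2.2 - X.2.1 * w.z) +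
    (X.1 - 2 * (X.2.2 * conj w.z).re + X.2.1 * normSq w.z) ^ 2 / (2 * w.y ^ 2) +
    X.2.1 ^ 2 * w.y ^ 2 / 2 := by
  have hy : w.y ≠ 0 := w.pos.ne'
  simp only [Q, q, t, Complex.normSq_apply, Complex.sub_re, Complex.sub_im, Complex.mul_re,
    Complex.mul_im, Complex.conj_re, Complex.conj_im, Complex.ofReal_re, Complex.ofReal_im]
  field_simp
  ring

theorem Q_nonneg (w : H3) (X : HM) : 0 ≤ Q w X := by
  rw [Q_eq]
  have := Complex.normSq_nonneg (X.2.2 - X.2.1 * w.z)
  positivity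

/-- the matrix -/
def mat (X : HM) : Matrix (Fin 2) (Fin 2) ℂ := !![(X.1 : ℂ), X.2.2; conj X.2.2, (X.2.1 : ℂ)]

/-- the action of matrices, `X ↦ g X g*` -/
noncomputable def actM (g : Matrix (Fin 2) (Fin 2) ℂ) (X : HM) : HM :=
  (normSq (g 0 0) * X.1 + 2 * (g 0 0 * X.2.2 * conj (g 0 1)).re + normSq (g 0 1) * X.2.1,
   normSq (g 1 0) * X.1 + 2 * (g 1 0 * X.2.2 * conj (g 1 1)).re + normSq (g 1 1) * X.2.1,
   X.1 * g 0 0 * conj (g 1 0) + g 0 0 * X.2.2 * conj (g 1 1) + g 0 1 * conj X.2.2 * conj (g 1 0) +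
    X.2.1 * g 0 1 * conj (g 1 1))

theorem mat_injective : Function.Injective mat := by
  intro X Y h
  have h0 := congrFun (congrFun h 0) 0
  have h1 := congrFun (congrFun h 1) 1
  have h2 := congrFun (congrFun h 0) 1
  simp only [mat, Matrix.of_apply, Matrix.cons_val', Matrix.cons_val_zero, Matrix.cons_val_one,
    Matrix.cons_val_fin_one, Complex.ofReal_inj] at h0 h1 h2
  exact Prod.ext h0 (Prod.ext h1 h2)

theorem mat_actM (g : Matrix (Fin 2) (Fin 2) ℂ) (X : HM) : mat (actM g X) = g * mat X * gᴴ := by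
  ext i j
  fin_cases i <;> fin_cases j
  all_goals
    apply Complex.ext <;>
    · simp only [mat, actM, Fin.zero_eta, Fin.mk_one, Fin.isValue, Matrix.of_apply, Matrix.cons_val',
        Matrix.cons_val_zero, Matrix.cons_val_one, Matrix.cons_val_fin_one, Matrix.mul_apply,
        Fin.sum_univ_two, Matrix.conjTranspose_apply, RCLike.star_def, Complex.ofReal_add,
        Complex.ofReal_mul, Complex.add_re, Complex.add_im, Complex.mul_re, Complex.mul_im,
        Complex.ofReal_re, Complex.ofReal_im, Complex.conj_re, Complex.conj_im,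
        Complex.normSq_apply, Complex.ofReal_ofNat, Complex.re_ofNat, Complex.im_ofNat, map_add,
        map_mul]
      ring

theorem actM_mul (g h : Matrix (Fin 2) (Fin 2) ℂ) (X : HM) :
    actM (g * h) X = actM g (actM h X) := by
  apply mat_injective
  rw [mat_actM, mat_actM, mat_actM, Matrix.conjTranspose_mul]
  simp only [Matrix.mul_assoc]

theorem actM_one (X : HM) : actM 1 X = X := by
  apply mat_injective
  rw [mat_actM, Matrix.conjTranspose_one, Matrix.one_mul, Matrix.mul_one]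

theorem det_mat (X : HM) : (mat X).det = ((-q X : ℝ) : ℂ) := by
  rw [Matrix.det_fin_two]
  simp only [mat, q, Matrix.of_apply, Matrix.cons_val', Matrix.cons_val_zero, Matrix.cons_val_one,
    Matrix.cons_val_fin_one]
  rw [Complex.mul_conj]
  push_cast
  ring

theorem q_actM (g : Matrix (Fin 2) (Fin 2) ℂ) (X : HM) : q (actM g X) = normSq g.det * q X := by
  have h := det_mat (actM g X)
  rw [mat_actM, Matrix.det_mul, Matrix.det_mul, Matrix.det_conjTranspose, det_mat] at h
  have h2 : g.det * ((-q X : ℝ) : ℂ) * star g.det = ((normSq g.det * (-q X) : ℝ) : ℂ) := by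
    rw [Complex.ofReal_mul, ← Complex.mul_conj, RCLike.star_def]
    ring
  rw [h2] at h
  have h3 : normSq g.det * (-q X) = -q (actM g X) := by exact_mod_cast h
  linarith

theorem actM_add (g : Matrix (Fin 2) (Fin 2) ℂ) (X Y : HM) :
    actM g (X + Y) = actM g X + actM g Y := by
  refine Prod.ext ?_ (Prod.ext ?_ ?_)
  · simp only [actM, Prod.fst_add, Prod.snd_add, Complex.add_re, Complex.add_im,
      Complex.mul_re, Complex.mul_im, Complex.conj_re, Complex.conj_im]
    ring
  · simp only [actM, Prod.fst_add, Prod.snd_add, Complex.add_re, Complex.add_im,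
      Complex.mul_re, Complex.mul_im, Complex.conj_re, Complex.conj_im]
    ring
  · simp only [actM, Prod.fst_add, Prod.snd_add, map_add, Complex.ofReal_add]
    ring

theorem actM_smul (g : Matrix (Fin 2) (Fin 2) ℂ) (c : ℝ) (X : HM) :
    actM g (c • X) = c • actM g X := by
  refine Prod.ext ?_ (Prod.ext ?_ ?_)
  · simp only [actM, Prod.smul_fst, Prod.smul_snd, Complex.real_smul, smul_eq_mul,
      Complex.mul_re, Complex.mul_im, Complex.conj_re, Complex.conj_im, Complex.ofReal_re,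
      Complex.ofReal_im]
    ring
  · simp only [actM, Prod.smul_fst, Prod.smul_snd, Complex.real_smul, smul_eq_mul,
      Complex.mul_re, Complex.mul_im, Complex.conj_re, Complex.conj_im, Complex.ofReal_re,
      Complex.ofReal_im]
    ring
  · simp only [actM, Prod.smul_fst, Prod.smul_snd, Complex.real_smul, smul_eq_mul, map_mul,
      Complex.conj_ofReal, Complex.ofReal_mul]
    ring

theorem actM_neg (g : Matrix (Fin 2) (Fin 2) ℂ) (X : HM) : actM g (-X) = -actM g X := by
  rw [← neg_one_smul ℝ X, actM_smul, neg_one_smul]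

theorem B_actM (g : Matrix (Fin 2) (Fin 2) ℂ) (X Y : HM) :
    B (actM g X) (actM g Y) = normSq g.det * B X Y := by
  have h1 := q_add (actM g X) (actM g Y)
  have h2 := q_add X Y
  rw [← actM_add, q_actM, q_actM, q_actM] at h1
  have h3 : B X Y = q (X + Y) - q X - q Y := by linarith
  rw [h3]
  linarith

/-- `2 t` as a trace -/
theorem trace_adj (w : H3) (X : HM) :
    (mat X * (H3.hm w).adjugate).trace = ((2 * t w X : ℝ) : ℂ) := by
  have h1 : (w.y : ℂ) ≠ 0 := by exact_mod_cast w.pos.ne'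
  have h2 : w.y ≠ 0 := w.pos.ne'
  rw [Matrix.adjugate_fin_two, Matrix.trace_fin_two]
  have e1 : (2 * t w X : ℝ) = (X.1 - 2 * (X.2.2 * conj w.z).re + X.2.1 * normSq w.z +
      X.2.1 * w.y ^ 2) / w.y := by
    rw [t]; field_simp
  rw [e1]
  simp only [mat, H3.hm, Matrix.mul_apply, Fin.sum_univ_two, Matrix.of_apply, Matrix.cons_val',
    Matrix.cons_val_zero, Matrix.cons_val_one, Matrix.cons_val_fin_one]
  have e2 : (2 * ((X.2.2 * conj w.z).re : ℝ) : ℂ) = X.2.2 * conj w.z + conj X.2.2 * w.z := by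
    have := Complex.add_conj (X.2.2 * conj w.z)
    rw [map_mul, Complex.conj_conj] at this
    rw [this]; push_cast; ring
  push_cast
  rw [← Complex.mul_conj', ← Complex.mul_conj]
  field_simp
  linear_combination e2

/-- **equivariance of `t`** -/
theorem t_smul_actM (g : GL (Fin 2) ℂ) (w : H3) (X : HM) :
    t (g • w) (actM g X) = ‖(g : Matrix (Fin 2) (Fin 2) ℂ).det‖ * t w X := by
  have hd : (g : Matrix (Fin 2) (Fin 2) ℂ).det ≠ 0 := g.det_ne_zero
  have hn : ((‖(g : Matrix (Fin 2) (Fin 2) ℂ).det‖ : ℝ) : ℂ) ≠ 0 := by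
    exact_mod_cast norm_ne_zero_iff.mpr hd
  have h := trace_adj (g • w) (actM g X)
  rw [mat_actM, H3.hm_smul, Matrix.adjugate_smul, Matrix.adjugate_mul_distrib,
    Matrix.adjugate_mul_distrib] at h
  simp only [Fintype.card_fin, Nat.add_one_sub_one, pow_one, Matrix.mul_smul,
      Matrix.trace_smul, smul_eq_mul] at h
  have e1 : ((g : Matrix (Fin 2) (Fin 2) ℂ) * mat X * (g : Matrix (Fin 2) (Fin 2) ℂ)ᴴ *
      (adjugate ((g : Matrix (Fin 2) (Fin 2) ℂ)ᴴ) *
        (adjugate (H3.hm w) * adjugate (g : Matrix (Fin 2) (Fin 2) ℂ)))).trace =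
      (g : Matrix (Fin 2) (Fin 2) ℂ).det * conj (g : Matrix (Fin 2) (Fin 2) ℂ).det *
        (mat X * adjugate (H3.hm w)).trace := by
    have e2 : (g : Matrix (Fin 2) (Fin 2) ℂ) * mat X * (g : Matrix (Fin 2) (Fin 2) ℂ)ᴴ *
      (adjugate ((g : Matrix (Fin 2) (Fin 2) ℂ)ᴴ) *
        (adjugate (H3.hm w) * adjugate (g : Matrix (Fin 2) (Fin 2) ℂ))) =
        (g : Matrix (Fin 2) (Fin 2) ℂ) * (mat X * ((g : Matrix (Fin 2) (Fin 2) ℂ)ᴴ *
          adjugate ((g : Matrix (Fin 2) (Fin 2) ℂ)ᴴ)) * adjugate (H3.hm w)) *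
          adjugate (g : Matrix (Fin 2) (Fin 2) ℂ) := by
      simp only [Matrix.mul_assoc]
    rw [e2, Matrix.trace_mul_comm, ← Matrix.mul_assoc, Matrix.adjugate_mul, Matrix.mul_adjugate,
      Matrix.det_conjTranspose]
    simp only [Matrix.mul_smul, Matrix.smul_mul, Matrix.mul_one, Matrix.one_mul,
      Matrix.trace_smul, smul_eq_mul, RCLike.star_def]
    ring
  rw [e1, Complex.mul_conj', trace_adj] at h
  have h2 : ((2 * t (g • w) (actM g X) : ℝ) : ℂ) =
      ((‖(g : Matrix (Fin 2) (Fin 2) ℂ).det‖ * (2 * t w X) : ℝ) : ℂ) := by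
    rw [← h]
    push_cast
    field_simp
  have h3 : 2 * t (g • w) (actM g X) = ‖(g : Matrix (Fin 2) (Fin 2) ℂ).det‖ * (2 * t w X) := by
    exact_mod_cast h2
  linarith

end HM

open HM

/-! ### kernels and theta functions -/

/-- the polynomial factor: `P 0 s = 1`, `P 1 s = 1/2 - 4 π s` -/
noncomputable def P (m : Fin 2) (s : ℝ) : ℝ := if m = 0 then 1 else 1 / 2 - 4 * π * s

/-- the kernel -/
noncomputable def ker (m : Fin 2) (τ : UpperHalfPlane) (w : H3) (X : HM) : ℂ :=
  (√τ.im * P m (τ.im * t w X ^ 2) * Real.exp (-2 * π * τ.im * Q w X) : ℝ) * e (τ.re * q X)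

/-- integral coordinates: `ℝ⁴ → HM`, `k ↦ (k₀, k₁; k₂ + k₃ ω)` -/
noncomputable def cr (x : Fin 4 → ℝ) : HM := (x 0, x 1, x 2 + x 3 * om)

/-- generator of the dual lattice modulo the lattice -/
noncomputable def dl : HM := (0, 0, s3⁻¹)

/-- lattice points of `L + j δ` -/
noncomputable def lp (j : ℤ) (k : Fin 4 → ℤ) : HM := cr (fun i => (k i : ℝ)) + (j : ℝ) • dl

/-- **The theta functions with real characteristics.** -/
noncomputable def th (m : Fin 2) (j : ℤ) (τ : UpperHalfPlane) (w : H3) (X0 Y0 : HM) : ℂ :=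
  ∑' k : Fin 4 → ℤ, ker m τ w (lp j k - X0) * e ((B (lp j k) Y0 - B X0 Y0 / 2 : ℝ))

/-- the lattice `L` of integral Hermitian matrices -/
def Lat : AddSubgroup HM where
  carrier := {X | (∃ a : ℤ, X.1 = a) ∧ (∃ d : ℤ, X.2.1 = d) ∧ X.2.2 ∈ Oe}
  add_mem' := by
    rintro X Y ⟨⟨a, ha⟩, ⟨d, hd⟩, hb⟩ ⟨⟨a', ha'⟩, ⟨d', hd'⟩, hb'⟩
    exact ⟨⟨a + a', by rw [Prod.fst_add, ha, ha']; push_cast; ring⟩,
      ⟨d + d', by rw [Prod.snd_add, Prod.fst_add, hd, hd']; push_cast; ring⟩,
      by rw [Prod.snd_add, Prod.snd_add]; exact Oe.add_mem hb hb'⟩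
  zero_mem' := ⟨⟨0, by simp⟩, ⟨0, by simp⟩, by simp [Oe.zero_mem]⟩
  neg_mem' := by
    rintro X ⟨⟨a, ha⟩, ⟨d, hd⟩, hb⟩
    exact ⟨⟨-a, by rw [Prod.fst_neg, ha]; push_cast; ring⟩,
      ⟨-d, by rw [Prod.snd_neg, Prod.fst_neg, hd]; push_cast; ring⟩,
      by rw [Prod.snd_neg, Prod.snd_neg]; exact Oe.neg_mem hb⟩

/-- the base point `x0 = (0, 1; 1, 0)` -/
noncomputable def x0 : HM := (0, 0, 1)

/-- the theta kernel of level `N`: the sum over `x0 + N L` -/
noncomputable def TN (m : Fin 2) (N : ℕ) (τ : UpperHalfPlane) (w : H3) : ℂ :=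
  ∑' k : Fin 4 → ℤ, ker m τ w (x0 + (N : ℝ) • lp 0 k)

/-- **Input of the theta lift.** -/
structure Input (N : ℕ) (φ : H3 → ℂ) : Prop where
  cont : Continuous φ
  inv : ∀ g ∈ Gam N, ∀ w : H3, φ (g • w) = φ w
  decay : ∃ C : ℝ, ∀ g : SL(2, Oe), ∀ w : H3, 1 / 2 ≤ w.y → ‖w.z‖ ≤ 1 →
    ‖φ (g • w)‖ ≤ C / w.y ^ 2
  mean : ∀ k : ℝ → ℝ, Continuous k → HasCompactSupport k → ∀ w : H3,
    ∫ w' : H3, (k (H3.cd w w') : ℂ) * φ w' =
      ((4 * π * ∫ r in Set.Ioi (0 : ℝ), k (Real.cosh r) * (r * Real.sinh r) : ℝ) : ℂ) * φ w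

end Fermat.Agent.LT.Th
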