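import Mathlib

set_option autoImplicit false

/-!
# One dimensional Gaussian integrals with a quadratic factor
-/

namespace Fermat.Agent.LT.Th

open Complex MeasureTheory
open scoped Real ComplexConjugate

section moments

variable {b : ℂ} (hb : 0 < b.re) (c : ℂ)

include hb

theorem integrable_sq_mul_cexp :
    Integrable (fun x : ℝ => (x : ℂ) ^ 2 * cexp (-b * x ^ 2 + c * x)) := by
  have hb2 : 0 < (b / 2).re := by
    have : (b / 2).re = b.re / 2 := by simp
    rw [this]; linarith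
  have h1 := (integrable_cexp_quadratic hb2 c 0).norm.const_mul (2 / b.re)
  refine h1.mono' (by fun_prop) (Filter.Eventually.of_forall fun x => ?_)
  have h2 : ‖cexp (-b * x ^ 2 + c * x)‖ = Real.exp (-(b.re / 2) * x ^ 2) *
      ‖cexp (-(b / 2) * x ^ 2 + c * x + 0)‖ := by
    rw [Complex.norm_exp, Complex.norm_exp, ← Real.exp_add]
    congr 1
    simp only [add_re, mul_re, neg_re, neg_im, ← ofReal_pow, ofReal_re, ofReal_im, mul_zero,
      sub_zero, add_zero]
    have : (b / 2).re = b.re / 2 := by simp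
    rw [this]
    ring
  rw [norm_mul, h2, norm_pow, norm_real, Real.norm_eq_abs, sq_abs, ← mul_assoc]
  apply mul_le_mul_of_nonneg_right _ (norm_nonneg _)
  have h3 : b.re / 2 * x ^ 2 + 1 ≤ Real.exp (b.re / 2 * x ^ 2) := Real.add_one_le_exp _
  have h4 : Real.exp (b.re / 2 * x ^ 2) * Real.exp (-(b.re / 2) * x ^ 2) = 1 := by
    rw [← Real.exp_add, neg_mul, add_neg_cancel, Real.exp_zero]
  have h5 := Real.exp_pos (-(b.re / 2) * x ^ 2)
  have h6 : x ^ 2 ≤ 2 / b.re * Real.exp (b.re / 2 * x ^ 2) := by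
    rw [div_mul_eq_mul_div, le_div_iff₀ hb]
    nlinarith
  calc x ^ 2 * Real.exp (-(b.re / 2) * x ^ 2)
      ≤ 2 / b.re * Real.exp (b.re / 2 * x ^ 2) * Real.exp (-(b.re / 2) * x ^ 2) :=
        mul_le_mul_of_nonneg_right h6 h5.le
    _ = 2 / b.re := by rw [mul_assoc, h4, mul_one]

theorem integrable_cexp' : Integrable (fun x : ℝ => cexp (-b * x ^ 2 + c * x)) := by
  have := integrable_cexp_quadratic hb c 0
  simpa using this

theorem integrable_id_mul_cexp :
    Integrable (fun x : ℝ => (x : ℂ) * cexp (-b * x ^ 2 + c * x)) := by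
  have h1 := ((integrable_cexp' hb c).norm).add (integrable_sq_mul_cexp hb c).norm
  refine h1.mono' (by fun_prop) (Filter.Eventually.of_forall fun x => ?_)
  simp only [Pi.add_apply]
  rw [norm_mul, norm_mul, norm_pow, norm_real]
  have h2 := norm_nonneg (cexp (-b * x ^ 2 + c * x))
  have h3 : ‖x‖ ≤ 1 + ‖x‖ ^ 2 := by nlinarith [sq_nonneg (‖x‖ - 1), norm_nonneg x]
  nlinarith

theorem integral_cexp' : ∫ x : ℝ, cexp (-b * x ^ 2 + c * x) =
    (π / b) ^ (1 / 2 : ℂ) * cexp (c ^ 2 / (4 * b)) := by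
  have h := integral_cexp_quadratic (b := -b) (by simpa using hb) c 0
  rw [neg_neg] at h
  have h2 : (0 : ℂ) - c ^ 2 / (4 * -b) = c ^ 2 / (4 * b) := by
    rw [mul_neg, div_neg, zero_sub, neg_neg]
  rw [h2] at h
  rw [← h]
  simp

theorem integral_id_mul_cexp : ∫ x : ℝ, (x : ℂ) * cexp (-b * x ^ 2 + c * x) =
    c / (2 * b) * ∫ x : ℝ, cexp (-b * x ^ 2 + c * x) := by
  have hb0 : b ≠ 0 := fun h => by rw [h] at hb; simp at hb
  have hder : ∀ x : ℝ, HasDerivAt (fun x : ℝ => cexp (-b * x ^ 2 + c * x))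
      ((-2 * b * x + c) * cexp (-b * x ^ 2 + c * x)) x := by
    intro x
    have h1 : HasDerivAt (fun x : ℝ => (x : ℂ)) 1 x := (hasDerivAt_id x).ofReal_comp
    have h2 : HasDerivAt (fun x : ℝ => -b * (x : ℂ) ^ 2 + c * (x : ℂ))
        (-b * (2 * x * 1) + c * 1) x := by
      have := (h1.pow 2).const_mul (-b)
      refine (this.add (h1.const_mul c)).congr_deriv ?_
      push_cast
      ring
    have h3 := h2.cexp
    convert h3 using 1
    ring
  have hi : Integrable (fun x : ℝ => (-2 * b * x + c) * cexp (-b * x ^ 2 + c * x)) := by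
    have h1 := ((integrable_id_mul_cexp hb c).const_mul (-2 * b)).add
      ((integrable_cexp' hb c).const_mul c)
    refine h1.congr (Filter.Eventually.of_forall fun x => ?_)
    simp only [Pi.add_apply]
    ring
  have h := integral_eq_zero_of_hasDerivAt_of_integrable hder hi (integrable_cexp' hb c)
  have h2 : ∫ x : ℝ, (-2 * b * x + c) * cexp (-b * x ^ 2 + c * x) =
      -2 * b * (∫ x : ℝ, (x : ℂ) * cexp (-b * x ^ 2 + c * x)) +
        c * ∫ x : ℝ, cexp (-b * x ^ 2 + c * x) := by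
    rw [← integral_const_mul, ← integral_const_mul, ← integral_add
      ((integrable_id_mul_cexp hb c).const_mul _) ((integrable_cexp' hb c).const_mul _)]
    congr 1
    funext x
    ring
  rw [h2] at h
  generalize (∫ x : ℝ, (x : ℂ) * cexp (-b * x ^ 2 + c * x)) = J1 at h ⊢
  generalize (∫ x : ℝ, cexp (-b * x ^ 2 + c * x)) = J0 at h ⊢
  field_simp
  linear_combination -h

theorem integral_sq_mul_cexp : ∫ x : ℝ, (x : ℂ) ^ 2 * cexp (-b * x ^ 2 + c * x) =
    (1 / (2 * b) + c ^ 2 / (4 * b ^ 2)) * ∫ x : ℝ, cexp (-b * x ^ 2 + c * x) := by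
  have hb0 : b ≠ 0 := fun h => by rw [h] at hb; simp at hb
  have hder : ∀ x : ℝ, HasDerivAt (fun x : ℝ => (x : ℂ) * cexp (-b * x ^ 2 + c * x))
      ((1 + c * x - 2 * b * x ^ 2) * cexp (-b * x ^ 2 + c * x)) x := by
    intro x
    have h1 : HasDerivAt (fun x : ℝ => (x : ℂ)) 1 x := (hasDerivAt_id x).ofReal_comp
    have h2 : HasDerivAt (fun x : ℝ => -b * (x : ℂ) ^ 2 + c * (x : ℂ))
        (-b * (2 * x * 1) + c * 1) x := by
      have := (h1.pow 2).const_mul (-b)
      refine (this.add (h1.const_mul c)).congr_deriv ?_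
      push_cast
      ring
    refine (h1.mul h2.cexp).congr_deriv ?_
    ring
  have hi : Integrable (fun x : ℝ => (1 + c * x - 2 * b * x ^ 2) * cexp (-b * x ^ 2 + c * x)) := by
    have h1 := ((integrable_cexp' hb c).add ((integrable_id_mul_cexp hb c).const_mul c)).sub
      ((integrable_sq_mul_cexp hb c).const_mul (2 * b))
    refine h1.congr (Filter.Eventually.of_forall fun x => ?_)
    simp only [Pi.add_apply, Pi.sub_apply]
    ring
  have h := integral_eq_zero_of_hasDerivAt_of_integrable hder hi (integrable_id_mul_cexp hb c)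
  have h2 : ∫ x : ℝ, (1 + c * x - 2 * b * x ^ 2) * cexp (-b * x ^ 2 + c * x) =
      (∫ x : ℝ, cexp (-b * x ^ 2 + c * x)) +
      c * (∫ x : ℝ, (x : ℂ) * cexp (-b * x ^ 2 + c * x)) -
        2 * b * ∫ x : ℝ, (x : ℂ) ^ 2 * cexp (-b * x ^ 2 + c * x) := by
    rw [← integral_const_mul, ← integral_const_mul, ← integral_add (integrable_cexp' hb c)
      ((integrable_id_mul_cexp hb c).const_mul _)]
    refine Eq.trans ?_ (integral_sub ((integrable_cexp' hb c).add
      ((integrable_id_mul_cexp hb c).const_mul c))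
      ((integrable_sq_mul_cexp hb c).const_mul (2 * b)))
    congr 1
    funext x
    ring
  rw [h2, integral_id_mul_cexp hb c] at h
  generalize (∫ x : ℝ, (x : ℂ) ^ 2 * cexp (-b * x ^ 2 + c * x)) = J2 at h ⊢
  generalize (∫ x : ℝ, cexp (-b * x ^ 2 + c * x)) = J0 at h ⊢
  field_simp at h ⊢
  linear_combination -2 * h

end moments

/-- `(−2iτ)^{-1/2}` -/
noncomputable def gτ (τ : ℂ) : ℂ := (1 / (-2 * I * τ)) ^ (1 / 2 : ℂ)

theorem re_pos_of_im (τ : ℂ) (hτ : 0 < τ.im) : 0 < (-2 * π * I * τ).re := by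
  have : (-2 * π * I * τ).re = 2 * π * τ.im := by
    simp [mul_re]
  rw [this]
  positivity

theorem re_pos_of_im' (τ : ℂ) (hτ : 0 < τ.im) : 0 < (2 * π * I * conj τ).re := by
  have : (2 * π * I * conj τ).re = 2 * π * τ.im := by
    simp [mul_re]
  rw [this]
  positivity

/-- the Gaussian `e(τ x²)` -/
theorem integral_gauss0 {τ : ℂ} (hτ : 0 < τ.im) (η : ℝ) :
    ∫ x : ℝ, cexp (2 * π * I * (τ * x ^ 2 - 2 * x * η)) =
      gτ τ * cexp (2 * π * I * (-η ^ 2 / τ)) := by
  have hτ0 : τ ≠ 0 := fun h => by rw [h] at hτ; simp at hτ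
  have hpi : (π : ℂ) ≠ 0 := ofReal_ne_zero.mpr Real.pi_ne_zero
  have h := integral_cexp' (re_pos_of_im τ hτ) (-4 * π * I * η)
  have h1 : ∀ x : ℝ, cexp (2 * π * I * (τ * x ^ 2 - 2 * x * η)) =
      cexp (-(-2 * π * I * τ) * x ^ 2 + (-4 * π * I * η) * x) := fun x => by
    congr 1; ring
  simp_rw [h1]
  rw [h, gτ]
  congr 1
  · congr 1
    field_simp
  · congr 1
    have hI : I ^ 2 = -1 := I_sq
    field_simp
    try ring

theorem integral_gauss0' {τ : ℂ} (hτ : 0 < τ.im) (η : ℝ) :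
    ∫ x : ℝ, cexp (-(2 * π * I * (conj τ * x ^ 2 - 2 * x * η))) =
      conj (gτ τ) * cexp (2 * π * I * (η ^ 2 / conj τ)) := by
  have h := congrArg conj (integral_gauss0 hτ η)
  rw [← integral_conj, map_mul, ← Complex.exp_conj] at h
  simp_rw [← Complex.exp_conj] at h
  have e1 : ∀ x : ℝ, cexp (-(2 * π * I * (conj τ * x ^ 2 - 2 * x * η))) =
      cexp (conj (2 * π * I * (τ * x ^ 2 - 2 * x * η))) := fun x => by
    congr 1
    simp only [map_mul, map_sub, map_pow, conj_I, conj_ofReal, map_ofNat]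
    ring
  have e2 : cexp (2 * π * I * (η ^ 2 / conj τ)) = cexp (conj (2 * π * I * (-η ^ 2 / τ))) := by
    congr 1
    simp only [map_mul, map_neg, map_div₀, map_pow, conj_I, conj_ofReal, map_ofNat]
    ring
  simp_rw [e1]
  rw [e2]
  exact h

/-- the Gaussian with the quadratic factor of weight `-1` -/
theorem integral_gauss1' {τ : ℂ} (hτ : 0 < τ.im) (η : ℝ) :
    ∫ x : ℝ, (1 / 2 - 4 * π * τ.im * x ^ 2) * cexp (-(2 * π * I * (conj τ * x ^ 2 - 2 * x * η))) =
      (τ / conj τ) * (1 / 2 - 4 * π * (τ.im / ‖τ‖ ^ 2 : ℝ) * η ^ 2) *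
        (conj (gτ τ) * cexp (2 * π * I * (η ^ 2 / conj τ))) := by
  have hτ0 : τ ≠ 0 := fun h => by rw [h] at hτ; simp at hτ
  have hc0 : conj τ ≠ 0 := (map_ne_zero _).mpr hτ0
  have hpi : (π : ℂ) ≠ 0 := ofReal_ne_zero.mpr Real.pi_ne_zero
  have hb := re_pos_of_im' τ hτ
  have e1 : ∀ x : ℝ, cexp (-(2 * π * I * (conj τ * x ^ 2 - 2 * x * η))) =
      cexp (-(2 * π * I * conj τ) * x ^ 2 + (4 * π * I * η) * x) := fun x => by
    congr 1; ring
  have h0 := integral_gauss0' hτ η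
  simp_rw [e1] at h0 ⊢
  have h1 := integral_sq_mul_cexp hb (4 * π * I * η)
  rw [h0] at h1
  have h2 : ∫ x : ℝ, (1 / 2 - 4 * π * τ.im * (x : ℂ) ^ 2) *
      cexp (-(2 * π * I * conj τ) * x ^ 2 + (4 * π * I * η) * x) =
      1 / 2 * (∫ x : ℝ, cexp (-(2 * π * I * conj τ) * x ^ 2 + (4 * π * I * η) * x)) -
      4 * π * τ.im * ∫ x : ℝ, (x : ℂ) ^ 2 *
        cexp (-(2 * π * I * conj τ) * x ^ 2 + (4 * π * I * η) * x) := by
    rw [← integral_const_mul, ← integral_const_mul]
    refine Eq.trans ?_ (integral_sub ((integrable_cexp' hb _).const_mul (1 / 2 : ℂ))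
      ((integrable_sq_mul_cexp hb _).const_mul (4 * π * τ.im : ℂ)))
    congr 1
    funext x
    ring
  rw [h2, h0, h1]
  have h3 : (‖τ‖ : ℂ) ^ 2 = τ * conj τ := by
    rw [mul_conj, ← Complex.sq_norm]
    push_cast
    rfl
  have h4 : (τ.im : ℂ) = (τ - conj τ) / (2 * I) := by
    rw [sub_conj]
    field_simp
    push_cast
    ring
  push_cast
  rw [h3, h4]
  have hI : I ≠ 0 := I_ne_zero
  have hI2 : I ^ 2 = -1 := I_sq
  generalize conj (gτ τ) * cexp (2 * π * I * (η ^ 2 / conj τ)) = J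
  generalize conj τ = τ' at *
  field_simp
  ring_nf
  rw [hI2]
  ring

end Fermat.Agent.LT.Th
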