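import Fermat.Agent.LT.Th.Lift

set_option autoImplicit false

/-!
# Reduction theory for `SL(2, Oe)` acting on `H3`, weights
-/

namespace Fermat.Agent.LT.Th

open Matrix ComplexConjugate MeasureTheory Complex HM Set
open scoped Real MatrixGroups ENNReal NNReal

/-- the Siegel set -/
def SS : Set H3 := {w | ‖w.z‖ ≤ 1 ∧ 1 / 2 ≤ w.y}

/-- rounding -/
theorem exists_round (z : ℂ) : ∃ β ∈ Oe, normSq (z - β) ≤ 3 / 4 := by
  have h3 : √3 * √3 = 3 := Real.mul_self_sqrt (by norm_num)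
  have h3' : (0 : ℝ) < √3 := by positivity
  -- real coordinates
  set b : ℝ := 2 * z.im / √3 with hb
  set a : ℝ := z.re + b / 2 with ha
  have hz : z = (a : ℂ) + b * om := by
    apply Complex.ext
    · simp only [om, Complex.add_re, Complex.mul_re, Complex.ofReal_re, Complex.ofReal_im]
      rw [ha]; ring
    · simp only [om, Complex.add_im, Complex.mul_im, Complex.ofReal_re, Complex.ofReal_im]
      rw [hb]; field_simp; ring
  refine ⟨(round a : ℂ) + (round b : ℂ) * om, ⟨_, _, rfl⟩, ?_⟩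
  have h1 := abs_sub_round a
  have h2 := abs_sub_round b
  have e1 : z - ((round a : ℂ) + (round b : ℂ) * om) =
      ((a - round a : ℝ) : ℂ) + ((b - round b : ℝ) : ℂ) * om := by
    rw [hz]; push_cast; ring
  have e2 : ∀ x y : ℝ, normSq ((x : ℂ) + (y : ℂ) * om) = x ^ 2 - x * y + y ^ 2 := by
    intro x y
    rw [Complex.normSq_apply]
    simp only [om, Complex.add_re, Complex.add_im, Complex.mul_re, Complex.mul_im,
      Complex.ofReal_re, Complex.ofReal_im]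
    nlinarith
  rw [e1, e2]
  rw [abs_le] at h1 h2
  nlinarith [mul_nonneg (show 0 ≤ 1/2 - (a - round a) by linarith) (show 0 ≤ 1/2 - (b - round b) by linarith),
    mul_nonneg (show 0 ≤ 1/2 + (a - round a) by linarith) (show 0 ≤ 1/2 + (b - round b) by linarith),
    mul_nonneg (show 0 ≤ 1/2 - (a - round a) by linarith) (show 0 ≤ 1/2 + (a - round a) by linarith),
    mul_nonneg (show 0 ≤ 1/2 - (b - round b) by linarith) (show 0 ≤ 1/2 + (b - round b) by linarith),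
    mul_nonneg (show 0 ≤ 1/2 - (a - round a) by linarith) (show 0 ≤ 1/2 + (b - round b) by linarith),
    mul_nonneg (show 0 ≤ 1/2 + (a - round a) by linarith) (show 0 ≤ 1/2 - (b - round b) by linarith)]

/-- finitely many Eisenstein integers in a ball -/
theorem finite_Oe_ball (R : ℝ) : {z : Oe | ‖(z : ℂ)‖ ≤ R}.Finite := by
  have h3 : √3 * √3 = 3 := Real.mul_self_sqrt (by norm_num)
  have hf : (Set.Icc (-⌈2 * |R|⌉) ⌈2 * |R|⌉ ×ˢ Set.Icc (-⌈2 * |R|⌉) ⌈2 * |R|⌉ : Set (ℤ × ℤ)).Finite :=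
    (Set.finite_Icc _ _).prod (Set.finite_Icc _ _)
  refine (hf.image (fun p : ℤ × ℤ => (⟨(p.1 : ℂ) + p.2 * om, ⟨_, _, rfl⟩⟩ : Oe))).subset ?_
  rintro ⟨z, x, y, rfl⟩ hz
  refine ⟨(x, y), ?_, rfl⟩
  have h1 : normSq ((x : ℂ) + y * om) ≤ R ^ 2 := by
    rw [← Complex.sq_norm]
    have : ‖(x : ℂ) + y * om‖ ≤ R := hz
    have h0 := norm_nonneg ((x : ℂ) + y * om)
    nlinarith
  rw [normSq_Oe] at h1
  push_cast at h1
  have hx : |(x : ℝ)| ≤ 2 * |R| := by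
    apply abs_le_of_sq_le_sq _ (by positivity)
    have : (2 * |R|) ^ 2 = 4 * R ^ 2 := by rw [mul_pow, sq_abs]; ring
    rw [this]
    nlinarith [sq_nonneg ((x : ℝ) - 2 * y)]
  have hy : |(y : ℝ)| ≤ 2 * |R| := by
    apply abs_le_of_sq_le_sq _ (by positivity)
    have : (2 * |R|) ^ 2 = 4 * R ^ 2 := by rw [mul_pow, sq_abs]; ring
    rw [this]
    nlinarith [sq_nonneg (2 * (x : ℝ) - y)]
  rw [abs_le] at hx hy
  have h5 := Int.le_ceil (2 * |R|)
  refine ⟨⟨?_, ?_⟩, ?_, ?_⟩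
  · have : (-(⌈2 * |R|⌉ : ℤ) : ℝ) ≤ x := by linarith
    exact_mod_cast this
  · have : (x : ℝ) ≤ (⌈2 * |R|⌉ : ℤ) := by linarith
    exact_mod_cast this
  · have : (-(⌈2 * |R|⌉ : ℤ) : ℝ) ≤ y := by linarith
    exact_mod_cast this
  · have : (y : ℝ) ≤ (⌈2 * |R|⌉ : ℤ) := by linarith
    exact_mod_cast this

/-- finitely many rows with bounded denominator -/
theorem finite_den (w : H3) (D : ℝ) :
    {p : Oe × Oe | w.den (p.1 : ℂ) (p.2 : ℂ) ≤ D}.Finite := by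
  have hy := w.pos
  set R1 : ℝ := √|D| / w.y with hR1
  set R2 : ℝ := √|D| + R1 * ‖w.z‖ with hR2
  refine ((finite_Oe_ball R1).prod (finite_Oe_ball R2)).subset ?_
  rintro ⟨c, d⟩ h
  have h0 : ‖(c : ℂ) * w.z + d‖ ^ 2 + ‖(c : ℂ)‖ ^ 2 * w.y ^ 2 ≤ |D| :=
    le_trans h (le_abs_self D)
  have hs : √|D| ^ 2 = |D| := Real.sq_sqrt (abs_nonneg D)
  have hc : ‖(c : ℂ)‖ ≤ R1 := by
    rw [hR1, le_div_iff₀ hy]
    apply le_of_sq_le_sq _ (Real.sqrt_nonneg _)
    rw [hs]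
    nlinarith [sq_nonneg ‖(c : ℂ) * w.z + d‖]
  have hd : ‖(c : ℂ) * w.z + d‖ ≤ √|D| := by
    apply le_of_sq_le_sq _ (Real.sqrt_nonneg _)
    rw [hs]
    nlinarith [sq_nonneg (‖(c : ℂ)‖ * w.y)]
  refine ⟨hc, ?_⟩
  have h1 : (d : ℂ) = ((c : ℂ) * w.z + d) - c * w.z := by ring
  show ‖(d : ℂ)‖ ≤ R2
  rw [h1]
  refine (norm_sub_le _ _).trans ?_
  rw [norm_mul]
  have := mul_le_mul_of_nonneg_right hc (norm_nonneg w.z)
  linarith

theorem y_smul_SL (g : SL(2, Oe)) (w : H3) :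
    (g • w).y = w.y / w.den (g 1 0 : ℂ) (g 1 1 : ℂ) := by
  rw [smul_def, H3.smul_y, det_toGL, norm_one, one_mul]
  rfl

theorem row_ne_SL (g : SL(2, Oe)) (i : Fin 2) : (g i 0 : ℂ) ≠ 0 ∨ (g i 1 : ℂ) ≠ 0 :=
  H3.row_ne (toGL g) i

/-- elementary matrices -/
def nM (β : Oe) : SL(2, Oe) := ⟨!![1, β; 0, 1], by simp [Matrix.det_fin_two]⟩

/-- the Weyl element -/
def wM : SL(2, Oe) := ⟨!![0, -1; 1, 0], by simp [Matrix.det_fin_two]⟩

theorem nM_smul (β : Oe) (w : H3) : (nM β • w).z = w.z + β ∧ (nM β • w).y = w.y := by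
  constructor
  · rw [smul_def, H3.smul_z]
    have e0 : (toGL (nM β)) 0 0 = 1 := rfl
    have e1 : (toGL (nM β)) 0 1 = (β : ℂ) := rfl
    have e2 : (toGL (nM β)) 1 0 = 0 := rfl
    have e3 : (toGL (nM β)) 1 1 = 1 := rfl
    rw [e0, e1, e2, e3]
    simp [H3.num, H3.den]
  · rw [y_smul_SL]
    have e2 : ((nM β) 1 0 : ℂ) = 0 := rfl
    have e3 : ((nM β) 1 1 : ℂ) = 1 := rfl
    rw [e2, e3]
    simp [H3.den]

theorem wM_smul_y (w : H3) : (wM • w).y = w.y / (‖w.z‖ ^ 2 + w.y ^ 2) := by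
  rw [y_smul_SL]
  have e2 : (wM 1 0 : ℂ) = 1 := rfl
  have e3 : (wM 1 1 : ℂ) = 0 := rfl
  rw [e2, e3]
  simp [H3.den]

/-- **Reduction theory**: `SL(2, Oe) • SS = H3` -/
theorem exists_smul_mem_SS (w : H3) : ∃ g : SL(2, Oe), g • w ∈ SS := by
  classical
  -- a row with minimal denominator
  have hfin := finite_den w (w.den (0 : ℂ) (1 : ℂ))
  set A : Set (Oe × Oe) := {p | w.den (p.1 : ℂ) (p.2 : ℂ) ≤ w.den (0 : ℂ) (1 : ℂ)} ∩
    {p | ∃ g : SL(2, Oe), g 1 0 = p.1 ∧ g 1 1 = p.2} with hA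
  have hAfin : A.Finite := hfin.subset Set.inter_subset_left
  have hne : A.Nonempty := ⟨(0, 1), by simp, 1, by simp, by simp⟩
  obtain ⟨p, hp, hmin⟩ := Set.exists_min_image A (fun p => w.den (p.1 : ℂ) (p.2 : ℂ)) hAfin hne
  obtain ⟨g, hg0, hg1⟩ := hp.2
  have hmin' : ∀ h : SL(2, Oe), w.den (g 1 0 : ℂ) (g 1 1 : ℂ) ≤ w.den (h 1 0 : ℂ) (h 1 1 : ℂ) := by
    intro h
    rw [hg0, hg1]
    by_cases hh : w.den (h 1 0 : ℂ) (h 1 1 : ℂ) ≤ w.den (0 : ℂ) (1 : ℂ)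
    · exact hmin (h 1 0, h 1 1) ⟨hh, h, rfl, rfl⟩
    · exact hp.1.trans (not_le.mp hh).le
  have hmax : ∀ h : SL(2, Oe), (h • w).y ≤ (g • w).y := by
    intro h
    rw [y_smul_SL, y_smul_SL]
    have h1 := w.den_pos (row_ne_SL g 1)
    have h2 := w.pos
    exact div_le_div_of_nonneg_left h2.le h1 (hmin' h)
  obtain ⟨β, hβ, hr⟩ := exists_round (g • w).z
  set w' : H3 := nM (-⟨β, hβ⟩) • (g • w) with hw'
  have hz' : w'.z = (g • w).z - β := by
    rw [hw', (nM_smul _ _).1]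
    push_cast
    ring
  have hy' : w'.y = (g • w).y := (nM_smul _ _).2
  have h1 : (wM • w').y ≤ w'.y := by
    rw [hy', hw', ← mul_smul, ← mul_smul]
    exact hmax _
  rw [wM_smul_y] at h1
  have hpos := w'.pos
  have hn : ‖w'.z‖ ^ 2 ≤ 3 / 4 := by rw [hz', Complex.sq_norm]; exact hr
  have h2 : 1 ≤ ‖w'.z‖ ^ 2 + w'.y ^ 2 := by
    rw [div_le_iff₀ (by positivity)] at h1
    by_contra hcon
    push Not at hcon
    have := mul_lt_mul_of_pos_left hcon hpos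
    linarith
  refine ⟨nM (-⟨β, hβ⟩) * g, ?_⟩
  rw [mul_smul]
  refine ⟨?_, ?_⟩
  · show ‖w'.z‖ ≤ 1
    nlinarith [norm_nonneg w'.z]
  · show 1 / 2 ≤ w'.y
    nlinarith

theorem exists_eq_smul_SS (w : H3) : ∃ g : SL(2, Oe), ∃ w' ∈ SS, w = g • w' := by
  obtain ⟨g, hg⟩ := exists_smul_mem_SS w
  exact ⟨g⁻¹, g • w, hg, by rw [inv_smul_smul]⟩

/-- finiteness -/
theorem finite_smul_mem_SS (w : H3) : {g : SL(2, Oe) | g • w ∈ SS}.Finite := by
  classical
  have hw := w.pos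
  -- second rows
  have h1 := finite_den w (2 * w.y)
  obtain ⟨m, hm0, hm⟩ : ∃ m : ℝ, 0 < m ∧ ∀ g : SL(2, Oe), m ≤ w.den (g 1 0 : ℂ) (g 1 1 : ℂ) := by
    have hfin := (finite_den w 1).image (fun p : Oe × Oe => w.den (p.1 : ℂ) (p.2 : ℂ))
    set B : Set ℝ := ((fun p : Oe × Oe => w.den (p.1 : ℂ) (p.2 : ℂ)) ''
      {p : Oe × Oe | w.den (p.1 : ℂ) (p.2 : ℂ) ≤ 1}) ∩ Ioi 0 with hB
    have hBf : B.Finite := hfin.subset Set.inter_subset_left
    by_cases hne : B.Nonempty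
    · obtain ⟨b, hb, hbm⟩ := Set.exists_min_image B id hBf hne
      refine ⟨min b 1, lt_min hb.2 one_pos, fun g => ?_⟩
      by_cases hg : w.den (g 1 0 : ℂ) (g 1 1 : ℂ) ≤ 1
      · exact (min_le_left _ _).trans (hbm _ ⟨⟨(g 1 0, g 1 1), hg, rfl⟩, w.den_pos (row_ne_SL g 1)⟩)
      · exact (min_le_right _ _).trans (not_le.mp hg).le
    · refine ⟨1, one_pos, fun g => ?_⟩
      by_contra hcon
      push Not at hcon
      exact hne ⟨_, ⟨(g 1 0, g 1 1), hcon.le, rfl⟩, w.den_pos (row_ne_SL g 1)⟩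
  have h2 := finite_den w (w.y * (2 + w.y / m))
  refine Set.Finite.of_finite_image (f := fun g : SL(2, Oe) =>
    (((g 0 0, g 0 1) : Oe × Oe), ((g 1 0, g 1 1) : Oe × Oe)))
    ((h2.prod h1).subset ?_) ?_
  · rintro _ ⟨g, hg, rfl⟩
    obtain ⟨hz, hy⟩ := hg
    have hden := w.den_pos (row_ne_SL g 1)
    refine ⟨?_, ?_⟩
    · have hy2 : (g • w).y ≤ w.y / m := by
        rw [y_smul_SL]
        exact div_le_div_of_nonneg_left hw.le hm0 (hm g)
      have h3 := H3.q_smul_eq (toGL g) w 1 0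
      rw [det_toGL, norm_one, div_one] at h3
      simp only [one_mul, zero_mul, add_zero] at h3
      have h4 : (toGL g • w).q 1 0 = (‖(g • w).z‖ ^ 2 + (g • w).y ^ 2) / (g • w).y := by
        rw [H3.q, H3.den]
        simp only [one_mul, add_zero, norm_one, one_pow]
        rfl
      rw [h4] at h3
      have hp := (g • w).pos
      have h5 : (‖(g • w).z‖ ^ 2 + (g • w).y ^ 2) / (g • w).y ≤ 2 + w.y / m := by
        rw [div_le_iff₀ hp]
        have h6 : ‖(g • w).z‖ ^ 2 ≤ 1 := by nlinarith [norm_nonneg (g • w).z]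
        have h7 : 1 ≤ 2 * (g • w).y := by linarith
        nlinarith
      rw [h3, H3.q, div_le_iff₀ hw] at h5
      show w.den (g 0 0 : ℂ) (g 0 1 : ℂ) ≤ _
      calc w.den (g 0 0 : ℂ) (g 0 1 : ℂ) ≤ (2 + w.y / m) * w.y := h5
        _ = _ := by ring
    · show w.den (g 1 0 : ℂ) (g 1 1 : ℂ) ≤ 2 * w.y
      rw [y_smul_SL, le_div_iff₀ hden] at hy
      linarith
  · intro g _ g' _ h
    simp only [Prod.mk.injEq] at h
    obtain ⟨⟨h00, h01⟩, h10, h11⟩ := h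
    apply Matrix.SpecialLinearGroup.ext
    intro i j
    fin_cases i <;> fin_cases j
    · exact h00
    · exact h01
    · exact h10
    · exact h11

/-! ### instances -/

instance : Countable Oe := by
  have : Function.Surjective (fun p : ℤ × ℤ => (⟨(p.1 : ℂ) + p.2 * om, ⟨_, _, rfl⟩⟩ : Oe)) := by
    rintro ⟨z, x, y, rfl⟩
    exact ⟨(x, y), rfl⟩
  exact this.countable

instance : Countable SL(2, Oe) :=
  Function.Injective.countable (f := fun g : SL(2, Oe) => fun i j => g i j)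
    (fun g g' h => Matrix.SpecialLinearGroup.ext _ _ fun i j => congrFun (congrFun h i) j)

instance : MeasurableConstSMul SL(2, Oe) H3 :=
  ⟨fun g => H3.measurable_smul_H3 (toGL g)⟩

instance : SMulInvariantMeasure SL(2, Oe) H3 volume :=
  ⟨fun g _ hs => SMulInvariantMeasure.measure_preimage_smul (toGL g) hs⟩

end Fermat.Agent.LT.Th
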