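import Fermat.Agent.LT.Th.Harm7
import Fermat.Agent.LT.Th.Sieg

set_option autoImplicit false
set_option linter.unusedSectionVars false

/-!
# Harmonicity of the theta lift: the Fourier coefficients
-/

namespace Fermat.Agent.LT.Th

open MeasureTheory Real Set ComplexConjugate HM
open scoped NNReal ENNReal MatrixGroups
open Fermat.Agent.LT.FA

namespace Harm

theorem exp_sol {f : ℝ → ℂ} {a : ℝ} (h : ∀ c : ℝ, 0 < c → HasDerivAt f ((a : ℂ) * f c) c) :
    ∃ K : ℂ, ∀ c : ℝ, 0 < c → f c = K * ((exp (a * c) : ℝ) : ℂ) := by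
  have hG : ∀ x : ℝ, HasDerivAt (fun x => f (exp x) * ((exp (-(a * exp x)) : ℝ) : ℂ)) 0 x := by
    intro x
    have h1 := HasDerivAt.scomp x (h (exp x) (exp_pos x)) (Real.hasDerivAt_exp x)
    have h2 : HasDerivAt (fun x => exp (-(a * exp x))) (exp (-(a * exp x)) * (-(a * exp x))) x :=
      (((Real.hasDerivAt_exp x).const_mul a).neg).exp
    refine (h1.mul h2.ofReal_comp).congr_deriv ?_
    simp only [Function.comp_apply, Complex.real_smul]
    push_cast
    ring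
  have hc := is_const_of_deriv_eq_zero (fun x => (hG x).differentiableAt) (fun x => (hG x).deriv)
  refine ⟨f (exp 0) * ((exp (-(a * exp 0)) : ℝ) : ℂ), fun c hc0 => ?_⟩
  have h3 := hc (log c) 0
  simp only [Real.exp_log hc0] at h3
  rw [← h3, mul_assoc, ← Complex.ofReal_mul, ← exp_add]
  simp

theorem eq_zero_of_bound {K : ℂ} {C : ℝ} {b : ℝ} (hb : 0 ≤ b)
    (h : ∀ v : ℝ, 1 ≤ v → ‖K * ((exp (b * v) : ℝ) : ℂ)‖ ≤ C / √v) : K = 0 := by
  have h1 : ∀ v : ℝ, 1 ≤ v → ‖K‖ ≤ C / √v := by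
    intro v hv
    refine le_trans ?_ (h v hv)
    rw [norm_mul, Complex.norm_real, Real.norm_eq_abs, Real.abs_exp]
    have : 1 ≤ exp (b * v) := Real.one_le_exp (by positivity)
    nlinarith [norm_nonneg K]
  have h2 : Filter.Tendsto (fun v : ℝ => C / √v) Filter.atTop (nhds 0) :=
    tendsto_const_nhds.div_atTop Real.tendsto_sqrt_atTop
  have h3 : ‖K‖ ≤ 0 := by
    refine ge_of_tendsto h2 ?_
    filter_upwards [Filter.eventually_ge_atTop 1] with v hv
    exact h1 v hv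
  exact norm_le_zero_iff.mp h3

variable {N : ℕ} {φ : H3 → ℂ}

/-- the coefficients for `m = 0` -/
theorem cf_zero (ν : Measure H3) (n : ℤ) {v : ℝ} (hv : 0 < v) :
    cf N φ ν 0 n v = ((1 / √(4 * π) : ℝ) : ℂ) * AA φ ν (fun k : Sn N n => Xk N k) n (4 * π * v) := by
  have hpi : (0 : ℝ) < 4 * π := by positivity
  have hs : √v = 1 / √(4 * π) * √(4 * π * v) := by
    rw [Real.sqrt_mul hpi.le]
    field_simp
  rw [cf, AA, JJ, ← integral_const_mul, ← integral_const_mul]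
  refine integral_congr_ae (Filter.Eventually.of_forall fun w => ?_)
  simp only []
  have h1 : ∀ k : Sn N n, kv 0 v w (Xk N k) = 1 / √(4 * π) * (√(4 * π * v) *
      exp (-(4 * π * v * n / 2))) * gj 0 (4 * π * v) (t w (Xk N k)) := by
    intro k
    have hk : q (Xk N k) = n := k.2
    rw [kv, P, if_pos rfl, Q, hk, hs, gj]
    have h2 : exp (-2 * π * v * ((n : ℝ) + 2 * t w (Xk N k) ^ 2)) =
        exp (-(4 * π * v * n / 2)) * exp (-(4 * π * v) * t w (Xk N k) ^ 2) := by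
      rw [← exp_add]; congr 1; ring
    rw [h2]
    ring
  simp_rw [h1, tsum_mul_left]
  rw [Th]
  push_cast
  ring

theorem cf_one (ν : Measure H3) [IsFiniteMeasure ν] (n : ℤ) (hφ : Continuous φ)
    (hB : BB φ (fun k : Sn N n => Xk N k)) {v : ℝ} (hv : 0 < v) :
    cf N φ ν 1 n v = ((1 / √(4 * π) : ℝ) : ℂ) * KK' φ ν (fun k : Sn N n => Xk N k) n (4 * π * v) := by
  have hpi : (0 : ℝ) < 4 * π := by positivity
  have hc : (0 : ℝ) < 4 * π * v := by positivity
  have hq : ∀ k : Sn N n, q (Xk N k) = n := fun k => k.2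
  have hs : √v = 1 / √(4 * π) * √(4 * π * v) := by
    rw [Real.sqrt_mul hpi.le]
    field_simp
  set c := 4 * π * v with hcdef
  have d0 := gj_dec 0 hc
  have d1 := gj_dec 1 hc
  have e : JJ φ ν (fun k : Sn N n => Xk N k) (gj 0 c) / 2 - c * JJ φ ν (fun k : Sn N n => Xk N k)
      (gj 1 c) = JJ φ ν (fun k : Sn N n => Xk N k) (fun x => (1 / 2) * gj 0 c x +
        (-c) * gj 1 c x) := by
    have c0 := gj_continuous 0 c
    have c1 := gj_continuous 1 c
    rw [JJ_add hq hB hφ ν (F := fun x => (1 / 2) * gj 0 c x) (F' := fun x => (-c) * gj 1 c x)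
      (d0.const_mul _) (d1.const_mul _) (by fun_prop) (by fun_prop), JJ_const_mul, JJ_const_mul]
    push_cast
    ring
  rw [cf, KK', e, JJ, ← integral_const_mul, ← integral_const_mul]
  refine integral_congr_ae (Filter.Eventually.of_forall fun w => ?_)
  simp only []
  have h1 : ∀ k : Sn N n, kv 1 v w (Xk N k) = 1 / √(4 * π) * (√c *
      exp (-(c * n / 2))) * ((1 / 2) * gj 0 c (t w (Xk N k)) + (-c) * gj 1 c (t w (Xk N k))) := by
    intro k
    have hk : q (Xk N k) = n := k.2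
    rw [kv, P, if_neg (by decide), Q, hk, hs, gj, gj]
    have h2 : exp (-2 * π * v * ((n : ℝ) + 2 * t w (Xk N k) ^ 2)) =
        exp (-(c * n / 2)) * exp (-c * t w (Xk N k) ^ 2) := by
      rw [← exp_add]; congr 1; rw [hcdef]; ring
    rw [h2, hcdef]
    ring
  simp_rw [h1, tsum_mul_left]
  rw [Th]
  push_cast
  ring

/-- restriction of the basic bound -/
theorem BB_Sn (n : ℤ) (h : ∀ c : ℝ, 0 < c → ∃ C : ℝ, ∀ w : H3,
    Summable (fun k => exp (-c * Q w (Xk N k))) ∧ ‖φ w‖ * ∑' k, exp (-c * Q w (Xk N k)) ≤ C) :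
    BB φ (fun k : Sn N n => Xk N k) := by
  intro c hc
  obtain ⟨C, hC⟩ := h c hc
  refine ⟨C, fun w => ?_⟩
  obtain ⟨h1, h2⟩ := hC w
  have h3 : Summable (fun k : Sn N n => exp (-c * Q w (Xk N k))) :=
    h1.comp_injective Subtype.val_injective
  refine ⟨h3, le_trans (mul_le_mul_of_nonneg_left ?_ (norm_nonneg _)) h2⟩
  exact h3.tsum_le_tsum_of_inj Subtype.val Subtype.val_injective (fun k _ => (exp_pos _).le)
    (fun k => le_rfl) h1

end Harm

open Harm

/-- **Harmonicity.** -/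
theorem harm {N : ℕ} (hN : N ≠ 0) {φ : H3 → ℂ} (hφ : Continuous φ)
    (hinv : ∀ g ∈ Gam N, ∀ w : H3, φ (g • w) = φ w) (hm : Mean φ)
    {wt : H3 → ℝ≥0} (hwt : IsWt (Gam N) (volume : Measure H3) wt)
    [IsFiniteMeasure (wtM (volume : Measure H3) wt)]
    (B0 : ∀ c : ℝ, 0 < c → ∃ C : ℝ, ∀ w : H3, Summable (fun k => exp (-c * Q w (Xk N k))) ∧
      ‖φ w‖ * ∑' k, exp (-c * Q w (Xk N k)) ≤ C)
    (B1 : ∃ C : ℝ, ∀ (m : Fin 2) (n : ℤ) (v : ℝ), 1 ≤ v →
      ‖cf N φ (wtM (volume : Measure H3) wt) m n v‖ ≤ C / √v) :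
    (∀ n : ℤ, ∃ K : ℂ, (∀ v : ℝ, 0 < v → cf N φ (wtM (volume : Measure H3) wt) 1 n v =
      K * ((exp (2 * π * n * v) : ℝ) : ℂ)) ∧ (0 ≤ n → K = 0)) ∧
    ((∀ (n : ℤ) (v : ℝ), 0 < v → cf N φ (wtM (volume : Measure H3) wt) 1 n v = 0) →
      ∀ n : ℤ, ∃ α : ℂ, (∀ v : ℝ, 0 < v → cf N φ (wtM (volume : Measure H3) wt) 0 n v =
        α * ((exp (-(2 * π * n * v)) : ℝ) : ℂ)) ∧ (n ≤ 0 → α = 0)) := by
  have hmeas : MeasurableConstSMul (Gam N) H3 :=
    ⟨fun g => measurable_const_smul (g : SL(2, Oe))⟩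
  set ν := wtM (volume : Measure H3) wt with hν
  obtain ⟨C, hC⟩ := B1
  have hcd : ∀ (g : Gam N) (w w' : H3), H3.cd (g • w) (g • w') = H3.cd w w' := fun g w w' =>
    H3.cd_smul (toGL (g : SL(2, Oe))) w w'
  have hφi : ∀ (g : Gam N) w, φ (g • w) = φ w := fun g w => hinv g g.2 w
  have hX : ∀ (n : ℤ) (g : Gam N) (F : ℝ → ℝ) w, Harm.Th (fun k : Sn N n => Xk N k) F (g • w) =
      Harm.Th (fun k : Sn N n => Xk N k) F w := by
    intro n g F w
    rw [Harm.Th, Harm.Th, ← Xk_perm_Sn hN g.2 n (fun X => F (t (g • w) X))]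
    refine tsum_congr fun k => ?_
    exact congrArg F (t_smul_SL (g : SL(2, Oe)) w (Xk N k))
  have hpi : (0 : ℝ) < 4 * π := by positivity
  constructor
  · intro n
    have hB := BB_Sn n B0
    have hd : ∀ c : ℝ, 0 < c → HasDerivAt (KK' φ ν (fun k : Sn N n => Xk N k) n)
        (((n / 2 : ℝ) : ℂ) * KK' φ ν (fun k : Sn N n => Xk N k) n c) c := by
      intro c hc
      have := hasDerivAt_KK (n := (n : ℝ)) (X := fun k : Sn N n => Xk N k) hcd hwt hφ hφi hm
        (hX n) (fun k => k.2) hB hc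
      refine this.congr_deriv ?_
      push_cast
      rfl
    obtain ⟨K, hK⟩ := exp_sol hd
    have hK' : ∀ v : ℝ, 0 < v → cf N φ ν 1 n v = ((1 / √(4 * π) : ℝ) : ℂ) * K *
        ((exp (2 * π * n * v) : ℝ) : ℂ) := by
      intro v hv
      rw [cf_one ν n hφ hB hv, hK _ (by positivity)]
      rw [show (n : ℝ) / 2 * (4 * π * v) = 2 * π * n * v by ring]
      ring
    refine ⟨_, hK', fun hn => eq_zero_of_bound (C := C) (b := 2 * π * n) (by positivity)
      fun v hv => ?_⟩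
    rw [← hK' v (by linarith)]
    exact hC 1 n v hv
  · intro h0 n
    have hB := BB_Sn n B0
    have hz : ∀ c : ℝ, 0 < c → KK' φ ν (fun k : Sn N n => Xk N k) n c = 0 := by
      intro c hc
      have h1 := h0 n (c / (4 * π)) (by positivity)
      rw [cf_one ν n hφ hB (by positivity), show 4 * π * (c / (4 * π)) = c by field_simp] at h1
      refine (mul_eq_zero.mp h1).resolve_left ?_
      have : (0 : ℝ) < 1 / √(4 * π) := by positivity
      exact_mod_cast this.ne'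
    have hd : ∀ c : ℝ, 0 < c → HasDerivAt (AA φ ν (fun k : Sn N n => Xk N k) n)
        (((-(n / 2) : ℝ) : ℂ) * AA φ ν (fun k : Sn N n => Xk N k) n c) c := by
      intro c hc
      have := hasDerivAt_AA (n := (n : ℝ)) (X := fun k : Sn N n => Xk N k) hφ ν
        (fun k => k.2) hB hc
      refine this.congr_deriv ?_
      rw [hz c hc]
      push_cast
      ring
    obtain ⟨K, hK⟩ := exp_sol hd
    have hK' : ∀ v : ℝ, 0 < v → cf N φ ν 0 n v = ((1 / √(4 * π) : ℝ) : ℂ) * K *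
        ((exp (-(2 * π * n * v)) : ℝ) : ℂ) := by
      intro v hv
      rw [cf_zero ν n hv, hK _ (by positivity)]
      rw [show -((n : ℝ) / 2) * (4 * π * v) = -(2 * π * n * v) by ring]
      ring
    refine ⟨_, hK', fun hn => eq_zero_of_bound (C := C) (b := -(2 * π * n)) ?_ fun v hv => ?_⟩
    · have : (n : ℝ) ≤ 0 := by exact_mod_cast hn
      nlinarith [Real.pi_pos]
    rw [show -(2 * π * (n : ℝ)) * v = -(2 * π * n * v) by ring, ← hK' v (by linarith)]
    exact hC 0 n v hv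

/-- **D'**: the integral of `φ` vanishes -/
theorem integral_phi_eq_zero {N : ℕ} {φ : H3 → ℂ} (hφ : Continuous φ)
    (hinv : ∀ g ∈ Gam N, ∀ w : H3, φ (g • w) = φ w) (hm : Mean φ)
    {wt : H3 → ℝ≥0} (hwt : IsWt (Gam N) (volume : Measure H3) wt)
    [IsFiniteMeasure (wtM (volume : Measure H3) wt)] (hb : ∃ C : ℝ, ∀ w, ‖φ w‖ ≤ C) :
    ∫ w, φ w ∂(wtM (volume : Measure H3) wt) = 0 := by
  have hmeas : MeasurableConstSMul (Gam N) H3 :=
    ⟨fun g => measurable_const_smul (g : SL(2, Oe))⟩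
  exact Harm.integral_zero (G := Gam N) (fun g w w' => H3.cd_smul (toGL (g : SL(2, Oe))) w w') hwt hφ
    (fun g w => hinv g g.2 w) hm hb

end Fermat.Agent.LT.Th
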