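import Mathlib

set_option autoImplicit false

/-!
# Harmonicity of the theta lift: one variable calculus
-/

namespace Fermat.Agent.LT.Th

open MeasureTheory Real Set

namespace Harm

/-- data: a twice differentiable function -/
structure C2 (F F1 F2 : ℝ → ℝ) : Prop where
  d1 : ∀ x, HasDerivAt F (F1 x) x
  d2 : ∀ x, HasDerivAt F1 (F2 x) x
  c2 : Continuous F2

namespace C2

variable {F F1 F2 : ℝ → ℝ}

theorem c0 (h : C2 F F1 F2) : Continuous F :=
  continuous_iff_continuousAt.mpr fun x => (h.d1 x).continuousAt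

theorem c1 (h : C2 F F1 F2) : Continuous F1 :=
  continuous_iff_continuousAt.mpr fun x => (h.d2 x).continuousAt

end C2

/-- the radial part of `Δ + 1` for functions of `t_w X`, `q X = n` -/
def LF (n : ℝ) (F F1 F2 : ℝ → ℝ) (x : ℝ) : ℝ := (x ^ 2 + n) * F2 x + 3 * x * F1 x + F x

theorem LF_continuous {F F1 F2 : ℝ → ℝ} (h : C2 F F1 F2) (n : ℝ) :
    Continuous (LF n F F1 F2) := by
  have h0 := h.c0
  have h1 := h.c1
  have h2 := h.c2
  unfold LF
  fun_prop

/-- a twice differentiable function supported in `[2, 3]` -/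
structure Bump (k k1 k2 : ℝ → ℝ) : Prop extends C2 k k1 k2 where
  z0 : ∀ x, x ∉ Icc (2 : ℝ) 3 → k x = 0
  z1 : ∀ x, x ∉ Icc (2 : ℝ) 3 → k1 x = 0
  z2 : ∀ x, x ∉ Icc (2 : ℝ) 3 → k2 x = 0

theorem deriv_zero_off {f f1 : ℝ → ℝ} (h : ∀ x, HasDerivAt f (f1 x) x)
    (hs : ∀ x, x ∉ Icc (2 : ℝ) 3 → f x = 0) (x : ℝ) (hx : x ∉ Icc (2 : ℝ) 3) : f1 x = 0 := by
  have h1 : f =ᶠ[nhds x] fun _ => 0 := by
    filter_upwards [isClosed_Icc.isOpen_compl.mem_nhds hx] with y hy
    exact hs y hy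
  exact (h x).unique ((hasDerivAt_const x (0 : ℝ)).congr_of_eventuallyEq h1)

/-- there are bumps -/
theorem exists_bump : ∃ k k1 k2 : ℝ → ℝ, Bump k k1 k2 ∧ (∀ x, 0 ≤ k x) ∧ 0 < k (5 / 2) := by
  let f : ContDiffBump (5 / 2 : ℝ) := ⟨1 / 8, 1 / 4, by norm_num, by norm_num⟩
  have h0 : ContDiff ℝ 2 f := f.contDiff
  have h1 : ContDiff ℝ 1 (deriv f) := by
    have := (contDiff_succ_iff_deriv (n := 1) (f := (f : ℝ → ℝ))).mp
      (by norm_num; exact h0)
    exact this.2.2
  have d1 : ∀ x, HasDerivAt (f : ℝ → ℝ) (deriv f x) x := fun x =>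
    (h0.differentiable (by norm_num) x).hasDerivAt
  have d2 : ∀ x, HasDerivAt (deriv (f : ℝ → ℝ)) (deriv (deriv f) x) x := fun x =>
    (h1.differentiable (by norm_num) x).hasDerivAt
  have z0 : ∀ x, x ∉ Icc (2 : ℝ) 3 → f x = 0 := by
    intro x hx
    apply f.zero_of_le_dist
    rw [Real.dist_eq]
    by_contra hcon
    push Not at hcon
    apply hx
    have h3 : |x - 5 / 2| < 1 / 4 := hcon
    rw [abs_lt] at h3
    constructor <;> linarith
  have z1 := deriv_zero_off d1 z0
  refine ⟨f, deriv f, deriv (deriv f), ⟨⟨d1, d2, ?_⟩, z0, z1, deriv_zero_off d2 z1⟩,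
    fun x => f.nonneg, ?_⟩
  · exact h1.continuous_deriv le_rfl
  · apply f.pos_of_mem_ball
    rw [Metric.mem_ball, dist_self]
    exact f.rOut_pos

variable {k k1 k2 : ℝ → ℝ}

/-- `(Δ + 1) k` -/
def LK (k k1 k2 : ℝ → ℝ) : ℝ → ℝ := LF (-1) k k1 k2

theorem Bump.cLK (h : Bump k k1 k2) : Continuous (LK k k1 k2) := LF_continuous h.toC2 _

theorem Bump.zLK (h : Bump k k1 k2) (x : ℝ) (hx : x ∉ Icc (2 : ℝ) 3) : LK k k1 k2 x = 0 := by
  rw [LK, LF, h.z0 x hx, h.z1 x hx, h.z2 x hx]
  ring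

theorem hasCompactSupport_of_zero {f : ℝ → ℝ} (hf : ∀ x, x ∉ Icc (2 : ℝ) 3 → f x = 0) :
    HasCompactSupport f :=
  HasCompactSupport.intro isCompact_Icc hf

theorem hasDerivAt_comp_cosh {F F1 : ℝ → ℝ} (h : ∀ x, HasDerivAt F (F1 x) x) (r : ℝ) :
    HasDerivAt (fun r => F (cosh r)) (F1 (cosh r) * sinh r) r :=
  (h _).comp r (Real.hasDerivAt_cosh r)

/-- large `r` -/
theorem cosh_large {r : ℝ} (hr : 3 < r) : (3 : ℝ) < cosh r := by
  have h1 : r ≤ sinh r := Real.self_le_sinh_iff.mpr (by linarith)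
  have h2 : sinh r ≤ cosh r := (Real.sinh_lt_cosh r).le
  linarith

/-- the spherical transform of `LK k` at the spectral parameter `0` vanishes -/
theorem khat_LK (h : Bump k k1 k2) :
    ∫ r in Ioi (0 : ℝ), LK k k1 k2 (cosh r) * (r * sinh r) = 0 := by
  have hH : ∀ r : ℝ, HasDerivAt (fun r => r * (k1 (cosh r) * sinh r ^ 2 + k (cosh r) * cosh r) -
      k (cosh r) * sinh r) (LK k k1 k2 (cosh r) * (r * sinh r)) r := by
    intro r
    have e0 := hasDerivAt_comp_cosh h.d1 r
    have e1 := hasDerivAt_comp_cosh h.d2 r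
    have e2 := ((hasDerivAt_id r).mul ((e1.mul ((Real.hasDerivAt_sinh r).pow 2)).add
      (e0.mul (Real.hasDerivAt_cosh r)))).sub (e0.mul (Real.hasDerivAt_sinh r))
    refine HasDerivAt.congr_deriv e2 ?_
    have hcs : cosh r ^ 2 = sinh r ^ 2 + 1 := Real.cosh_sq r
    simp only [LK, LF, id_eq, Nat.cast_ofNat, Nat.add_one_sub_one, pow_one, Pi.mul_apply,
      Pi.pow_apply, Pi.add_apply]
    linear_combination (-(r * sinh r * k2 (cosh r))) * hcs
  have hz : ∀ r : ℝ, 3 < r → ∀ f : ℝ → ℝ, (∀ x, x ∉ Icc (2 : ℝ) 3 → f x = 0) → f (cosh r) = 0 := by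
    intro r hr f hf
    refine hf _ fun hm => ?_
    have := cosh_large hr
    linarith [hm.2]
  have hlim : Filter.Tendsto (fun r => r * (k1 (cosh r) * sinh r ^ 2 + k (cosh r) * cosh r) -
      k (cosh r) * sinh r) Filter.atTop (nhds 0) := by
    refine Filter.Tendsto.congr' ?_ tendsto_const_nhds
    filter_upwards [Filter.eventually_gt_atTop 3] with r hr
    rw [hz r hr k h.z0, hz r hr k1 h.z1]
    ring
  have hint : IntegrableOn (fun r => LK k k1 k2 (cosh r) * (r * sinh r)) (Ioi 0) := by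
    refine Integrable.integrableOn ?_
    refine Continuous.integrable_of_hasCompactSupport ?_ ?_
    · have := h.cLK
      fun_prop
    · refine HasCompactSupport.intro (isCompact_Icc (a := (-3 : ℝ)) (b := 3)) fun r hr => ?_
      have h3 : 3 < |r| := by
        by_contra hcon
        push Not at hcon
        exact hr (abs_le.mp hcon)
      rw [← Real.cosh_abs, hz |r| h3 _ h.zLK, zero_mul]
  have := integral_Ioi_of_hasDerivAt_of_tendsto (hH 0).continuousAt.continuousWithinAt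
    (fun x _ => hH x) hint hlim
  rw [this]
  simp

/-- the spherical transform of a nonnegative bump is positive -/
theorem khat_pos (h : Bump k k1 k2) (h0 : ∀ x, 0 ≤ k x) (h1 : 0 < k (5 / 2)) :
    0 < ∫ r in Ioi (0 : ℝ), k (cosh r) * (r * sinh r) := by
  have hc := h.c0
  have hint : IntegrableOn (fun r => k (cosh r) * (r * sinh r)) (Ioi 0) := by
    refine Integrable.integrableOn ?_
    refine Continuous.integrable_of_hasCompactSupport (by fun_prop) ?_
    refine HasCompactSupport.intro (isCompact_Icc (a := (-3 : ℝ)) (b := 3)) fun r hr => ?_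
    have h3 : 3 < |r| := by
      by_contra hcon
      push Not at hcon
      exact hr (abs_le.mp hcon)
    rw [← Real.cosh_abs, h.z0 _ (fun hm => ?_), zero_mul]
    have := cosh_large h3
    linarith [hm.2]
  rw [setIntegral_pos_iff_support_of_nonneg_ae ?_ hint]
  · have hsub : {r : ℝ | 0 < k (cosh r)} ∩ Ioi 0 ⊆
        (Function.support fun r => k (cosh r) * (r * sinh r)) ∩ Ioi 0 := by
      rintro r ⟨hr1, hr2⟩
      have hr2' : (0 : ℝ) < r := hr2
      have : 0 < sinh r := Real.sinh_pos_iff.mpr hr2'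
      exact ⟨(mul_pos hr1 (mul_pos hr2' this)).ne', hr2⟩
    refine lt_of_lt_of_le ?_ (measure_mono hsub)
    · refine IsOpen.measure_pos _ ?_ ?_
      · exact (isOpen_lt continuous_const (by fun_prop)).inter isOpen_Ioi
      · refine ⟨arcosh (5 / 2), ?_, ?_⟩
        · show 0 < k (cosh (arcosh (5 / 2)))
          rw [Real.cosh_arcosh (by norm_num)]
          exact h1
        · exact Real.arcosh_pos (by norm_num)
  · filter_upwards [ae_restrict_mem measurableSet_Ioi] with r hr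
    have hr2' : (0 : ℝ) < r := hr
    have : 0 < sinh r := Real.sinh_pos_iff.mpr hr2'
    exact mul_nonneg (h0 _) (mul_pos hr2' this).le

end Harm

end Fermat.Agent.LT.Th
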