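import Fermat.Agent.LT.Th.Def
import Fermat.Agent.LT.FA.QInt

set_option autoImplicit false

/-!
# The theta lift: the integral and its Fourier coefficients
-/

namespace Fermat.Agent.LT.Th

open Matrix ComplexConjugate MeasureTheory Complex HM
open scoped Real MatrixGroups

/-- points of `x0 + N L` -/
noncomputable def Xk (N : ℕ) (k : Fin 4 → ℤ) : HM := x0 + (N : ℝ) • lp 0 k

theorem TN_def (m : Fin 2) (N : ℕ) (τ : UpperHalfPlane) (w : H3) :
    TN m N τ w = ∑' k, ker m τ w (Xk N k) := rfl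

/-- points of norm `n` in `x0 + N L` -/
def Sn (N : ℕ) (n : ℤ) : Set (Fin 4 → ℤ) := {k | q (Xk N k) = n}

/-- the real kernel -/
noncomputable def kv (m : Fin 2) (v : ℝ) (w : H3) (X : HM) : ℝ :=
  √v * P m (v * t w X ^ 2) * Real.exp (-2 * π * v * Q w X)

theorem ker_eq (m : Fin 2) (τ : UpperHalfPlane) (w : H3) (X : HM) :
    ker m τ w X = (kv m τ.im w X : ℂ) * e (τ.re * q X) := rfl

/-- the theta lift -/
noncomputable def lift (N : ℕ) (φ : H3 → ℂ) (ν : Measure H3) (m : Fin 2) (τ : UpperHalfPlane) : ℂ :=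
  ∫ w, φ w * TN m N τ w ∂ν

/-- its Fourier coefficients -/
noncomputable def cf (N : ℕ) (φ : H3 → ℂ) (ν : Measure H3) (m : Fin 2) (n : ℤ) (v : ℝ) : ℂ :=
  ∫ w, φ w * ((∑' k : Sn N n, kv m v w (Xk N k) : ℝ) : ℂ) ∂ν

theorem conj_e (x : ℝ) : conj (e x) = e (-x) := by
  rw [e, e, ← Complex.exp_conj]
  simp only [map_mul, Complex.conj_ofReal, Complex.conj_I, map_ofNat]
  ring_nf

theorem norm_e (x : ℝ) : ‖e x‖ = 1 := by
  rw [e, show 2 * (π : ℂ) * I * (x : ℂ) = ((2 * π * x : ℝ) : ℂ) * I by push_cast; ring,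
    Complex.norm_exp_ofReal_mul_I]

theorem e_add (x y : ℂ) : e (x + y) = e x * e y := by
  rw [e, e, e, ← Complex.exp_add]; ring_nf

theorem e_zero : e 0 = 1 := by simp [e]

theorem e_int (n : ℤ) : e n = 1 := by
  rw [e, show 2 * (π : ℂ) * I * (n : ℂ) = n * (2 * π * I) by ring, Complex.exp_int_mul_two_pi_mul_I]

theorem norm_ker (m : Fin 2) (τ : UpperHalfPlane) (w : H3) (X : HM) :
    ‖ker m τ w X‖ = |kv m τ.im w X| := by
  rw [ker_eq, norm_mul, Complex.norm_real, Real.norm_eq_abs,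
    show (τ.re : ℂ) * (q X : ℂ) = ((τ.re * q X : ℝ) : ℂ) by push_cast; ring, norm_e, mul_one]

/-- `t² ≤ Q` -/
theorem t_sq_le (w : H3) (X : HM) : t w X ^ 2 ≤ Q w X := by
  have hy := w.pos
  rw [Q_eq]
  have h1 : t w X = ((X.1 - 2 * (X.2.2 * conj w.z).re + X.2.1 * normSq w.z) / w.y +
      X.2.1 * w.y) / 2 := by
    rw [t]; field_simp
  have h2 : (X.1 - 2 * (X.2.2 * conj w.z).re + X.2.1 * normSq w.z) ^ 2 / (2 * w.y ^ 2) =
      ((X.1 - 2 * (X.2.2 * conj w.z).re + X.2.1 * normSq w.z) / w.y) ^ 2 / 2 := by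
    field_simp
  rw [h1, h2]
  have := Complex.normSq_nonneg (X.2.2 - X.2.1 * w.z)
  nlinarith [sq_nonneg ((X.1 - 2 * (X.2.2 * conj w.z).re + X.2.1 * normSq w.z) / w.y -
      X.2.1 * w.y)]

/-- the polynomial factor is absorbed by half of the exponential -/
theorem abs_kv_le (m : Fin 2) {v : ℝ} (hv : 0 < v) (w : H3) (X : HM) :
    |kv m v w X| ≤ √v * (5 * Real.exp (-(π * v) * Q w X)) := by
  have hQ := Q_nonneg w X
  have ht := t_sq_le w X
  have hP : |P m (v * t w X ^ 2)| ≤ 5 * Real.exp (π * v * Q w X) := by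
    have h1 : 1 ≤ Real.exp (π * v * Q w X) := Real.one_le_exp (by positivity)
    have h2 : π * v * Q w X + 1 ≤ Real.exp (π * v * Q w X) := Real.add_one_le_exp _
    have h3 : v * t w X ^ 2 ≤ v * Q w X := by gcongr
    have h4 : 0 ≤ v * t w X ^ 2 := by positivity
    rw [P]
    split_ifs with h
    · rw [abs_one]; linarith
    · have h5 : 4 * π * (v * t w X ^ 2) ≤ 4 * (π * v * Q w X) := by
        have := mul_le_mul_of_nonneg_left h3 (show 0 ≤ 4 * π by positivity)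
        linarith
      have h6 : 0 ≤ 4 * π * (v * t w X ^ 2) := by positivity
      rw [abs_le]
      constructor <;> linarith
  have h7 : |kv m v w X| = √v * (|P m (v * t w X ^ 2)| * Real.exp (-2 * π * v * Q w X)) := by
    rw [kv, abs_mul, abs_mul, abs_of_nonneg (Real.sqrt_nonneg v), Real.abs_exp]
    ring
  rw [h7]
  refine mul_le_mul_of_nonneg_left ?_ (Real.sqrt_nonneg v)
  calc |P m (v * t w X ^ 2)| * Real.exp (-2 * π * v * Q w X)
      ≤ 5 * Real.exp (π * v * Q w X) * Real.exp (-2 * π * v * Q w X) := by gcongr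
    _ = 5 * Real.exp (-(π * v) * Q w X) := by
        rw [mul_assoc, ← Real.exp_add]; ring_nf

/-! ### the action of `SL(2, Oe)` on the lattice -/

theorem det_toGL (g : SL(2, Oe)) : ((toGL g : GL (Fin 2) ℂ) : Matrix (Fin 2) (Fin 2) ℂ).det = 1 := by
  have h := (Matrix.SpecialLinearGroup.map Oe.subtype g).2
  exact h

theorem t_smul_SL (g : SL(2, Oe)) (w : H3) (X : HM) :
    t (g • w) (actM (toGL g) X) = t w X := by
  rw [smul_def, t_smul_actM, det_toGL, norm_one, one_mul]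

theorem q_SL (g : SL(2, Oe)) (X : HM) : q (actM (toGL g) X) = q X := by
  rw [q_actM, det_toGL, map_one, one_mul]

theorem Q_smul_SL (g : SL(2, Oe)) (w : H3) (X : HM) :
    Q (g • w) (actM (toGL g) X) = Q w X := by
  rw [Q, Q, q_SL, t_smul_SL]

theorem kv_SL (m : Fin 2) (v : ℝ) (g : SL(2, Oe)) (w : H3) (X : HM) :
    kv m v (g • w) (actM (toGL g) X) = kv m v w X := by
  rw [kv, kv, Q_smul_SL, t_smul_SL]

theorem ker_SL (m : Fin 2) (τ : UpperHalfPlane) (g : SL(2, Oe)) (w : H3) (X : HM) :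
    ker m τ (g • w) (actM (toGL g) X) = ker m τ w X := by
  rw [ker_eq, ker_eq, kv_SL, q_SL]

theorem two_re_Oe {z : ℂ} (h : z ∈ Oe) : ∃ n : ℤ, 2 * z.re = n := by
  obtain ⟨x, y, rfl⟩ := h
  refine ⟨2 * x - y, ?_⟩
  simp only [om, Complex.add_re, Complex.mul_re, Complex.intCast_re, Complex.intCast_im]
  push_cast
  ring

theorem normSq_mem_Oe {z : ℂ} (h : z ∈ Oe) : ∃ n : ℤ, normSq z = n := by
  obtain ⟨x, y, rfl⟩ := h
  exact ⟨_, normSq_Oe x y⟩

theorem mem_Lat {X : HM} : X ∈ Lat ↔ (∃ a : ℤ, X.1 = a) ∧ (∃ d : ℤ, X.2.1 = d) ∧ X.2.2 ∈ Oe :=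
  Iff.rfl

theorem ofReal_int_mem {r : ℝ} (h : ∃ n : ℤ, r = n) : (r : ℂ) ∈ Oe := by
  obtain ⟨n, rfl⟩ := h
  exact ⟨n, 0, by push_cast; ring⟩

/-- integral matrices preserve the lattice -/
theorem actM_mem_Lat {g : Matrix (Fin 2) (Fin 2) ℂ} (hg : ∀ i j, g i j ∈ Oe) {X : HM}
    (hX : X ∈ Lat) : actM g X ∈ Lat := by
  obtain ⟨⟨a, ha⟩, ⟨d, hd⟩, hb⟩ := mem_Lat.mp hX
  have hN : ∀ i j, ∃ n : ℤ, normSq (g i j) = n := fun i j => normSq_mem_Oe (hg i j)
  have hT : ∀ i, ∃ n : ℤ, 2 * (g i 0 * X.2.2 * conj (g i 1)).re = n := fun i =>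
    two_re_Oe (Oe.mul_mem (Oe.mul_mem (hg i 0) hb) (conj_mem (hg i 1)))
  have hdiag : ∀ i, ∃ n : ℤ, normSq (g i 0) * X.1 + 2 * (g i 0 * X.2.2 * conj (g i 1)).re +
      normSq (g i 1) * X.2.1 = n := by
    intro i
    obtain ⟨n0, h0⟩ := hN i 0
    obtain ⟨n1, h1⟩ := hN i 1
    obtain ⟨n2, h2⟩ := hT i
    exact ⟨n0 * a + n2 + n1 * d, by rw [h0, h1, h2, ha, hd]; push_cast; ring⟩
  have hXa : (X.1 : ℂ) ∈ Oe := ofReal_int_mem ⟨a, ha⟩
  have hXd : (X.2.1 : ℂ) ∈ Oe := ofReal_int_mem ⟨d, hd⟩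
  refine ⟨hdiag 0, hdiag 1, ?_⟩
  exact Oe.add_mem (Oe.add_mem (Oe.add_mem
    (Oe.mul_mem (Oe.mul_mem hXa (hg 0 0)) (conj_mem (hg 1 0)))
    (Oe.mul_mem (Oe.mul_mem (hg 0 0) hb) (conj_mem (hg 1 1))))
    (Oe.mul_mem (Oe.mul_mem (hg 0 1) (conj_mem hb)) (conj_mem (hg 1 0))))
    (Oe.mul_mem (Oe.mul_mem hXd (hg 0 1)) (conj_mem (hg 1 1)))

theorem toGL_mem (g : SL(2, Oe)) (i j : Fin 2) :
    ((toGL g : GL (Fin 2) ℂ) : Matrix (Fin 2) (Fin 2) ℂ) i j ∈ Oe := (g i j).2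

theorem actM_toGL_inv (g : SL(2, Oe)) (X : HM) :
    actM (toGL g⁻¹) (actM (toGL g) X) = X := by
  rw [← actM_mul, ← Units.val_mul, ← map_mul, inv_mul_cancel, map_one, Units.val_one, actM_one]

/-- `lp 0` parametrises the lattice -/
theorem lp_zero (k : Fin 4 → ℤ) : lp 0 k = ((k 0 : ℝ), (k 1 : ℝ), (k 2 : ℂ) + k 3 * om) := by
  simp [lp, cr]

theorem lp_eq (j : ℤ) (k : Fin 4 → ℤ) : lp j k = lp 0 k + (j : ℝ) • dl := by
  simp [lp]

theorem lp_zero_mem (k : Fin 4 → ℤ) : lp 0 k ∈ Lat := by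
  rw [lp_zero]
  exact ⟨⟨_, rfl⟩, ⟨_, rfl⟩, ⟨_, _, rfl⟩⟩

theorem exists_lp_zero {X : HM} (h : X ∈ Lat) : ∃ k, lp 0 k = X := by
  obtain ⟨⟨a, ha⟩, ⟨d, hd⟩, ⟨x, y, hb⟩⟩ := mem_Lat.mp h
  refine ⟨![a, d, x, y], ?_⟩
  rw [lp_zero]
  refine Prod.ext ?_ (Prod.ext ?_ ?_)
  · simpa using ha.symm
  · simpa using hd.symm
  · simpa using hb.symm

theorem add_om_inj {x y x' y' : ℤ} (h : (x : ℂ) + y * om = x' + y' * om) : x = x' ∧ y = y' := by
  have h1 := congrArg Complex.im h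
  have h2 := congrArg Complex.re h
  simp only [om, Complex.add_re, Complex.mul_re, Complex.intCast_re, Complex.intCast_im,
    Complex.add_im, Complex.mul_im] at h1 h2
  have h3 : (0 : ℝ) < √3 := by positivity
  have h4 : (y : ℝ) = y' := by
    have : (y : ℝ) * √3 = y' * √3 := by linarith
    exact mul_right_cancel₀ h3.ne' this
  have h5 : (x : ℝ) = x' := by rw [h4] at h2; linarith
  exact ⟨by exact_mod_cast h5, by exact_mod_cast h4⟩

theorem lp_injective (j : ℤ) : Function.Injective (lp j) := by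
  intro k k' h
  rw [lp_eq j k, lp_eq j k', add_left_inj, lp_zero, lp_zero, Prod.mk.injEq, Prod.mk.injEq] at h
  obtain ⟨h0, h1, h2⟩ := h
  obtain ⟨h3, h4⟩ := add_om_inj h2
  have h0' : k 0 = k' 0 := by exact_mod_cast h0
  have h1' : k 1 = k' 1 := by exact_mod_cast h1
  funext i
  fin_cases i
  · exact h0'
  · exact h1'
  · exact h3
  · exact h4

/-- a map of index sets induced by an injective map which preserves the points -/
theorem exists_perm {ι : Type*} {f : ι → HM} (hf : Function.Injective f) {g : HM → HM}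
    {g' : HM → HM} (h1 : ∀ k, ∃ k', f k' = g (f k)) (h2 : ∀ k, ∃ k', f k' = g' (f k))
    (hgg' : ∀ X, g (g' X) = X) (hg'g : ∀ X, g' (g X) = X) :
    ∃ σ : ι ≃ ι, ∀ k, f (σ k) = g (f k) := by
  choose a ha using h1
  choose b hb using h2
  refine ⟨⟨a, b, ?_, ?_⟩, ha⟩
  · intro k
    apply hf
    rw [hb, ha, hg'g]
  · intro k
    apply hf
    rw [ha, hb, hgg']

theorem actM_toGL_inv' (g : SL(2, Oe)) (X : HM) :
    actM (toGL g) (actM (toGL g⁻¹) X) = X := by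
  have := actM_toGL_inv g⁻¹ X
  rwa [inv_inv] at this

/-- `g δ - δ` is integral -/
theorem actM_dl (g : SL(2, Oe)) : actM (toGL g) dl - dl ∈ Lat := by
  have hs3 : s3 ≠ 0 := fun h => by
    have := s3_sq; rw [h] at this; norm_num at this
  have hdet : (g 0 0 : ℂ) * g 1 1 - g 0 1 * g 1 0 = 1 := by
    have h := g.2
    rw [Matrix.det_fin_two] at h
    have := congrArg (Subtype.val) h
    simpa using this
  -- `(conj z - z) / √-3` is integral
  have key : ∀ z ∈ Oe, (conj z - z) * s3⁻¹ ∈ Oe := by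
    rintro z ⟨x, y, rfl⟩
    refine ⟨-y, 0, ?_⟩
    rw [map_add, map_mul, conj_om, map_intCast, map_intCast]
    field_simp
    rw [s3_eq]
    push_cast
    ring
  have hcs : conj s3⁻¹ = -s3⁻¹ := by rw [map_inv₀, conj_s3, inv_neg]
  have key2 : ∀ z ∈ Oe, ∃ n : ℤ, 2 * (z * s3⁻¹).re = n := by
    intro z hz
    have h1 := key z hz
    obtain ⟨x, y, rfl⟩ := hz
    refine ⟨y, ?_⟩
    have h2 := Complex.add_conj (((x : ℂ) + y * om) * s3⁻¹)
    rw [map_mul, hcs, map_add, map_mul, conj_om, map_intCast, map_intCast] at h2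
    have h3 : ((2 * ((((x : ℂ) + y * om) * s3⁻¹).re) : ℝ) : ℂ) = ((y : ℝ) : ℂ) := by
      rw [← h2]
      field_simp
      rw [s3_eq]
      push_cast
      ring
    exact_mod_cast h3
  have hG : ∀ i j, ((toGL g : GL (Fin 2) ℂ) : Matrix (Fin 2) (Fin 2) ℂ) i j = (g i j : ℂ) :=
    fun i j => rfl
  rw [mem_Lat]
  refine ⟨?_, ?_, ?_⟩
  · have h1 := key2 ((g 0 0 : ℂ) * conj (g 0 1 : ℂ)) (Oe.mul_mem (g 0 0).2 (conj_mem (g 0 1).2))
    simp only [dl, actM, hG, Prod.fst_sub, mul_zero, zero_add, add_zero, sub_zero]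
    rw [mul_right_comm]
    exact h1
  · have h1 := key2 ((g 1 0 : ℂ) * conj (g 1 1 : ℂ)) (Oe.mul_mem (g 1 0).2 (conj_mem (g 1 1).2))
    simp only [dl, actM, hG, Prod.fst_sub, Prod.snd_sub, mul_zero, zero_add, add_zero, sub_zero]
    rw [mul_right_comm]
    exact h1
  · simp only [dl, actM, hG, Prod.snd_sub, Complex.ofReal_zero, zero_mul, zero_add, add_zero]
    rw [hcs]
    have e1 : (g 0 0 : ℂ) * s3⁻¹ * conj (g 1 1 : ℂ) + (g 0 1 : ℂ) * -s3⁻¹ * conj (g 1 0 : ℂ) - s3⁻¹ =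
        (g 0 0 : ℂ) * ((conj (g 1 1 : ℂ) - (g 1 1 : ℂ)) * s3⁻¹) -
          (g 0 1 : ℂ) * ((conj (g 1 0 : ℂ) - (g 1 0 : ℂ)) * s3⁻¹) := by
      linear_combination (s3⁻¹) * hdet
    rw [e1]
    exact Oe.sub_mem (Oe.mul_mem (g 0 0).2 (key _ (g 1 1).2))
      (Oe.mul_mem (g 0 1).2 (key _ (g 1 0).2))

theorem exists_lp_actM (g : SL(2, Oe)) (j : ℤ) (k : Fin 4 → ℤ) :
    ∃ k', lp j k' = actM (toGL g) (lp j k) := by
  have h1 : actM (toGL g) (lp j k) - (j : ℝ) • dl ∈ Lat := by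
    have e1 : actM (toGL g) (lp j k) - (j : ℝ) • dl =
        actM (toGL g) (lp 0 k) + j • (actM (toGL g) dl - dl) := by
      rw [lp_eq, actM_add, actM_smul, ← Int.cast_smul_eq_zsmul ℝ, smul_sub]
      abel
    rw [e1]
    exact Lat.add_mem (actM_mem_Lat (toGL_mem g) (lp_zero_mem k)) (Lat.zsmul_mem (actM_dl g) j)
  obtain ⟨k', hk'⟩ := exists_lp_zero h1
  exact ⟨k', by rw [lp_eq, hk', sub_add_cancel]⟩

/-- `SL(2, Oe)` permutes the points of `L + j δ` -/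
theorem exists_perm_lp (g : SL(2, Oe)) (j : ℤ) :
    ∃ σ : (Fin 4 → ℤ) ≃ (Fin 4 → ℤ), ∀ k, lp j (σ k) = actM (toGL g) (lp j k) :=
  exists_perm (lp_injective j) (exists_lp_actM g j) (exists_lp_actM g⁻¹ j)
    (actM_toGL_inv' g) (actM_toGL_inv g)

theorem Xk_injective {N : ℕ} (hN : N ≠ 0) : Function.Injective (Xk N) := by
  intro k k' h
  apply lp_injective 0
  rw [Xk, Xk, add_right_inj] at h
  exact smul_right_injective HM (r := (N : ℝ)) (by exact_mod_cast hN) h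

/-- `g x0 - x0 ∈ N L` for `g ∈ Γ(N)` -/
theorem actM_x0 {N : ℕ} {g : SL(2, Oe)} (hg : g ∈ Gam N) :
    ∃ Y ∈ Lat, actM (toGL g) x0 = x0 + (N : ℝ) • Y := by
  have hG : ∀ i j, ((toGL g : GL (Fin 2) ℂ) : Matrix (Fin 2) (Fin 2) ℂ) i j = (g i j : ℂ) :=
    fun i j => rfl
  obtain ⟨p, hp⟩ := mem_Gam.mp hg 0 0
  obtain ⟨q', hq⟩ := mem_Gam.mp hg 0 1
  obtain ⟨r, hr⟩ := mem_Gam.mp hg 1 0
  obtain ⟨s, hs⟩ := mem_Gam.mp hg 1 1
  have hp' : (g 0 0 : ℂ) = 1 + N * (p : ℂ) := by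
    have := congrArg (Subtype.val) hp
    simp only [Matrix.one_apply_eq, AddSubgroupClass.coe_sub, OneMemClass.coe_one,
      MulMemClass.coe_mul, SubringClass.coe_natCast] at this
    linear_combination this
  have hq' : (g 0 1 : ℂ) = N * (q' : ℂ) := by
    have := congrArg (Subtype.val) hq
    simpa using this
  have hr' : (g 1 0 : ℂ) = N * (r : ℂ) := by
    have := congrArg (Subtype.val) hr
    simpa using this
  have hs' : (g 1 1 : ℂ) = 1 + N * (s : ℂ) := by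
    have := congrArg (Subtype.val) hs
    simp only [Matrix.one_apply_eq, AddSubgroupClass.coe_sub, OneMemClass.coe_one,
      MulMemClass.coe_mul, SubringClass.coe_natCast] at this
    linear_combination this
  obtain ⟨n1, hn1⟩ := two_re_Oe (Oe.mul_mem (g 0 0).2 (conj_mem q'.2))
  obtain ⟨n2, hn2⟩ := two_re_Oe (Oe.mul_mem r.2 (conj_mem (g 1 1).2))
  refine ⟨((n1 : ℝ), (n2 : ℝ), (p : ℂ) * conj (g 1 1 : ℂ) + conj (s : ℂ) +
    (q' : ℂ) * conj (g 1 0 : ℂ)), ⟨⟨_, rfl⟩, ⟨_, rfl⟩, ?_⟩, ?_⟩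
  · exact Oe.add_mem (Oe.add_mem (Oe.mul_mem p.2 (conj_mem (g 1 1).2)) (conj_mem s.2))
      (Oe.mul_mem q'.2 (conj_mem (g 1 0).2))
  · refine Prod.ext ?_ (Prod.ext ?_ ?_)
    · simp only [x0, actM, hG, Prod.fst_add, Prod.smul_fst, smul_eq_mul, mul_zero, zero_add,
        add_zero, mul_one]
      rw [hq', ← hn1, map_mul, Complex.conj_natCast, mul_left_comm]
      rw [← Complex.ofReal_natCast, Complex.re_ofReal_mul]
      ring
    · simp only [x0, actM, hG, Prod.fst_add, Prod.snd_add, Prod.smul_fst, Prod.smul_snd,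
        smul_eq_mul, mul_zero, zero_add, add_zero, mul_one]
      rw [hr', ← hn2, mul_assoc]
      rw [← Complex.ofReal_natCast, Complex.re_ofReal_mul]
      ring
    · simp only [x0, actM, hG, Prod.snd_add, Prod.smul_snd, Complex.ofReal_zero, zero_mul, zero_add,
        add_zero, mul_one, map_one, Complex.real_smul, Complex.ofReal_natCast]
      rw [hp']
      conv_lhs => rw [hq', hs']
      conv_rhs => rw [hs']
      simp only [map_add, map_one, map_mul, Complex.conj_natCast]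
      ring

theorem exists_Xk_actM {N : ℕ} {g : SL(2, Oe)} (hg : g ∈ Gam N) (k : Fin 4 → ℤ) :
    ∃ k', Xk N k' = actM (toGL g) (Xk N k) := by
  obtain ⟨Y, hY, h1⟩ := actM_x0 hg
  obtain ⟨k', hk'⟩ := exists_lp_zero
    (Lat.add_mem hY (actM_mem_Lat (toGL_mem g) (lp_zero_mem k)))
  refine ⟨k', ?_⟩
  rw [Xk, Xk, hk', actM_add, actM_smul, h1, smul_add, add_assoc]

/-- `Γ(N)` permutes the points of `x0 + N L` -/
theorem exists_perm_Xk {N : ℕ} (hN : N ≠ 0) {g : SL(2, Oe)} (hg : g ∈ Gam N) :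
    ∃ σ : (Fin 4 → ℤ) ≃ (Fin 4 → ℤ), ∀ k, Xk N (σ k) = actM (toGL g) (Xk N k) :=
  exists_perm (Xk_injective hN) (exists_Xk_actM hg) (exists_Xk_actM ((Gam N).inv_mem hg))
    (actM_toGL_inv' g) (actM_toGL_inv g)

theorem Xk_perm {E : Type*} [AddCommMonoid E] [TopologicalSpace E] {N : ℕ} (hN : N ≠ 0)
    {g : SL(2, Oe)} (hg : g ∈ Gam N) (F : HM → E) :
    ∑' k, F (actM (toGL g) (Xk N k)) = ∑' k, F (Xk N k) := by
  obtain ⟨σ, hσ⟩ := exists_perm_Xk hN hg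
  rw [← σ.tsum_eq (fun k => F (Xk N k))]
  simp_rw [hσ]

theorem Xk_perm_Sn {E : Type*} [AddCommMonoid E] [TopologicalSpace E] {N : ℕ} (hN : N ≠ 0)
    {g : SL(2, Oe)} (hg : g ∈ Gam N) (n : ℤ) (F : HM → E) :
    ∑' k : Sn N n, F (actM (toGL g) (Xk N k)) = ∑' k : Sn N n, F (Xk N k) := by
  obtain ⟨σ, hσ⟩ := exists_perm_Xk hN hg
  have h1 : ∀ k, σ k ∈ Sn N n ↔ k ∈ Sn N n := by
    intro k
    change q (Xk N (σ k)) = n ↔ q (Xk N k) = n
    rw [hσ, q_SL]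
  let σ' : Sn N n ≃ Sn N n := σ.subtypeEquiv (fun k => (h1 k).symm)
  rw [← σ'.tsum_eq (fun k : Sn N n => F (Xk N k))]
  refine tsum_congr fun k => ?_
  have : ((σ' k : Sn N n) : Fin 4 → ℤ) = σ k := rfl
  rw [this, hσ]

/-- invariance of the theta kernel -/
theorem TN_smul {N : ℕ} (hN : N ≠ 0) (m : Fin 2) (τ : UpperHalfPlane) {g : SL(2, Oe)}
    (hg : g ∈ Gam N) (w : H3) : TN m N τ (g • w) = TN m N τ w := by
  rw [TN_def, TN_def, ← Xk_perm hN hg]
  simp_rw [ker_SL]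

theorem kv_sum_smul {N : ℕ} (hN : N ≠ 0) (m : Fin 2) (v : ℝ) {g : SL(2, Oe)}
    (hg : g ∈ Gam N) (n : ℤ) (w : H3) :
    ∑' k : Sn N n, kv m v (g • w) (Xk N k) = ∑' k : Sn N n, kv m v w (Xk N k) := by
  rw [← Xk_perm_Sn hN hg]
  simp_rw [kv_SL]

/-- `SL(2, Oe)` acts on the theta functions through the characteristics -/
theorem th_smul (m : Fin 2) (j : ℤ) (τ : UpperHalfPlane) (g : SL(2, Oe)) (w : H3) (X0 Y0 : HM) :
    th m j τ (g • w) (actM (toGL g) X0) (actM (toGL g) Y0) = th m j τ w X0 Y0 := by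
  obtain ⟨σ, hσ⟩ := exists_perm_lp g j
  rw [th, th, ← σ.tsum_eq]
  refine tsum_congr fun k => ?_
  rw [hσ]
  have e1 : actM (toGL g) (lp j k) - actM (toGL g) X0 = actM (toGL g) (lp j k - X0) := by
    rw [sub_eq_add_neg, sub_eq_add_neg, actM_add, actM_neg]
  rw [e1, ker_SL, B_actM, B_actM, det_toGL, map_one, one_mul, one_mul]

end Fermat.Agent.LT.Th
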