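import Fermat.Agent.LT.Th.Harm1
import Fermat.Agent.LT.Th.Lift

set_option autoImplicit false

/-!
# Harmonicity of the theta lift: Green's identity on `H3`
-/

namespace Fermat.Agent.LT.Th

open MeasureTheory Real Set ComplexConjugate HM

namespace Harm

/-- `t` in coordinates -/
noncomputable def tt (X : HM) (p : ℂ × ℝ) : ℝ :=
  (X.1 - 2 * (X.2.2 * conj p.1).re + X.2.1 * Complex.normSq p.1 + X.2.1 * p.2 ^ 2) / (2 * p.2)

theorem tt_toCR (X : HM) (w : H3) : tt X (H3.toCR w) = t w X := rfl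

/-- the partial derivatives -/
noncomputable def tx (X : HM) (p : ℂ × ℝ) : ℝ := (X.2.1 * p.1.re - X.2.2.re) / p.2

noncomputable def ti (X : HM) (p : ℂ × ℝ) : ℝ := (X.2.1 * p.1.im - X.2.2.im) / p.2

noncomputable def ty (X : HM) (p : ℂ × ℝ) : ℝ := X.2.1 - tt X p / p.2

theorem tt_expand (X : HM) (p : ℂ × ℝ) : tt X p = (X.1 - 2 * (X.2.2.re * p.1.re +
    X.2.2.im * p.1.im) + X.2.1 * (p.1.re ^ 2 + p.1.im ^ 2) + X.2.1 * p.2 ^ 2) / (2 * p.2) := by
  rw [tt, Complex.normSq_apply, Complex.mul_re, Complex.conj_re, Complex.conj_im]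
  congr 1
  ring

/-- `|∇ t|² = t² + q` -/
theorem grad (X : HM) {p : ℂ × ℝ} (hp : p.2 ≠ 0) :
    p.2 ^ 2 * (tx X p ^ 2 + ti X p ^ 2 + ty X p ^ 2) = tt X p ^ 2 + q X := by
  rw [ty, tt_expand, tx, ti, q, Complex.normSq_apply]
  field_simp
  ring

theorem hasDeriv_tx (X : HM) (p : ℂ × ℝ) :
    HasDerivAt (fun s : ℝ => tt X (p + s • ((1 : ℂ), (0 : ℝ)))) (tx X p) 0 := by
  by_cases hp : p.2 = 0
  · have h1 : (fun s : ℝ => tt X (p + s • ((1 : ℂ), (0 : ℝ)))) = fun _ => 0 := by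
      funext s
      rw [tt]
      simp [hp]
    rw [h1, tx, hp, div_zero]
    exact hasDerivAt_const _ _
  · have h1 : (fun s : ℝ => tt X (p + s • ((1 : ℂ), (0 : ℝ)))) = fun s =>
        (X.1 - 2 * (X.2.2.re * (p.1.re + s) + X.2.2.im * p.1.im) + X.2.1 * ((p.1.re + s) ^ 2 +
          p.1.im ^ 2) + X.2.1 * p.2 ^ 2) / (2 * p.2) := by
      funext s
      rw [tt_expand]
      simp
    rw [h1]
    have e1 : HasDerivAt (fun s : ℝ => p.1.re + s) 1 0 := (hasDerivAt_id (0 : ℝ)).const_add _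
    have e2 := (((((((e1.const_mul X.2.2.re).add_const (X.2.2.im * p.1.im)).const_mul 2).const_sub
      X.1).add (((e1.pow 2).add_const (p.1.im ^ 2)).const_mul X.2.1))).add_const
      (X.2.1 * p.2 ^ 2)).div_const (2 * p.2)
    refine e2.congr_deriv ?_
    rw [tx]
    field_simp
    simp
    ring

theorem hasDeriv_ti (X : HM) (p : ℂ × ℝ) :
    HasDerivAt (fun s : ℝ => tt X (p + s • ((Complex.I : ℂ), (0 : ℝ)))) (ti X p) 0 := by
  by_cases hp : p.2 = 0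
  · have h1 : (fun s : ℝ => tt X (p + s • ((Complex.I : ℂ), (0 : ℝ)))) = fun _ => 0 := by
      funext s
      rw [tt]
      simp [hp]
    rw [h1, ti, hp, div_zero]
    exact hasDerivAt_const _ _
  · have h1 : (fun s : ℝ => tt X (p + s • ((Complex.I : ℂ), (0 : ℝ)))) = fun s =>
        (X.1 - 2 * (X.2.2.re * p.1.re + X.2.2.im * (p.1.im + s)) + X.2.1 * (p.1.re ^ 2 +
          (p.1.im + s) ^ 2) + X.2.1 * p.2 ^ 2) / (2 * p.2) := by
      funext s
      rw [tt_expand]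
      simp
    rw [h1]
    have e1 : HasDerivAt (fun s : ℝ => p.1.im + s) 1 0 := (hasDerivAt_id (0 : ℝ)).const_add _
    have e2 := (((((((e1.const_mul X.2.2.im).const_add (X.2.2.re * p.1.re)).const_mul 2).const_sub
      X.1).add (((e1.pow 2).const_add (p.1.re ^ 2)).const_mul X.2.1))).add_const
      (X.2.1 * p.2 ^ 2)).div_const (2 * p.2)
    refine e2.congr_deriv ?_
    rw [ti]
    field_simp
    simp
    ring

theorem hasDeriv_ty (X : HM) {p : ℂ × ℝ} (hp : p.2 ≠ 0) :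
    HasDerivAt (fun s : ℝ => tt X (p + s • ((0 : ℂ), (1 : ℝ)))) (ty X p) 0 := by
  have h1 : (fun s : ℝ => tt X (p + s • ((0 : ℂ), (1 : ℝ)))) = fun s =>
      (X.1 - 2 * (X.2.2.re * p.1.re + X.2.2.im * p.1.im) + X.2.1 * (p.1.re ^ 2 +
        p.1.im ^ 2) + X.2.1 * (p.2 + s) ^ 2) / (2 * (p.2 + s)) := by
    funext s
    rw [tt_expand]
    simp
  rw [h1]
  have e1 : HasDerivAt (fun s : ℝ => p.2 + s) 1 0 := (hasDerivAt_id (0 : ℝ)).const_add _
  have e2 := (((e1.pow 2).const_mul X.2.1).const_add (X.1 - 2 * (X.2.2.re * p.1.re +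
    X.2.2.im * p.1.im) + X.2.1 * (p.1.re ^ 2 + p.1.im ^ 2))).div (e1.const_mul 2)
    (by simpa using hp)
  refine e2.congr_deriv ?_
  rw [ty, tt_expand]
  simp
  field_simp

theorem hasDeriv_txx (X : HM) (p : ℂ × ℝ) :
    HasDerivAt (fun s : ℝ => tx X (p + s • ((1 : ℂ), (0 : ℝ)))) (X.2.1 / p.2) 0 := by
  have h1 : (fun s : ℝ => tx X (p + s • ((1 : ℂ), (0 : ℝ)))) = fun s =>
      (X.2.1 * (p.1.re + s) - X.2.2.re) / p.2 := by
    funext s
    rw [tx]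
    simp
  rw [h1]
  have e1 : HasDerivAt (fun s : ℝ => p.1.re + s) 1 0 := (hasDerivAt_id (0 : ℝ)).const_add _
  have e2 := ((e1.const_mul X.2.1).sub_const X.2.2.re).div_const p.2
  refine e2.congr_deriv ?_
  ring

theorem hasDeriv_tii (X : HM) (p : ℂ × ℝ) :
    HasDerivAt (fun s : ℝ => ti X (p + s • ((Complex.I : ℂ), (0 : ℝ)))) (X.2.1 / p.2) 0 := by
  have h1 : (fun s : ℝ => ti X (p + s • ((Complex.I : ℂ), (0 : ℝ)))) = fun s =>
      (X.2.1 * (p.1.im + s) - X.2.2.im) / p.2 := by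
    funext s
    rw [ti]
    simp
  rw [h1]
  have e1 : HasDerivAt (fun s : ℝ => p.1.im + s) 1 0 := (hasDerivAt_id (0 : ℝ)).const_add _
  have e2 := ((e1.const_mul X.2.1).sub_const X.2.2.im).div_const p.2
  refine e2.congr_deriv ?_
  ring

theorem hasDeriv_y (p : ℂ × ℝ) :
    HasDerivAt (fun s : ℝ => (p + s • ((0 : ℂ), (1 : ℝ))).2) 1 0 := by
  have h1 : (fun s : ℝ => (p + s • ((0 : ℂ), (1 : ℝ))).2) = fun s => p.2 + s := by
    funext s
    simp
  rw [h1]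
  exact (hasDerivAt_id (0 : ℝ)).const_add _

theorem hasDeriv_tyy (X : HM) {p : ℂ × ℝ} (hp : p.2 ≠ 0) :
    HasDerivAt (fun s : ℝ => ty X (p + s • ((0 : ℂ), (1 : ℝ))))
      (2 * tt X p / p.2 ^ 2 - X.2.1 / p.2) 0 := by
  have e2 := ((hasDeriv_ty X hp).div (hasDeriv_y p) (by simpa using hp)).const_sub X.2.1
  refine e2.congr_deriv ?_
  simp only [zero_smul, add_zero]
  rw [ty]
  field_simp
  ring

/-- the derivative of the Wronskian along a curve -/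
theorem hasDeriv_W {k k1 k2 F F1 F2 : ℝ → ℝ} (hk : C2 k k1 k2) (hF : C2 F F1 F2)
    {a a1 b b1 : ℝ → ℝ} {a2 b2 : ℝ} (ha : HasDerivAt a (a1 0) 0) (ha1 : HasDerivAt a1 a2 0)
    (hb : HasDerivAt b (b1 0) 0) (hb1 : HasDerivAt b1 b2 0) :
    HasDerivAt (fun s => k1 (a s) * a1 s * F (b s) - k (a s) * (F1 (b s) * b1 s))
      ((k2 (a 0) * a1 0 ^ 2 + k1 (a 0) * a2) * F (b 0) -
        k (a 0) * (F2 (b 0) * b1 0 ^ 2 + F1 (b 0) * b2)) 0 := by
  have e1 : HasDerivAt (fun s => k (a s)) (k1 (a 0) * a1 0) 0 := (hk.d1 _).comp 0 ha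
  have e2 : HasDerivAt (fun s => k1 (a s)) (k2 (a 0) * a1 0) 0 := (hk.d2 _).comp 0 ha
  have e3 : HasDerivAt (fun s => F (b s)) (F1 (b 0) * b1 0) 0 := (hF.d1 _).comp 0 hb
  have e4 : HasDerivAt (fun s => F1 (b s)) (F2 (b 0) * b1 0) 0 := (hF.d2 _).comp 0 hb
  refine (((e2.mul ha1).mul e3).sub (e1.mul (e4.mul hb1))).congr_deriv ?_
  simp only [Pi.mul_apply]
  ring

/-! ### continuity -/

theorem continuousAt_tt (X : HM) {p : ℂ × ℝ} (hp : p.2 ≠ 0) : ContinuousAt (tt X) p := by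
  have h1 : tt X = fun p : ℂ × ℝ => (X.1 - 2 * (X.2.2 * conj p.1).re + X.2.1 *
    Complex.normSq p.1 + X.2.1 * p.2 ^ 2) / (2 * p.2) := rfl
  rw [h1]
  have hn : Continuous fun p : ℂ × ℝ => Complex.normSq p.1 :=
    Complex.continuous_normSq.comp continuous_fst
  refine ContinuousAt.div (Continuous.continuousAt (by fun_prop)) (by fun_prop) (by simpa using hp)

theorem continuousAt_tx (X : HM) {p : ℂ × ℝ} (hp : p.2 ≠ 0) : ContinuousAt (tx X) p := by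
  have h1 : tx X = fun p : ℂ × ℝ => (X.2.1 * p.1.re - X.2.2.re) / p.2 := rfl
  rw [h1]
  exact ContinuousAt.div (by fun_prop) (by fun_prop) hp

theorem continuousAt_ti (X : HM) {p : ℂ × ℝ} (hp : p.2 ≠ 0) : ContinuousAt (ti X) p := by
  have h1 : ti X = fun p : ℂ × ℝ => (X.2.1 * p.1.im - X.2.2.im) / p.2 := rfl
  rw [h1]
  exact ContinuousAt.div (by fun_prop) (by fun_prop) hp

theorem continuousAt_ty (X : HM) {p : ℂ × ℝ} (hp : p.2 ≠ 0) : ContinuousAt (ty X) p := by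
  have h1 : ty X = fun p : ℂ × ℝ => X.2.1 - tt X p / p.2 := rfl
  rw [h1]
  exact ContinuousAt.sub (by fun_prop) ((continuousAt_tt X hp).div (by fun_prop) hp)

theorem continuous_of_zero_off {K : Set (ℂ × ℝ)} (hK : IsCompact K) (hKp : ∀ p ∈ K, 0 < p.2)
    {f : ℂ × ℝ → ℝ} (hz : ∀ p, p ∉ K → f p = 0) (hc : ∀ p : ℂ × ℝ, p.2 ≠ 0 → ContinuousAt f p) :
    Continuous f := by
  refine continuous_iff_continuousAt.mpr fun p => ?_
  by_cases hp : p ∈ K
  · exact hc p (hKp p hp).ne'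
  · have h1 : f =ᶠ[nhds p] fun _ => 0 := by
      filter_upwards [hK.isClosed.isOpen_compl.mem_nhds hp] with y hy
      exact hz y hy
    exact continuousAt_const.congr h1.symm

theorem integral_zero_of_line {K : Set (ℂ × ℝ)} (hK : IsCompact K) (hKp : ∀ p ∈ K, 0 < p.2)
    {f f' : ℂ × ℝ → ℝ} (hz : ∀ p, p ∉ K → f p = 0) (hz' : ∀ p, p ∉ K → f' p = 0)
    (hc : ∀ p : ℂ × ℝ, p.2 ≠ 0 → ContinuousAt f p) (hc' : ∀ p : ℂ × ℝ, p.2 ≠ 0 → ContinuousAt f' p)
    (v : ℂ × ℝ) (hd : ∀ p : ℂ × ℝ, p.2 ≠ 0 → HasDerivAt (fun s : ℝ => f (p + s • v)) (f' p) 0) :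
    Integrable f' ∧ ∫ p, f' p = 0 := by
  have hcf := continuous_of_zero_off hK hKp hz hc
  have hcf' := continuous_of_zero_off hK hKp hz' hc'
  have hi : Integrable f := hcf.integrable_of_hasCompactSupport (HasCompactSupport.intro hK hz)
  have hi' : Integrable f' := hcf'.integrable_of_hasCompactSupport (HasCompactSupport.intro hK hz')
  have hl : ∀ p, HasLineDerivAt ℝ f (f' p) p v := by
    intro p
    by_cases hp : p ∈ K
    · exact hd p (hKp p hp).ne'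
    · rw [hz' p hp]
      have h1 : (fun s : ℝ => f (p + s • v)) =ᶠ[nhds 0] fun _ => 0 := by
        have h2 : ContinuousAt (fun s : ℝ => p + s • v) 0 := by fun_prop
        have h3 : (fun s : ℝ => p + s • v) 0 ∈ Kᶜ := by simpa using hp
        filter_upwards [h2.preimage_mem_nhds (hK.isClosed.isOpen_compl.mem_nhds h3)] with s hs
        exact hz _ hs
      exact (hasDerivAt_const (0 : ℝ) (0 : ℝ)).congr_of_eventuallyEq h1
  have h := integral_bilinear_hasLineDerivAt_right_eq_neg_left_of_integrable (μ := volume)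
    (f := f) (f' := f') (g := fun _ => (1 : ℝ)) (g' := fun _ => (0 : ℝ)) (v := v)
    (B := ContinuousLinearMap.mul ℝ ℝ) (by simpa using hi') (by simp) (by simpa using hi)
    (fun p _ => hl p) (fun p _ => by
      have : HasDerivAt (fun _ : ℝ => (1 : ℝ)) 0 (0 : ℝ) := hasDerivAt_const _ _
      exact this)
  refine ⟨hi', ?_⟩
  simpa using h

variable {k k1 k2 F F1 F2 : ℝ → ℝ}

/-- **Green's identity** in coordinates -/
theorem green_CR (hk : Bump k k1 k2) (hF : C2 F F1 F2) (X Y : HM) {K : Set (ℂ × ℝ)}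
    (hK : IsCompact K) (hKp : ∀ p ∈ K, 0 < p.2) (hX : ∀ p, p ∉ K → tt X p ∉ Icc (2 : ℝ) 3) :
    ∫ p : ℂ × ℝ, (LF (q X) k k1 k2 (tt X p) * F (tt Y p) -
      k (tt X p) * LF (q Y) F F1 F2 (tt Y p)) / p.2 ^ 3 = 0 := by
  have z0 : ∀ p, p ∉ K → k (tt X p) = 0 := fun p hp => hk.z0 _ (hX p hp)
  have z1 : ∀ p, p ∉ K → k1 (tt X p) = 0 := fun p hp => hk.z1 _ (hX p hp)
  have z2 : ∀ p, p ∉ K → k2 (tt X p) = 0 := fun p hp => hk.z2 _ (hX p hp)
  have c0 : ∀ p : ℂ × ℝ, p.2 ≠ 0 → ContinuousAt (fun p => k (tt X p)) p := fun p hp =>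
    hk.c0.continuousAt.comp (continuousAt_tt X hp)
  have c1 : ∀ p : ℂ × ℝ, p.2 ≠ 0 → ContinuousAt (fun p => k1 (tt X p)) p := fun p hp =>
    hk.c1.continuousAt.comp (continuousAt_tt X hp)
  have c2 : ∀ p : ℂ × ℝ, p.2 ≠ 0 → ContinuousAt (fun p => k2 (tt X p)) p := fun p hp =>
    hk.c2.continuousAt.comp (continuousAt_tt X hp)
  have d0 : ∀ p : ℂ × ℝ, p.2 ≠ 0 → ContinuousAt (fun p => F (tt Y p)) p := fun p hp =>
    hF.c0.continuousAt.comp (continuousAt_tt Y hp)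
  have d1 : ∀ p : ℂ × ℝ, p.2 ≠ 0 → ContinuousAt (fun p => F1 (tt Y p)) p := fun p hp =>
    hF.c1.continuousAt.comp (continuousAt_tt Y hp)
  have d2 : ∀ p : ℂ × ℝ, p.2 ≠ 0 → ContinuousAt (fun p => F2 (tt Y p)) p := fun p hp =>
    hF.c2.continuousAt.comp (continuousAt_tt Y hp)
  have cy : ∀ p : ℂ × ℝ, p.2 ≠ 0 → ContinuousAt (fun p : ℂ × ℝ => p.2⁻¹) p := fun p hp =>
    continuousAt_snd.inv₀ hp
  have tX := fun (p : ℂ × ℝ) (hp : p.2 ≠ 0) => continuousAt_tt X hp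
  have tY := fun (p : ℂ × ℝ) (hp : p.2 ≠ 0) => continuousAt_tt Y hp
  have xX := fun (p : ℂ × ℝ) (hp : p.2 ≠ 0) => continuousAt_tx X hp
  have xY := fun (p : ℂ × ℝ) (hp : p.2 ≠ 0) => continuousAt_tx Y hp
  have iX := fun (p : ℂ × ℝ) (hp : p.2 ≠ 0) => continuousAt_ti X hp
  have iY := fun (p : ℂ × ℝ) (hp : p.2 ≠ 0) => continuousAt_ti Y hp
  have yX := fun (p : ℂ × ℝ) (hp : p.2 ≠ 0) => continuousAt_ty X hp
  have yY := fun (p : ℂ × ℝ) (hp : p.2 ≠ 0) => continuousAt_ty Y hp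
  -- the three directions
  obtain ⟨ix, ex⟩ := integral_zero_of_line hK hKp
    (f := fun p => (k1 (tt X p) * tx X p * F (tt Y p) - k (tt X p) * (F1 (tt Y p) * tx Y p)) *
      p.2⁻¹)
    (f' := fun p => ((k2 (tt X p) * tx X p ^ 2 + k1 (tt X p) * (X.2.1 * p.2⁻¹)) * F (tt Y p) -
        k (tt X p) * (F2 (tt Y p) * tx Y p ^ 2 + F1 (tt Y p) * (Y.2.1 * p.2⁻¹))) * p.2⁻¹)
    (fun p hp => by simp only [z0 p hp, z1 p hp]; ring)
    (fun p hp => by simp only [z0 p hp, z1 p hp, z2 p hp]; ring)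
    (fun p hp => (((c1 p hp).mul (xX p hp)).mul (d0 p hp)).sub ((c0 p hp).mul
      ((d1 p hp).mul (xY p hp))) |>.mul (cy p hp))
    (fun p hp => ((((c2 p hp).mul ((xX p hp).pow 2)).add ((c1 p hp).mul
      (continuousAt_const.mul (cy p hp)))).mul (d0 p hp)).sub ((c0 p hp).mul
      (((d2 p hp).mul ((xY p hp).pow 2)).add ((d1 p hp).mul (continuousAt_const.mul (cy p hp)))))
      |>.mul (cy p hp))
    ((1 : ℂ), (0 : ℝ)) (fun p hp => by
      have e := hasDeriv_W hk.toC2 hF (a := fun s : ℝ => tt X (p + s • ((1 : ℂ), (0 : ℝ))))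
        (a1 := fun s : ℝ => tx X (p + s • ((1 : ℂ), (0 : ℝ))))
        (b := fun s : ℝ => tt Y (p + s • ((1 : ℂ), (0 : ℝ))))
        (b1 := fun s : ℝ => tx Y (p + s • ((1 : ℂ), (0 : ℝ))))
        (by simpa using hasDeriv_tx X p) (hasDeriv_txx X p)
        (by simpa using hasDeriv_tx Y p) (hasDeriv_txx Y p)
      have e2 := e.mul_const p.2⁻¹
      simp only [zero_smul, add_zero] at e2
      have h2 : ∀ s : ℝ, (p + s • ((1 : ℂ), (0 : ℝ))).2 = p.2 := fun s => by simp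
      simp only [h2]
      exact e2)
  obtain ⟨ii, ei⟩ := integral_zero_of_line hK hKp
    (f := fun p => (k1 (tt X p) * ti X p * F (tt Y p) - k (tt X p) * (F1 (tt Y p) * ti Y p)) *
      p.2⁻¹)
    (f' := fun p => ((k2 (tt X p) * ti X p ^ 2 + k1 (tt X p) * (X.2.1 * p.2⁻¹)) * F (tt Y p) -
        k (tt X p) * (F2 (tt Y p) * ti Y p ^ 2 + F1 (tt Y p) * (Y.2.1 * p.2⁻¹))) * p.2⁻¹)
    (fun p hp => by simp only [z0 p hp, z1 p hp]; ring)
    (fun p hp => by simp only [z0 p hp, z1 p hp, z2 p hp]; ring)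
    (fun p hp => (((c1 p hp).mul (iX p hp)).mul (d0 p hp)).sub ((c0 p hp).mul
      ((d1 p hp).mul (iY p hp))) |>.mul (cy p hp))
    (fun p hp => ((((c2 p hp).mul ((iX p hp).pow 2)).add ((c1 p hp).mul
      (continuousAt_const.mul (cy p hp)))).mul (d0 p hp)).sub ((c0 p hp).mul
      (((d2 p hp).mul ((iY p hp).pow 2)).add ((d1 p hp).mul (continuousAt_const.mul (cy p hp)))))
      |>.mul (cy p hp))
    ((Complex.I : ℂ), (0 : ℝ)) (fun p hp => by
      have e := hasDeriv_W hk.toC2 hF (a := fun s : ℝ => tt X (p + s • ((Complex.I : ℂ), (0 : ℝ))))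
        (a1 := fun s : ℝ => ti X (p + s • ((Complex.I : ℂ), (0 : ℝ))))
        (b := fun s : ℝ => tt Y (p + s • ((Complex.I : ℂ), (0 : ℝ))))
        (b1 := fun s : ℝ => ti Y (p + s • ((Complex.I : ℂ), (0 : ℝ))))
        (by simpa using hasDeriv_ti X p) (hasDeriv_tii X p)
        (by simpa using hasDeriv_ti Y p) (hasDeriv_tii Y p)
      have e2 := e.mul_const p.2⁻¹
      simp only [zero_smul, add_zero] at e2
      have h2 : ∀ s : ℝ, (p + s • ((Complex.I : ℂ), (0 : ℝ))).2 = p.2 := fun s => by simp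
      simp only [h2]
      exact e2)
  obtain ⟨iy, ey⟩ := integral_zero_of_line hK hKp
    (f := fun p => (k1 (tt X p) * ty X p * F (tt Y p) - k (tt X p) * (F1 (tt Y p) * ty Y p)) *
      p.2⁻¹)
    (f' := fun p => ((k2 (tt X p) * ty X p ^ 2 + k1 (tt X p) *
          (2 * tt X p * (p.2⁻¹) ^ 2 - X.2.1 * p.2⁻¹)) * F (tt Y p) -
        k (tt X p) * (F2 (tt Y p) * ty Y p ^ 2 + F1 (tt Y p) *
          (2 * tt Y p * (p.2⁻¹) ^ 2 - Y.2.1 * p.2⁻¹))) * p.2⁻¹ +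
        (k1 (tt X p) * ty X p * F (tt Y p) - k (tt X p) * (F1 (tt Y p) * ty Y p)) *
          (-(p.2⁻¹) ^ 2))
    (fun p hp => by simp only [z0 p hp, z1 p hp]; ring)
    (fun p hp => by simp only [z0 p hp, z1 p hp, z2 p hp]; ring)
    (fun p hp => (((c1 p hp).mul (yX p hp)).mul (d0 p hp)).sub ((c0 p hp).mul
      ((d1 p hp).mul (yY p hp))) |>.mul (cy p hp))
    (fun p hp => (((((c2 p hp).mul ((yX p hp).pow 2)).add ((c1 p hp).mul
      (((continuousAt_const.mul (tX p hp)).mul ((cy p hp).pow 2)).sub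
        (continuousAt_const.mul (cy p hp))))).mul (d0 p hp)).sub ((c0 p hp).mul
      (((d2 p hp).mul ((yY p hp).pow 2)).add ((d1 p hp).mul
        (((continuousAt_const.mul (tY p hp)).mul ((cy p hp).pow 2)).sub
        (continuousAt_const.mul (cy p hp))))))
      |>.mul (cy p hp)).add (((((c1 p hp).mul (yX p hp)).mul (d0 p hp)).sub ((c0 p hp).mul
      ((d1 p hp).mul (yY p hp)))).mul ((cy p hp).pow 2).neg))
    ((0 : ℂ), (1 : ℝ)) (fun p hp => by
      have e := hasDeriv_W hk.toC2 hF (a := fun s : ℝ => tt X (p + s • ((0 : ℂ), (1 : ℝ))))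
        (a1 := fun s : ℝ => ty X (p + s • ((0 : ℂ), (1 : ℝ))))
        (b := fun s : ℝ => tt Y (p + s • ((0 : ℂ), (1 : ℝ))))
        (b1 := fun s : ℝ => ty Y (p + s • ((0 : ℂ), (1 : ℝ))))
        (by simpa using hasDeriv_ty X hp) (hasDeriv_tyy X hp)
        (by simpa using hasDeriv_ty Y hp) (hasDeriv_tyy Y hp)
      have e2 := e.mul ((hasDeriv_y p).inv (by simpa using hp))
      simp only [zero_smul, add_zero] at e2
      refine e2.congr_deriv ?_
      simp only [zero_smul, add_zero, div_eq_mul_inv, Pi.inv_apply]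
      ring)
  have hsum : ∀ p : ℂ × ℝ, (LF (q X) k k1 k2 (tt X p) * F (tt Y p) -
      k (tt X p) * LF (q Y) F F1 F2 (tt Y p)) / p.2 ^ 3 =
      (((k2 (tt X p) * tx X p ^ 2 + k1 (tt X p) * (X.2.1 * p.2⁻¹)) * F (tt Y p) -
        k (tt X p) * (F2 (tt Y p) * tx Y p ^ 2 + F1 (tt Y p) * (Y.2.1 * p.2⁻¹))) * p.2⁻¹ +
      ((k2 (tt X p) * ti X p ^ 2 + k1 (tt X p) * (X.2.1 * p.2⁻¹)) * F (tt Y p) -
        k (tt X p) * (F2 (tt Y p) * ti Y p ^ 2 + F1 (tt Y p) * (Y.2.1 * p.2⁻¹))) * p.2⁻¹) +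
      (((k2 (tt X p) * ty X p ^ 2 + k1 (tt X p) *
          (2 * tt X p * (p.2⁻¹) ^ 2 - X.2.1 * p.2⁻¹)) * F (tt Y p) -
        k (tt X p) * (F2 (tt Y p) * ty Y p ^ 2 + F1 (tt Y p) *
          (2 * tt Y p * (p.2⁻¹) ^ 2 - Y.2.1 * p.2⁻¹))) * p.2⁻¹ +
        (k1 (tt X p) * ty X p * F (tt Y p) - k (tt X p) * (F1 (tt Y p) * ty Y p)) *
          (-(p.2⁻¹) ^ 2)) := by
    intro p
    by_cases hp : p ∈ K
    · have hy : p.2 ≠ 0 := (hKp p hp).ne'
      have gX := grad X hy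
      have gY := grad Y hy
      have eX : tt X p ^ 2 + q X = p.2 ^ 2 * (tx X p ^ 2 + ti X p ^ 2 + ty X p ^ 2) := gX.symm
      have eY : tt Y p ^ 2 + q Y = p.2 ^ 2 * (tx Y p ^ 2 + ti Y p ^ 2 + ty Y p ^ 2) := gY.symm
      rw [LF, LF, eX, eY]
      have hX' : X.2.1 = ty X p + tt X p / p.2 := by rw [ty]; ring
      have hY' : Y.2.1 = ty Y p + tt Y p / p.2 := by rw [ty]; ring
      rw [hX', hY']
      field_simp
      ring
    · have hz3 : LF (q X) k k1 k2 (tt X p) = 0 := by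
        rw [LF, z0 p hp, z1 p hp, z2 p hp]; ring
      rw [hz3, z0 p hp, z1 p hp, z2 p hp]
      ring
  rw [integral_congr_ae (Filter.Eventually.of_forall hsum)]
  refine (integral_add (ix.add ii) iy).trans ?_
  rw [ey, add_zero]
  refine (integral_add ix ii).trans ?_
  rw [ex, ei, add_zero]

end Harm

end Fermat.Agent.LT.Th
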