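import Fermat.Agent.LT.Th.Harm2
import Fermat.Agent.LT.H3.Ball

set_option autoImplicit false

/-!
# Harmonicity of the theta lift: Green's identity on `H3` (intrinsic form), comparison of majorants
-/

namespace Fermat.Agent.LT.Th

open MeasureTheory Real Set ComplexConjugate HM

namespace Harm

/-- the positive Hermitian matrix of determinant one of a point -/
noncomputable def pm (w : H3) : HM := ((‖w.z‖ ^ 2 + w.y ^ 2) / w.y, 1 / w.y, w.z / w.y)

theorem tt_pm (w : H3) (p : ℂ × ℝ) :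
    tt (pm w) p = (‖w.z - p.1‖ ^ 2 + w.y ^ 2 + p.2 ^ 2) / (2 * w.y * p.2) := by
  have hy := w.pos.ne'
  rw [tt_expand, pm]
  have e1 : ‖w.z‖ ^ 2 = w.z.re ^ 2 + w.z.im ^ 2 := by
    rw [Complex.sq_norm, Complex.normSq_apply]; ring
  have e2 : ‖w.z - p.1‖ ^ 2 = (w.z.re - p.1.re) ^ 2 + (w.z.im - p.1.im) ^ 2 := by
    rw [Complex.sq_norm, Complex.normSq_apply, Complex.sub_re, Complex.sub_im]; ring
  have e3 : (w.z / (w.y : ℂ)).re = w.z.re / w.y := by rw [Complex.div_ofReal_re]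
  have e4 : (w.z / (w.y : ℂ)).im = w.z.im / w.y := by rw [Complex.div_ofReal_im]
  simp only [e1, e2, e3, e4]
  by_cases hp : p.2 = 0
  · simp [hp]
  · field_simp
    ring

theorem t_pm (w w' : H3) : t w' (pm w) = H3.cd w w' := by
  rw [← tt_toCR, tt_pm, H3.cd]
  rfl

theorem q_pm (w : H3) : q (pm w) = -1 := by
  have hy := w.pos.ne'
  have e1 : ‖w.z‖ ^ 2 = w.z.re ^ 2 + w.z.im ^ 2 := by
    rw [Complex.sq_norm, Complex.normSq_apply]; ring
  have e3 : (w.z / (w.y : ℂ)).re = w.z.re / w.y := by rw [Complex.div_ofReal_re]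
  have e4 : (w.z / (w.y : ℂ)).im = w.z.im / w.y := by rw [Complex.div_ofReal_im]
  simp only [q, pm, e1, Complex.normSq_apply, e3, e4]
  field_simp
  ring

/-- a compact set outside of which `tt (pm w) ∉ [2, 3]` -/
def KK (w : H3) : Set (ℂ × ℝ) := Metric.closedBall w.z (6 * w.y) ×ˢ Icc (w.y / 6) (6 * w.y)

theorem isCompact_KK (w : H3) : IsCompact (KK w) := (isCompact_closedBall _ _).prod isCompact_Icc

theorem KK_pos (w : H3) (p : ℂ × ℝ) (hp : p ∈ KK w) : 0 < p.2 := by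
  have := w.pos
  have h := hp.2.1
  linarith

theorem KK_off (w : H3) (p : ℂ × ℝ) (hp : p ∉ KK w) : tt (pm w) p ∉ Icc (2 : ℝ) 3 := by
  intro h
  apply hp
  have hw := w.pos
  rw [tt_pm] at h
  have h0 : 0 ≤ ‖w.z - p.1‖ ^ 2 := sq_nonneg _
  have hpos : 0 < p.2 := by
    by_contra hcon
    push Not at hcon
    have : (‖w.z - p.1‖ ^ 2 + w.y ^ 2 + p.2 ^ 2) / (2 * w.y * p.2) ≤ 0 := by
      apply div_nonpos_of_nonneg_of_nonpos
      · positivity
      · nlinarith
    linarith [h.1]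
  have h3 := h.2
  rw [div_le_iff₀ (by positivity)] at h3
  have h4 : w.y ≤ 6 * p.2 := by nlinarith [sq_nonneg p.2]
  have h5 : p.2 ≤ 6 * w.y := by nlinarith [sq_nonneg w.y]
  refine ⟨?_, by linarith, h5⟩
  rw [Metric.mem_closedBall, dist_comm, dist_eq_norm]
  have h6 : ‖w.z - p.1‖ ^ 2 ≤ (6 * w.y) ^ 2 := by nlinarith [sq_nonneg p.2, sq_nonneg w.y]
  exact le_of_sq_le_sq h6 (by positivity)

/-- integrals over `H3` in coordinates -/
theorem integral_cd_t {f g : ℝ → ℝ} (hf : Continuous f) (hz : ∀ x, x ∉ Icc (2 : ℝ) 3 → f x = 0)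
    (hg : Continuous g) (w : H3) (Y : HM) :
    Integrable (fun p : ℂ × ℝ => f (tt (pm w) p) * g (tt Y p) / p.2 ^ 3) ∧
      ∫ w' : H3, f (H3.cd w w') * g (t w' Y) =
        ∫ p : ℂ × ℝ, f (tt (pm w) p) * g (tt Y p) / p.2 ^ 3 := by
  have hz' : ∀ p, p ∉ KK w → f (tt (pm w) p) * g (tt Y p) / p.2 ^ 3 = 0 := fun p hp => by
    rw [hz _ (KK_off w p hp)]; ring
  have hc : ∀ p : ℂ × ℝ, p.2 ≠ 0 →
      ContinuousAt (fun p : ℂ × ℝ => f (tt (pm w) p) * g (tt Y p) / p.2 ^ 3) p := fun p hp =>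
    ((hf.continuousAt.comp (continuousAt_tt (pm w) hp)).mul
      (hg.continuousAt.comp (continuousAt_tt Y hp))).div (by fun_prop) (pow_ne_zero 3 hp)
  constructor
  · exact (continuous_of_zero_off (isCompact_KK w) (KK_pos w) hz' hc).integrable_of_hasCompactSupport
      (HasCompactSupport.intro (isCompact_KK w) hz')
  · have h1 : ∫ p in H3.uhs, f (tt (pm w) p) * g (tt Y p) / p.2 ^ 3 =
        ∫ p : ℂ × ℝ, f (tt (pm w) p) * g (tt Y p) / p.2 ^ 3 :=
      setIntegral_eq_integral_of_forall_compl_eq_zero fun p hp =>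
        hz' p fun h => hp (KK_pos w p h)
    rw [H3.integral_eq, ← h1]
    refine setIntegral_congr_fun H3.measurableSet_uhs fun p hp => ?_
    have e1 : t (H3.ofCR p) Y = tt Y p := by
      rw [← tt_toCR, H3.toCR_ofCR hp]
    have e2 : H3.cd w (H3.ofCR p) = tt (pm w) p := by
      rw [← t_pm, ← tt_toCR, H3.toCR_ofCR hp]
    simp only [e1, e2, smul_eq_mul]
    ring

variable {k k1 k2 F F1 F2 : ℝ → ℝ}

/-- **Green's identity** -/
theorem green (hk : Bump k k1 k2) (hF : C2 F F1 F2) (w : H3) (Y : HM) :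
    ∫ w' : H3, LK k k1 k2 (H3.cd w w') * F (t w' Y) =
      ∫ w' : H3, k (H3.cd w w') * LF (q Y) F F1 F2 (t w' Y) := by
  obtain ⟨i1, e1⟩ := integral_cd_t hk.cLK hk.zLK hF.c0 w Y
  obtain ⟨i2, e2⟩ := integral_cd_t hk.c0 hk.z0 (LF_continuous hF (q Y)) w Y
  rw [e1, e2, ← sub_eq_zero, ← integral_sub i1 i2]
  rw [← green_CR hk hF (pm w) Y (isCompact_KK w) (KK_pos w) (KK_off w)]
  refine integral_congr_ae (Filter.Eventually.of_forall fun p => ?_)
  simp only [LK, q_pm]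
  ring

/-- the integral of a bump -/
theorem integral_cd (hk : Bump k k1 k2) (w : H3) :
    ∫ w' : H3, LK k k1 k2 (H3.cd w w') = ∫ w' : H3, k (H3.cd w w') := by
  have hF : C2 (fun _ => (1 : ℝ)) (fun _ => 0) (fun _ => 0) :=
    ⟨fun x => hasDerivAt_const _ _, fun x => hasDerivAt_const _ _, continuous_const⟩
  have := green hk hF w 0
  simpa [LF] using this

theorem hasCompactSupport_cd {f : ℝ → ℝ} (hz : ∀ x, x ∉ Icc (2 : ℝ) 3 → f x = 0) (w : H3) :
    HasCompactSupport fun w' : H3 => f (H3.cd w w') := by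
  refine HasCompactSupport.intro (H3.isCompact_ball w 3) fun w' h => ?_
  refine hz _ fun hm => h ?_
  exact hm.2

theorem continuous_cd_comp {f : ℝ → ℝ} (hf : Continuous f) (w : H3) :
    Continuous fun w' : H3 => f (H3.cd w w') := hf.comp (H3.continuous_cd_right w)

theorem integral_cd_const (f : ℝ → ℝ) (w : H3) :
    ∫ w' : H3, f (H3.cd w w') = ∫ w' : H3, f (H3.cd H3.j w') := by
  rw [← H3.integral_smul_H3 (H3.up w) (fun w' => f (H3.cd w w'))]
  refine integral_congr_ae (Filter.Eventually.of_forall fun p => ?_)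
  have h : H3.cd w (H3.up w • p) = H3.cd H3.j p := by
    conv_lhs => rw [← H3.up_smul_j w]
    rw [H3.up_smul_j w, ← H3.cd_smul (H3.up w) H3.j p, H3.up_smul_j]
  simp only [h]

theorem integral_cd_pos (hk : Bump k k1 k2) (h0 : ∀ x, 0 ≤ k x) (h1 : 0 < k (5 / 2)) (w : H3) :
    0 < ∫ w' : H3, k (H3.cd w w') := by
  refine (continuous_cd_comp hk.c0 w).integral_pos_of_hasCompactSupport_nonneg_nonzero
    (hasCompactSupport_cd hk.z0 w) (fun w' => h0 _) (x := ⟨w.z + (√3 * w.y : ℝ), w.y, w.pos⟩) ?_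
  have hy := w.pos
  have e : H3.cd w ⟨w.z + (√3 * w.y : ℝ), w.y, w.pos⟩ = 5 / 2 := by
    rw [H3.cd]
    simp only [sub_add_cancel_left, norm_neg, Complex.norm_real, Real.norm_eq_abs, sq_abs, mul_pow,
      Real.sq_sqrt (show (0 : ℝ) ≤ 3 by norm_num)]
    field_simp
    norm_num
  rw [e]
  exact h1.ne'

end Harm

end Fermat.Agent.LT.Th
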