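import Fermat.Agent.LT.Th.Harm3
import Fermat.Agent.LT.FA.Weight

set_option autoImplicit false
set_option linter.unusedSectionVars false

/-!
# Harmonicity of the theta lift: adjointness of invariant integral operators on the quotient
-/

namespace Fermat.Agent.LT.Th

open MeasureTheory Real Set ComplexConjugate HM
open scoped NNReal ENNReal
open Fermat.Agent.LT.FA

namespace Harm

section prod

variable {G Y : Type*} [Group G] [MulAction G Y] [MeasurableSpace Y] [MeasurableConstSMul G Y]
  {μ : Measure Y} [SFinite μ] [SMulInvariantMeasure G Y μ] {w : Y → ℝ≥0}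

theorem measurableConstSMul_prod : MeasurableConstSMul G (Y × Y) :=
  ⟨fun g => (measurable_fst.const_smul g).prodMk (measurable_snd.const_smul g)⟩

theorem smulInvariant_prod : SMulInvariantMeasure G (Y × Y) (μ.prod μ) :=
  ⟨fun g _ hs => ((measurePreserving_smul g μ).prod (measurePreserving_smul g μ)).measure_preimage
    hs.nullMeasurableSet⟩

theorem isWt_fst (hw : IsWt G μ w) : IsWt G (μ.prod μ) (fun p => w p.1) :=
  ⟨hw.meas.comp measurable_fst, Measure.quasiMeasurePreserving_fst.ae hw.sum_eq⟩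

theorem isWt_snd (hw : IsWt G μ w) : IsWt G (μ.prod μ) (fun p => w p.2) :=
  ⟨hw.meas.comp measurable_snd, Measure.quasiMeasurePreserving_snd.ae hw.sum_eq⟩

variable [Countable G] {E : Type*} [NormedAddCommGroup E] [NormedSpace ℝ E] [CompleteSpace E]

/-- **unfolding and refolding** on the product -/
theorem swap (hw : IsWt G μ w) {H : Y × Y → E} (hH : AEStronglyMeasurable H (μ.prod μ))
    (hinv : ∀ (g : G) p, H (g • p) = H p)
    (hI : Integrable (fun p : Y × Y => w p.1 • H p) (μ.prod μ)) :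
    ∫ y, ∫ y', H (y, y') ∂μ ∂(wtM μ w) = ∫ y', ∫ y, H (y, y') ∂μ ∂(wtM μ w) := by
  have := measurableConstSMul_prod (G := G) (Y := Y)
  have := smulInvariant_prod (G := G) (μ := μ)
  have h1 := isWt_fst hw
  have h2 := isWt_snd hw
  have hi : AEInv G (μ.prod μ) H := fun g => Filter.Eventually.of_forall fun p => hinv g p
  have hI1 : Integrable H (wtM (μ.prod μ) fun p => w p.1) := (integrable_wtM h1.meas).mpr hI
  have hI2 : Integrable H (wtM (μ.prod μ) fun p => w p.2) := (h1.integrable_iff h2 hH hi).mp hI1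
  have hI2' : Integrable (fun p : Y × Y => w p.2 • H p) (μ.prod μ) := (integrable_wtM h2.meas).mp hI2
  have e := h1.integral_eq h2 hH hi
  rw [integral_wtM h1.meas, integral_wtM h2.meas, integral_prod _ hI, integral_prod_symm _ hI2'] at e
  rw [integral_wtM hw.meas, integral_wtM hw.meas]
  simp only [NNReal.smul_def, integral_smul] at e ⊢
  exact e

end prod

section adj

variable {G : Type*} [Group G] [Countable G] [MulAction G H3] [MeasurableConstSMul G H3]
  [SMulInvariantMeasure G H3 (volume : Measure H3)] {wt : H3 → ℝ≥0}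

/-- the kernel times the weight is integrable -/
theorem integrable_wt_cd (hw : IsWt G (volume : Measure H3) wt)
    [IsFiniteMeasure (wtM (volume : Measure H3) wt)] {f : ℝ → ℝ} (hf : Continuous f)
    (hz : ∀ x, x ∉ Icc (2 : ℝ) 3 → f x = 0) :
    Integrable (fun p : H3 × H3 => wt p.1 • f (H3.cd p.1 p.2))
      ((volume : Measure H3).prod volume) := by
  have hc : Continuous fun p : H3 × H3 => f (H3.cd p.1 p.2) := hf.comp H3.continuous_cd
  have hm : AEStronglyMeasurable (fun p : H3 × H3 => wt p.1 • f (H3.cd p.1 p.2))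
      ((volume : Measure H3).prod volume) :=
    ((hw.meas.comp measurable_fst).aestronglyMeasurable).smul hc.aestronglyMeasurable
  rw [integrable_prod_iff hm]
  have h1 : ∀ w : H3, Integrable (fun w' : H3 => f (H3.cd w w')) := fun w =>
    (continuous_cd_comp hf w).integrable_of_hasCompactSupport (hasCompactSupport_cd hz w)
  constructor
  · refine Filter.Eventually.of_forall fun w => ?_
    have h3 : (fun w' : H3 => wt (w, w').1 • f (H3.cd (w, w').1 (w, w').2)) =
        fun w' : H3 => ((wt w : ℝ≥0) : ℝ) * f (H3.cd w w') := rfl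
    rw [h3]
    exact (h1 w).const_mul _
  · have h2 : ∀ w : H3, ∫ w' : H3, ‖wt w • f (H3.cd w w')‖ =
        wt w • ∫ w' : H3, ‖f (H3.cd H3.j w')‖ := by
      intro w
      simp only [NNReal.smul_def, norm_smul, Real.norm_eq_abs, NNReal.abs_eq]
      rw [integral_const_mul, smul_eq_mul, integral_cd_const (fun x => |f x|) w]
    simp only [h2]
    exact (integrable_wtM hw.meas).mp (integrable_const _)

/-- **adjointness** -/
theorem adj (hcd : ∀ (g : G) (w w' : H3), H3.cd (g • w) (g • w') = H3.cd w w')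
    (hw : IsWt G (volume : Measure H3) wt) [IsFiniteMeasure (wtM (volume : Measure H3) wt)]
    {f : ℝ → ℝ} (hf : Continuous f) (hz : ∀ x, x ∉ Icc (2 : ℝ) 3 → f x = 0) {φ Θ : H3 → ℂ}
    (hφ : Continuous φ) (hφi : ∀ (g : G) w, φ (g • w) = φ w) (hΘ : Measurable Θ)
    (hΘi : ∀ (g : G) w, Θ (g • w) = Θ w) {C : ℝ}
    (hb : ∀ w w', H3.cd w w' ≤ 3 → ‖φ w‖ * ‖Θ w'‖ ≤ C) :
    ∫ w, φ w * (∫ w', (f (H3.cd w w') : ℂ) * Θ w') ∂(wtM (volume : Measure H3) wt) =
      ∫ w', (∫ w, (f (H3.cd w' w) : ℂ) * φ w) * Θ w' ∂(wtM (volume : Measure H3) wt) := by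
  have hcont : Continuous fun p : H3 × H3 => (f (H3.cd p.1 p.2) : ℂ) :=
    Complex.continuous_ofReal.comp (hf.comp H3.continuous_cd)
  have hm : AEStronglyMeasurable (fun p : H3 × H3 => φ p.1 * ((f (H3.cd p.1 p.2) : ℂ) * Θ p.2))
      ((volume : Measure H3).prod volume) :=
    ((hφ.comp continuous_fst).aestronglyMeasurable).mul (hcont.aestronglyMeasurable.mul
      (hΘ.comp measurable_snd).aestronglyMeasurable)
  have hI : Integrable (fun p : H3 × H3 => wt p.1 • (φ p.1 * ((f (H3.cd p.1 p.2) : ℂ) * Θ p.2)))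
      ((volume : Measure H3).prod volume) := by
    refine Integrable.mono' ((integrable_wt_cd hw hf hz).norm.const_mul C) ?_ ?_
    · exact ((hw.meas.comp measurable_fst).aestronglyMeasurable).smul hm
    · refine Filter.Eventually.of_forall fun p => ?_
      simp only [NNReal.smul_def, norm_smul, norm_mul, Complex.norm_real]
      by_cases h3 : H3.cd p.1 p.2 ≤ 3
      · have := hb _ _ h3
        have h4 : 0 ≤ ‖((wt p.1 : ℝ≥0) : ℝ)‖ * ‖f (H3.cd p.1 p.2)‖ := by positivity
        calc ‖((wt p.1 : ℝ≥0) : ℝ)‖ * (‖φ p.1‖ * (‖f (H3.cd p.1 p.2)‖ * ‖Θ p.2‖))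
            = (‖((wt p.1 : ℝ≥0) : ℝ)‖ * ‖f (H3.cd p.1 p.2)‖) * (‖φ p.1‖ * ‖Θ p.2‖) := by ring
          _ ≤ (‖((wt p.1 : ℝ≥0) : ℝ)‖ * ‖f (H3.cd p.1 p.2)‖) * C := by gcongr
          _ = C * (‖((wt p.1 : ℝ≥0) : ℝ)‖ * ‖f (H3.cd p.1 p.2)‖) := by ring
      · rw [hz _ (fun h => h3 h.2)]
        simp
  have e := swap hw hm (fun g p => by
    simp only [Prod.smul_fst, Prod.smul_snd, hcd, hφi, hΘi]) hI
  simp only [integral_const_mul] at e
  rw [e]
  refine integral_congr_ae (Filter.Eventually.of_forall fun w' => ?_)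
  simp only []
  rw [← integral_mul_const]
  refine integral_congr_ae (Filter.Eventually.of_forall fun w => ?_)
  simp only []
  rw [H3.cd_symm w w']
  ring

end adj

end Harm

end Fermat.Agent.LT.Th
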