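import Fermat.Agent.LT.Th.Harm4

set_option autoImplicit false
set_option linter.unusedSectionVars false

/-!
# Harmonicity of the theta lift: theta series attached to radial functions
-/

namespace Fermat.Agent.LT.Th

open MeasureTheory Real Set ComplexConjugate HM
open scoped NNReal ENNReal
open Fermat.Agent.LT.FA

namespace Harm

/-! ### comparison of majorants -/

theorem Q_le_j (w : H3) (X : HM) : Q w X ≤ 5 * H3.cd w H3.j ^ 2 * Q H3.j X := by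
  have hy := w.pos
  have hcd : H3.cd w H3.j = (‖w.z‖ ^ 2 + w.y ^ 2 + 1) / (2 * w.y) := by
    rw [H3.cd]; simp [H3.j]
  set C := H3.cd w H3.j with hC
  have hC1 : 1 ≤ C := H3.one_le_cd w H3.j
  have e1 : ‖w.z‖ ^ 2 = w.z.re ^ 2 + w.z.im ^ 2 := by
    rw [Complex.sq_norm, Complex.normSq_apply]; ring
  have ht : t w X = (X.1 - 2 * (X.2.2.re * w.z.re + X.2.2.im * w.z.im) + X.2.1 *
      (w.z.re ^ 2 + w.z.im ^ 2) + X.2.1 * w.y ^ 2) / (2 * w.y) := by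
    rw [← tt_toCR, tt_expand]; rfl
  have htj : t H3.j X = (X.1 + X.2.1) / 2 := by
    rw [← tt_toCR, tt_expand]; simp [H3.j, H3.toCR]
  have hq : q X = X.2.2.re ^ 2 + X.2.2.im ^ 2 - X.1 * X.2.1 := by
    rw [q, Complex.normSq_apply]; ring
  -- Cauchy-Schwarz
  have hCS : (t w X - t H3.j X * C) ^ 2 ≤ (t H3.j X ^ 2 + q X) * (C ^ 2 - 1) := by
    have h1 : t w X - t H3.j X * C = ((X.1 - X.2.1) / 2 * (1 - (w.z.re ^ 2 + w.z.im ^ 2 + w.y ^ 2)) -
        2 * (X.2.2.re * w.z.re + X.2.2.im * w.z.im)) / (2 * w.y) := by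
      rw [ht, htj, hcd, e1]
      field_simp
      ring
    have h2 : C ^ 2 - 1 = ((1 - (w.z.re ^ 2 + w.z.im ^ 2 + w.y ^ 2)) ^ 2 +
        4 * (w.z.re ^ 2 + w.z.im ^ 2)) / (2 * w.y) ^ 2 := by
      rw [hcd, e1]
      field_simp
      ring
    rw [h1, h2, div_pow, mul_div_assoc', htj, hq]
    gcongr
    nlinarith [sq_nonneg ((X.1 - X.2.1) / 2 * (2 * w.z.re) +
        (1 - (w.z.re ^ 2 + w.z.im ^ 2 + w.y ^ 2)) * X.2.2.re),
      sq_nonneg ((X.1 - X.2.1) / 2 * (2 * w.z.im) +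
        (1 - (w.z.re ^ 2 + w.z.im ^ 2 + w.y ^ 2)) * X.2.2.im),
      sq_nonneg (2 * (X.2.2.re * w.z.im - X.2.2.im * w.z.re))]
  have hS : 0 ≤ t H3.j X ^ 2 + q X := by
    rw [htj, hq]
    nlinarith [sq_nonneg (X.1 - X.2.1), sq_nonneg X.2.2.re, sq_nonneg X.2.2.im]
  have hCC : 1 ≤ C ^ 2 := one_le_pow₀ hC1
  rw [Q, Q]
  -- `t² ≤ C² (4 tj² + 2 q)`
  have h3 : t w X ^ 2 ≤ 2 * (t w X - t H3.j X * C) ^ 2 + 2 * (t H3.j X * C) ^ 2 := by
    nlinarith [sq_nonneg (t w X - t H3.j X * C - t H3.j X * C)]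
  have h4 : t w X ^ 2 ≤ C ^ 2 * (4 * t H3.j X ^ 2 + 2 * q X) := by nlinarith
  have h5 : q X ≤ C ^ 2 * (q X + 2 * t H3.j X ^ 2) := by
    nlinarith [sq_nonneg (t H3.j X), mul_nonneg (sub_nonneg.mpr hCC) hS,
      mul_nonneg (sub_nonneg.mpr hCC) (sq_nonneg (t H3.j X))]
  nlinarith [sq_nonneg (t H3.j X)]

/-- **comparison of majorants** -/
theorem Q_le (w w' : H3) (X : HM) : Q w X ≤ 5 * H3.cd w w' ^ 2 * Q w' X := by
  set g := H3.up w' with hg
  have hgj : g • H3.j = w' := H3.up_smul_j w'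
  set Y := actM (g⁻¹ : GL (Fin 2) ℂ) X with hY
  have hX : actM g Y = X := by
    rw [hY, ← actM_mul, ← Units.val_mul, mul_inv_cancel, Units.val_one, actM_one]
  have hQ : ∀ v : H3, Q (g • v) X = ‖(g : Matrix (Fin 2) (Fin 2) ℂ).det‖ ^ 2 * Q v Y := by
    intro v
    conv_lhs => rw [← hX]
    rw [Q, Q, q_actM, t_smul_actM, Complex.normSq_eq_norm_sq]
    ring
  have h1 := Q_le_j (g⁻¹ • w) Y
  have h2 : H3.cd (g⁻¹ • w) H3.j = H3.cd w w' := by
    rw [← H3.cd_smul g, smul_inv_smul, hgj]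
  have h3 : Q w X = ‖(g : Matrix (Fin 2) (Fin 2) ℂ).det‖ ^ 2 * Q (g⁻¹ • w) Y := by
    rw [← hQ, smul_inv_smul]
  have h4 : Q w' X = ‖(g : Matrix (Fin 2) (Fin 2) ℂ).det‖ ^ 2 * Q H3.j Y := by
    rw [← hQ, hgj]
  rw [h3, h4, ← h2]
  calc ‖(g : Matrix (Fin 2) (Fin 2) ℂ).det‖ ^ 2 * Q (g⁻¹ • w) Y
      ≤ ‖(g : Matrix (Fin 2) (Fin 2) ℂ).det‖ ^ 2 * (5 * H3.cd (g⁻¹ • w) H3.j ^ 2 * Q H3.j Y) := by
        gcongr
    _ = _ := by ring

theorem continuous_tH (X : HM) : Continuous (fun w : H3 => t w X) := by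
  unfold t
  have h1 := H3.continuous_z
  have h2 := H3.continuous_y
  have hn : Continuous fun w : H3 => Complex.normSq w.z := Complex.continuous_normSq.comp h1
  refine Continuous.div (by fun_prop) (by fun_prop) (fun w => (mul_pos two_pos w.pos).ne')

/-! ### rapidly decreasing functions -/

/-- Gaussian decay -/
def Dec (F : ℝ → ℝ) : Prop := ∃ A a : ℝ, 0 ≤ A ∧ 0 < a ∧ ∀ x, |F x| ≤ A * exp (-a * x ^ 2)

theorem Dec.add {F G : ℝ → ℝ} (hF : Dec F) (hG : Dec G) : Dec fun x => F x + G x := by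
  obtain ⟨A, a, hA, ha, h1⟩ := hF
  obtain ⟨B, b, hB, hb, h2⟩ := hG
  refine ⟨A + B, min a b, by positivity, lt_min ha hb, fun x => ?_⟩
  have e1 : exp (-a * x ^ 2) ≤ exp (-(min a b) * x ^ 2) := by
    apply exp_le_exp.mpr
    have := mul_le_mul_of_nonneg_right (min_le_left a b) (sq_nonneg x)
    linarith
  have e2 : exp (-b * x ^ 2) ≤ exp (-(min a b) * x ^ 2) := by
    apply exp_le_exp.mpr
    have := mul_le_mul_of_nonneg_right (min_le_right a b) (sq_nonneg x)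
    linarith
  calc |F x + G x| ≤ |F x| + |G x| := abs_add_le _ _
    _ ≤ A * exp (-a * x ^ 2) + B * exp (-b * x ^ 2) := add_le_add (h1 x) (h2 x)
    _ ≤ A * exp (-(min a b) * x ^ 2) + B * exp (-(min a b) * x ^ 2) := by gcongr
    _ = (A + B) * exp (-(min a b) * x ^ 2) := by ring

theorem Dec.const_mul {F : ℝ → ℝ} (hF : Dec F) (r : ℝ) : Dec fun x => r * F x := by
  obtain ⟨A, a, hA, ha, h1⟩ := hF
  refine ⟨|r| * A, a, by positivity, ha, fun x => ?_⟩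
  rw [abs_mul, mul_assoc]
  exact mul_le_mul_of_nonneg_left (h1 x) (abs_nonneg r)

/-- `x ↦ x ^ (2 j) exp (-c x²)` -/
noncomputable def gj (j : ℕ) (c x : ℝ) : ℝ := x ^ (2 * j) * exp (-c * x ^ 2)

theorem gj_nonneg (j : ℕ) (c x : ℝ) : 0 ≤ gj j c x := by
  rw [gj, pow_mul]; positivity

theorem gj_dec (j : ℕ) {c : ℝ} (hc : 0 < c) : Dec (gj j c) := by
  refine ⟨(j.factorial : ℝ) * (2 / c) ^ j, c / 2, by positivity, by positivity, fun x => ?_⟩
  rw [abs_of_nonneg (gj_nonneg j c x), gj]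
  have h1 := Real.pow_div_factorial_le_exp (x := c / 2 * x ^ 2) (by positivity) j
  rw [div_le_iff₀ (by positivity)] at h1
  have h2 : x ^ (2 * j) = (2 / c) ^ j * (c / 2 * x ^ 2) ^ j := by
    rw [← mul_pow, pow_mul]; congr 1; field_simp
  have h3 : exp (-c * x ^ 2) = exp (-(c / 2) * x ^ 2) * exp (-(c / 2) * x ^ 2) := by
    rw [← exp_add]; congr 1; ring
  rw [h2, h3]
  have h4 : exp (c / 2 * x ^ 2) * exp (-(c / 2) * x ^ 2) = 1 := by
    rw [← exp_add, ← exp_zero]; congr 1; ring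
  calc (2 / c) ^ j * (c / 2 * x ^ 2) ^ j * (exp (-(c / 2) * x ^ 2) * exp (-(c / 2) * x ^ 2))
      ≤ (2 / c) ^ j * (exp (c / 2 * x ^ 2) * j.factorial) *
        (exp (-(c / 2) * x ^ 2) * exp (-(c / 2) * x ^ 2)) := by gcongr
    _ = (j.factorial : ℝ) * (2 / c) ^ j * (exp (c / 2 * x ^ 2) * exp (-(c / 2) * x ^ 2)) *
        exp (-(c / 2) * x ^ 2) := by ring
    _ = _ := by rw [h4]; ring

theorem gj_C2 (c : ℝ) : C2 (gj 0 c) (fun x => -(2 * c * x) * exp (-c * x ^ 2))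
    (fun x => (4 * c ^ 2 * x ^ 2 - 2 * c) * exp (-c * x ^ 2)) := by
  have e0 : ∀ x : ℝ, HasDerivAt (fun x => -c * x ^ 2) (-(2 * c * x)) x := fun x => by
    refine ((hasDerivAt_pow 2 x).const_mul (-c)).congr_deriv ?_
    simp; ring
  have e1 : ∀ x : ℝ, HasDerivAt (fun x => exp (-c * x ^ 2)) (exp (-c * x ^ 2) * (-(2 * c * x))) x :=
    fun x => (e0 x).exp
  refine ⟨fun x => ?_, fun x => ?_, by fun_prop⟩
  · have h1 : gj 0 c = fun x => exp (-c * x ^ 2) := by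
      funext x; simp [gj]
    rw [h1]
    exact (e1 x).congr_deriv (by ring)
  · have h2 : HasDerivAt (fun x : ℝ => -(2 * c * x)) (-(2 * c)) x := by
      refine (((hasDerivAt_id x).const_mul (2 * c)).neg).congr_deriv (by simp)
    exact (h2.mul (e1 x)).congr_deriv (by ring)

/-- `LF` of the Gaussian -/
theorem LF_gj (n c x : ℝ) : LF n (gj 0 c) (fun x => -(2 * c * x) * exp (-c * x ^ 2))
    (fun x => (4 * c ^ 2 * x ^ 2 - 2 * c) * exp (-c * x ^ 2)) x =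
    (1 - 2 * c * n) * gj 0 c x + ((4 * c ^ 2 * n - 8 * c) * gj 1 c x + 4 * c ^ 2 * gj 2 c x) := by
  simp only [LF, gj]
  ring

end Harm

end Fermat.Agent.LT.Th
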