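import Fermat.Agent.LT.Th.Harm6

set_option autoImplicit false
set_option linter.unusedSectionVars false

/-!
# Harmonicity of the theta lift: the differential equation, the Fourier coefficients
-/

namespace Fermat.Agent.LT.Th

open MeasureTheory Real Set ComplexConjugate HM
open scoped NNReal ENNReal
open Fermat.Agent.LT.FA

namespace Harm

theorem gj_continuous (j : ℕ) (c : ℝ) : Continuous (gj j c) := by
  unfold gj; fun_prop

theorem hasDerivAt_gj (j : ℕ) (c x : ℝ) :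
    HasDerivAt (fun c => gj j c x) (-gj (j + 1) c x) c := by
  have h1 : HasDerivAt (fun c : ℝ => -c * x ^ 2) (-(x ^ 2)) c := by
    refine (((hasDerivAt_id c).neg).mul_const (x ^ 2)).congr_deriv (by simp)
  have h2 := (h1.exp).const_mul (x ^ (2 * j))
  refine h2.congr_deriv ?_
  rw [gj, mul_add, pow_add]
  ring

theorem gj_anti (j : ℕ) {c c' : ℝ} (h : c ≤ c') (x : ℝ) : gj j c' x ≤ gj j c x := by
  unfold gj
  have : 0 ≤ x ^ (2 * j) := by rw [pow_mul]; positivity
  refine mul_le_mul_of_nonneg_left ?_ this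
  apply exp_le_exp.mpr
  have := mul_le_mul_of_nonneg_right h (sq_nonneg x)
  linarith

section deriv

variable {κ : Type*} [Countable κ] {X : κ → HM} {n : ℝ} {φ : H3 → ℂ}

theorem hasDerivAt_Th (hq : ∀ k, q (X k) = n) (hB : BB φ X) (j : ℕ) {c : ℝ} (hc : 0 < c)
    (w : H3) : HasDerivAt (fun c => Th X (gj j c) w) (-Th X (gj (j + 1) c) w) c := by
  have h0 : 0 < c / 2 := by positivity
  have hs : Summable fun k => gj (j + 1) (c / 2) (t w (X k)) :=
    summable_dec' hq hB (gj_dec (j + 1) h0) w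
  have h := hasDerivAt_tsum_of_isPreconnected (g := fun k c => gj j c (t w (X k)))
    (g' := fun k c => -gj (j + 1) c (t w (X k))) (t := Ioi (c / 2)) (y₀ := c) (y := c) hs isOpen_Ioi
    isPreconnected_Ioi (fun k y _ => hasDerivAt_gj j y _) (fun k y hy => by
      rw [norm_neg, Real.norm_eq_abs, abs_of_nonneg (gj_nonneg _ _ _)]
      exact gj_anti _ (le_of_lt hy) _) (by simp [hc]) (summable_dec' hq hB (gj_dec j hc) w)
    (by simp [hc])
  rw [tsum_neg] at h
  exact h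

theorem hasDerivAt_JJ (hq : ∀ k, q (X k) = n) (hB : BB φ X) (hφ : Continuous φ) (ν : Measure H3)
    [IsFiniteMeasure ν] (j : ℕ) {c : ℝ} (hc : 0 < c) :
    HasDerivAt (fun c => JJ φ ν X (gj j c)) (-JJ φ ν X (gj (j + 1) c)) c := by
  have h0 : 0 < c / 2 := by positivity
  obtain ⟨C, hC⟩ := phi_bound hq hB (gj_dec (j + 1) h0)
  have hpos : ∀ c' ∈ Ioi (c / 2), 0 < c' := fun c' h => h0.trans h
  have h := hasDerivAt_integral_of_dominated_loc_of_deriv_le (μ := ν) (𝕜 := ℝ)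
    (F := fun c w => φ w * ((Th X (gj j c) w : ℝ) : ℂ))
    (F' := fun c w => φ w * ((-Th X (gj (j + 1) c) w : ℝ) : ℂ)) (x₀ := c) (s := Ioi (c / 2))
    (bound := fun _ => C) (Ioi_mem_nhds (by linarith)) (by
      filter_upwards [Ioi_mem_nhds (show c / 2 < c by linarith)] with c' hc'
      exact (integrable_J hq hB hφ ν (gj_dec j (hpos c' hc')) (gj_continuous j c')).1)
    (integrable_J hq hB hφ ν (gj_dec j hc) (gj_continuous j c)) (by
      exact (hφ.measurable.mul (measurable_Th hq hB (gj_dec (j + 1) hc)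
        (gj_continuous (j + 1) c)).neg.complex_ofReal).aestronglyMeasurable)
    (Filter.Eventually.of_forall fun w c' hc' => by
      rw [norm_mul, Complex.norm_real, norm_neg, Real.norm_eq_abs]
      refine le_trans ?_ (hC w w (by rw [H3.cd_self]; norm_num))
      refine mul_le_mul_of_nonneg_left ?_ (norm_nonneg _)
      refine (abs_Th_le hq hB (gj_dec (j + 1) (hpos c' hc')) w).trans ?_
      refine (summable_dec hq hB (gj_dec (j + 1) (hpos c' hc')) w).tsum_le_tsum (fun k => ?_)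
        (summable_dec hq hB (gj_dec (j + 1) h0) w)
      rw [abs_of_nonneg (gj_nonneg _ _ _), abs_of_nonneg (gj_nonneg _ _ _)]
      exact gj_anti _ (le_of_lt hc') _) (integrable_const C)
    (Filter.Eventually.of_forall fun w c' hc' => by
      exact ((hasDerivAt_Th hq hB j (hpos c' hc') w).ofReal_comp).const_mul (φ w))
  refine h.2.congr_deriv ?_
  rw [JJ, ← integral_neg]
  refine integral_congr_ae (Filter.Eventually.of_forall fun w => ?_)
  push_cast
  ring

end deriv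

section main

variable {G : Type*} [Group G] [Countable G] [MulAction G H3] [MeasurableConstSMul G H3]
  [SMulInvariantMeasure G H3 (volume : Measure H3)] {wt : H3 → ℝ≥0}
  {κ : Type*} [Countable κ] {X : κ → HM} {n : ℝ} {φ : H3 → ℂ}

/-- **the differential equation** -/
theorem ode (hcd : ∀ (g : G) (w w' : H3), H3.cd (g • w) (g • w') = H3.cd w w')
    (hw : IsWt G (volume : Measure H3) wt) [IsFiniteMeasure (wtM (volume : Measure H3) wt)]
    (hφ : Continuous φ) (hφi : ∀ (g : G) w, φ (g • w) = φ w) (hm : Mean φ)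
    (hX : ∀ (g : G) (F : ℝ → ℝ) w, Th X F (g • w) = Th X F w)
    (hq : ∀ k, q (X k) = n) (hB : BB φ X) {c : ℝ} (hc : 0 < c) :
    ((1 - 2 * c * n : ℝ) : ℂ) * JJ φ (wtM (volume : Measure H3) wt) X (gj 0 c) +
      (((4 * c ^ 2 * n - 8 * c : ℝ) : ℂ) * JJ φ (wtM (volume : Measure H3) wt) X (gj 1 c) +
      ((4 * c ^ 2 : ℝ) : ℂ) * JJ φ (wtM (volume : Measure H3) wt) X (gj 2 c)) = 0 := by
  set ν := wtM (volume : Measure H3) wt with hν
  have d0 := gj_dec 0 hc
  have d1 := gj_dec 1 hc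
  have d2 := gj_dec 2 hc
  have c0 := gj_continuous 0 c
  have c1 := gj_continuous 1 c
  have c2 := gj_continuous 2 c
  have e0 : (LF n (gj 0 c) (fun x => -(2 * c * x) * exp (-c * x ^ 2))
      (fun x => (4 * c ^ 2 * x ^ 2 - 2 * c) * exp (-c * x ^ 2))) =
      fun x => (1 - 2 * c * n) * gj 0 c x + ((4 * c ^ 2 * n - 8 * c) * gj 1 c x +
        4 * c ^ 2 * gj 2 c x) := funext fun x => LF_gj n c x
  have hd : Dec (LF n (gj 0 c) (fun x => -(2 * c * x) * exp (-c * x ^ 2))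
      (fun x => (4 * c ^ 2 * x ^ 2 - 2 * c) * exp (-c * x ^ 2))) := by
    rw [e0]
    exact (d0.const_mul _).add ((d1.const_mul _).add (d2.const_mul _))
  have h := JJ_LF hcd hw hφ hφi hm hX hq hB (gj_C2 c) d0 hd
  rw [e0] at h
  have a1 := JJ_add hq hB hφ ν (F := fun x => (1 - 2 * c * n) * gj 0 c x)
    (F' := fun x => (4 * c ^ 2 * n - 8 * c) * gj 1 c x + 4 * c ^ 2 * gj 2 c x)
    (d0.const_mul _) ((d1.const_mul _).add (d2.const_mul _)) (by fun_prop) (by fun_prop)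
  have a2 := JJ_add hq hB hφ ν (F := fun x => (4 * c ^ 2 * n - 8 * c) * gj 1 c x)
    (F' := fun x => 4 * c ^ 2 * gj 2 c x) (d1.const_mul _) (d2.const_mul _) (by fun_prop)
    (by fun_prop)
  rw [a1, a2, JJ_const_mul, JJ_const_mul, JJ_const_mul] at h
  exact h

/-- `√c exp (-c n / 2) I₀` -/
noncomputable def AA (φ : H3 → ℂ) (ν : Measure H3) (X : κ → HM) (n c : ℝ) : ℂ :=
  ((√c * exp (-(c * n / 2)) : ℝ) : ℂ) * JJ φ ν X (gj 0 c)

/-- `√c exp (-c n / 2) (I₀ / 2 - c I₁)` -/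
noncomputable def KK' (φ : H3 → ℂ) (ν : Measure H3) (X : κ → HM) (n c : ℝ) : ℂ :=
  ((√c * exp (-(c * n / 2)) : ℝ) : ℂ) * (JJ φ ν X (gj 0 c) / 2 - c * JJ φ ν X (gj 1 c))

theorem hasDerivAt_fac (n : ℝ) {c : ℝ} (hc : 0 < c) :
    HasDerivAt (fun c : ℝ => ((√c * exp (-(c * n / 2)) : ℝ) : ℂ))
      (((1 / (2 * c) - n / 2 : ℝ) : ℂ) * ((√c * exp (-(c * n / 2)) : ℝ) : ℂ)) c := by
  have h1 := Real.hasDerivAt_sqrt hc.ne'
  have h2 : HasDerivAt (fun c : ℝ => exp (-(c * n / 2))) (exp (-(c * n / 2)) * (-(n / 2))) c := by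
    have h3 : HasDerivAt (fun c : ℝ => -(c * n / 2)) (-(n / 2)) c := by
      refine ((((hasDerivAt_id c).mul_const n).div_const 2).neg).congr_deriv (by simp)
    exact h3.exp
  refine ((h1.mul h2).ofReal_comp).congr_deriv ?_
  rw [← Complex.ofReal_mul, Complex.ofReal_inj]
  have h4 : √c * √c = c := Real.mul_self_sqrt hc.le
  have h5 : √c ≠ 0 := (Real.sqrt_pos.mpr hc).ne'
  have h6 : 1 / (2 * c) * √c = 1 / (2 * √c) := by
    rw [div_mul_eq_mul_div, one_mul, div_eq_div_iff (by positivity) (by positivity)]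
    linear_combination 2 * h4
  calc 1 / (2 * √c) * exp (-(c * n / 2)) + √c * (exp (-(c * n / 2)) * (-(n / 2)))
      = (1 / (2 * √c)) * exp (-(c * n / 2)) - n / 2 * (√c * exp (-(c * n / 2))) := by ring
    _ = _ := by rw [← h6]; ring

theorem hasDerivAt_AA (hφ : Continuous φ) (ν : Measure H3) [IsFiniteMeasure ν]
    (hq : ∀ k, q (X k) = n) (hB : BB φ X) {c : ℝ} (hc : 0 < c) :
    HasDerivAt (AA φ ν X n) (KK' φ ν X n c / c - (n : ℂ) / 2 * AA φ ν X n c) c := by
  have h1 := (hasDerivAt_fac n hc).mul (hasDerivAt_JJ hq hB hφ ν 0 hc)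
  refine h1.congr_deriv ?_
  rw [KK', AA]
  have hc' : (c : ℂ) ≠ 0 := by exact_mod_cast hc.ne'
  push_cast
  field_simp
  ring

theorem hasDerivAt_KK (hcd : ∀ (g : G) (w w' : H3), H3.cd (g • w) (g • w') = H3.cd w w')
    (hw : IsWt G (volume : Measure H3) wt) [IsFiniteMeasure (wtM (volume : Measure H3) wt)]
    (hφ : Continuous φ) (hφi : ∀ (g : G) w, φ (g • w) = φ w) (hm : Mean φ)
    (hX : ∀ (g : G) (F : ℝ → ℝ) w, Th X F (g • w) = Th X F w)
    (hq : ∀ k, q (X k) = n) (hB : BB φ X) {c : ℝ} (hc : 0 < c) :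
    HasDerivAt (KK' φ (wtM (volume : Measure H3) wt) X n)
      ((n : ℂ) / 2 * KK' φ (wtM (volume : Measure H3) wt) X n c) c := by
  set ν := wtM (volume : Measure H3) wt with hν
  have ho := ode hcd hw hφ hφi hm hX hq hB hc
  rw [← hν] at ho
  have e0 := hasDerivAt_JJ hq hB hφ ν 0 hc
  have e1 := hasDerivAt_JJ hq hB hφ ν 1 hc
  have ec : HasDerivAt (fun c : ℝ => (c : ℂ)) 1 c := by
    simpa using (hasDerivAt_id c).ofReal_comp
  have h1 := (hasDerivAt_fac n hc).mul ((e0.div_const 2).sub (ec.mul e1))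
  refine h1.congr_deriv ?_
  rw [KK']
  have hc' : (c : ℂ) ≠ 0 := by exact_mod_cast hc.ne'
  simp only [zero_add, Pi.sub_apply, Pi.mul_apply, Nat.reduceAdd] at *
  set E : ℂ := ((√c * exp (-(c * n / 2)) : ℝ) : ℂ) with hE
  set I0 := JJ φ ν X (gj 0 c)
  set I1 := JJ φ ν X (gj 1 c)
  set I2 := JJ φ ν X (gj 2 c)
  push_cast at ho ⊢
  have h2 : (c : ℂ) * I2 = -((1 - 2 * c * n) * I0 + (4 * c ^ 2 * n - 8 * c) * I1) / (4 * c) := by
    field_simp
    linear_combination ho
  have h3 : (1 / (2 * (c : ℂ)) - n / 2) * E * (I0 / 2 - c * I1) +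
      E * (-I1 / 2 - (1 * I1 + c * -I2)) =
      (1 / (2 * (c : ℂ)) - n / 2) * E * (I0 / 2 - c * I1) +
      E * (-I1 / 2 - I1 + c * I2) := by ring
  rw [h3, h2]
  field_simp
  ring

end main

end Harm

end Fermat.Agent.LT.Th
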