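import Fermat.Agent.LT.Th.Sieg

set_option autoImplicit false

/-!
# Weights for `Γ(N)`: existence, finiteness of the volume
-/

namespace Fermat.Agent.LT.Th

open Matrix ComplexConjugate MeasureTheory Complex HM Set
open scoped Real MatrixGroups ENNReal NNReal
open Fermat.Agent.LT.FA

/-- coordinates modulo `N` -/
noncomputable def cmod (N : ℕ) (z : Oe) : ZMod N × ZMod N := (z.2.choose, z.2.choose_spec.choose)

theorem dvd_sub_of_cmod {N : ℕ} {z z' : Oe} (h : cmod N z = cmod N z') : ((N : ℕ) : Oe) ∣ z - z' := by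
  have h1 := z.2.choose_spec.choose_spec
  have h2 := z'.2.choose_spec.choose_spec
  rw [cmod, cmod, Prod.mk.injEq, ZMod.intCast_eq_intCast_iff_dvd_sub,
    ZMod.intCast_eq_intCast_iff_dvd_sub] at h
  obtain ⟨⟨u, hu⟩, ⟨v, hv⟩⟩ := h
  refine ⟨⟨(-u : ℤ) + (-v : ℤ) * om, ⟨_, _, rfl⟩⟩, ?_⟩
  apply Subtype.ext
  have hu' : ((z'.2.choose : ℤ) : ℂ) - (z.2.choose : ℤ) = N * u := by exact_mod_cast hu
  have hv' : ((z'.2.choose_spec.choose : ℤ) : ℂ) - (z.2.choose_spec.choose : ℤ) = N * v := by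
    exact_mod_cast hv
  have e1 : ((z - z' : Oe) : ℂ) = (z : ℂ) - z' := rfl
  rw [e1, h1, h2]
  simp only [MulMemClass.coe_mul, SubringClass.coe_natCast]
  push_cast
  linear_combination (-1 : ℂ) * hu' - om * hv'

theorem inv_mul_mem_Gam {N : ℕ} {g h : SL(2, Oe)} (hd : ∀ i j, ((N : ℕ) : Oe) ∣ g i j - h i j) :
    g⁻¹ * h ∈ Gam N := by
  intro i j
  have e1 : ((g⁻¹ * h : SL(2, Oe)) : Matrix (Fin 2) (Fin 2) Oe) i j -
      (1 : Matrix (Fin 2) (Fin 2) Oe) i j =
      ∑ k, (g⁻¹ : SL(2, Oe)) i k * (h k j - g k j) := by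
    have e2 : (1 : Matrix (Fin 2) (Fin 2) Oe) = ((g⁻¹ * g : SL(2, Oe)) : Matrix (Fin 2) (Fin 2) Oe) := by
      rw [inv_mul_cancel, Matrix.SpecialLinearGroup.coe_one]
    rw [e2, Matrix.SpecialLinearGroup.coe_mul, Matrix.SpecialLinearGroup.coe_mul, Matrix.mul_apply,
      Matrix.mul_apply, ← Finset.sum_sub_distrib]
    exact Finset.sum_congr rfl fun k _ => (mul_sub _ _ _).symm
  rw [e1]
  refine Finset.dvd_sum fun k _ => Dvd.dvd.mul_left ?_ _
  rw [← neg_sub, dvd_neg]
  exact hd k j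

theorem finite_quot {N : ℕ} (hN : N ≠ 0) : Finite (SL(2, Oe) ⧸ Gam N) := by
  have : NeZero N := ⟨hN⟩
  let f : SL(2, Oe) ⧸ Gam N → (Fin 2 → Fin 2 → ZMod N × ZMod N) :=
    fun x i j => cmod N ((Quotient.out x) i j)
  refine Finite.of_injective f ?_
  intro x y h
  have h1 : (Quotient.out x)⁻¹ * Quotient.out y ∈ Gam N := by
    apply inv_mul_mem_Gam
    intro i j
    exact dvd_sub_of_cmod (congrFun (congrFun h i) j)
  have h2 := QuotientGroup.eq.mpr h1
  rw [QuotientGroup.out_eq', QuotientGroup.out_eq'] at h2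
  exact h2

theorem measurableSet_SS : MeasurableSet SS := by
  have h1 : IsClosed SS := by
    apply IsClosed.inter
    · exact isClosed_le H3.continuous_z.norm continuous_const
    · exact isClosed_le continuous_const H3.continuous_y
  exact h1.measurableSet

/-- **finite volume** -/
theorem volume_SS_lt_top : (volume : Measure H3) SS < ∞ := by
  have h1 : (volume : Measure H3) SS = ∫⁻ p : H3, SS.indicator 1 p := by
    rw [lintegral_indicator_one measurableSet_SS]
  rw [h1, H3.lintegral_eq]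
  have h2 : ∀ q ∈ H3.uhs, H3.dens q * SS.indicator 1 (H3.ofCR q) ≤
      (Metric.closedBall (0 : ℂ) 1).indicator (fun _ => (1 : ℝ≥0∞)) q.1 *
        (Set.Ici (1 / 2 : ℝ)).indicator (fun y => ENNReal.ofReal (y ^ (-3 : ℝ))) q.2 := by
    intro q hq
    by_cases hS : H3.ofCR q ∈ SS
    · rw [Set.indicator_of_mem hS]
      obtain ⟨ha, hb⟩ := hS
      rw [H3.ofCR_z] at ha
      rw [H3.ofCR_y hq] at hb
      rw [Set.indicator_of_mem (by simpa using ha), Set.indicator_of_mem (by exact hb)]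
      simp only [H3.dens, Pi.one_apply, mul_one, one_mul]
      apply ENNReal.ofReal_le_ofReal
      have hq0 : 0 < q.2 := hq
      rw [Real.rpow_neg hq0.le]
      norm_num
    · rw [Set.indicator_of_notMem hS, mul_zero]
      exact zero_le
  refine lt_of_le_of_lt (setLIntegral_mono' H3.measurableSet_uhs h2) ?_
  refine lt_of_le_of_lt (setLIntegral_le_lintegral _ _) ?_
  rw [MeasureTheory.Measure.volume_eq_prod, lintegral_prod_mul]
  · rw [lintegral_indicator measurableSet_closedBall, lintegral_indicator measurableSet_Ici]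
    apply ENNReal.mul_lt_top
    · rw [setLIntegral_const, one_mul]
      exact measure_closedBall_lt_top
    · have h3 : IntegrableOn (fun y : ℝ => y ^ (-3 : ℝ)) (Set.Ioi (1 / 2)) :=
        integrableOn_Ioi_rpow_of_lt (by norm_num) (by norm_num)
      rw [← setLIntegral_congr Ioi_ae_eq_Ici]
      have h4 := h3.2
      rw [HasFiniteIntegral] at h4
      refine lt_of_le_of_lt (setLIntegral_mono' measurableSet_Ioi ?_) h4
      intro y _
      exact Real.ofReal_le_enorm _
  · exact (measurable_const.indicator measurableSet_closedBall).aemeasurable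
  · refine (Measurable.indicator ?_ measurableSet_Ici).aemeasurable
    exact ((measurable_id.pow_const (-3 : ℝ))).ennreal_ofReal

/-- **existence of a weight for `Γ(N)` with finite total mass** -/
theorem exists_wt {N : ℕ} (hN : N ≠ 0) : ∃ wt : H3 → ℝ≥0, IsWt (Gam N) volume wt ∧
    IsFiniteMeasure (wtM volume wt) := by
  obtain ⟨w0, hw0, hle, hsupp⟩ := FA.exists_isWt (G := SL(2, Oe)) (μ := (volume : Measure H3)) SS
    measurableSet_SS (Filter.Eventually.of_forall exists_smul_mem_SS)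
    (Filter.Eventually.of_forall finite_smul_mem_SS)
  have := finite_quot hN
  have : Fintype (SL(2, Oe) ⧸ Gam N) := Fintype.ofFinite _
  refine ⟨wtSub (Gam N) w0, hw0.sub (Gam N), ⟨?_⟩⟩
  rw [wtM_univ]
  have h1 : ∫⁻ y, (wtSub (Gam N) w0 y : ℝ≥0∞) =
      ∫⁻ y, ∑' q : SL(2, Oe) ⧸ Gam N, (w0 (q.out • y) : ℝ≥0∞) :=
    lintegral_congr_ae (hw0.coe_wtSub (Gam N))
  have hm : ∀ q : SL(2, Oe) ⧸ Gam N, AEMeasurable (fun y : H3 => (w0 (q.out • y) : ℝ≥0∞)) volume :=
    fun q => (hw0.meas.coe_nnreal_ennreal.comp (measurable_const_smul q.out)).aemeasurable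
  rw [h1, lintegral_tsum hm, tsum_fintype]
  refine ENNReal.sum_lt_top.mpr fun q _ => ?_
  rw [lintegral_smul' (μ := (volume : Measure H3)) q.out (fun y => (w0 y : ℝ≥0∞))]
  have h2 : ∀ y, (w0 y : ℝ≥0∞) ≤ SS.indicator 1 y := by
    intro y
    by_cases hy : y ∈ SS
    · rw [Set.indicator_of_mem hy, Pi.one_apply]
      exact_mod_cast hle y
    · rw [Set.indicator_of_notMem hy, hsupp y hy]
      simp
  refine lt_of_le_of_lt (lintegral_mono h2) ?_
  rw [lintegral_indicator_one measurableSet_SS]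
  exact volume_SS_lt_top

end Fermat.Agent.LT.Th
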