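import Fermat.Agent.LT.Th.HkAct
import Fermat.Agent.LT.Th.Wt

set_option autoImplicit false

/-!
# Adjointness of the Hecke correspondence
-/

namespace Fermat.Agent.LT.Th

open Matrix ComplexConjugate Complex MeasureTheory
open scoped Real MatrixGroups ENNReal NNReal
open Fermat.Agent.LT.FA

namespace HkData

variable {N l : ℕ} (H : HkData N l)

instance : Countable H.D := by
  have h1 : Countable (Matrix (Fin 2) (Fin 2) Oe) :=
    inferInstanceAs (Countable (Fin 2 → Fin 2 → Oe))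
  exact Subtype.countable

/-- the bijection `Γ(N) × J ≃ D` -/
noncomputable def eD : Gam N × Option (Fin l) ≃ H.D := Equiv.ofBijective _ H.mulD_bijective

theorem eD_apply (p : Gam N × Option (Fin l)) : H.eD p = H.mulD p.1 (H.rep p.2) := rfl

/-- the adjugate as a permutation -/
def adjE : H.D ≃ H.D := ⟨H.adj, H.adj, H.adj_adj, H.adj_adj⟩

section

variable {wt : H3 → ℝ≥0}

/-- the terms of the absolute sum -/
noncomputable def ea (_ : HkData N l) (wt : H3 → ℝ≥0) (f g : H3 → ℂ) (s : H3 → H3) : ℝ≥0∞ :=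
  ∫⁻ w, wt w * (wt (s w) * (‖f (s w)‖ₑ * ‖g w‖ₑ))

/-- the terms of the sum -/
noncomputable def ca (_ : HkData N l) (wt : H3 → ℝ≥0) (f g : H3 → ℂ) (s : H3 → H3) : ℂ :=
  ∫ w, wt w • (wt (s w) • (f (s w) * g w))

theorem comp_meas {f : H3 → ℂ} (hf : AEStronglyMeasurable f volume) (δ : H.D) :
    AEStronglyMeasurable (fun w => f (H.S δ w)) volume :=
  hf.comp_quasiMeasurePreserving (H.measurePreserving_S δ).quasiMeasurePreserving

theorem comp_wt (hwt : Measurable wt) (δ : H.D) : Measurable (fun w => wt (H.S δ w)) :=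
  hwt.comp (H.continuous_S δ).measurable

theorem sum_wt (hwt : IsWt (Gam N) volume wt) (δ : H.D) :
    ∀ᵐ w : H3, ∑' γ : Gam N, (wt (H.S (H.mulD γ δ) w) : ℝ≥0∞) = 1 := by
  have := (H.measurePreserving_S δ).quasiMeasurePreserving.ae hwt.sum_eq
  filter_upwards [this] with w hw
  simp_rw [S_mulD]
  exact hw

/-- unfolding, absolute version -/
theorem lintegral_unfold (hwt : IsWt (Gam N) volume wt) {f g : H3 → ℂ}
    (hf : AEStronglyMeasurable f volume) (hg : AEStronglyMeasurable g volume)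
    (hfi : ∀ γ : Gam N, ∀ w, f (γ • w) = f w) (δ : H.D) :
    ∫⁻ w, ‖f (H.S δ w)‖ₑ * ‖g w‖ₑ ∂(wtM volume wt) =
      ∑' γ : Gam N, H.ea wt f g (H.S (H.mulD γ δ)) := by
  have hm : AEMeasurable (fun w => ‖f (H.S δ w)‖ₑ * ‖g w‖ₑ) volume :=
    ((H.comp_meas hf δ).enorm).mul hg.enorm
  rw [lintegral_wtM hwt.meas hm]
  simp only [ea]
  rw [← lintegral_tsum]
  · refine lintegral_congr_ae ?_
    filter_upwards [H.sum_wt hwt δ] with w hw
    simp only [S_mulD, hfi] at hw ⊢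
    rw [ENNReal.tsum_mul_left, ENNReal.tsum_mul_right, hw, one_mul]
  · intro γ
    exact hwt.meas.coe_nnreal_ennreal.aemeasurable.mul
      ((H.comp_wt hwt.meas _).coe_nnreal_ennreal.aemeasurable.mul
        ((H.comp_meas hf _).enorm.mul hg.enorm))

theorem enorm_term (wt : H3 → ℝ≥0) (f g : H3 → ℂ) (s : H3 → H3) (w : H3) :
    ‖wt w • (wt (s w) • (f (s w) * g w))‖ₑ = wt w * (wt (s w) * (‖f (s w)‖ₑ * ‖g w‖ₑ)) := by
  rw [enorm_nnreal_smul, enorm_nnreal_smul, enorm_mul]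

/-- unfolding -/
theorem integral_unfold (hwt : IsWt (Gam N) volume wt) {f g : H3 → ℂ}
    (hf : AEStronglyMeasurable f volume) (hg : AEStronglyMeasurable g volume)
    (hfi : ∀ γ : Gam N, ∀ w, f (γ • w) = f w) (δ : H.D)
    (hfin : ∑' γ : Gam N, H.ea wt f g (H.S (H.mulD γ δ)) ≠ ∞) :
    ∫ w, f (H.S δ w) * g w ∂(wtM volume wt) =
      ∑' γ : Gam N, H.ca wt f g (H.S (H.mulD γ δ)) := by
  rw [integral_wtM hwt.meas]
  simp only [ca]
  rw [← MeasureTheory.integral_tsum]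
  · refine integral_congr_ae ?_
    filter_upwards [H.sum_wt hwt δ] with w hw
    simp only [S_mulD, hfi] at hw ⊢
    have h1 := tsum_nnreal_smul hw (f (H.S δ w) * g w)
    have h2 : (∑' γ : Gam N, wt w • (wt (γ • H.S δ w) • (f (H.S δ w) * g w))) =
        wt w • ∑' γ : Gam N, (wt (γ • H.S δ w) • (f (H.S δ w) * g w)) := by
      have h3 : Summable (fun γ : Gam N => (wt (γ • H.S δ w) • (f (H.S δ w) * g w))) := by
        have h5 : Summable (fun γ : Gam N => wt (γ • H.S δ w)) := by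
          rw [← ENNReal.tsum_coe_ne_top_iff_summable, hw]
          exact ENNReal.one_ne_top
        have h6 : Summable (fun γ : Gam N => (wt (γ • H.S δ w) : ℝ)) := NNReal.summable_coe.2 h5
        exact h6.smul_const _
      exact h3.tsum_const_smul _
    rw [h2, h1]
  · intro γ
    exact hwt.meas.aestronglyMeasurable.smul
      ((H.comp_wt hwt.meas _).aestronglyMeasurable.smul ((H.comp_meas hf _).mul hg))
  · simp only [enorm_term]
    exact hfin

theorem ea_adj (f g : H3 → ℂ) (δ : H.D) :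
    H.ea wt f g (H.S (H.adj δ)) = H.ea wt g f (H.S δ) := by
  have hemb : MeasurableEmbedding (H.S δ) :=
    (Homeomorph.smul (H.gl δ)).measurableEmbedding
  rw [ea, ea, ← (H.measurePreserving_S δ).lintegral_comp_emb hemb
    (fun w => (wt w : ℝ≥0∞) * (wt (H.S (H.adj δ) w) * (‖f (H.S (H.adj δ) w)‖ₑ * ‖g w‖ₑ)))]
  refine lintegral_congr fun w => ?_
  rw [S_adj]
  ring

theorem ca_adj (f g : H3 → ℂ) (δ : H.D) :
    H.ca wt f g (H.S (H.adj δ)) = H.ca wt g f (H.S δ) := by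
  have hemb : MeasurableEmbedding (H.S δ) :=
    (Homeomorph.smul (H.gl δ)).measurableEmbedding
  rw [ca, ca, ← (H.measurePreserving_S δ).integral_comp hemb
    (fun w => wt w • (wt (H.S (H.adj δ) w) • (f (H.S (H.adj δ) w) * g w)))]
  refine integral_congr_ae (Filter.Eventually.of_forall fun w => ?_)
  simp only [S_adj]
  rw [smul_comm, mul_comm]

/-- the sum over `D` -/
theorem sum_lintegral (hwt : IsWt (Gam N) volume wt) {f g : H3 → ℂ}
    (hf : AEStronglyMeasurable f volume) (hg : AEStronglyMeasurable g volume)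
    (hfi : ∀ γ : Gam N, ∀ w, f (γ • w) = f w) :
    ∑ j, ∫⁻ w, ‖f (H.S (H.rep j) w)‖ₑ * ‖g w‖ₑ ∂(wtM volume wt) =
      ∑' δ : H.D, H.ea wt f g (H.S δ) := by
  simp_rw [H.lintegral_unfold hwt hf hg hfi]
  rw [← H.eD.tsum_eq, ENNReal.tsum_prod', ENNReal.tsum_comm, tsum_fintype]
  rfl

theorem sum_integral (hwt : IsWt (Gam N) volume wt) {f g : H3 → ℂ}
    (hf : AEStronglyMeasurable f volume) (hg : AEStronglyMeasurable g volume)
    (hfi : ∀ γ : Gam N, ∀ w, f (γ • w) = f w)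
    (hfin : ∑' δ : H.D, H.ea wt f g (H.S δ) ≠ ∞) :
    ∑ j, ∫ w, f (H.S (H.rep j) w) * g w ∂(wtM volume wt) =
      ∑' δ : H.D, H.ca wt f g (H.S δ) := by
  have hsum := hfin
  rw [← H.eD.tsum_eq, ENNReal.tsum_prod', ENNReal.tsum_comm, tsum_fintype] at hsum
  have hj : ∀ j, ∑' γ : Gam N, H.ea wt f g (H.S (H.mulD γ (H.rep j))) ≠ ∞ := by
    intro j
    exact ((ENNReal.sum_lt_top.1 (lt_top_iff_ne_top.2 hsum)) j (Finset.mem_univ j)).ne
  have h1 : ∀ j, ∫ w, f (H.S (H.rep j) w) * g w ∂(wtM volume wt) =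
      ∑' γ : Gam N, H.ca wt f g (H.S (H.mulD γ (H.rep j))) := fun j =>
    H.integral_unfold hwt hf hg hfi (H.rep j) (hj j)
  simp_rw [h1]
  have hs : Summable (fun δ : H.D => ‖H.ca wt f g (H.S δ)‖) := by
    have h2 : ∀ δ : H.D, ‖H.ca wt f g (H.S δ)‖ₑ ≤ H.ea wt f g (H.S δ) := by
      intro δ
      rw [ca, ea]
      refine (enorm_integral_le_lintegral_enorm _).trans_eq ?_
      simp only [enorm_term]
    have h3 : ∑' δ : H.D, ‖H.ca wt f g (H.S δ)‖ₑ ≠ ∞ :=
      ne_top_of_le_ne_top hfin (ENNReal.tsum_le_tsum h2)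
    have := ENNReal.summable_toReal h3
    simpa using this
  have hs' : Summable (fun p : Gam N × Option (Fin l) => H.ca wt f g (H.S (H.eD p))) :=
    (H.eD.summable_iff (f := fun δ => H.ca wt f g (H.S δ))).2 hs.of_norm
  have hs2 := (Equiv.prodComm (Option (Fin l)) (Gam N)).summable_iff.2 hs'
  have e1 := (Equiv.prodComm (Option (Fin l)) (Gam N)).tsum_eq
    (fun p : Gam N × Option (Fin l) => H.ca wt f g (H.S (H.eD p)))
  have e2 := hs2.tsum_prod
  rw [← H.eD.tsum_eq, ← e1, ← tsum_fintype (L := SummationFilter.unconditional _)]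
  exact e2.symm

/-- **Adjointness.** -/
theorem adjoint (hwt : IsWt (Gam N) volume wt) {f g : H3 → ℂ}
    (hf : AEStronglyMeasurable f volume) (hg : AEStronglyMeasurable g volume)
    (hfi : ∀ γ : Gam N, ∀ w, f (γ • w) = f w) (hgi : ∀ γ : Gam N, ∀ w, g (γ • w) = g w)
    (hint : ∀ j, ∫⁻ w, ‖f (H.S (H.rep j) w)‖ₑ * ‖g w‖ₑ ∂(wtM volume wt) ≠ ∞) :
    ∑ j, ∫ w, f (H.S (H.rep j) w) * g w ∂(wtM volume wt) =
      ∑ j, ∫ w, f w * g (H.S (H.rep j) w) ∂(wtM volume wt) := by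
  have hfin : ∑' δ : H.D, H.ea wt f g (H.S δ) ≠ ∞ := by
    rw [← H.sum_lintegral hwt hf hg hfi]
    exact (ENNReal.sum_lt_top.2 fun j _ => (hint j).lt_top).ne
  have hfin' : ∑' δ : H.D, H.ea wt g f (H.S δ) ≠ ∞ := by
    have h1 : ∑' δ : H.D, H.ea wt g f (H.S δ) = ∑' δ : H.D, H.ea wt f g (H.S (H.adjE δ)) :=
      tsum_congr fun δ => (H.ea_adj f g δ).symm
    rw [h1, H.adjE.tsum_eq (fun δ => H.ea wt f g (H.S δ))]
    exact hfin
  have h2 := H.sum_integral hwt hg hf hgi hfin'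
  simp_rw [mul_comm (f _) (g (H.S _ _))]
  rw [H.sum_integral hwt hf hg hfi hfin, h2, ← H.adjE.tsum_eq]
  exact tsum_congr fun δ => H.ca_adj f g δ

end

end HkData

end Fermat.Agent.LT.Th
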