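import Fermat.Agent.LT.Th.Orb

set_option autoImplicit false

/-!
# The Hecke correspondence at a split prime: algebra

`l = ϖ ϖ̄` prime, `ϖ ≡ 1 mod N`.  `D = {δ ∈ M₂(Oe) : det δ = ϖ, δ ≡ 1 mod N}` is the disjoint union
of the `Γ(N) δ_j`, `δ_b = (1, -N b; 0, ϖ)` (`0 ≤ b < l`), `δ_∞ = (ϖ, 0; 0, 1)`.
-/

namespace Fermat.Agent.LT.Th

open Matrix ComplexConjugate Complex
open scoped Real MatrixGroups

/-- Hecke data at a split prime -/
structure HkData (N l : ℕ) where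
  /-- the prime above `l` -/
  ϖ : Oe
  prime : l.Prime
  norm : ϖ * cOe ϖ = l
  cong : ((N : ℕ) : Oe) ∣ ϖ - 1
  ne3 : l ≠ 3

theorem cOe_cOe (z : Oe) : cOe (cOe z) = z := eisOe.c_c z

theorem exists_norm_Oe (z : Oe) : ∃ n : ℤ, z * cOe z = n := eisOe.exists_norm z

theorem cast_inj_Oe {x y : ℤ} (h : (x : Oe) = y) : x = y := eisOe.cast_inj h

theorem cOe_int (n : ℤ) : cOe (n : Oe) = n := map_intCast _ _

namespace HkData

variable {N l : ℕ} (H : HkData N l)

include H in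
theorem primeZ : Prime (l : ℤ) := Nat.prime_iff_prime_int.1 H.prime

include H in
theorem l_pos : 0 < l := H.prime.pos

/-- an integer divisible by `ϖ` is divisible by `l` -/
theorem dvd_int {n : ℤ} : H.ϖ ∣ (n : Oe) ↔ (l : ℤ) ∣ n := by
  constructor
  · rintro ⟨w, hw⟩
    obtain ⟨m, hm⟩ := exists_norm_Oe w
    have h1 : ((n * n : ℤ) : Oe) = ((l * m : ℤ) : Oe) := by
      have h2 := congrArg cOe hw
      rw [cOe_int, map_mul] at h2
      push_cast
      rw [← hm, ← H.norm]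
      calc (n : Oe) * n = (H.ϖ * w) * (cOe H.ϖ * cOe w) := by rw [← hw, ← h2]
        _ = _ := by ring
    have h3 : (l : ℤ) ∣ n * n := ⟨m, cast_inj_Oe h1⟩
    rcases H.primeZ.dvd_or_dvd h3 with h | h <;> exact h
  · rintro ⟨m, rfl⟩
    refine ⟨cOe H.ϖ * m, ?_⟩
    push_cast
    rw [← H.norm]; ring

/-- every element is congruent to an integer modulo `ϖ` -/
theorem exists_int (z : Oe) : ∃ n : ℤ, H.ϖ ∣ z - n := by
  obtain ⟨x, y, hxy⟩ := eisOe.span H.ϖ
  have hn : x ^ 2 - x * y + y ^ 2 = l := by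
    apply cast_inj_Oe
    have h1 := H.norm
    rw [hxy] at h1
    have hr := eisOe.rel
    have hc : cOe ((x : Oe) + y * eisOe.ω) = x + y * eisOe.ω ^ 2 := by
      rw [map_add, map_mul, cOe_int, cOe_int]
      have : cOe eisOe.ω = eisOe.ω ^ 2 := eisOe.c_ω
      rw [this]
    rw [hc] at h1
    push_cast
    linear_combination h1 - ((x : Oe) * y + (y : Oe) ^ 2 * (eisOe.ω - 1)) * hr
  have hy : IsCoprime (y : ℤ) l := by
    rw [isCoprime_comm, Prime.coprime_iff_not_dvd H.primeZ]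
    intro hy
    have hx : (l : ℤ) ∣ x ^ 2 := by
      have : x ^ 2 = l + y * (x - y) := by linear_combination hn
      rw [this]
      exact dvd_add dvd_rfl (hy.mul_right _)
    have hx := H.primeZ.dvd_of_dvd_pow hx
    obtain ⟨x', rfl⟩ := hx
    obtain ⟨y', rfl⟩ := hy
    have h2 : (l : ℤ) * (l * (x' ^ 2 - x' * y' + y' ^ 2)) = l * 1 := by linear_combination hn
    have h3 := mul_left_cancel₀ H.primeZ.ne_zero h2
    exact H.primeZ.not_unit (IsUnit.of_mul_eq_one _ h3)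
  obtain ⟨u, v, huv⟩ := hy
  obtain ⟨a, b, hz⟩ := eisOe.span z
  have hω : H.ϖ ∣ eisOe.ω - ((-(x * u) : ℤ) : Oe) := by
    have h1 : ((u * y + v * l : ℤ) : Oe) = 1 := by rw [huv]; simp
    refine ⟨u - v * cOe H.ϖ * (-eisOe.ω) , ?_⟩
    push_cast at h1 ⊢
    rw [← H.norm] at h1
    linear_combination -(u : Oe) * hxy - eisOe.ω * h1
  obtain ⟨k, hk⟩ := hω
  refine ⟨a + b * (-(x * u)), b * k, ?_⟩
  rw [hz]
  push_cast at hk ⊢
  linear_combination (b : Oe) * hk

/-- the reduction map, as a function -/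
noncomputable def rdf (z : Oe) : ZMod l := (((H.exists_int z).choose : ℤ) : ZMod l)

theorem rdf_eq_iff {z : Oe} {n : ℤ} : H.rdf z = n ↔ H.ϖ ∣ z - n := by
  have h := (H.exists_int z).choose_spec
  rw [rdf, ZMod.intCast_eq_intCast_iff_dvd_sub, ← H.dvd_int]
  push_cast
  constructor
  · intro h1
    have := dvd_sub h h1
    convert this using 1
    ring
  · intro h1
    have := dvd_sub h h1
    convert this using 1
    ring

/-- the reduction map `Oe → Oe/ϖ = 𝔽_l` -/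
noncomputable def rd : Oe →+* ZMod l where
  toFun := H.rdf
  map_one' := by
    have : H.rdf 1 = ((1 : ℤ) : ZMod l) := H.rdf_eq_iff.2 (by simp)
    simpa using this
  map_zero' := by
    have : H.rdf 0 = ((0 : ℤ) : ZMod l) := H.rdf_eq_iff.2 (by simp)
    simpa using this
  map_add' x y := by
    obtain ⟨n, hn⟩ := H.exists_int x
    obtain ⟨m, hm⟩ := H.exists_int y
    have : H.rdf (x + y) = ((n + m : ℤ) : ZMod l) := H.rdf_eq_iff.2 (by
      have := dvd_add hn hm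
      convert this using 1
      push_cast; ring)
    rw [this, H.rdf_eq_iff.2 hn, H.rdf_eq_iff.2 hm]
    push_cast; rfl
  map_mul' x y := by
    obtain ⟨n, hn⟩ := H.exists_int x
    obtain ⟨m, hm⟩ := H.exists_int y
    have : H.rdf (x * y) = ((n * m : ℤ) : ZMod l) := H.rdf_eq_iff.2 (by
      have := dvd_add (hn.mul_left y) (hm.mul_left (n : Oe))
      convert this using 1
      push_cast; ring)
    rw [this, H.rdf_eq_iff.2 hn, H.rdf_eq_iff.2 hm]
    push_cast; rfl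

theorem rd_eq_iff {z : Oe} {n : ℤ} : H.rd z = n ↔ H.ϖ ∣ z - n := H.rdf_eq_iff

theorem rd_eq_zero {z : Oe} : H.rd z = 0 ↔ H.ϖ ∣ z := by
  have := H.rd_eq_iff (z := z) (n := 0)
  simpa using this

theorem rd_int (n : ℤ) : H.rd n = n := map_intCast _ _

theorem ϖ_ne_zero : H.ϖ ≠ 0 := by
  intro h
  have := H.norm
  rw [h, zero_mul] at this
  have h1 := cast_inj_Oe (x := 0) (y := l) (by push_cast; exact this)
  have := H.l_pos
  omega

theorem dvd_ϖ_conj_iff {z : Oe} : cOe H.ϖ ∣ z ↔ H.rd (cOe z) = 0 := by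
  rw [rd_eq_zero]
  constructor
  · rintro ⟨w, rfl⟩
    exact ⟨cOe w, by rw [map_mul, cOe_cOe]⟩
  · rintro ⟨w, hw⟩
    refine ⟨cOe w, ?_⟩
    rw [← map_mul, ← hw, cOe_cOe]

/-- `ϖ` does not divide its conjugate -/
theorem rd_conj_ne : H.rd (cOe H.ϖ) ≠ 0 := by
  intro h
  rw [rd_eq_zero] at h
  obtain ⟨x, y, hxy⟩ := eisOe.span H.ϖ
  have hr := eisOe.rel
  have hc : cOe H.ϖ = x + y * eisOe.ω ^ 2 := by
    rw [hxy, map_add, map_mul, cOe_int, cOe_int]
    have : cOe eisOe.ω = eisOe.ω ^ 2 := eisOe.c_ω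
    rw [this]
  have hn : x ^ 2 - x * y + y ^ 2 = l := by
    apply cast_inj_Oe
    have h1 := H.norm
    rw [hc] at h1
    rw [hxy] at h1
    push_cast
    linear_combination h1 - ((x : Oe) * y + (y : Oe) ^ 2 * (eisOe.ω - 1)) * hr
  -- `ϖ ∣ 3 y²`
  have h3 : H.ϖ ∣ ((3 * y ^ 2 : ℤ) : Oe) := by
    have h4 : H.ϖ ∣ (H.ϖ - cOe H.ϖ) * -(H.ϖ - cOe H.ϖ) := (dvd_sub dvd_rfl h).mul_right _
    have h5 : (H.ϖ - cOe H.ϖ) * -(H.ϖ - cOe H.ϖ) = ((3 * y ^ 2 : ℤ) : Oe) := by
      rw [hc, hxy]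
      push_cast
      linear_combination (-(y : Oe) ^ 2 * (eisOe.ω ^ 2 - 3 * eisOe.ω + 3)) * hr
    rwa [h5] at h4
  rw [H.dvd_int] at h3
  have hy : (l : ℤ) ∣ y := by
    rcases H.primeZ.dvd_or_dvd h3 with h5 | h5
    · exfalso
      have h6 : l ∣ 3 := by exact_mod_cast h5
      exact H.ne3 ((Nat.prime_dvd_prime_iff_eq H.prime Nat.prime_three).1 h6)
    · exact H.primeZ.dvd_of_dvd_pow h5
  have hx : (l : ℤ) ∣ x ^ 2 := by
    have : x ^ 2 = l + y * (x - y) := by linear_combination hn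
    rw [this]
    exact dvd_add dvd_rfl (hy.mul_right _)
  have hx := H.primeZ.dvd_of_dvd_pow hx
  obtain ⟨x', rfl⟩ := hx
  obtain ⟨y', rfl⟩ := hy
  have h2 : (l : ℤ) * (l * (x' ^ 2 - x' * y' + y' ^ 2)) = l * 1 := by linear_combination hn
  have h3 := mul_left_cancel₀ H.primeZ.ne_zero h2
  exact H.primeZ.not_unit (IsUnit.of_mul_eq_one _ h3)

/-- divisibility by `l` -/
theorem l_dvd_iff {z : Oe} : (l : Oe) ∣ z ↔ H.rd z = 0 ∧ H.rd (cOe z) = 0 := by
  constructor
  · rintro ⟨w, rfl⟩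
    simp only [map_mul, map_natCast, CharP.cast_eq_zero, zero_mul, and_self]
  · rintro ⟨h1, h2⟩
    rw [rd_eq_zero] at h1
    obtain ⟨w, rfl⟩ := h1
    have : Fact l.Prime := ⟨H.prime⟩
    rw [map_mul, map_mul] at h2
    have h3 := (mul_eq_zero.1 h2).resolve_left H.rd_conj_ne
    rw [← dvd_ϖ_conj_iff] at h3
    obtain ⟨v, rfl⟩ := h3
    exact ⟨v, by rw [← H.norm]; ring⟩

include H in
/-- `N` is invertible modulo `l` -/
theorem N_ne_zero : (N : ZMod l) ≠ 0 := by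
  have : Fact l.Prime := ⟨H.prime⟩
  intro h
  obtain ⟨w, hw⟩ := H.cong
  have h1 := congrArg H.rd hw
  have h2 : H.rd H.ϖ = 0 := H.rd_eq_zero.2 dvd_rfl
  rw [map_sub, h2, map_one, map_mul, map_natCast, h, zero_mul] at h1
  norm_num at h1

theorem cong_conj : ((N : ℕ) : Oe) ∣ cOe H.ϖ - 1 := by
  obtain ⟨w, hw⟩ := H.cong
  refine ⟨cOe w, ?_⟩
  have := congrArg cOe hw
  rwa [map_sub, map_mul, map_natCast, map_one] at this

include H in
theorem cong_l : ((N : ℕ) : ℤ) ∣ l - 1 := by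
  apply eisOe.int_dvd_int
  obtain ⟨w, hw⟩ := H.cong
  obtain ⟨v, hv⟩ := H.cong_conj
  refine ⟨w * cOe H.ϖ + v, ?_⟩
  push_cast
  rw [← H.norm]
  linear_combination cOe H.ϖ * hw + hv

/-- the condition at `j` for a row `(p, q)`: `(p q) u_j = 0` -/
def K {l : ℕ} (n : ZMod l) (j : Option (Fin l)) (p q : ZMod l) : Prop :=
  match j with
  | none => p = 0
  | some b => n * ((b : ℕ) : ZMod l) * p + q = 0

theorem K_zero {l : ℕ} (n : ZMod l) (j : Option (Fin l)) : K n j 0 0 := by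
  cases j <;> simp [K]

theorem K_smul {l : ℕ} {n : ZMod l} {j : Option (Fin l)} {p q : ZMod l} (h : K n j p q)
    (t : ZMod l) : K n j (t * p) (t * q) := by
  cases j with
  | none =>
    change t * p = 0
    have : p = 0 := h
    rw [this, mul_zero]
  | some b =>
    change _ = _
    have : n * ((b : ℕ) : ZMod l) * p + q = 0 := h
    linear_combination t * this

/-- a nonzero row determines `j` -/
theorem exists_unique_K {l : ℕ} (hl : l.Prime) {n : ZMod l} (hn : n ≠ 0) {p q : ZMod l}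
    (h : p ≠ 0 ∨ q ≠ 0) : ∃! j : Option (Fin l), K n j p q := by
  have : Fact l.Prime := ⟨hl⟩
  have : NeZero l := ⟨hl.ne_zero⟩
  by_cases hp : p = 0
  · subst hp
    refine ⟨none, rfl, ?_⟩
    rintro (_ | b) hb
    · rfl
    · have hb' : n * ((b : ℕ) : ZMod l) * 0 + q = 0 := hb
      rw [mul_zero, zero_add] at hb'
      exact absurd hb' (h.resolve_left (fun h => h rfl))
  · refine ⟨some ⟨(-q * p⁻¹ * n⁻¹ : ZMod l).val, ZMod.val_lt _⟩, ?_, ?_⟩
    · change n * (((-q * p⁻¹ * n⁻¹ : ZMod l).val : ℕ) : ZMod l) * p + q = 0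
      rw [ZMod.natCast_zmod_val]
      field_simp
      ring
    · rintro (_ | b) hb
      · exact absurd hb hp
      · have hb' : n * ((b : ℕ) : ZMod l) * p + q = 0 := hb
        congr 1
        apply Fin.ext
        have h1 : ((b : ℕ) : ZMod l) = -q * p⁻¹ * n⁻¹ := by
          field_simp
          linear_combination hb'
        have h2 := ZMod.val_natCast_of_lt b.2
        rw [h1] at h2
        exact h2.symm

/-- counting the `j` for a matrix -/
theorem exists_unique_K2 {l : ℕ} (hl : l.Prime) {n : ZMod l} (hn : n ≠ 0) {p q r s : ZMod l}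
    (hdet : p * s - q * r = 0) (h : ¬(p = 0 ∧ q = 0 ∧ r = 0 ∧ s = 0)) :
    ∃! j : Option (Fin l), K n j p q ∧ K n j r s := by
  have : Fact l.Prime := ⟨hl⟩
  by_cases hpq : p ≠ 0 ∨ q ≠ 0
  · obtain ⟨j, hj, hu⟩ := exists_unique_K hl hn hpq
    refine ⟨j, ⟨hj, ?_⟩, fun j' hj' => hu j' hj'.1⟩
    rcases hpq with hp | hq
    · have h1 := K_smul hj (r * p⁻¹)
      have e1 : r * p⁻¹ * p = r := by field_simp
      have e2 : r * p⁻¹ * q = s := by field_simp; linear_combination -hdet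
      rwa [e1, e2] at h1
    · have h1 := K_smul hj (s * q⁻¹)
      have e1 : s * q⁻¹ * q = s := by field_simp
      have e2 : s * q⁻¹ * p = r := by field_simp; linear_combination hdet
      rwa [e1, e2] at h1
  · push Not at hpq
    obtain ⟨rfl, rfl⟩ := hpq
    have hrs : r ≠ 0 ∨ s ≠ 0 := by
      by_contra hcon
      push Not at hcon
      exact h ⟨rfl, rfl, hcon.1, hcon.2⟩
    obtain ⟨j, hj, hu⟩ := exists_unique_K hl hn hrs
    exact ⟨j, ⟨K_zero n j, hj⟩, fun j' hj' => hu j' hj'.2⟩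

theorem det_of_K {l : ℕ} (hl : l.Prime) {n : ZMod l} {p q r s : ZMod l} {j : Option (Fin l)}
    (h1 : K n j p q) (h2 : K n j r s) : p * s - q * r = 0 := by
  cases j with
  | none =>
    have h1 : p = 0 := h1
    have h2 : r = 0 := h2
    rw [h1, h2]; ring
  | some b =>
    have h1 : n * ((b : ℕ) : ZMod l) * p + q = 0 := h1
    have h2 : n * ((b : ℕ) : ZMod l) * r + s = 0 := h2
    linear_combination p * h2 - r * h1

open Classical in
/-- the number of `j` -/
theorem sum_K {l : ℕ} (hl : l.Prime) {n : ZMod l} (hn : n ≠ 0) (p q r s : ZMod l) :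
    (∑ j : Option (Fin l), if K n j p q ∧ K n j r s then (1 : ℂ) else 0) =
      (if p * s - q * r = 0 then 1 else 0) +
        (if p = 0 ∧ q = 0 ∧ r = 0 ∧ s = 0 then (l : ℂ) else 0) := by
  by_cases hdet : p * s - q * r = 0
  · rw [if_pos hdet]
    by_cases h0 : p = 0 ∧ q = 0 ∧ r = 0 ∧ s = 0
    · rw [if_pos h0]
      obtain ⟨rfl, rfl, rfl, rfl⟩ := h0
      simp only [K_zero, and_self, if_true, Finset.sum_const, Finset.card_univ,
        Fintype.card_option, Fintype.card_fin]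
      rw [nsmul_eq_mul]; push_cast; ring
    · rw [if_neg h0, add_zero]
      obtain ⟨j, hj, hu⟩ := exists_unique_K2 hl hn hdet h0
      rw [Finset.sum_eq_single j]
      · rw [if_pos hj]
      · intro j' _ hj'
        rw [if_neg (fun h => hj' (hu j' h))]
      · intro h; exact absurd (Finset.mem_univ j) h
  · rw [if_neg hdet, if_neg, add_zero]
    · refine Finset.sum_eq_zero fun j _ => ?_
      rw [if_neg (fun h => hdet (det_of_K hl h.1 h.2))]
    · rintro ⟨rfl, rfl, rfl, rfl⟩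
      exact hdet (by ring)

/-! ### The set `D` -/

/-- the matrices of determinant `ϖ`, congruent to `1` modulo `N` -/
def D : Type := {δ : Matrix (Fin 2) (Fin 2) Oe // δ.det = H.ϖ ∧
  ∀ i j, ((N : ℕ) : Oe) ∣ δ i j - (1 : Matrix (Fin 2) (Fin 2) Oe) i j}

/-- the representatives -/
def rep (j : Option (Fin l)) : H.D :=
  match j with
  | none => ⟨!![H.ϖ, 0; 0, 1], by rw [Matrix.det_fin_two_of]; ring, by
      intro i j
      fin_cases i <;> fin_cases j <;> simp [H.cong]⟩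
  | some b => ⟨!![1, -(N * ((b : ℕ) : Oe)); 0, H.ϖ], by rw [Matrix.det_fin_two_of]; ring, by
      intro i j
      fin_cases i <;> fin_cases j <;> simp [H.cong]⟩

/-- the adjugate -/
def adj (δ : H.D) : H.D := ⟨δ.1.adjugate, by
    rw [Matrix.det_adjugate]; simp [δ.2.1], by
    intro i j
    rw [Matrix.adjugate_fin_two]
    fin_cases i <;> fin_cases j
    · simpa using δ.2.2 1 1
    · simpa using δ.2.2 0 1
    · simpa using δ.2.2 1 0
    · simpa using δ.2.2 0 0⟩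

theorem adj_adj (δ : H.D) : H.adj (H.adj δ) = δ := by
  apply Subtype.ext
  change δ.1.adjugate.adjugate = δ.1
  rw [Matrix.adjugate_adjugate _ (by simp)]
  simp

/-- left multiplication by `Γ(N)` -/
def mulD (γ : Gam N) (δ : H.D) : H.D := ⟨(γ.1 : Matrix (Fin 2) (Fin 2) Oe) * δ.1, by
    rw [Matrix.det_mul, δ.2.1, Matrix.SpecialLinearGroup.det_coe, one_mul], by
    intro i j
    have e1 : ((γ.1 : Matrix (Fin 2) (Fin 2) Oe) * δ.1) i j -
        (1 : Matrix (Fin 2) (Fin 2) Oe) i j =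
        ∑ k, (γ.1 i k - (1 : Matrix (Fin 2) (Fin 2) Oe) i k) * δ.1 k j +
          (δ.1 i j - (1 : Matrix (Fin 2) (Fin 2) Oe) i j) := by
      have e2 : ∑ k, (γ.1 i k - (1 : Matrix (Fin 2) (Fin 2) Oe) i k) * δ.1 k j =
          ((γ.1 : Matrix (Fin 2) (Fin 2) Oe) * δ.1) i j -
            ((1 : Matrix (Fin 2) (Fin 2) Oe) * δ.1) i j := by
        rw [Matrix.mul_apply, Matrix.mul_apply, ← Finset.sum_sub_distrib]
        exact Finset.sum_congr rfl fun k _ => sub_mul _ _ _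
      rw [e2, Matrix.one_mul]
      ring
    rw [e1]
    exact dvd_add (Finset.dvd_sum fun k _ => (mem_Gam.1 γ.2 i k).mul_right _) (δ.2.2 i j)⟩

theorem mulD_coe (γ : Gam N) (δ : H.D) :
    (H.mulD γ δ).1 = (γ.1 : Matrix (Fin 2) (Fin 2) Oe) * δ.1 := rfl

/-- `K` for the rows of a matrix in `D` -/
theorem K_iff (j : Option (Fin l)) (p q : Oe) : K (N : ZMod l) j (H.rd p) (H.rd q) ↔
    match j with
    | none => H.ϖ ∣ p
    | some b => H.ϖ ∣ N * ((b : ℕ) : Oe) * p + q := by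
  cases j with
  | none => exact H.rd_eq_zero
  | some b =>
    have h := H.rd_eq_zero (z := N * ((b : ℕ) : Oe) * p + q)
    simp only [map_add, map_mul, map_natCast] at h
    exact h

/-- the rows of `γ δ_j` satisfy the condition at `j` -/
theorem K_mulD (γ : Gam N) (j : Option (Fin l)) (i : Fin 2) :
    K (N : ZMod l) j (H.rd ((H.mulD γ (H.rep j)).1 i 0)) (H.rd ((H.mulD γ (H.rep j)).1 i 1)) := by
  rw [K_iff]
  cases j with
  | none =>
    change H.ϖ ∣ ((γ.1 : Matrix (Fin 2) (Fin 2) Oe) * !![H.ϖ, 0; 0, 1]) i 0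
    rw [Matrix.mul_apply, Fin.sum_univ_two]
    simp
  | some b =>
    change H.ϖ ∣ N * ((b : ℕ) : Oe) * ((γ.1 : Matrix (Fin 2) (Fin 2) Oe) *
      !![1, -(N * ((b : ℕ) : Oe)); 0, H.ϖ]) i 0 + ((γ.1 : Matrix (Fin 2) (Fin 2) Oe) *
      !![1, -(N * ((b : ℕ) : Oe)); 0, H.ϖ]) i 1
    rw [Matrix.mul_apply, Matrix.mul_apply, Fin.sum_univ_two, Fin.sum_univ_two]
    refine ⟨γ.1 i 1, ?_⟩
    simp only [Matrix.of_apply, Matrix.cons_val', Matrix.cons_val_zero, Matrix.cons_val_one,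
      Matrix.cons_val_fin_one, Fin.isValue]
    ring

/-- dividing a row by `δ_j` -/
theorem row_div {j : Option (Fin l)} {p q : Oe} (h : K (N : ZMod l) j (H.rd p) (H.rd q)) :
    ∃ p' q' : Oe, p = p' * (H.rep j).1 0 0 + q' * (H.rep j).1 1 0 ∧
      q = p' * (H.rep j).1 0 1 + q' * (H.rep j).1 1 1 := by
  rw [K_iff] at h
  cases j with
  | none =>
    obtain ⟨p', hp'⟩ : H.ϖ ∣ p := h
    refine ⟨p', q, ?_, ?_⟩
    · rw [hp']; simp [rep, mul_comm]
    · simp [rep]
  | some b =>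
    obtain ⟨q', hq'⟩ : H.ϖ ∣ N * ((b : ℕ) : Oe) * p + q := h
    refine ⟨p, q', ?_, ?_⟩
    · simp [rep]
    · simp only [rep, Matrix.of_apply, Matrix.cons_val', Matrix.cons_val_zero, Matrix.cons_val_one,
        Matrix.cons_val_fin_one, Fin.isValue]
      linear_combination hq'

theorem rep_det (j : Option (Fin l)) : (H.rep j).1.det = H.ϖ := (H.rep j).2.1

theorem dvd_of_dvd_mul {x : Oe} (h : ((N : ℕ) : Oe) ∣ x * H.ϖ) : ((N : ℕ) : Oe) ∣ x := by
  have h1 := dvd_sub h (H.cong.mul_left x)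
  convert h1 using 1
  ring

/-- **The decomposition of `D`.** -/
theorem mulD_bijective :
    Function.Bijective (fun p : Gam N × Option (Fin l) => H.mulD p.1 (H.rep p.2)) := by
  have hl := H.prime
  have : Fact l.Prime := ⟨hl⟩
  have hne : ∀ δ : H.D, ¬(H.rd (δ.1 0 0) = 0 ∧ H.rd (δ.1 0 1) = 0 ∧ H.rd (δ.1 1 0) = 0 ∧
      H.rd (δ.1 1 1) = 0) := by
    rintro δ ⟨h1, h2, h3, h4⟩
    rw [rd_eq_zero] at h1 h2 h3 h4
    obtain ⟨a, ha⟩ := h1
    obtain ⟨b, hb⟩ := h2
    obtain ⟨c, hc⟩ := h3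
    obtain ⟨d, hd⟩ := h4
    have hdet := δ.2.1
    rw [Matrix.det_fin_two, ha, hb, hc, hd] at hdet
    have h5 : H.ϖ * (H.ϖ * (a * d - b * c)) = H.ϖ * 1 := by linear_combination hdet
    have h6 := mul_left_cancel₀ H.ϖ_ne_zero h5
    have h7 := congrArg H.rd h6
    rw [map_mul, H.rd_eq_zero.2 dvd_rfl, zero_mul, map_one] at h7
    exact zero_ne_one h7
  have hdet0 : ∀ δ : H.D, H.rd (δ.1 0 0) * H.rd (δ.1 1 1) - H.rd (δ.1 0 1) * H.rd (δ.1 1 0) = 0 := by
    intro δ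
    have hdet := congrArg H.rd δ.2.1
    rw [Matrix.det_fin_two, H.rd_eq_zero.2 dvd_rfl, map_sub, map_mul, map_mul] at hdet
    exact hdet
  constructor
  · rintro ⟨γ, j⟩ ⟨γ', j'⟩ h
    simp only at h
    have hj : j = j' := by
      obtain ⟨j0, -, hu⟩ := exists_unique_K2 hl H.N_ne_zero (hdet0 (H.mulD γ (H.rep j)))
        (hne _)
      have h1 := hu j ⟨H.K_mulD γ j 0, H.K_mulD γ j 1⟩
      rw [h] at hu
      have h2 := hu j' ⟨H.K_mulD γ' j' 0, H.K_mulD γ' j' 1⟩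
      rw [h1, h2]
    subst hj
    have h1 := congrArg Subtype.val h
    rw [mulD_coe, mulD_coe] at h1
    have h2 := congrArg (fun A => A * (H.rep j).1.adjugate) h1
    simp only [Matrix.mul_assoc, Matrix.mul_adjugate, rep_det, Matrix.mul_smul,
      Matrix.mul_one] at h2
    have h3 : (γ.1 : Matrix (Fin 2) (Fin 2) Oe) = (γ'.1 : Matrix (Fin 2) (Fin 2) Oe) := by
      ext i k
      have := congrFun (congrFun h2 i) k
      rw [Matrix.smul_apply, Matrix.smul_apply, smul_eq_mul, smul_eq_mul] at this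
      exact congrArg Subtype.val (mul_left_cancel₀ H.ϖ_ne_zero this)
    have h4 : γ = γ' := Subtype.ext (Subtype.ext h3)
    rw [h4]
  · intro δ
    obtain ⟨j, ⟨h1, h2⟩, -⟩ := exists_unique_K2 hl H.N_ne_zero (hdet0 δ) (hne δ)
    obtain ⟨p, q, hp, hq⟩ := H.row_div h1
    obtain ⟨r, s, hr, hs⟩ := H.row_div h2
    have hmul : δ.1 = !![p, q; r, s] * (H.rep j).1 := by
      ext i k
      fin_cases i <;> fin_cases k <;>
        simp [Matrix.mul_apply, Fin.sum_univ_two, hp, hq, hr, hs]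
    have hdet : (!![p, q; r, s] : Matrix (Fin 2) (Fin 2) Oe).det = 1 := by
      have h3 := congrArg Matrix.det hmul
      rw [Matrix.det_mul, δ.2.1, rep_det] at h3
      have h4 : H.ϖ * (!![p, q; r, s] : Matrix (Fin 2) (Fin 2) Oe).det = H.ϖ * 1 := by
        rw [mul_one, mul_comm, ← h3]
      exact mul_left_cancel₀ H.ϖ_ne_zero h4
    refine ⟨(⟨⟨!![p, q; r, s], hdet⟩, ?_⟩, j), Subtype.ext hmul.symm⟩
    intro i k
    apply H.dvd_of_dvd_mul
    change _ ∣ ((!![p, q; r, s] : Matrix (Fin 2) (Fin 2) Oe) i k -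
      (1 : Matrix (Fin 2) (Fin 2) Oe) i k) * H.ϖ
    have h5 : ((!![p, q; r, s] : Matrix (Fin 2) (Fin 2) Oe) i k -
        (1 : Matrix (Fin 2) (Fin 2) Oe) i k) * H.ϖ =
        ∑ m, ((δ.1 i m - (1 : Matrix (Fin 2) (Fin 2) Oe) i m) -
          ((H.rep j).1 i m - (1 : Matrix (Fin 2) (Fin 2) Oe) i m)) * (H.rep j).1.adjugate m k := by
      have h6 : (δ.1 - (H.rep j).1) * (H.rep j).1.adjugate =
          H.ϖ • ((!![p, q; r, s] : Matrix (Fin 2) (Fin 2) Oe) - 1) := by
        rw [hmul, Matrix.sub_mul, Matrix.mul_assoc, Matrix.mul_adjugate, rep_det, smul_sub,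
          Matrix.mul_smul, Matrix.mul_one]
      have h7 := congrFun (congrFun h6 i) k
      rw [Matrix.mul_apply, Matrix.smul_apply, Matrix.sub_apply, smul_eq_mul] at h7
      rw [mul_comm, ← h7]
      refine Finset.sum_congr rfl fun m _ => ?_
      rw [Matrix.sub_apply]
      ring
    rw [h5]
    exact Finset.dvd_sum fun m _ => (dvd_sub (δ.2.2 i m) ((H.rep j).2.2 i m)).mul_right _

end HkData

end Fermat.Agent.LT.Th
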