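import Fermat.Agent.LT.Th.HkAct
import Fermat.Agent.LT.Th.Lift

set_option autoImplicit false

/-!
# The Hecke correspondence at a split prime and the theta kernel
-/

namespace Fermat.Agent.LT.Th

open Matrix ComplexConjugate Complex MeasureTheory HM
open scoped Real MatrixGroups

/-! ### coordinates of the points of `x0 + N L` -/

/-- the upper left entry -/
def aK (N : ℕ) (k : Fin 4 → ℤ) : ℤ := N * k 0

/-- the lower right entry -/
def dK (N : ℕ) (k : Fin 4 → ℤ) : ℤ := N * k 1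

/-- the upper right entry -/
noncomputable def bK (N : ℕ) (k : Fin 4 → ℤ) : Oe := 1 + N * (k 2 + k 3 * ⟨om, om_mem⟩)

theorem Xk_eq (N : ℕ) (k : Fin 4 → ℤ) : Xk N k = ((aK N k : ℝ), (dK N k : ℝ), (bK N k : ℂ)) := by
  rw [Xk, lp, cr, x0, aK, dK, bK]
  refine Prod.ext ?_ (Prod.ext ?_ ?_)
  · simp
  · simp
  · simp only [Int.cast_zero, zero_smul, add_zero, Prod.smul_mk,
      smul_eq_mul, Prod.mk_add_mk, zero_add]
    rw [Complex.real_smul]
    push_cast
    rfl

theorem exists_k {N : ℕ} {A D : ℤ} {B : Oe} (hA : (N : ℤ) ∣ A) (hD : (N : ℤ) ∣ D)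
    (hB : ((N : ℕ) : Oe) ∣ B - 1) : ∃ k, Xk N k = ((A : ℝ), (D : ℝ), (B : ℂ)) := by
  obtain ⟨a, rfl⟩ := hA
  obtain ⟨d, rfl⟩ := hD
  obtain ⟨b, hb⟩ := hB
  obtain ⟨x, y, hxy⟩ := eisOe.span b
  refine ⟨![a, d, x, y], ?_⟩
  rw [Xk_eq]
  have h1 : bK N ![a, d, x, y] = B := by
    have h2 : bK N ![a, d, x, y] = 1 + N * (x + y * eisOe.ω) := rfl
    rw [h2, ← hxy]
    linear_combination -hb
  rw [h1]
  rfl

theorem N_dvd_bK (N : ℕ) (k : Fin 4 → ℤ) : ((N : ℕ) : Oe) ∣ bK N k - 1 :=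
  ⟨k 2 + k 3 * ⟨om, om_mem⟩, by rw [bK]; ring⟩

theorem coe_inj_Oe {z w : Oe} (h : (z : ℂ) = w) : z = w := Subtype.ext h

/-- the trace -/
theorem exists_tr (z : Oe) : ∃ n : ℤ, z + cOe z = n := by
  apply eisOe.exists_int_of_fixed
  change cOe (z + cOe z) = _
  rw [map_add, cOe_cOe]
  ring

/-- the trace -/
noncomputable def trZ (z : Oe) : ℤ := (exists_tr z).choose

theorem trZ_spec (z : Oe) : z + cOe z = trZ z := (exists_tr z).choose_spec

theorem trZ_re (z : Oe) : 2 * (z : ℂ).re = trZ z := by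
  have h := congrArg Subtype.val (trZ_spec z)
  have h1 : ((z + cOe z : Oe) : ℂ) = (z : ℂ) + conj (z : ℂ) := rfl
  have h2 : (z : ℂ) + conj (z : ℂ) = ((trZ z : ℤ) : ℂ) := by rw [← h1, h]; simp
  rw [Complex.add_conj] at h2
  exact_mod_cast h2

/-- the integral norm form -/
theorem exists_q (N : ℕ) (k : Fin 4 → ℤ) : ∃ n : ℤ, q (Xk N k) = n ∧
    bK N k * cOe (bK N k) - aK N k * dK N k = n := by
  obtain ⟨m, hm⟩ := exists_norm_Oe (bK N k)
  refine ⟨m - aK N k * dK N k, ?_, by rw [hm]; push_cast; ring⟩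
  rw [Xk_eq, q]
  have h := congrArg Subtype.val hm
  have h1 : (bK N k : ℂ) * conj (bK N k : ℂ) = ((m : ℤ) : ℂ) := by
    have h2 : ((bK N k * cOe (bK N k) : Oe) : ℂ) = (bK N k : ℂ) * conj (bK N k : ℂ) := rfl
    rw [← h2, h]; simp
  rw [Complex.mul_conj] at h1
  have h3 : normSq (bK N k : ℂ) = m := by exact_mod_cast h1
  simp only
  rw [h3]
  push_cast
  ring

namespace HkData

variable {N l : ℕ} (H : HkData N l)

/-- the map `Φ_j` -/
noncomputable def Φ (j : Option (Fin l)) (X : HM) : HM := actM (H.mC (H.adj (H.rep j))) X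

theorem Φ_injective (j : Option (Fin l)) : Function.Injective (H.Φ j) := by
  intro X Y h
  have h1 := congrArg (actM (H.mC (H.rep j))) h
  rw [Φ, Φ, actM_adj, actM_adj] at h1
  exact smul_right_injective HM (r := (l : ℝ)) (by exact_mod_cast H.l_pos.ne') h1

theorem Φ_none (A D : ℤ) (B : Oe) : H.Φ none ((A : ℝ), (D : ℝ), (B : ℂ)) =
    ((A : ℝ), ((l * D : ℤ) : ℝ), ((cOe H.ϖ * B : Oe) : ℂ)) := by
  have h00 : H.mC (H.adj (H.rep none)) 0 0 = 1 := by
    simp [mC, adj, rep, Matrix.adjugate_fin_two]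
  have h01 : H.mC (H.adj (H.rep none)) 0 1 = 0 := by
    simp [mC, adj, rep, Matrix.adjugate_fin_two]
  have h10 : H.mC (H.adj (H.rep none)) 1 0 = 0 := by
    simp [mC, adj, rep, Matrix.adjugate_fin_two]
  have h11 : H.mC (H.adj (H.rep none)) 1 1 = H.ϖ := by
    simp [mC, adj, rep, Matrix.adjugate_fin_two]
  rw [Φ, actM, h00, h01, h10, h11]
  refine Prod.ext ?_ (Prod.ext ?_ ?_)
  · simp
  · simp [normSq_ϖ]
  · simp [coe_cOe, mul_comm]

theorem Φ_some (b : Fin l) (A D : ℤ) (B : Oe) : H.Φ (some b) ((A : ℝ), (D : ℝ), (B : ℂ)) =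
    (((l * A + N * (b : ℕ) * trZ (H.ϖ * B) + N ^ 2 * (b : ℕ) ^ 2 * D : ℤ) : ℝ), (D : ℝ),
      ((H.ϖ * B + N * (b : ℕ) * D : Oe) : ℂ)) := by
  have h00 : H.mC (H.adj (H.rep (some b))) 0 0 = H.ϖ := by
    simp [mC, adj, rep, Matrix.adjugate_fin_two]
  have h01 : H.mC (H.adj (H.rep (some b))) 0 1 = ((N * (b : ℕ) : ℝ) : ℂ) := by
    simp [mC, adj, rep, Matrix.adjugate_fin_two]
  have h10 : H.mC (H.adj (H.rep (some b))) 1 0 = 0 := by
    simp [mC, adj, rep, Matrix.adjugate_fin_two]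
  have h11 : H.mC (H.adj (H.rep (some b))) 1 1 = 1 := by
    simp [mC, adj, rep, Matrix.adjugate_fin_two]
  rw [Φ, actM, h00, h01, h10, h11]
  refine Prod.ext ?_ (Prod.ext ?_ ?_)
  · simp only [Complex.conj_ofReal, Complex.normSq_ofReal, normSq_ϖ]
    have h1 : 2 * ((H.ϖ : ℂ) * (B : ℂ)).re = trZ (H.ϖ * B) := trZ_re (H.ϖ * B)
    have h2 : ((H.ϖ : ℂ) * (B : ℂ) * ((N * (b : ℕ) : ℝ) : ℂ)).re =
        ((H.ϖ : ℂ) * (B : ℂ)).re * (N * (b : ℕ)) := by
      rw [Complex.re_mul_ofReal]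
    rw [h2]
    push_cast
    rw [← h1]
    ring
  · simp
  · simp
    ring

/-- the condition for `Y` to be in the image of `Φ_j` -/
def C (j : Option (Fin l)) (k : Fin 4 → ℤ) : Prop :=
  K (N : ZMod l) j (-H.rd (cOe (bK N k))) ((aK N k : ℤ) : ZMod l) ∧
    K (N : ZMod l) j (-((dK N k : ℤ) : ZMod l)) (H.rd (bK N k))

theorem C_none (k : Fin 4 → ℤ) : H.C none k ↔
    H.rd (cOe (bK N k)) = 0 ∧ ((dK N k : ℤ) : ZMod l) = 0 := by
  change (-H.rd (cOe (bK N k)) = 0 ∧ -((dK N k : ℤ) : ZMod l) = 0) ↔ _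
  rw [neg_eq_zero, neg_eq_zero]

theorem C_some (b : Fin l) (k : Fin 4 → ℤ) : H.C (some b) k ↔
    (N : ZMod l) * ((b : ℕ) : ZMod l) * -H.rd (cOe (bK N k)) + ((aK N k : ℤ) : ZMod l) = 0 ∧
    (N : ZMod l) * ((b : ℕ) : ZMod l) * -((dK N k : ℤ) : ZMod l) + H.rd (bK N k) = 0 := Iff.rfl

theorem coords_eq {k : Fin 4 → ℤ} {A D : ℤ} {B : Oe} (h : Xk N k = ((A : ℝ), (D : ℝ), (B : ℂ))) :
    aK N k = A ∧ dK N k = D ∧ bK N k = B := by
  rw [Xk_eq, Prod.mk.injEq, Prod.mk.injEq] at h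
  exact ⟨by exact_mod_cast h.1, by exact_mod_cast h.2.1, coe_inj_Oe h.2.2⟩

include H in
/-- divisibility by `N` after division by `l` -/
theorem N_dvd_of_l {x : ℤ} (h : (N : ℤ) ∣ l * x) : (N : ℤ) ∣ x := by
  have h1 := dvd_sub h (H.cong_l.mul_right x)
  have e : l * x - (l - 1) * x = x := by ring
  rwa [e] at h1

theorem exists_Φ (j : Option (Fin l)) (k : Fin 4 → ℤ) : ∃ k', Xk N k' = H.Φ j (Xk N k) := by
  cases j with
  | none =>
    rw [Xk_eq N k, Φ_none]
    apply exists_k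
    · exact Dvd.intro _ rfl
    · exact (Dvd.intro _ rfl : (N : ℤ) ∣ dK N k).mul_left _
    · obtain ⟨u, hu⟩ := N_dvd_bK N k
      obtain ⟨v, hv⟩ := H.cong_conj
      exact ⟨u * cOe H.ϖ + v, by linear_combination cOe H.ϖ * hu + hv⟩
  | some b =>
    rw [Xk_eq N k, Φ_some]
    apply exists_k
    · exact ⟨l * k 0 + (b : ℕ) * trZ (H.ϖ * bK N k) + N * (b : ℕ) ^ 2 * dK N k, by
        rw [aK]; ring⟩
    · exact Dvd.intro _ rfl
    · obtain ⟨u, hu⟩ := N_dvd_bK N k
      obtain ⟨v, hv⟩ := H.cong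
      exact ⟨u * H.ϖ + v + (b : ℕ) * dK N k, by linear_combination H.ϖ * hu + hv⟩

theorem rd_l_zero : (l : ZMod l) = 0 := CharP.cast_eq_zero _ _

/-- **the image of `Φ_j`** -/
theorem C_iff (j : Option (Fin l)) (k : Fin 4 → ℤ) :
    H.C j k ↔ ∃ k', H.Φ j (Xk N k') = Xk N k := by
  have hϖ : H.rd H.ϖ = 0 := H.rd_eq_zero.2 dvd_rfl
  have hl : (l : ZMod l) = 0 := CharP.cast_eq_zero _ _
  cases j with
  | none =>
    rw [C_none]
    constructor
    · rintro ⟨h1, h2⟩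
      rw [← dvd_ϖ_conj_iff] at h1
      rw [ZMod.intCast_zmod_eq_zero_iff_dvd] at h2
      obtain ⟨B, hB⟩ := h1
      obtain ⟨D, hD⟩ := h2
      obtain ⟨k', hk'⟩ : ∃ k', Xk N k' = ((aK N k : ℝ), (D : ℝ), (B : ℂ)) := by
        apply exists_k
        · exact Dvd.intro _ rfl
        · exact H.N_dvd_of_l (hD ▸ (Dvd.intro _ rfl : (N : ℤ) ∣ dK N k))
        · obtain ⟨u, hu⟩ := N_dvd_bK N k
          obtain ⟨v, hv⟩ := H.cong_conj
          exact ⟨u - v * B, by linear_combination hu - hB - B * hv⟩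
      refine ⟨k', ?_⟩
      rw [hk', Φ_none, Xk_eq N k, ← hB, ← hD]
    · rintro ⟨k', hk'⟩
      rw [Xk_eq N k', Φ_none] at hk'
      obtain ⟨-, h2, h3⟩ := coords_eq hk'.symm
      rw [h2, h3, map_mul, map_mul, cOe_cOe, hϖ]
      refine ⟨by ring, ?_⟩
      push_cast
      rw [hl]; ring
  | some b =>
    rw [C_some]
    constructor
    · rintro ⟨h1, h2⟩
      have h3 : H.ϖ ∣ bK N k - N * (b : ℕ) * dK N k := by
        rw [← H.rd_eq_zero]
        simp only [map_sub, map_mul, map_natCast, map_intCast]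
        linear_combination h2
      obtain ⟨B, hB⟩ := h3
      have h4 : (l : ℤ) ∣ aK N k - N * (b : ℕ) * trZ (H.ϖ * B) - N ^ 2 * (b : ℕ) ^ 2 * dK N k := by
        rw [← ZMod.intCast_zmod_eq_zero_iff_dvd]
        have h5 := congrArg H.rd (trZ_spec (H.ϖ * B))
        have h6 := congrArg (fun z => H.rd (cOe z)) hB
        rw [map_intCast, map_add, map_mul, hϖ, zero_mul, zero_add, map_mul, map_mul] at h5
        simp only [map_sub, map_mul, map_natCast, map_intCast] at h6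
        push_cast
        rw [← h5, ← h6]
        linear_combination h1
      obtain ⟨A, hA⟩ := h4
      obtain ⟨k', hk'⟩ : ∃ k', Xk N k' = ((A : ℝ), (dK N k : ℝ), (B : ℂ)) := by
        apply exists_k
        · apply H.N_dvd_of_l
          rw [← hA]
          exact ⟨k 0 - (b : ℕ) * trZ (H.ϖ * B) - N * (b : ℕ) ^ 2 * dK N k, by rw [aK]; ring⟩
        · exact Dvd.intro _ rfl
        · obtain ⟨u, hu⟩ := N_dvd_bK N k
          obtain ⟨v, hv⟩ := H.cong
          exact ⟨u - (b : ℕ) * dK N k - v * B, by linear_combination hu - hB - B * hv⟩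
      refine ⟨k', ?_⟩
      rw [hk', Φ_some, Xk_eq N k]
      have e1 : l * A + N * (b : ℕ) * trZ (H.ϖ * B) + N ^ 2 * (b : ℕ) ^ 2 * dK N k = aK N k := by
        linear_combination -hA
      have e2 : H.ϖ * B + N * (b : ℕ) * dK N k = bK N k := by linear_combination -hB
      rw [e1, e2]
    · rintro ⟨k', hk'⟩
      rw [Xk_eq N k', Φ_some] at hk'
      obtain ⟨h1, h2, h3⟩ := coords_eq hk'.symm
      rw [h1, h2, h3]
      have h5 := congrArg H.rd (trZ_spec (H.ϖ * bK N k'))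
      rw [map_intCast, map_add, map_mul, hϖ, zero_mul, zero_add] at h5
      simp only [map_add, map_mul, map_natCast, map_intCast, hϖ] at h5 ⊢
      push_cast
      rw [← h5, hl]
      constructor <;> ring

end HkData

/-- sums over the image of an injective map -/
theorem tsum_image {N : ℕ} (hN : N ≠ 0) {Ψ : HM → HM} (hΨ : Function.Injective Ψ)
    (hex : ∀ k, ∃ k', Xk N k' = Ψ (Xk N k)) {p : (Fin 4 → ℤ) → Prop}
    (hp : ∀ k, p k ↔ ∃ k', Ψ (Xk N k') = Xk N k) (f : HM → ℂ) :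
    ∑' k, f (Ψ (Xk N k)) = ∑' k, {k | p k}.indicator (fun k => f (Xk N k)) k := by
  choose g hg using hex
  have hginj : Function.Injective g := by
    intro k k' h
    apply Xk_injective hN
    apply hΨ
    rw [← hg, ← hg, h]
  have hsupp : Function.support ({k | p k}.indicator (fun k => f (Xk N k))) ⊆ Set.range g := by
    intro k hk
    have h1 : k ∈ {k | p k} := by
      by_contra hcon
      exact hk (Set.indicator_of_notMem hcon _)
    obtain ⟨k', hk'⟩ := (hp k).1 h1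
    exact ⟨k', Xk_injective hN (by rw [hg, hk'])⟩
  rw [← hginj.tsum_eq hsupp]
  refine tsum_congr fun k => ?_
  rw [Set.indicator_of_mem, hg]
  exact (hp _).2 ⟨k, (hg k).symm⟩

namespace HkData

variable {N l : ℕ} (H : HkData N l)

/-- the condition for `Y` to be divisible by `l` -/
def Z (k : Fin 4 → ℤ) : Prop :=
  -H.rd (cOe (bK N k)) = 0 ∧ ((aK N k : ℤ) : ZMod l) = 0 ∧ -((dK N k : ℤ) : ZMod l) = 0 ∧
    H.rd (bK N k) = 0

include H in
theorem exists_l_smul (k : Fin 4 → ℤ) : ∃ k', Xk N k' = (l : ℝ) • Xk N k := by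
  have e : (l : ℝ) • Xk N k = (((l * aK N k : ℤ) : ℝ), ((l * dK N k : ℤ) : ℝ),
      ((l * bK N k : Oe) : ℂ)) := by
    rw [Xk_eq]
    refine Prod.ext ?_ (Prod.ext ?_ ?_)
    · simp
    · simp
    · simp
  rw [e]
  apply exists_k
  · exact (Dvd.intro _ rfl : (N : ℤ) ∣ aK N k).mul_left _
  · exact (Dvd.intro _ rfl : (N : ℤ) ∣ dK N k).mul_left _
  · obtain ⟨u, hu⟩ := N_dvd_bK N k
    obtain ⟨v, hv⟩ := H.cong_l
    have hv' : (l : Oe) - 1 = N * v := by exact_mod_cast congrArg (Int.cast (R := Oe)) hv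
    exact ⟨u * l + v, by linear_combination (l : Oe) * hu + hv'⟩

theorem Z_iff (k : Fin 4 → ℤ) : H.Z k ↔ ∃ k', (l : ℝ) • Xk N k' = Xk N k := by
  have e : ∀ k', (l : ℝ) • Xk N k' = (((l * aK N k' : ℤ) : ℝ), ((l * dK N k' : ℤ) : ℝ),
      ((l * bK N k' : Oe) : ℂ)) := by
    intro k'
    rw [Xk_eq]
    refine Prod.ext ?_ (Prod.ext ?_ ?_)
    · simp
    · simp
    · simp
  have hl : (l : ZMod l) = 0 := CharP.cast_eq_zero _ _
  constructor
  · rintro ⟨h1, h2, h3, h4⟩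
    rw [neg_eq_zero] at h1 h3
    rw [ZMod.intCast_zmod_eq_zero_iff_dvd] at h2 h3
    obtain ⟨A, hA⟩ := h2
    obtain ⟨D, hD⟩ := h3
    obtain ⟨B, hB⟩ := H.l_dvd_iff.2 ⟨h4, h1⟩
    obtain ⟨k', hk'⟩ : ∃ k', Xk N k' = ((A : ℝ), (D : ℝ), (B : ℂ)) := by
      apply exists_k
      · exact H.N_dvd_of_l (hA ▸ (Dvd.intro _ rfl : (N : ℤ) ∣ aK N k))
      · exact H.N_dvd_of_l (hD ▸ (Dvd.intro _ rfl : (N : ℤ) ∣ dK N k))
      · obtain ⟨u, hu⟩ := N_dvd_bK N k
        obtain ⟨v, hv⟩ := H.cong_l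
        have hv' : (l : Oe) - 1 = N * v := by exact_mod_cast congrArg (Int.cast (R := Oe)) hv
        exact ⟨u - v * B, by linear_combination hu - hB - B * hv'⟩
    refine ⟨k', ?_⟩
    obtain ⟨h1, h2, h3⟩ := coords_eq hk'
    rw [e, h1, h2, h3, ← hA, ← hD, ← hB, ← Xk_eq]
  · rintro ⟨k', hk'⟩
    rw [e] at hk'
    obtain ⟨h1, h2, h3⟩ := coords_eq hk'.symm
    rw [Z, h1, h2, h3]
    simp only [map_mul, map_natCast]
    push_cast
    rw [hl]
    refine ⟨by ring, by ring, by ring, by ring⟩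

open Classical in
/-- **the sum over the Hecke correspondence** -/
theorem sum_Φ (hN : N ≠ 0) {f : HM → ℂ} (hf : Summable (fun k => f (Xk N k))) :
    ∑ j, ∑' k, f (H.Φ j (Xk N k)) =
      ∑' k, (if ∃ n : ℤ, q (Xk N k) = l * n then f (Xk N k) else 0) +
        l * ∑' k, f ((l : ℝ) • Xk N k) := by
  have h1 : ∀ j, ∑' k, f (H.Φ j (Xk N k)) =
      ∑' k, {k | H.C j k}.indicator (fun k => f (Xk N k)) k := fun j =>
    tsum_image hN (H.Φ_injective j) (H.exists_Φ j) (H.C_iff j) f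
  have hlinj : Function.Injective (fun X : HM => (l : ℝ) • X) :=
    smul_right_injective HM (r := (l : ℝ)) (by exact_mod_cast H.l_pos.ne')
  have h2 : ∑' k, f ((l : ℝ) • Xk N k) =
      ∑' k, {k | H.Z k}.indicator (fun k => f (Xk N k)) k :=
    tsum_image hN hlinj H.exists_l_smul H.Z_iff f
  simp_rw [h1]
  rw [← Summable.tsum_finsetSum (fun j _ => hf.indicator _), h2, ← tsum_mul_left,
    ← Summable.tsum_add]
  · refine tsum_congr fun k => ?_
    have h3 := sum_K H.prime H.N_ne_zero (-H.rd (cOe (bK N k))) ((aK N k : ℤ) : ZMod l)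
      (-((dK N k : ℤ) : ZMod l)) (H.rd (bK N k))
    have h4 : ∑ j, {k | H.C j k}.indicator (fun k => f (Xk N k)) k =
        (∑ j : Option (Fin l), if H.C j k then (1 : ℂ) else 0) * f (Xk N k) := by
      rw [Finset.sum_mul]
      refine Finset.sum_congr rfl fun j _ => ?_
      rw [Set.indicator_apply]
      simp only [Set.mem_ofPred_eq]
      split_ifs <;> simp
    rw [h4]
    have h5 : (∑ j : Option (Fin l), if H.C j k then (1 : ℂ) else 0) =
      (if -H.rd (cOe (bK N k)) * H.rd (bK N k) -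
        ((aK N k : ℤ) : ZMod l) * -((dK N k : ℤ) : ZMod l) = 0 then 1 else 0) +
        (if H.Z k then (l : ℂ) else 0) := by
      convert h3
      all_goals exact Iff.rfl
    rw [h5, add_mul]
    obtain ⟨n, hn, hn'⟩ := exists_q N k
    have h6 : -H.rd (cOe (bK N k)) * H.rd (bK N k) -
        ((aK N k : ℤ) : ZMod l) * -((dK N k : ℤ) : ZMod l) = -((n : ℤ) : ZMod l) := by
      have := congrArg H.rd hn'
      simp only [map_sub, map_mul, map_intCast] at this
      rw [← this]; ring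
    have h7 : (∃ n : ℤ, q (Xk N k) = l * n) ↔ -((n : ℤ) : ZMod l) = 0 := by
      rw [neg_eq_zero, ZMod.intCast_zmod_eq_zero_iff_dvd, hn]
      constructor
      · rintro ⟨m, hm⟩
        exact ⟨m, by exact_mod_cast hm⟩
      · rintro ⟨m, hm⟩
        exact ⟨m, by exact_mod_cast hm⟩
    rw [h6]
    congr 1
    · by_cases h8 : -((n : ℤ) : ZMod l) = 0
      · rw [if_pos h8, if_pos (h7.2 h8), one_mul]
      · rw [if_neg h8, if_neg (fun h => h8 (h7.1 h)), zero_mul]
    · rw [Set.indicator_apply]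
      simp only [Set.mem_ofPred_eq]
      split_ifs <;> simp
  · have : (fun k => if ∃ n : ℤ, q (Xk N k) = l * n then f (Xk N k) else 0) =
        {k | ∃ n : ℤ, q (Xk N k) = l * n}.indicator (fun k => f (Xk N k)) := by
      funext k
      rw [Set.indicator_apply]
      simp only [Set.mem_ofPred_eq]
    rw [this]
    exact hf.indicator _
  · exact (hf.indicator _).mul_left _

/-! ### the kernel -/

/-- `ker` at the translate -/
theorem ker_S (m : Fin 2) {τ τ0 : UpperHalfPlane} (h0 : (τ0 : ℂ) = τ / l) (δ : H.D) (w : H3)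
    (X : HM) : ker m τ (H.S δ w) X = √l * ker m τ0 w (actM (H.mC (H.adj δ)) X) := by
  have hl : (0 : ℝ) < l := by exact_mod_cast H.l_pos
  have him : τ0.im = τ.im / l := by
    have := congrArg Complex.im h0
    rw [← Complex.ofReal_natCast, Complex.div_ofReal_im] at this
    exact this
  have hre : τ0.re = τ.re / l := by
    have := congrArg Complex.re h0
    rw [← Complex.ofReal_natCast, Complex.div_ofReal_re] at this
    exact this
  have hsq : √(l : ℝ) ^ 2 = l := Real.sq_sqrt hl.le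
  rw [ker, ker, t_S, Q_S, q_adj, him, hre, div_pow, hsq, Real.sqrt_div τ.im_pos.le]
  have h1 : √(l : ℝ) ≠ 0 := H.sqrt_l_pos.ne'
  have e1 : τ.im * (t w (actM (H.mC (H.adj δ)) X) ^ 2 / l) =
      τ.im / l * t w (actM (H.mC (H.adj δ)) X) ^ 2 := by ring
  have e2 : -2 * π * τ.im * (Q w (actM (H.mC (H.adj δ)) X) / l) =
      -2 * π * (τ.im / l) * Q w (actM (H.mC (H.adj δ)) X) := by ring
  have e3 : ((τ.re / l : ℝ) : ℂ) * ((l * q X : ℝ) : ℂ) = (τ.re : ℂ) * (q X : ℂ) := by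
    push_cast
    have : (l : ℂ) ≠ 0 := by exact_mod_cast hl.ne'
    field_simp
  rw [e1, e2, e3]
  have h1' : ((√(l : ℝ) : ℝ) : ℂ) ≠ 0 := by exact_mod_cast h1
  push_cast
  field_simp

/-- `ker` at the translates in the upper half plane -/
theorem ker_add (m : Fin 2) {τ τ0 τi : UpperHalfPlane} (h0 : (τ0 : ℂ) = τ / l) {i : ℕ}
    (hi : (τi : ℂ) = (τ + i) / l) (w : H3) (X : HM) :
    ker m τi w X = ker m τ0 w X * e (i * q X / l) := by
  have h1 : (τi : ℂ) = (τ0 : ℂ) + ((i / l : ℝ) : ℂ) := by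
    rw [hi, h0]; push_cast; ring
  have him : τi.im = τ0.im := by
    have := congrArg Complex.im h1
    rw [Complex.add_im, Complex.ofReal_im, add_zero] at this
    exact this
  have hre : τi.re = τ0.re + i / l := by
    have := congrArg Complex.re h1
    rw [Complex.add_re, Complex.ofReal_re] at this
    exact this
  have h2 : e (((τ0.re + i / l : ℝ) : ℂ) * q X) = e (τ0.re * q X) * e (i * q X / l) := by
    rw [← e_add]
    congr 1
    push_cast
    ring
  rw [ker, ker, him, hre, h2]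
  ring

include H in
/-- `ker` at the multiple -/
theorem ker_mul (m : Fin 2) {τ τ0 τl : UpperHalfPlane} (h0 : (τ0 : ℂ) = τ / l)
    (hl' : (τl : ℂ) = l * τ) (w : H3) (X : HM) :
    l * ker m τ0 w ((l : ℝ) • X) = ker m τl w X := by
  have hl : (0 : ℝ) < l := by exact_mod_cast H.l_pos
  have hlC : (l : ℂ) ≠ 0 := by exact_mod_cast hl.ne'
  have h1 : (τl : ℂ) = ((l ^ 2 : ℝ) : ℂ) * (τ0 : ℂ) := by
    rw [hl', h0]; push_cast; field_simp
  have him : τl.im = l ^ 2 * τ0.im := by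
    have := congrArg Complex.im h1
    rw [Complex.im_ofReal_mul] at this
    exact this
  have hre : τl.re = l ^ 2 * τ0.re := by
    have := congrArg Complex.re h1
    rw [Complex.re_ofReal_mul] at this
    exact this
  have hsq : √((l : ℝ) ^ 2 * τ0.im) = l * √τ0.im := by
    rw [Real.sqrt_mul (by positivity), Real.sqrt_sq hl.le]
  rw [ker, ker, t_smul, Q_smul, q_smul, him, hre, hsq]
  have e1 : τ0.im * (l * t w X) ^ 2 = l ^ 2 * τ0.im * t w X ^ 2 := by ring
  have e2 : -2 * π * τ0.im * (l ^ 2 * Q w X) = -2 * π * (l ^ 2 * τ0.im) * Q w X := by ring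
  have e3 : (τ0.re : ℂ) * ((l ^ 2 * q X : ℝ) : ℂ) = ((l ^ 2 * τ0.re : ℝ) : ℂ) * (q X : ℂ) := by
    push_cast; ring
  rw [e1, e2, e3]
  push_cast
  ring

/-- orthogonality -/
theorem sum_e (hl : 0 < l) (n : ℤ) :
    ∑ i : Fin l, e ((i : ℕ) * n / l) = if (l : ℤ) ∣ n then (l : ℂ) else 0 := by
  have hlC : (l : ℂ) ≠ 0 := by exact_mod_cast hl.ne'
  have h1 : ∀ i : ℕ, e (i * n / l) = e (n / l) ^ i := by
    intro i
    rw [e, e, ← Complex.exp_nat_mul]
    congr 1
    ring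
  simp_rw [h1]
  rw [Fin.sum_univ_eq_sum_range (fun i => e (n / l) ^ i)]
  split_ifs with h
  · obtain ⟨m, rfl⟩ := h
    have h2 : e ((l * m : ℤ) / l) = 1 := by
      have : ((l * m : ℤ) : ℂ) / l = m := by push_cast; field_simp
      rw [this, e_int]
    rw [h2]
    simp
  · have h2 : e (n / l) ≠ 1 := by
      intro h3
      rw [e, Complex.exp_eq_one_iff] at h3
      obtain ⟨m, hm⟩ := h3
      apply h
      refine ⟨m, ?_⟩
      have h4 : (2 * π * I : ℂ) ≠ 0 := Complex.two_pi_I_ne_zero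
      have h5 : (n : ℂ) / l = m := by
        apply mul_left_cancel₀ h4
        rw [hm]; ring
      rw [div_eq_iff hlC] at h5
      have h6 : (n : ℂ) = ((l * m : ℤ) : ℂ) := by rw [h5]; push_cast; ring
      exact_mod_cast h6
    have h3 : e (n / l) ^ l = 1 := by
      rw [← h1]
      have : (l : ℂ) * n / l = n := by field_simp
      rw [this, e_int]
    rw [geom_sum_eq h2, h3]
    simp

/-- summability of the kernel -/
theorem summable_ker {N : ℕ} {w : H3} (hs : ∀ c : ℝ, 0 < c → Summable fun k =>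
    Real.exp (-c * Q w (Xk N k))) (m : Fin 2) (τ : UpperHalfPlane) :
    Summable (fun k => ker m τ w (Xk N k)) := by
  have h1 := hs (π * τ.im) (by have := τ.im_pos; positivity)
  refine Summable.of_norm_bounded ((h1.mul_left 5).mul_left (√τ.im)) fun k => ?_
  rw [norm_ker]
  exact abs_kv_le m τ.im_pos w _

open Classical in
/-- **The theta kernel and the Hecke correspondence.** -/
theorem sum_TN (hN : N ≠ 0) (m : Fin 2) {τ τl : UpperHalfPlane} (hτl : (τl : ℂ) = l * τ)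
    {τi : Fin l → UpperHalfPlane} (hτi : ∀ i, (τi i : ℂ) = (τ + (i : ℕ)) / l) {w : H3}
    (hs : ∀ c : ℝ, 0 < c → Summable fun k => Real.exp (-c * Q w (Xk N k))) :
    ∑ j, TN m N τ (H.S (H.rep j) w) = √l * (TN m N τl w + 1 / l * ∑ i, TN m N (τi i) w) := by
  have hlC : (l : ℂ) ≠ 0 := by exact_mod_cast H.l_pos.ne'
  obtain ⟨τ0, h0⟩ : ∃ τ0 : UpperHalfPlane, (τ0 : ℂ) = τ / l :=
    ⟨τi ⟨0, H.l_pos⟩, by rw [hτi]; simp⟩
  have h1 := H.sum_Φ hN (f := fun X => ker m τ0 w X) (summable_ker hs m τ0)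
  have h2 : ∑ j, TN m N τ (H.S (H.rep j) w) =
      √l * ∑ j, ∑' k, ker m τ0 w (H.Φ j (Xk N k)) := by
    rw [Finset.mul_sum]
    refine Finset.sum_congr rfl fun j _ => ?_
    rw [TN_def, ← tsum_mul_left]
    exact tsum_congr fun k => H.ker_S m h0 (H.rep j) w _
  rw [h2, h1, add_comm]
  congr 2
  · rw [TN_def, ← tsum_mul_left]
    exact tsum_congr fun k => H.ker_mul m h0 hτl w _
  · simp_rw [TN_def]
    rw [← Summable.tsum_finsetSum (fun i _ => summable_ker hs m (τi i)), ← tsum_mul_left]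
    refine tsum_congr fun k => ?_
    obtain ⟨n, hn, -⟩ := exists_q N k
    have h3 : ∑ i, ker m (τi i) w (Xk N k) =
        ker m τ0 w (Xk N k) * ∑ i : Fin l, e ((i : ℕ) * n / l) := by
      rw [Finset.mul_sum]
      refine Finset.sum_congr rfl fun i _ => ?_
      rw [ker_add m h0 (hτi i), hn]
      push_cast
      rfl
    rw [h3, sum_e H.l_pos]
    by_cases h4 : (l : ℤ) ∣ n
    · rw [if_pos h4, if_pos]
      · field_simp
      · obtain ⟨m', hm'⟩ := h4
        exact ⟨m', by rw [hn, hm']; push_cast; rfl⟩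
    · rw [if_neg h4, if_neg]
      · ring
      · rintro ⟨m', hm'⟩
        apply h4
        rw [hn] at hm'
        exact ⟨m', by exact_mod_cast hm'⟩

end HkData

end Fermat.Agent.LT.Th
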