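import Fermat.Agent.LT.Th.HkAdj
import Fermat.Agent.LT.Th.HkTheta
import Fermat.Agent.LT.Th.Bd2

set_option autoImplicit false

/-!
# The theta lift commutes with the Hecke operators
-/

namespace Fermat.Agent.LT.Th

open Matrix ComplexConjugate Complex MeasureTheory HM
open scoped Real MatrixGroups ENNReal NNReal
open Fermat.Agent.LT.FA

namespace HkData

variable {N l : ℕ} (H : HkData N l)

theorem S_none_z (w : H3) : (H.S (H.rep none) w).z = H.ϖ * w.z := by
  have h10 : (H.gl (H.rep none)) 1 0 = 0 := by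
    change H.mC (H.rep none) 1 0 = 0
    simp [mC, rep]
  rw [S, H3.smul_z_of_upper h10]
  have h00 : (H.gl (H.rep none)) 0 0 = H.ϖ := by
    change H.mC (H.rep none) 0 0 = _
    simp [mC, rep]
  have h01 : (H.gl (H.rep none)) 0 1 = 0 := by
    change H.mC (H.rep none) 0 1 = _
    simp [mC, rep]
  have h11 : (H.gl (H.rep none)) 1 1 = 1 := by
    change H.mC (H.rep none) 1 1 = _
    simp [mC, rep]
  rw [h00, h01, h11]
  simp

theorem S_none_y (w : H3) : (H.S (H.rep none) w).y = √l * w.y := by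
  have h10 : (H.gl (H.rep none)) 1 0 = 0 := by
    change H.mC (H.rep none) 1 0 = 0
    simp [mC, rep]
  rw [S, H3.smul_y_of_upper h10]
  have h00 : (H.gl (H.rep none)) 0 0 = H.ϖ := by
    change H.mC (H.rep none) 0 0 = _
    simp [mC, rep]
  have h11 : (H.gl (H.rep none)) 1 1 = 1 := by
    change H.mC (H.rep none) 1 1 = _
    simp [mC, rep]
  rw [h00, h11, div_one, norm_ϖ]

theorem S_some_z (b : Fin l) (w : H3) :
    (H.S (H.rep (some b)) w).z = (w.z - N * (b : ℕ)) / H.ϖ := by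
  have h10 : (H.gl (H.rep (some b))) 1 0 = 0 := by
    change H.mC (H.rep (some b)) 1 0 = 0
    simp [mC, rep]
  rw [S, H3.smul_z_of_upper h10]
  have h00 : (H.gl (H.rep (some b))) 0 0 = 1 := by
    change H.mC (H.rep (some b)) 0 0 = _
    simp [mC, rep]
  have h01 : (H.gl (H.rep (some b))) 0 1 = -(N * (b : ℕ)) := by
    change H.mC (H.rep (some b)) 0 1 = _
    simp [mC, rep]
  have h11 : (H.gl (H.rep (some b))) 1 1 = H.ϖ := by
    change H.mC (H.rep (some b)) 1 1 = _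
    simp [mC, rep]
  rw [h00, h01, h11]
  ring

theorem S_some_y (b : Fin l) (w : H3) : (H.S (H.rep (some b)) w).y = w.y / √l := by
  have h10 : (H.gl (H.rep (some b))) 1 0 = 0 := by
    change H.mC (H.rep (some b)) 1 0 = 0
    simp [mC, rep]
  rw [S, H3.smul_y_of_upper h10]
  have h00 : (H.gl (H.rep (some b))) 0 0 = 1 := by
    change H.mC (H.rep (some b)) 0 0 = _
    simp [mC, rep]
  have h11 : (H.gl (H.rep (some b))) 1 1 = H.ϖ := by
    change H.mC (H.rep (some b)) 1 1 = _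
    simp [mC, rep]
  rw [h00, h11, norm_div, norm_one, norm_ϖ]
  ring

/-- finiteness of the other side of the adjointness relation -/
theorem adjoint_fin {wt : H3 → ℝ≥0} (hwt : IsWt (Gam N) volume wt) {f g : H3 → ℂ}
    (hf : AEStronglyMeasurable f volume) (hg : AEStronglyMeasurable g volume)
    (hfi : ∀ γ : Gam N, ∀ w, f (γ • w) = f w) (hgi : ∀ γ : Gam N, ∀ w, g (γ • w) = g w)
    (hint : ∀ j, ∫⁻ w, ‖f (H.S (H.rep j) w)‖ₑ * ‖g w‖ₑ ∂(wtM volume wt) ≠ ∞)
    (j : Option (Fin l)) :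
    ∫⁻ w, ‖g (H.S (H.rep j) w)‖ₑ * ‖f w‖ₑ ∂(wtM volume wt) ≠ ∞ := by
  have hfin : ∑' δ : H.D, H.ea wt f g (H.S δ) ≠ ∞ := by
    rw [← H.sum_lintegral hwt hf hg hfi]
    exact (ENNReal.sum_lt_top.2 fun j _ => (hint j).lt_top).ne
  have hfin' : ∑' δ : H.D, H.ea wt g f (H.S δ) ≠ ∞ := by
    have h1 : ∑' δ : H.D, H.ea wt g f (H.S δ) = ∑' δ : H.D, H.ea wt f g (H.S (H.adjE δ)) :=
      tsum_congr fun δ => (H.ea_adj f g δ).symm
    rw [h1, H.adjE.tsum_eq (fun δ => H.ea wt f g (H.S δ))]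
    exact hfin
  rw [← H.sum_lintegral hwt hg hf hgi] at hfin'
  exact ((ENNReal.sum_lt_top.1 (lt_top_iff_ne_top.2 hfin')) j (Finset.mem_univ j)).ne

/-- **Output of the Hecke block.** -/
theorem lift_hecke (hN : 2 ≤ N) {φ : H3 → ℂ} (hφ : Input N φ) {wt : H3 → ℝ≥0}
    (hwt : IsWt (Gam N) volume wt) (hfm : IsFiniteMeasure (wtM volume wt)) {lam : ℂ}
    (hlam : ∀ w, ∑ j, φ (H.S (H.rep j) w) = √l * lam * φ w) (m : Fin 2)
    {τ τl : UpperHalfPlane} (hτl : (τl : ℂ) = l * τ)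
    {τi : Fin l → UpperHalfPlane} (hτi : ∀ i, (τi i : ℂ) = (τ + (i : ℕ)) / l) :
    lift N φ (wtM volume wt) m τl + 1 / l * ∑ i, lift N φ (wtM volume wt) m (τi i) =
      lam * lift N φ (wtM volume wt) m τ := by
  have hN0 : N ≠ 0 := by omega
  have hsq : ((√(l : ℝ) : ℝ) : ℂ) ≠ 0 := by exact_mod_cast H.sqrt_l_pos.ne'
  obtain ⟨C, -, hC⟩ := phi_sum_Xk hN hφ
  have hs : ∀ w, ∀ c : ℝ, 0 < c → Summable fun k => Real.exp (-c * Q w (Xk N k)) :=
    fun w c hc => (hC c hc w).1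
  have hφm : AEStronglyMeasurable φ volume := hφ.cont.aestronglyMeasurable
  have hΘm : AEStronglyMeasurable (TN m N τ) volume :=
    (measurable_TN hN hφ m τ).aestronglyMeasurable
  have hφi : ∀ γ : Gam N, ∀ w, φ (γ • w) = φ w := fun γ w => hφ.inv γ.1 γ.2 w
  have hΘi : ∀ γ : Gam N, ∀ w, TN m N τ (γ • w) = TN m N τ w := fun γ w =>
    TN_smul hN0 m τ γ.2 w
  obtain ⟨τ0, h0⟩ : ∃ τ0 : UpperHalfPlane, (τ0 : ℂ) = τ / l :=
    ⟨τi ⟨0, H.l_pos⟩, by rw [hτi]; simp⟩
  -- bound for `φ(w) Θ(δ_j w)`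
  obtain ⟨D, -, hD⟩ := phi_kv (M := 1) one_ne_zero hφ
  have hbd : ∀ j w, ‖TN m N τ (H.S (H.rep j) w)‖ * ‖φ w‖ ≤ √l * D τ0.im := by
    intro j w
    have hinj : Function.Injective (fun k => H.Φ j (Xk N k)) :=
      (H.Φ_injective j).comp (Xk_injective hN0)
    obtain ⟨hS, hle⟩ := hD (fun k => H.Φ j (Xk N k)) hinj
      (fun k => by
        obtain ⟨k', hk'⟩ := H.exists_Φ j k
        rw [← hk', Nat.cast_one, one_smul]
        exact Xk_mem N k')
      (fun k => by
        obtain ⟨k', hk'⟩ := H.exists_Φ j k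
        rw [← hk']
        exact Xk_ne hN k') m τ0.im τ0.im_pos w
    have h2 : ‖TN m N τ (H.S (H.rep j) w)‖ ≤ √l * ∑' k, |kv m τ0.im w (H.Φ j (Xk N k))| := by
      rw [TN_def]
      have h3 : ∀ k, ‖ker m τ (H.S (H.rep j) w) (Xk N k)‖ =
          √l * |kv m τ0.im w (H.Φ j (Xk N k))| := by
        intro k
        rw [H.ker_S m h0, norm_mul, norm_ker, Complex.norm_real, Real.norm_eq_abs,
          abs_of_nonneg (Real.sqrt_nonneg _)]
        rfl
      have h4 : Summable fun k => ‖ker m τ (H.S (H.rep j) w) (Xk N k)‖ := by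
        simp_rw [h3]
        exact hS.mul_left _
      refine (norm_tsum_le_tsum_norm h4).trans_eq ?_
      simp_rw [h3]
      rw [tsum_mul_left]
    calc ‖TN m N τ (H.S (H.rep j) w)‖ * ‖φ w‖
        ≤ (√l * ∑' k, |kv m τ0.im w (H.Φ j (Xk N k))|) * ‖φ w‖ := by gcongr
      _ = √l * (‖φ w‖ * ∑' k, |kv m τ0.im w (H.Φ j (Xk N k))|) := by ring
      _ ≤ √l * D τ0.im := by gcongr
  have hint : ∀ j, ∫⁻ w, ‖TN m N τ (H.S (H.rep j) w)‖ₑ * ‖φ w‖ₑ ∂(wtM volume wt) ≠ ∞ := by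
    intro j
    have h1 : ∫⁻ w, ‖TN m N τ (H.S (H.rep j) w)‖ₑ * ‖φ w‖ₑ ∂(wtM volume wt) ≤
        ∫⁻ _w, ENNReal.ofReal (√l * D τ0.im) ∂(wtM volume wt) := by
      refine lintegral_mono fun w => ?_
      rw [← enorm_mul, ← ofReal_norm, norm_mul]
      exact ENNReal.ofReal_le_ofReal (hbd j w)
    refine ne_top_of_le_ne_top ?_ h1
    rw [lintegral_const]
    exact ENNReal.mul_ne_top ENNReal.ofReal_ne_top (measure_ne_top _ _)
  have hadj := H.adjoint hwt hΘm hφm hΘi hφi hint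
  have hfin2 := H.adjoint_fin hwt hΘm hφm hΘi hφi hint
  -- integrability
  have hI1 : ∀ j, Integrable (fun w => TN m N τ (H.S (H.rep j) w) * φ w) (wtM volume wt) := by
    intro j
    refine ⟨((H.comp_meas hΘm (H.rep j)).mul hφm).mono_ac wtM_ac, ?_⟩
    have := (hint j).lt_top
    rw [HasFiniteIntegral]
    simpa only [enorm_mul] using this
  have hI2 : ∀ j, Integrable (fun w => TN m N τ w * φ (H.S (H.rep j) w)) (wtM volume wt) := by
    intro j
    refine ⟨(hΘm.mul (H.comp_meas hφm (H.rep j))).mono_ac wtM_ac, ?_⟩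
    have := (hfin2 j).lt_top
    rw [HasFiniteIntegral]
    simpa only [enorm_mul, mul_comm] using this
  have hL : ∑ j, ∫ w, TN m N τ (H.S (H.rep j) w) * φ w ∂(wtM volume wt) =
      √l * (lift N φ (wtM volume wt) m τl +
        1 / l * ∑ i, lift N φ (wtM volume wt) m (τi i)) := by
    rw [← integral_finsetSum _ (fun j _ => hI1 j)]
    have h1 : ∀ w, ∑ j, TN m N τ (H.S (H.rep j) w) * φ w =
        √l * (φ w * TN m N τl w + 1 / l * ∑ i, φ w * TN m N (τi i) w) := by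
      intro w
      rw [← Finset.sum_mul, H.sum_TN hN0 m hτl hτi (hs w), ← Finset.mul_sum]
      ring
    simp_rw [h1]
    rw [integral_const_mul, integral_add, integral_const_mul, integral_finsetSum]
    · rfl
    · intro i _
      exact integrable_phi_TN hN hφ _ m (τi i)
    · exact integrable_phi_TN hN hφ _ m τl
    · exact (integrable_finsetSum _ fun i _ => integrable_phi_TN hN hφ _ m (τi i)).const_mul _
  have hR : ∑ j, ∫ w, TN m N τ w * φ (H.S (H.rep j) w) ∂(wtM volume wt) =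
      √l * (lam * lift N φ (wtM volume wt) m τ) := by
    rw [← integral_finsetSum _ (fun j _ => hI2 j)]
    have h1 : ∀ w, ∑ j, TN m N τ w * φ (H.S (H.rep j) w) =
        √l * lam * (φ w * TN m N τ w) := by
      intro w
      rw [← Finset.mul_sum, hlam]
      ring
    simp_rw [h1]
    rw [integral_const_mul, lift]
    ring
  rw [hL, hR] at hadj
  exact mul_left_cancel₀ hsq hadj

end HkData

end Fermat.Agent.LT.Th
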