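import Fermat.Agent.LT.Th.Sieg
import Fermat.Agent.LT.H3.Horo
import Fermat.Agent.LT.H3.Ball
import Fermat.Agent.LT.FA.Weight

set_option autoImplicit false

/-!
# Reduction theory of `SL(2, Oe)` on `H3` and weights for `Gam N`
-/

namespace Fermat.Agent.LT.Th

open Matrix ComplexConjugate MeasureTheory Complex Set Topology
open scoped Real MatrixGroups NNReal ENNReal

/-! ### the action of `SL(2, Oe)` -/

theorem det_toGL_SL (g : SL(2, Oe)) : ((toGL g : GL (Fin 2) ℂ) : Matrix (Fin 2) (Fin 2) ℂ).det = 1 :=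
  (Matrix.SpecialLinearGroup.map Oe.subtype g).2

instance instContinuousConstSMulSLOe : ContinuousConstSMul SL(2, Oe) H3 := ⟨fun g => H3.continuous_smul_H3 (toGL g)⟩

instance instSMulInvariantGam (N : ℕ) : SMulInvariantMeasure (Gam N) H3 volume :=
  ⟨fun g _ hs => measure_preimage_smul_of_nullMeasurableSet (μ := volume) (hs.nullMeasurableSet)
    (toGL (g : SL(2, Oe)))⟩

theorem sl_q (g : SL(2, Oe)) (w : H3) (u v : ℂ) : (g • w).q u v =
    w.q (u * g 0 0 + v * g 1 0) (u * g 0 1 + v * g 1 1) := by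
  rw [smul_def, H3.q_smul_eq, det_toGL_SL, norm_one, div_one]
  rfl

theorem sl_y (g : SL(2, Oe)) (w : H3) : (g • w).y = w.y / w.den (g 1 0) (g 1 1) := by
  rw [smul_def, H3.smul_y, det_toGL_SL, norm_one, one_mul]
  rfl

theorem sl_row_ne (g : SL(2, Oe)) (i : Fin 2) : (g i 0 : ℂ) ≠ 0 ∨ (g i 1 : ℂ) ≠ 0 :=
  H3.row_ne (toGL g) i

/-! ### finiteness -/

theorem finite_ball (T : ℝ) : {z : Oe | normSq z ≤ T}.Finite := by
  set M : ℤ := ⌈2 * T⌉ with hM
  have h1 : ((fun p : ℤ × ℤ => (⟨p.1 + p.2 * om, p.1, p.2, rfl⟩ : Oe)) ''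
      (Icc (-M) M ×ˢ Icc (-M) M)).Finite := ((finite_Icc _ _).prod (finite_Icc _ _)).image _
  refine h1.subset ?_
  rintro ⟨z, x, y, rfl⟩ hz
  refine ⟨(x, y), ?_, rfl⟩
  have h2 : normSq ((x : ℂ) + y * om) ≤ T := hz
  rw [normSq_Oe] at h2
  push_cast at h2
  have hb : ∀ n : ℤ, (n : ℝ) ^ 2 ≤ 2 * T → -M ≤ n ∧ n ≤ M := by
    intro n hn
    have e1 : |n| ≤ n ^ 2 := by
      rcases eq_or_ne n 0 with rfl | h0
      · simp
      · have : 1 ≤ |n| := Int.one_le_abs h0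
        rw [← sq_abs]; nlinarith
    have e2 : (|n| : ℤ) ≤ M := by
      have : ((|n| : ℤ) : ℝ) ≤ 2 * T := by
        refine le_trans ?_ hn
        exact_mod_cast e1
      exact_mod_cast this.trans (Int.le_ceil _)
    exact abs_le.mp e2
  exact ⟨hb x (by nlinarith [sq_nonneg ((x : ℝ) - 2 * y), sq_nonneg (x : ℝ)]),
    hb y (by nlinarith [sq_nonneg ((y : ℝ) - 2 * x), sq_nonneg (y : ℝ)])⟩

theorem finite_rows (w : H3) (T : ℝ) : {r : Oe × Oe | w.den r.1 r.2 ≤ T}.Finite := by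
  have hy := w.pos
  refine ((finite_ball (T / w.y ^ 2)).prod
    (finite_ball (2 * (T + T / w.y ^ 2 * ‖w.z‖ ^ 2)))).subset ?_
  rintro ⟨c, d⟩ h
  have h1 : ‖(c : ℂ) * w.z + d‖ ^ 2 + ‖(c : ℂ)‖ ^ 2 * w.y ^ 2 ≤ T := h
  have h2 : ‖(c : ℂ)‖ ^ 2 ≤ T / w.y ^ 2 := by
    rw [le_div_iff₀ (by positivity)]
    nlinarith [sq_nonneg ‖(c : ℂ) * w.z + d‖]
  refine ⟨?_, ?_⟩
  · show normSq _ ≤ _
    rw [← Complex.sq_norm]
    exact h2
  · show normSq _ ≤ _
    rw [← Complex.sq_norm]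
    have h3 : ‖(d : ℂ)‖ ≤ ‖(c : ℂ) * w.z + d‖ + ‖(c : ℂ)‖ * ‖w.z‖ := by
      have := norm_sub_le ((c : ℂ) * w.z + d) ((c : ℂ) * w.z)
      rwa [add_sub_cancel_left, norm_mul] at this
    have h4 : ‖(d : ℂ)‖ ^ 2 ≤ (‖(c : ℂ) * w.z + d‖ + ‖(c : ℂ)‖ * ‖w.z‖) ^ 2 :=
      pow_le_pow_left₀ (norm_nonneg _) h3 2
    have h5 : ‖(c : ℂ)‖ ^ 2 * ‖w.z‖ ^ 2 ≤ T / w.y ^ 2 * ‖w.z‖ ^ 2 :=
      mul_le_mul_of_nonneg_right h2 (by positivity)
    have h6 : ‖(c : ℂ) * w.z + d‖ ^ 2 ≤ T := by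
      nlinarith [sq_nonneg ‖(c : ℂ)‖, sq_nonneg w.y, mul_nonneg (sq_nonneg ‖(c : ℂ)‖) (sq_nonneg w.y)]
    have h7 : (0 : ℝ) ≤ (‖(c : ℂ) * w.z + d‖ - ‖(c : ℂ)‖ * ‖w.z‖) ^ 2 := sq_nonneg _
    nlinarith

/-! ### the height -/

theorem exists_max (w : H3) : ∃ g₀ : SL(2, Oe), ∀ g : SL(2, Oe), (g • w).y ≤ (g₀ • w).y := by
  have hw := w.pos
  let s : Set (Oe × Oe) := {r | (∃ g : SL(2, Oe), g 1 0 = r.1 ∧ g 1 1 = r.2) ∧ w.den r.1 r.2 ≤ 1}
  have hs : s.Finite := (finite_rows w 1).subset fun r hr => hr.2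
  have h1 : ((0 : Oe), (1 : Oe)) ∈ s := by
    refine ⟨⟨1, rfl, rfl⟩, ?_⟩
    simp [H3.den]
  obtain ⟨r, ⟨⟨g₀, hg0, hg1⟩, hr⟩, hmin⟩ := exists_min_image s (fun r => w.den r.1 r.2) hs ⟨_, h1⟩
  refine ⟨g₀, fun g => ?_⟩
  rw [sl_y, sl_y, hg0, hg1]
  have hp : 0 < w.den r.1 r.2 := by
    rw [← hg0, ← hg1]; exact w.den_pos (sl_row_ne g₀ 1)
  refine div_le_div_of_nonneg_left hw.le hp ?_
  by_cases h : w.den (g 1 0) (g 1 1) ≤ 1
  · exact hmin (g 1 0, g 1 1) ⟨⟨g, rfl, rfl⟩, h⟩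
  · exact hr.trans (le_of_not_ge h)

/-- the height: the largest `y`-coordinate of a translate -/
noncomputable def ht (w : H3) : ℝ := ⨆ g : SL(2, Oe), (g • w).y

theorem bddAbove_y (w : H3) : BddAbove (range fun g : SL(2, Oe) => (g • w).y) := by
  obtain ⟨g₀, h⟩ := exists_max w
  exact ⟨_, by rintro _ ⟨g, rfl⟩; exact h g⟩

theorem y_le_ht (g : SL(2, Oe)) (w : H3) : (g • w).y ≤ ht w := le_ciSup (bddAbove_y w) g

theorem y_le_ht' (w : H3) : w.y ≤ ht w := by simpa using y_le_ht 1 w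

theorem ht_pos (w : H3) : 0 < ht w := w.pos.trans_le (y_le_ht' w)

theorem exists_ht (w : H3) : ∃ g : SL(2, Oe), (g • w).y = ht w := by
  obtain ⟨g₀, h⟩ := exists_max w
  exact ⟨g₀, le_antisymm (y_le_ht g₀ w) (ciSup_le h)⟩

theorem ht_smul (g : SL(2, Oe)) (w : H3) : ht (g • w) = ht w := by
  have h : ∀ (g : SL(2, Oe)) (w : H3), ht (g • w) ≤ ht w := by
    intro g w
    refine ciSup_le fun h => ?_
    rw [← mul_smul]
    exact y_le_ht _ w
  refine le_antisymm (h g w) ?_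
  have := h g⁻¹ (g • w)
  rwa [inv_smul_smul] at this

theorem measurable_ht : Measurable ht := by
  refine Measurable.iSup fun g => ?_
  exact H3.continuous_y.measurable.comp (H3.measurable_smul_H3 (toGL g))

/-! ### reduction -/

/-- translation -/
def nO (b : Oe) : SL(2, Oe) := ⟨!![1, b; 0, 1], by simp [Matrix.det_fin_two]⟩

/-- inversion -/
def sO : SL(2, Oe) := ⟨!![0, -1; 1, 0], by simp [Matrix.det_fin_two]⟩

theorem nO_smul_y (b : Oe) (w : H3) : (nO b • w).y = w.y := by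
  rw [sl_y]
  simp [nO, H3.den]

theorem nO_smul_z (b : Oe) (w : H3) : (nO b • w).z = w.z + b := by
  rw [smul_def, H3.smul_z, toGL_apply, toGL_apply, toGL_apply, toGL_apply]
  simp [nO, H3.den, H3.num]

theorem sO_smul_y (w : H3) : (sO • w).y = w.y / (‖w.z‖ ^ 2 + w.y ^ 2) := by
  rw [sl_y]
  simp [sO, H3.den]

theorem exists_translate_Oe (z : ℂ) : ∃ b : Oe, ‖z + b‖ ^ 2 ≤ 3 / 4 := by
  have h3 : (0 : ℝ) < √3 := Real.sqrt_pos.mpr (by norm_num)
  have h33 : √3 * √3 = 3 := Real.mul_self_sqrt (by norm_num)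
  -- real coordinates
  set y : ℝ := 2 / √3 * z.im with hy
  set x : ℝ := z.re + y / 2 with hx
  have hz : z = x + y * om := by
    apply Complex.ext
    · simp only [om, Complex.add_re, Complex.mul_re, Complex.ofReal_re, Complex.ofReal_im, hx]
      ring
    · simp only [om, Complex.add_im, Complex.mul_im, Complex.ofReal_re, Complex.ofReal_im, hx, hy]
      field_simp
      ring
  refine ⟨⟨(-round x : ℤ) + (-round y : ℤ) * om, _, _, rfl⟩, ?_⟩
  have h1 : z + (((-round x : ℤ) : ℂ) + ((-round y : ℤ) : ℂ) * om) =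
      ((x - round x : ℝ) : ℂ) + ((y - round y : ℝ) : ℂ) * om := by
    rw [hz]; push_cast; ring
  show ‖z + (((-round x : ℤ) : ℂ) + ((-round y : ℤ) : ℂ) * om)‖ ^ 2 ≤ 3 / 4
  rw [h1]
  have hx1 := abs_le.mp (abs_sub_round x)
  have hy1 := abs_le.mp (abs_sub_round y)
  set a := x - round x
  set b := y - round y
  have h2 : ‖(a : ℂ) + (b : ℂ) * om‖ ^ 2 = a ^ 2 - a * b + b ^ 2 := by
    rw [Complex.sq_norm, Complex.normSq_apply]
    simp only [om, Complex.add_re, Complex.add_im, Complex.mul_re, Complex.mul_im,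
      Complex.ofReal_re, Complex.ofReal_im]
    nlinarith
  rw [h2]
  nlinarith [mul_nonneg (sub_nonneg.mpr hx1.1) (sub_nonneg.mpr hy1.1),
    mul_nonneg (sub_nonneg.mpr hx1.1) (sub_nonneg.mpr hy1.2),
    mul_nonneg (sub_nonneg.mpr hx1.2) (sub_nonneg.mpr hy1.1),
    mul_nonneg (sub_nonneg.mpr hx1.2) (sub_nonneg.mpr hy1.2),
    mul_nonneg (sub_nonneg.mpr hx1.1) (sub_nonneg.mpr hx1.2),
    mul_nonneg (sub_nonneg.mpr hy1.1) (sub_nonneg.mpr hy1.2)]

/-- the Siegel set -/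
def Sieg : Set H3 := {w | ‖w.z‖ ≤ 1 ∧ 1 / 2 ≤ w.y}

theorem Sieg_eq_SS : Sieg = SS := rfl

theorem measurableSet_Sieg : MeasurableSet Sieg := by
  have h1 : IsClosed {w : H3 | ‖w.z‖ ≤ 1} := isClosed_le H3.continuous_z.norm continuous_const
  have h2 : IsClosed {w : H3 | 1 / 2 ≤ w.y} := isClosed_le continuous_const H3.continuous_y
  exact (h1.inter h2).measurableSet

/-- **Reduction.** -/
theorem exists_smul_mem_Sieg (w : H3) : ∃ g : SL(2, Oe), g • w ∈ Sieg ∧ (g • w).y = ht w := by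
  obtain ⟨g₀, h0⟩ := exists_ht w
  obtain ⟨b, hb⟩ := exists_translate_Oe (g₀ • w).z
  have h1 : (nO b • g₀ • w).y = ht w := by rw [nO_smul_y, h0]
  have h2 : ‖(nO b • g₀ • w).z‖ ^ 2 ≤ 3 / 4 := by rw [nO_smul_z]; exact hb
  have h3 : (sO • nO b • g₀ • w).y ≤ ht w := by
    have := y_le_ht (sO * (nO b * g₀)) w
    rwa [mul_smul, mul_smul] at this
  refine ⟨nO b * g₀, ?_, by rw [mul_smul, h1]⟩
  rw [mul_smul]
  set w' := nO b • g₀ • w
  have hp := w'.pos
  rw [sO_smul_y, ← h1] at h3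
  have h4 : 1 ≤ ‖w'.z‖ ^ 2 + w'.y ^ 2 := by
    rw [div_le_iff₀ (by positivity)] at h3
    by_contra hlt
    push Not at hlt
    nlinarith
  refine ⟨?_, ?_⟩
  · nlinarith [norm_nonneg w'.z]
  · show 1 / 2 ≤ w'.y
    nlinarith

theorem half_le_ht (w : H3) : 1 / 2 ≤ ht w := by
  obtain ⟨g, h1, h2⟩ := exists_smul_mem_Sieg w
  rw [← h2]; exact h1.2

theorem one_le_norm_Oe {c : Oe} (h : (c : ℂ) ≠ 0) : 1 ≤ ‖(c : ℂ)‖ ^ 2 := by
  obtain ⟨c, x, y, rfl⟩ := c
  rw [Complex.sq_norm, normSq_Oe]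
  have h1 : x ^ 2 - x * y + y ^ 2 ≠ 0 := by
    intro h0
    apply h
    have : normSq ((x : ℂ) + y * om) = 0 := by rw [normSq_Oe, h0]; simp
    exact Complex.normSq_eq_zero.mp this
  have h2 : 0 ≤ x ^ 2 - x * y + y ^ 2 := by nlinarith [sq_nonneg (x - y), sq_nonneg (x + y)]
  have h3 : 1 ≤ x ^ 2 - x * y + y ^ 2 := by omega
  exact_mod_cast h3

/-- On the Siegel set the height is comparable to `y`. -/
theorem ht_le_of_mem {w : H3} (hw : w ∈ Sieg) : ht w ≤ 4 * w.y := by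
  have hp := w.pos
  have h2 : 1 / 2 ≤ w.y := hw.2
  refine ciSup_le fun g => ?_
  rw [sl_y]
  by_cases hc : (g 1 0 : ℂ) = 0
  · have hd := (sl_row_ne g 1).resolve_left (fun h => h hc)
    have h1 := one_le_norm_Oe hd
    rw [H3.den, hc]
    simp only [zero_mul, zero_add, norm_zero, ne_eq, OfNat.ofNat_ne_zero, not_false_eq_true,
      zero_pow, add_zero]
    rw [div_le_iff₀ (by positivity)]
    nlinarith
  · have h1 := one_le_norm_Oe hc
    have h3 : w.y ^ 2 ≤ w.den (g 1 0) (g 1 1) := by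
      rw [H3.den]
      nlinarith [sq_nonneg ‖(g 1 0 : ℂ) * w.z + g 1 1‖, sq_nonneg w.y,
        mul_nonneg (sub_nonneg.mpr h1) (sq_nonneg w.y)]
    have h4 : 0 < w.den (g 1 0) (g 1 1) := lt_of_lt_of_le (by positivity) h3
    rw [div_le_iff₀ h4]
    have h5 : 1 ≤ 4 * w.y ^ 2 := by nlinarith
    have h6 : 4 * w.y * w.y ^ 2 ≤ 4 * w.y * w.den (g 1 0) (g 1 1) :=
      mul_le_mul_of_nonneg_left h3 (by positivity)
    nlinarith

/-! ### proper discontinuity -/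

theorem finite_smul_mem (w : H3) (R : ℝ) :
    {g : SL(2, Oe) | ‖(g • w).z‖ ≤ R ∧ 1 ≤ R * (g • w).y}.Finite := by
  have hw := w.pos
  have hht := ht_pos w
  have hinj : Function.Injective
      (fun g : SL(2, Oe) => (((g 0 0, g 0 1), (g 1 0, g 1 1)) : (Oe × Oe) × (Oe × Oe))) := by
    intro g h hgh
    simp only [Prod.mk.injEq] at hgh
    ext i j
    fin_cases i <;> fin_cases j
    · exact congrArg _ hgh.1.1
    · exact congrArg _ hgh.1.2
    · exact congrArg _ hgh.2.1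
    · exact congrArg _ hgh.2.2
  refine Set.Finite.of_finite_image ?_ hinj.injOn
  refine ((finite_rows w ((R ^ 2 + ht w ^ 2) * R * w.y)).prod (finite_rows w (R * w.y))).subset ?_
  rintro _ ⟨g, ⟨hz, hy⟩, rfl⟩
  have hgp := (g • w).pos
  have hR : 0 < R := by
    by_contra hneg
    push Not at hneg
    nlinarith
  have hyi : 1 / (g • w).y ≤ R := by rw [div_le_iff₀ hgp]; exact hy
  refine ⟨?_, ?_⟩
  · have h1 := sl_q g w 1 0
    simp only [one_mul, zero_mul, add_zero] at h1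
    have h2 : (g • w).q 1 0 = (‖(g • w).z‖ ^ 2 + (g • w).y ^ 2) * (1 / (g • w).y) := by
      simp [H3.q, H3.den]
      ring
    have h3 : (g • w).q 1 0 ≤ (R ^ 2 + ht w ^ 2) * R := by
      rw [h2]
      refine mul_le_mul ?_ hyi (by positivity) (by positivity)
      exact add_le_add (pow_le_pow_left₀ (norm_nonneg _) hz 2)
        (pow_le_pow_left₀ hgp.le (y_le_ht g w) 2)
    show w.den (g 0 0) (g 0 1) ≤ _
    rw [h1, H3.q, div_le_iff₀ hw] at h3
    exact h3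
  · have h1 := sl_q g w 0 1
    simp only [one_mul, zero_mul, zero_add] at h1
    have h2 : (g • w).q 0 1 = 1 / (g • w).y := H3.q_zero_one _
    show w.den (g 1 0) (g 1 1) ≤ _
    rw [h2] at h1
    rw [h1, H3.q, div_le_iff₀ hw] at hyi
    exact hyi

theorem finite_mem_Sieg (w : H3) : {g : SL(2, Oe) | g • w ∈ Sieg}.Finite := by
  refine (finite_smul_mem w 2).subset ?_
  rintro g ⟨h1, h2⟩
  exact ⟨by linarith, by linarith⟩

/-! ### finite index -/

theorem exists_coset_reps {N : ℕ} (hN : N ≠ 0) : ∃ S : Finset SL(2, Oe),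
    ∀ g : SL(2, Oe), ∃ γ ∈ Gam N, ∃ s ∈ S, g = γ * s := by
  classical
  have : NeZero N := ⟨hN⟩
  have hch : ∀ z : Oe, ∃ p : ℤ × ℤ, z = (⟨p.1 + p.2 * om, p.1, p.2, rfl⟩ : Oe) := by
    rintro ⟨z, x, y, rfl⟩
    exact ⟨(x, y), rfl⟩
  choose r hr using hch
  let f : SL(2, Oe) → (Fin 2 → Fin 2 → ZMod N × ZMod N) := fun g i j =>
    (((r (g i j)).1 : ZMod N), ((r (g i j)).2 : ZMod N))
  have hf : ∀ g h : SL(2, Oe), f g = f h → g * h⁻¹ ∈ Gam N := by
    intro g h hgh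
    have h1 : ∀ i j, ((N : ℕ) : Oe) ∣ g i j - h i j := by
      intro i j
      have h2 := congrFun (congrFun hgh i) j
      simp only [f, Prod.mk.injEq] at h2
      obtain ⟨a, ha⟩ := (ZMod.intCast_eq_intCast_iff_dvd_sub _ _ _).mp h2.1.symm
      obtain ⟨b, hb⟩ := (ZMod.intCast_eq_intCast_iff_dvd_sub _ _ _).mp h2.2.symm
      refine ⟨⟨a + b * om, a, b, rfl⟩, ?_⟩
      rw [hr (g i j), hr (h i j)]
      apply Subtype.ext
      show ((r (g i j)).1 : ℂ) + (r (g i j)).2 * om - ((r (h i j)).1 + (r (h i j)).2 * om) =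
        ((N : ℕ) : ℂ) * (a + b * om)
      have ha' : ((r (g i j)).1 : ℂ) - (r (h i j)).1 = N * a := by exact_mod_cast ha
      have hb' : ((r (g i j)).2 : ℂ) - (r (h i j)).2 = N * b := by exact_mod_cast hb
      linear_combination ha' + om * hb'
    intro i j
    have e1 : ((g * h⁻¹ : SL(2, Oe)) : Matrix (Fin 2) (Fin 2) Oe) i j -
        (1 : Matrix (Fin 2) (Fin 2) Oe) i j =
        ∑ k, (g i k - h i k) * (h⁻¹ : SL(2, Oe)) k j := by
      have e2 : (1 : Matrix (Fin 2) (Fin 2) Oe) =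
          (h : Matrix (Fin 2) (Fin 2) Oe) * ((h⁻¹ : SL(2, Oe)) : Matrix (Fin 2) (Fin 2) Oe) := by
        rw [← Matrix.SpecialLinearGroup.coe_mul, mul_inv_cancel, Matrix.SpecialLinearGroup.coe_one]
      rw [e2, Matrix.SpecialLinearGroup.coe_mul, Matrix.mul_apply, Matrix.mul_apply,
        ← Finset.sum_sub_distrib]
      exact Finset.sum_congr rfl fun k _ => (sub_mul _ _ _).symm
    rw [e1]
    exact Finset.dvd_sum fun k _ => (h1 i k).mul_right _
  have hfin : (range f).Finite := toFinite _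
  have hch2 : ∀ v : range f, ∃ g, f g = v := fun v => v.2
  choose c hc using hch2
  have := hfin.fintype
  refine ⟨Finset.univ.image c, fun g => ⟨g * (c ⟨f g, mem_range_self g⟩)⁻¹,
    hf _ _ (hc ⟨f g, mem_range_self g⟩).symm,
    c ⟨f g, mem_range_self g⟩, Finset.mem_image_of_mem _ (Finset.mem_univ _), ?_⟩⟩
  rw [inv_mul_cancel_right]

/-- **Covering.** -/
theorem exists_cover {N : ℕ} (hN : N ≠ 0) : ∃ S : Finset SL(2, Oe),
    ∀ w : H3, ∃ γ ∈ Gam N, ∃ s ∈ S, ∃ w' ∈ Sieg, w = γ • s • w' := by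
  obtain ⟨S, hS⟩ := exists_coset_reps hN
  refine ⟨S, fun w => ?_⟩
  obtain ⟨g, hg, -⟩ := exists_smul_mem_Sieg w
  obtain ⟨γ, hγ, s, hs, h⟩ := hS g⁻¹
  refine ⟨γ, hγ, s, hs, g • w, hg, ?_⟩
  rw [← mul_smul, ← h, inv_smul_smul]

/-! ### weights -/

/-- **Existence of weights** from a measurable set which meets every orbit in a finite nonempty
set. -/
theorem exists_wt_of_set {G Y : Type*} [Group G] [Countable G] [MulAction G Y] [MeasurableSpace Y]
    [MeasurableConstSMul G Y] {D : Set Y} (hD : MeasurableSet D)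
    (h1 : ∀ y, ∃ g : G, g • y ∈ D) (h2 : ∀ y, {g : G | g • y ∈ D}.Finite) :
    ∃ w : Y → ℝ≥0, Measurable w ∧ (∀ y, w y ≤ 1) ∧ (∀ y, y ∉ D → w y = 0) ∧
      ∀ y, ∑' g : G, (w (g • y) : ℝ≥0∞) = 1 := by
  classical
  let n : Y → ℝ≥0∞ := fun y => ∑' g : G, D.indicator (fun _ => (1 : ℝ≥0∞)) (g • y)
  have hn : ∀ y, n y = (h2 y).toFinset.card := by
    intro y
    have e1 : n y = ∑ g ∈ (h2 y).toFinset, (1 : ℝ≥0∞) := by
      show ∑' g : G, D.indicator (fun _ => (1 : ℝ≥0∞)) (g • y) = _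
      rw [tsum_eq_sum (s := (h2 y).toFinset)]
      · refine Finset.sum_congr rfl fun g hg => ?_
        rw [Set.indicator_of_mem]
        exact (h2 y).mem_toFinset.mp hg
      · intro g hg
        rw [Set.indicator_of_notMem]
        intro h
        exact hg ((h2 y).mem_toFinset.mpr h)
    rw [e1]; simp
  have hn0 : ∀ y, 1 ≤ n y := by
    intro y
    rw [hn]
    obtain ⟨g, hg⟩ := h1 y
    have : 0 < (h2 y).toFinset.card := Finset.card_pos.mpr ⟨g, (h2 y).mem_toFinset.mpr hg⟩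
    exact_mod_cast this
  have hnt : ∀ y, n y ≠ ∞ := fun y => by rw [hn]; exact ENNReal.natCast_ne_top _
  have hni : ∀ (g : G) y, n (g • y) = n y := by
    intro g y
    show ∑' h : G, D.indicator (fun _ => (1 : ℝ≥0∞)) (h • g • y) =
      ∑' h : G, D.indicator (fun _ => (1 : ℝ≥0∞)) (h • y)
    rw [← (Equiv.mulRight g).tsum_eq (fun h : G => D.indicator (fun _ => (1 : ℝ≥0∞)) (h • y))]
    refine tsum_congr fun h => ?_
    simp [mul_smul]
  have hnm : Measurable n := by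
    refine Measurable.tsum fun g => ?_
    exact (measurable_const.indicator hD).comp (measurable_const_smul g)
  let W : Y → ℝ≥0∞ := fun y => D.indicator (fun _ => (1 : ℝ≥0∞)) y / n y
  have hWm : Measurable W := (measurable_const.indicator hD).div hnm
  have hW1 : ∀ y, W y ≤ 1 := by
    intro y
    refine ENNReal.div_le_of_le_mul ?_
    rw [one_mul]
    refine le_trans ?_ (hn0 y)
    by_cases h : y ∈ D
    · rw [Set.indicator_of_mem h]
    · rw [Set.indicator_of_notMem h]; exact zero_le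
  have hWt : ∀ y, W y ≠ ∞ := fun y => ((hW1 y).trans_lt ENNReal.one_lt_top).ne
  refine ⟨fun y => (W y).toNNReal, hWm.ennreal_toNNReal, fun y => ?_, fun y hy => ?_, fun y => ?_⟩
  · rw [← ENNReal.coe_le_coe, ENNReal.coe_toNNReal (hWt y)]
    exact hW1 y
  · show (D.indicator (fun _ => (1 : ℝ≥0∞)) y / n y).toNNReal = 0
    rw [Set.indicator_of_notMem hy]
    simp
  · simp_rw [ENNReal.coe_toNNReal (hWt _)]
    show ∑' g : G, D.indicator (fun _ => (1 : ℝ≥0∞)) (g • y) / n (g • y) = 1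
    simp_rw [hni, div_eq_mul_inv]
    rw [ENNReal.tsum_mul_right]
    exact ENNReal.mul_inv_cancel (zero_lt_one.trans_le (hn0 y)).ne' (hnt y)

/-- **Weights for `Gam N`.** -/
theorem exists_wt_cover {N : ℕ} (hN : N ≠ 0) : ∃ (wt : H3 → ℝ≥0) (S : Finset SL(2, Oe)),
    Measurable wt ∧ (∀ w, wt w ≤ 1) ∧
    (∀ w, ∑' g : Gam N, (wt (g • w) : ℝ≥0∞) = 1) ∧
    (∀ w, wt w ≠ 0 → ∃ s ∈ S, ∃ w' ∈ Sieg, w = s • w') ∧
    (∀ w : H3, ∃ γ ∈ Gam N, ∃ s ∈ S, ∃ w' ∈ Sieg, w = γ • s • w') := by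
  obtain ⟨S, hS⟩ := exists_cover hN
  let D : Set H3 := ⋃ s ∈ S, (fun w => s⁻¹ • w) ⁻¹' Sieg
  have hD : MeasurableSet D := by
    refine Finset.measurableSet_biUnion S fun s _ => ?_
    exact (measurable_const_smul s⁻¹) measurableSet_Sieg
  have hD1 : ∀ w : H3, ∃ g : Gam N, g • w ∈ D := by
    intro w
    obtain ⟨γ, hγ, s, hs, w', hw', h⟩ := hS w
    refine ⟨⟨γ, hγ⟩⁻¹, mem_iUnion₂.mpr ⟨s, hs, ?_⟩⟩
    show s⁻¹ • ((γ : SL(2, Oe))⁻¹ • w) ∈ Sieg
    rw [h, inv_smul_smul, inv_smul_smul]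
    exact hw'
  have hD2 : ∀ w : H3, {g : Gam N | g • w ∈ D}.Finite := by
    intro w
    have h2 : {g : Gam N | g • w ∈ D} = ⋃ s ∈ S, {g : Gam N | s⁻¹ • g • w ∈ Sieg} := by
      ext g
      simp only [mem_ofPred_eq, D, mem_iUnion₂]
      rfl
    rw [h2]
    refine Finset.finite_toSet S |>.biUnion fun s _ => ?_
    refine Set.Finite.preimage_embedding
      (⟨fun g : Gam N => s⁻¹ * (g : SL(2, Oe)), fun g h hgh => Subtype.ext
        (mul_left_cancel hgh)⟩ : Gam N ↪ SL(2, Oe)) (s := {g : SL(2, Oe) | g • w ∈ Sieg})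
        (finite_mem_Sieg w) |>.subset ?_
    intro g hg
    show (s⁻¹ * (g : SL(2, Oe))) • w ∈ Sieg
    rw [mul_smul]
    exact hg
  obtain ⟨wt, hm, h1, h0, hs⟩ := exists_wt_of_set (G := Gam N) hD hD1 hD2
  refine ⟨wt, S, hm, h1, hs, fun w hw => ?_, hS⟩
  have h2 : w ∈ D := by
    by_contra hn
    exact hw (h0 w hn)
  obtain ⟨s, hs, h3⟩ := mem_iUnion₂.mp h2
  exact ⟨s, hs, s⁻¹ • w, h3, (smul_inv_smul _ _).symm⟩

theorem exists_isWt {N : ℕ} (hN : N ≠ 0) : ∃ wt : H3 → ℝ≥0,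
    FA.IsWt (Gam N) (volume : Measure H3) wt := by
  obtain ⟨wt, S, hm, -, hs, -⟩ := exists_wt_cover hN
  exact ⟨wt, hm, Filter.Eventually.of_forall hs⟩

/-! ### integrals over the quotient -/

/-- **Integrals over the quotient are bounded by integrals over the Siegel set.** -/
theorem exists_lintegral_le {N : ℕ} (hN : N ≠ 0) : ∃ S : Finset SL(2, Oe),
    ∀ wt : H3 → ℝ≥0, FA.IsWt (Gam N) (volume : Measure H3) wt →
    ∀ F : H3 → ℝ≥0∞, AEMeasurable F volume → (∀ g ∈ Gam N, ∀ w, F (g • w) = F w) →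
    ∫⁻ w, F w ∂(FA.wtM volume wt) ≤ ∑ s ∈ S, ∫⁻ w in Sieg, F (s • w) := by
  obtain ⟨wt', S, hm, h1, hs, h0, -⟩ := exists_wt_cover hN
  refine ⟨S, fun wt hwt F hF hi => ?_⟩
  have hwt' : FA.IsWt (Gam N) (volume : Measure H3) wt' := ⟨hm, Filter.Eventually.of_forall hs⟩
  have h3 : FA.AEInv (Gam N) (volume : Measure H3) F := fun g =>
    Filter.Eventually.of_forall fun w => hi g g.2 w
  rw [hwt.lintegral_eq hwt' hF h3, FA.lintegral_wtM hm hF]
  calc ∫⁻ w, wt' w * F w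
      ≤ ∫⁻ w, ∑ s ∈ S, Sieg.indicator (fun w => F (s • w)) (s⁻¹ • w) := by
        refine lintegral_mono fun w => ?_
        by_cases hw : wt' w = 0
        · simp [hw]
        · obtain ⟨s, hs, w', hw', rfl⟩ := h0 w hw
          have e1 : (wt' (s • w') : ℝ≥0∞) * F (s • w') ≤ F (s • w') := by
            refine mul_le_of_le_one_left (zero_le) ?_
            exact_mod_cast h1 _
          refine e1.trans ?_
          refine le_trans (le_of_eq ?_)
            (Finset.single_le_sum (f := fun t : SL(2, Oe) =>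
              Sieg.indicator (fun w => F (t • w)) (t⁻¹ • s • w')) (fun _ _ => zero_le) hs)
          simp only [inv_smul_smul]
          rw [Set.indicator_of_mem hw']
    _ ≤ ∑ s ∈ S, ∫⁻ w in Sieg, F (s • w) := by
        have hm2 : ∀ s : SL(2, Oe), AEMeasurable (Sieg.indicator fun w => F (s • w)) volume :=
          fun s => (FA.aemeasurable_smul hF s).indicator measurableSet_Sieg
        rw [lintegral_finsetSum' S fun s _ => FA.aemeasurable_smul (hm2 s) s⁻¹]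
        refine Finset.sum_le_sum fun s _ => ?_
        rw [FA.lintegral_smul' s⁻¹ (Sieg.indicator fun w => F (s • w)),
          lintegral_indicator measurableSet_Sieg]

/-- `∫_{Sieg} y^a < ∞` for `a < 2` -/
theorem lintegral_Sieg_lt_top {a : ℝ} (ha : a < 2) :
    ∫⁻ w in Sieg, ENNReal.ofReal (w.y ^ a) < ∞ := by
  have hm : Measurable fun w : H3 => ENNReal.ofReal (w.y ^ a) :=
    (H3.continuous_y.measurable.pow_const a).ennreal_ofReal
  rw [← lintegral_indicator measurableSet_Sieg,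
    H3.lintegral_horo (hm.indicator measurableSet_Sieg)]
  have h1 : ∀ y ∈ Ioi (0 : ℝ), ENNReal.ofReal ((y ^ 3)⁻¹) *
      ∫⁻ z : ℂ, Sieg.indicator (fun w : H3 => ENNReal.ofReal (w.y ^ a)) (H3.ofCR (z, y)) ≤
      (Ici (1 / 2 : ℝ)).indicator (fun y => ENNReal.ofReal (y ^ (a - 3)) *
        volume (Metric.closedBall (0 : ℂ) 1)) y := by
    intro y hy
    have hy' : (0 : ℝ) < y := hy
    by_cases h : y ∈ Ici (1 / 2 : ℝ)
    · rw [Set.indicator_of_mem h]
      have e1 : ∀ z : ℂ, Sieg.indicator (fun w : H3 => ENNReal.ofReal (w.y ^ a)) (H3.ofCR (z, y)) ≤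
          (Metric.closedBall (0 : ℂ) 1).indicator (fun _ => ENNReal.ofReal (y ^ a)) z := by
        intro z
        rw [H3.ofCR_mk_pos z hy']
        by_cases hz : (⟨z, y, hy'⟩ : H3) ∈ Sieg
        · rw [Set.indicator_of_mem hz, Set.indicator_of_mem]
          rw [mem_closedBall_zero_iff]
          exact hz.1
        · rw [Set.indicator_of_notMem hz]; exact zero_le
      have e2 : ∫⁻ z : ℂ, Sieg.indicator (fun w : H3 => ENNReal.ofReal (w.y ^ a))
          (H3.ofCR (z, y)) ≤ ENNReal.ofReal (y ^ a) * volume (Metric.closedBall (0 : ℂ) 1) := by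
        refine (lintegral_mono e1).trans (le_of_eq ?_)
        rw [lintegral_indicator Metric.isClosed_closedBall.measurableSet, setLIntegral_const]
      refine (mul_le_mul_right e2 _).trans (le_of_eq ?_)
      rw [← mul_assoc, ← ENNReal.ofReal_mul (by positivity)]
      congr 3
      rw [Real.rpow_sub hy', Real.rpow_ofNat]
      field_simp
    · rw [Set.indicator_of_notMem h]
      have e1 : ∀ z : ℂ, Sieg.indicator (fun w : H3 => ENNReal.ofReal (w.y ^ a))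
          (H3.ofCR (z, y)) = 0 := by
        intro z
        rw [H3.ofCR_mk_pos z hy', Set.indicator_of_notMem]
        rintro ⟨-, h2⟩
        exact h h2
      simp [e1]
  refine lt_of_le_of_lt (setLIntegral_mono' measurableSet_Ioi h1) ?_
  refine lt_of_le_of_lt (setLIntegral_le_lintegral _ _) ?_
  rw [lintegral_indicator measurableSet_Ici, lintegral_mul_const' _ _
    (isCompact_closedBall _ _).measure_lt_top.ne]
  refine ENNReal.mul_lt_top ?_ (isCompact_closedBall _ _).measure_lt_top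
  have h2 : IntegrableOn (fun y : ℝ => y ^ (a - 3)) (Ici (1 / 2)) := by
    rw [integrableOn_Ici_iff_integrableOn_Ioi]
    exact integrableOn_Ioi_rpow_of_lt (by linarith) (by norm_num)
  have h3 := h2.2
  rw [hasFiniteIntegral_iff_norm] at h3
  refine lt_of_le_of_lt (setLIntegral_mono' measurableSet_Ici fun y hy => ?_) h3
  exact ENNReal.ofReal_le_ofReal (le_abs_self _)

/-- powers of the height are integrable over the quotient -/
theorem lintegral_ht_lt_top {N : ℕ} (hN : N ≠ 0) {wt : H3 → ℝ≥0}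
    (hwt : FA.IsWt (Gam N) (volume : Measure H3) wt) {a : ℝ} (ha0 : 0 ≤ a) (ha : a < 2) :
    ∫⁻ w, ENNReal.ofReal (ht w ^ a) ∂(FA.wtM volume wt) < ∞ := by
  obtain ⟨S, hS⟩ := exists_lintegral_le hN
  refine lt_of_le_of_lt (hS wt hwt _ (measurable_ht.pow_const a).ennreal_ofReal.aemeasurable
    (fun g _ w => by rw [ht_smul])) ?_
  refine ENNReal.sum_lt_top.mpr fun s _ => ?_
  simp_rw [ht_smul]
  refine lt_of_le_of_lt (setLIntegral_mono' (g := fun w : H3 => ENNReal.ofReal (4 ^ a) *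
    ENNReal.ofReal (w.y ^ a)) measurableSet_Sieg fun w hw => ?_) ?_
  · rw [← ENNReal.ofReal_mul (by positivity)]
    refine ENNReal.ofReal_le_ofReal ?_
    have hp := w.pos
    rw [← Real.mul_rpow (by norm_num) hp.le]
    exact Real.rpow_le_rpow (ht_pos w).le (ht_le_of_mem hw) ha0
  · rw [lintegral_const_mul' _ _ ENNReal.ofReal_ne_top]
    exact ENNReal.mul_lt_top ENNReal.ofReal_lt_top (lintegral_Sieg_lt_top ha)

theorem isFiniteMeasure_wtM {N : ℕ} (hN : N ≠ 0) {wt : H3 → ℝ≥0}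
    (hwt : FA.IsWt (Gam N) (volume : Measure H3) wt) : IsFiniteMeasure (FA.wtM volume wt) := by
  refine ⟨?_⟩
  have h := lintegral_ht_lt_top hN hwt le_rfl (by norm_num : (0 : ℝ) < 2)
  simpa using h

/-- **Integrability criterion.** -/
theorem integrable_of_le_ht {N : ℕ} (hN : N ≠ 0) {wt : H3 → ℝ≥0}
    (hwt : FA.IsWt (Gam N) (volume : Measure H3) wt) {a : ℝ} (ha0 : 0 ≤ a) (ha : a < 2)
    {E : Type*} [NormedAddCommGroup E] {F : H3 → E} (hF : AEStronglyMeasurable F volume)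
    {C : ℝ} (hb : ∀ w, ‖F w‖ ≤ C * ht w ^ a) : Integrable F (FA.wtM volume wt) := by
  refine ⟨hF.mono_ac FA.wtM_ac, ?_⟩
  rw [hasFiniteIntegral_iff_norm]
  have hC : 0 ≤ C := by
    have h1 := (norm_nonneg _).trans (hb H3.j)
    have h2 : 0 < ht H3.j ^ a := Real.rpow_pos_of_pos (ht_pos _) a
    by_contra hneg
    push Not at hneg
    nlinarith
  refine lt_of_le_of_lt (lintegral_mono fun w => ENNReal.ofReal_le_ofReal (hb w)) ?_
  simp_rw [ENNReal.ofReal_mul hC]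
  rw [lintegral_const_mul' _ _ ENNReal.ofReal_ne_top]
  exact ENNReal.mul_lt_top ENNReal.ofReal_lt_top (lintegral_ht_lt_top hN hwt ha0 ha)

/-- From bounds on the Siegel set to bounds by powers of the height. -/
theorem le_ht_of_Sieg {E : Type*} [Norm E] {F : H3 → E} {C a : ℝ}
    (h : ∀ g : SL(2, Oe), ∀ w ∈ Sieg, ‖F (g • w)‖ ≤ C * w.y ^ a) (w : H3) :
    ‖F w‖ ≤ C * ht w ^ a := by
  obtain ⟨g, h1, h2⟩ := exists_smul_mem_Sieg w
  have := h g⁻¹ _ h1
  rwa [inv_smul_smul, h2] at this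

/-- The form `φ` decays in terms of the height. -/
theorem Input.exists_bound {N : ℕ} {φ : H3 → ℂ} (h : Input N φ) :
    ∃ C : ℝ, 0 ≤ C ∧ ∀ w, ‖φ w‖ ≤ C * (ht w ^ 2)⁻¹ := by
  obtain ⟨C, hC⟩ := h.decay
  have h1 : ∀ w, ‖φ w‖ ≤ C * (ht w ^ 2)⁻¹ := by
    intro w
    obtain ⟨g, h1, h2⟩ := exists_smul_mem_Sieg w
    have := hC g⁻¹ _ h1.2 h1.1
    rwa [inv_smul_smul, h2, div_eq_mul_inv] at this
  refine ⟨C, ?_, h1⟩
  have h2 := (norm_nonneg _).trans (h1 H3.j)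
  have h3 : 0 < (ht H3.j ^ 2)⁻¹ := inv_pos.mpr (pow_pos (ht_pos _) 2)
  by_contra hneg
  push Not at hneg
  nlinarith

theorem Input.exists_bound_const {N : ℕ} {φ : H3 → ℂ} (h : Input N φ) :
    ∃ C : ℝ, 0 ≤ C ∧ ∀ w, ‖φ w‖ ≤ C := by
  obtain ⟨C, hC, h1⟩ := h.exists_bound
  refine ⟨C * (1 / 2 ^ 2)⁻¹, by positivity, fun w => (h1 w).trans ?_⟩
  refine mul_le_mul_of_nonneg_left ?_ hC
  refine inv_anti₀ (by norm_num) ?_
  have := pow_le_pow_left₀ (by norm_num : (0 : ℝ) ≤ 1 / 2) (half_le_ht w) 2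
  calc (1 : ℝ) / 2 ^ 2 = (1 / 2) ^ 2 := by norm_num
    _ ≤ _ := this

end Fermat.Agent.LT.Th
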