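import Fermat.Agent.LT.Th.Def

set_option autoImplicit false

/-!
# Translates of automorphic functions by rational matrices

`Cm m g`: `m g` and `m g⁻¹` are integral.  For `φ` of level `N`, the function `w ↦ φ (g • w)` has
level `N m²`.
-/

namespace Fermat.Agent.LT.Th

open Matrix ComplexConjugate MeasureTheory Complex
open scoped Real MatrixGroups

/-- `m g` and `m g⁻¹` are integral -/
structure Cm (m : ℕ) (g : GL (Fin 2) ℂ) : Prop where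
  ne : m ≠ 0
  int : ∀ r s, (m : ℂ) * g r s ∈ Oe
  int' : ∀ r s, (m : ℂ) * (g⁻¹ : GL (Fin 2) ℂ) r s ∈ Oe

variable {m : ℕ} {g : GL (Fin 2) ℂ}

theorem Cm.inv (h : Cm m g) : Cm m g⁻¹ := ⟨h.ne, h.int', by rw [inv_inv]; exact h.int⟩

/-- `m g` -/
noncomputable def Cm.mat (h : Cm m g) : Matrix (Fin 2) (Fin 2) Oe :=
  Matrix.of fun r s => ⟨(m : ℂ) * g r s, h.int r s⟩

theorem Cm.mat_map (h : Cm m g) : h.mat.map Oe.subtype = (m : ℂ) • (g : Matrix (Fin 2) (Fin 2) ℂ) := by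
  ext r s
  rfl

theorem subtype_inj : Function.Injective (Oe.subtype) := Subtype.val_injective

theorem map_inj {X Y : Matrix (Fin 2) (Fin 2) Oe} (h : X.map Oe.subtype = Y.map Oe.subtype) :
    X = Y := Matrix.map_injective subtype_inj h

/-- **conjugates of integral matrices congruent to one** -/
theorem Cm.conj_int (h : Cm m g) {N : ℕ} {X : Matrix (Fin 2) (Fin 2) Oe}
    (hX : ∀ i j, ((N * m ^ 2 : ℕ) : Oe) ∣ X i j - (1 : Matrix (Fin 2) (Fin 2) Oe) i j) :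
    ∃ Y : Matrix (Fin 2) (Fin 2) Oe,
      (∀ i j, (N : Oe) ∣ Y i j - (1 : Matrix (Fin 2) (Fin 2) Oe) i j) ∧ Y.det = X.det ∧
      Y.map Oe.subtype = (g : Matrix (Fin 2) (Fin 2) ℂ) * X.map Oe.subtype *
        ((g⁻¹ : GL (Fin 2) ℂ) : Matrix (Fin 2) (Fin 2) ℂ) := by
  choose Z hZ using hX
  have e1 : X = 1 + ((N * m ^ 2 : ℕ) : Oe) • (Matrix.of Z) := by
    ext i j
    rw [Matrix.add_apply, Matrix.smul_apply, Matrix.of_apply, smul_eq_mul, ← hZ]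
    exact (add_sub_cancel _ _).symm
  have e2 : X.map Oe.subtype = 1 + ((N * m ^ 2 : ℕ) : ℂ) • (Matrix.of Z).map Oe.subtype := by
    rw [e1, Matrix.map_add _ (map_add _), Matrix.map_one _ (map_zero _) (map_one _)]
    congr 1
  have hgg : (g : Matrix (Fin 2) (Fin 2) ℂ) *
      ((g⁻¹ : GL (Fin 2) ℂ) : Matrix (Fin 2) (Fin 2) ℂ) = 1 := by
    rw [← Units.val_mul, mul_inv_cancel, Units.val_one]
  have e3 : (1 + (N : Oe) • (h.mat * Matrix.of Z * h.inv.mat)).map Oe.subtype =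
      (g : Matrix (Fin 2) (Fin 2) ℂ) * X.map Oe.subtype *
        ((g⁻¹ : GL (Fin 2) ℂ) : Matrix (Fin 2) (Fin 2) ℂ) := by
    rw [Matrix.map_add _ (map_add _), Matrix.map_one _ (map_zero _) (map_one _)]
    have e4 : ((N : Oe) • (h.mat * Matrix.of Z * h.inv.mat)).map Oe.subtype =
        (N : ℂ) • ((h.mat * Matrix.of Z * h.inv.mat)).map Oe.subtype := by
      ext i j
      simp
    rw [e4, Matrix.map_mul, Matrix.map_mul, h.mat_map, h.inv.mat_map, e2, Matrix.mul_add,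
      Matrix.add_mul, Matrix.mul_one, hgg]
    congr 1
    simp only [Matrix.smul_mul, Matrix.mul_smul, smul_smul]
    congr 1
    push_cast
    ring
  refine ⟨1 + (N : Oe) • (h.mat * Matrix.of Z * h.inv.mat), ?_, ?_, e3⟩
  · intro i j
    rw [Matrix.add_apply, Matrix.smul_apply, smul_eq_mul, add_sub_cancel_left]
    exact Dvd.intro _ rfl
  · apply subtype_inj
    rw [RingHom.map_det, RingHom.map_det, RingHom.mapMatrix_apply, RingHom.mapMatrix_apply, e3,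
      Matrix.det_mul, Matrix.det_mul, mul_right_comm, ← Matrix.det_mul, hgg, Matrix.det_one, one_mul]

/-- conjugation of `Γ(N m²)` -/
theorem Cm.conj_Gam (h : Cm m g) {N : ℕ} {x : SL(2, Oe)} (hx : x ∈ Gam (N * m ^ 2)) :
    ∃ y ∈ Gam N, toGL y = g * toGL x * g⁻¹ := by
  obtain ⟨Y, hY, hdet, hmap⟩ := h.conj_int (N := N) (X := (x : Matrix (Fin 2) (Fin 2) Oe)) hx
  refine ⟨⟨Y, by rw [hdet, x.det_coe]⟩, hY, ?_⟩
  apply Units.ext
  rw [Units.val_mul, Units.val_mul]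
  exact hmap

theorem Cm.inv_Gam (h : Cm m g) {N : ℕ} {φ : H3 → ℂ} (hφ : ∀ x ∈ Gam N, ∀ w : H3, φ (x • w) = φ w) :
    ∀ x ∈ Gam (N * m ^ 2), ∀ w : H3, φ (g • x • w) = φ (g • w) := by
  intro x hx w
  obtain ⟨y, hy, e⟩ := h.conj_Gam hx
  have : g • x • w = y • g • w := by
    rw [smul_def, smul_def, e, ← mul_smul, ← mul_smul, inv_mul_cancel_right]
  rw [this, hφ y hy]

/-- **decay of the translate** -/
theorem Cm.decay (h : Cm m g) {φ : H3 → ℂ} {A : ℕ}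
    (hdec : ∃ C : ℝ, ∀ (p : H3) (c d : ℂ), c ∈ Oe → d ∈ Oe → (c ≠ 0 ∨ d ≠ 0) →
      ‖φ p‖ ≤ C * (p.q c d) ^ A) :
    ∃ C : ℝ, ∀ (s : SL(2, Oe)) (w : H3), ‖φ (g • s • w)‖ ≤ C / w.y ^ A := by
  obtain ⟨C, hC⟩ := hdec
  set D := ‖(g : Matrix (Fin 2) (Fin 2) ℂ).det‖ with hD
  refine ⟨C * ((m : ℝ) ^ 2 / D) ^ A, fun s w => ?_⟩
  have hm : (m : ℂ) ≠ 0 := by exact_mod_cast h.ne
  -- the row `m (0, 1) s⁻¹ g⁻¹`
  set v : Fin 2 → ℂ := fun r => (m : ℂ) * (toGL s⁻¹ 1 0 * (g⁻¹ : GL (Fin 2) ℂ) 0 r +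
    toGL s⁻¹ 1 1 * (g⁻¹ : GL (Fin 2) ℂ) 1 r) with hv
  have hvO : ∀ r, v r ∈ Oe := by
    intro r
    have e : v r = (s⁻¹ 1 0 : Oe) * ((m : ℂ) * (g⁻¹ : GL (Fin 2) ℂ) 0 r) +
        (s⁻¹ 1 1 : Oe) * ((m : ℂ) * (g⁻¹ : GL (Fin 2) ℂ) 1 r) := by
      rw [hv]
      simp only [toGL_apply]
      ring
    rw [e]
    exact Oe.add_mem (Oe.mul_mem (Subtype.mem _) (h.int' 0 r))
      (Oe.mul_mem (Subtype.mem _) (h.int' 1 r))
  have hvrow : ∀ r, v 0 * (g * toGL s) 0 r + v 1 * (g * toGL s) 1 r = (m : ℂ) *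
      (1 : Matrix (Fin 2) (Fin 2) ℂ) 1 r := by
    intro r
    have e1 : (toGL s⁻¹ * g⁻¹ * (g * toGL s) : GL (Fin 2) ℂ) = 1 := by
      rw [map_inv]; group
    have e2 : ((toGL s⁻¹ * g⁻¹ * (g * toGL s) : GL (Fin 2) ℂ) : Matrix (Fin 2) (Fin 2) ℂ) 1 r =
        (1 : Matrix (Fin 2) (Fin 2) ℂ) 1 r := by rw [e1, Units.val_one]
    have e3 : ((toGL s⁻¹ * g⁻¹ * (g * toGL s) : GL (Fin 2) ℂ) : Matrix (Fin 2) (Fin 2) ℂ) 1 r =
        (toGL s⁻¹ 1 0 * (g⁻¹ : GL (Fin 2) ℂ) 0 0 + toGL s⁻¹ 1 1 * (g⁻¹ : GL (Fin 2) ℂ) 1 0) *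
          (g * toGL s) 0 r +
        (toGL s⁻¹ 1 0 * (g⁻¹ : GL (Fin 2) ℂ) 0 1 + toGL s⁻¹ 1 1 * (g⁻¹ : GL (Fin 2) ℂ) 1 1) *
          (g * toGL s) 1 r := by
      have h5 : ((toGL s⁻¹ * g⁻¹ * (g * toGL s) : GL (Fin 2) ℂ) : Matrix (Fin 2) (Fin 2) ℂ) =
        (toGL s⁻¹ : Matrix (Fin 2) (Fin 2) ℂ) * (g⁻¹ : GL (Fin 2) ℂ) *
          ((g * toGL s : GL (Fin 2) ℂ) : Matrix (Fin 2) (Fin 2) ℂ) := rfl
      rw [h5, Matrix.mul_apply, Fin.sum_univ_two, Matrix.mul_apply, Matrix.mul_apply,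
        Fin.sum_univ_two, Fin.sum_univ_two]
    rw [← e2, e3, hv]
    ring
  have hvne : v 0 ≠ 0 ∨ v 1 ≠ 0 := by
    by_contra hcon
    push Not at hcon
    have := hvrow 1
    rw [hcon.1, hcon.2, Matrix.one_apply_eq] at this
    apply hm
    rw [zero_mul, zero_mul, zero_add, mul_one] at this
    exact this.symm
  have h1 := hC (g • s • w) (v 0) (v 1) (hvO 0) (hvO 1) hvne
  have h2 : (g • s • w).q (v 0) (v 1) = (m : ℝ) ^ 2 / D / w.y := by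
    rw [smul_def, ← mul_smul, H3.q_smul_eq, hvrow, hvrow]
    have e3 : ‖((g * toGL s : GL (Fin 2) ℂ) : Matrix (Fin 2) (Fin 2) ℂ).det‖ = D := by
      rw [Units.val_mul, Matrix.det_mul]
      have : (toGL s : Matrix (Fin 2) (Fin 2) ℂ).det = 1 := by
        have h5 : (toGL s : Matrix (Fin 2) (Fin 2) ℂ) =
          ((Matrix.SpecialLinearGroup.map Oe.subtype s : SL(2, ℂ)) :
            Matrix (Fin 2) (Fin 2) ℂ) := rfl
        rw [h5, Matrix.SpecialLinearGroup.det_coe]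
      rw [this, mul_one]
    rw [e3, H3.q_smul]
    have e4 : w.q ((1 : Matrix (Fin 2) (Fin 2) ℂ) 1 0) ((1 : Matrix (Fin 2) (Fin 2) ℂ) 1 1) =
        1 / w.y := by
      rw [Matrix.one_apply_eq, Matrix.one_apply_ne (by decide), H3.q_zero_one]
    rw [e4, Complex.norm_natCast]
    ring
  rw [h2, div_pow _ w.y, ← mul_div_assoc] at h1
  exact h1

/-- **mean value property of the translate** -/
theorem mean_smul {φ : H3 → ℂ} {khat : ℝ} {k : ℝ → ℝ} (g : GL (Fin 2) ℂ)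
    (h : ∀ w : H3, ∫ w' : H3, (k (H3.cd w w') : ℂ) * φ w' = (khat : ℂ) * φ w) (w : H3) :
    ∫ w' : H3, (k (H3.cd w w') : ℂ) * φ (g • w') = (khat : ℂ) * φ (g • w) := by
  rw [← h (g • w), ← H3.integral_smul_H3 g (fun w' => (k (H3.cd (g • w) w') : ℂ) * φ w')]
  congr 1
  funext w'
  rw [H3.cd_smul]

end Fermat.Agent.LT.Th
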