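import Fermat.Agent.LT.Th.Stab
import Fermat.Agent.LT.RS.Def

set_option autoImplicit false

/-!
# Periods: from `Γ(M)` to the stabiliser of `x0`
-/

namespace Fermat.Agent.LT.Th

open Matrix ComplexConjugate MeasureTheory Complex HM Set UpperHalfPlane
open scoped Real MatrixGroups ENNReal NNReal
open Fermat.Agent.LT.Asai

/-- decomposition into cosets -/
noncomputable def cosE {G : Type*} [Group G] (S : Subgroup G) : (G ⧸ S) × S ≃ G where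
  toFun p := p.1.out * (p.2 : G)
  invFun x := ((x : G ⧸ S), ⟨(x : G ⧸ S).out⁻¹ * x,
    QuotientGroup.eq.1 (QuotientGroup.out_eq' (x : G ⧸ S))⟩)
  left_inv := by
    rintro ⟨q, s⟩
    have h1 : ((q.out * (s : G) : G) : G ⧸ S) = q := by
      rw [QuotientGroup.mk_mul_of_mem _ s.2, QuotientGroup.out_eq']
    refine Prod.ext h1 (Subtype.ext ?_)
    change ((q.out * (s : G) : G) : G ⧸ S).out⁻¹ * (q.out * (s : G)) = s
    rw [h1, inv_mul_cancel_left]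
  right_inv x := by
    change (x : G ⧸ S).out * ((x : G ⧸ S).out⁻¹ * x) = x
    rw [mul_inv_cancel_left]

/-- weights for a subgroup of finite index -/
theorem isWtS_of_le {Γ' Γ : Subgroup SL(2, ℤ)} (h : Γ' ≤ Γ) [Γ'.FiniteIndex] {w : ℍ → ℝ≥0∞}
    (hw : IsWtS Γ' w) : IsWtS Γ (fun τ => w τ / ((Γ'.subgroupOf Γ).index : ℝ≥0∞)) := by
  have hfi : (Γ'.subgroupOf Γ).FiniteIndex := inferInstance
  have hn : (Γ'.subgroupOf Γ).index ≠ 0 := hfi.index_ne_zero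
  have hn' : ((Γ'.subgroupOf Γ).index : ℝ≥0∞) ≠ 0 := by exact_mod_cast hn
  have hnt : ((Γ'.subgroupOf Γ).index : ℝ≥0∞) ≠ ⊤ := ENNReal.natCast_ne_top _
  refine ⟨hw.meas.div_const _, fun z => ?_, ?_⟩
  · simp_rw [div_eq_mul_inv]
    rw [ENNReal.tsum_mul_right]
    have h1 : ∑' γ : Γ, w ((γ : SL(2, ℤ)) • z) = ((Γ'.subgroupOf Γ).index : ℝ≥0∞) := by
      have h2 : ∑' γ : Γ, w ((γ : SL(2, ℤ)) • z) = ∑' γ : Γ, w (((γ⁻¹ : Γ) : SL(2, ℤ)) • z) :=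
        ((Equiv.inv Γ).tsum_eq (fun γ : Γ => w ((γ : SL(2, ℤ)) • z))).symm
      rw [h2, ← (cosE (Γ'.subgroupOf Γ)).tsum_eq,
        ENNReal.tsum_prod']
      have h3 : ∀ q : Γ ⧸ (Γ'.subgroupOf Γ), ∑' s : (Γ'.subgroupOf Γ),
          w ((((cosE (Γ'.subgroupOf Γ)) (q, s))⁻¹ :
            Γ) • z) = 1 := by
        intro q
        let e : (Γ'.subgroupOf Γ) ≃ Γ' :=
          { toFun := fun s => ⟨((s⁻¹ : Γ'.subgroupOf Γ) : Γ), (s⁻¹ : Γ'.subgroupOf Γ).2⟩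
            invFun := fun t => ⟨⟨((t⁻¹ : Γ') : SL(2, ℤ)), h (t⁻¹ : Γ').2⟩, (t⁻¹ : Γ').2⟩
            left_inv := fun s => by ext : 2; simp
            right_inv := fun t => by ext : 1; simp }
        rw [← hw.sum_eq ((((q.out : Γ)⁻¹ : Γ) : SL(2, ℤ)) • z), ← e.tsum_eq]
        refine tsum_congr fun s => ?_
        congr 1
        have h4 : (cosE (Γ'.subgroupOf Γ)) (q, s) =
            q.out * (s : Γ) := rfl
        rw [h4, _root_.mul_inv_rev, ← mul_smul]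
        rfl
      have h5 : ∀ q : Γ ⧸ (Γ'.subgroupOf Γ), ∑' s : (Γ'.subgroupOf Γ),
          w (((((cosE (Γ'.subgroupOf Γ)) (q, s))⁻¹ :
            Γ) : SL(2, ℤ)) • z) = 1 := h3
      simp_rw [h5]
      rw [ENNReal.tsum_const, mul_one]
      have : Finite (Γ ⧸ (Γ'.subgroupOf Γ)) := Subgroup.finite_quotient_of_finiteIndex
      rw [ENat.card_eq_coe_natCard]
      rfl
    rw [h1]
    exact ENNReal.mul_inv_cancel hn' hnt
  · simp_rw [div_eq_mul_inv]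
    rw [lintegral_mul_const _ hw.meas]
    exact ENNReal.mul_lt_top hw.lint (ENNReal.inv_lt_top.2 (by
      rw [pos_iff_ne_zero]; exact hn'))

/-- `TT N` has finite index -/
theorem Gamma_le_TT (N : ℕ) : CongruenceSubgroup.Gamma (3 * N) ≤ TT N := by
  intro γ hγ
  rw [CongruenceSubgroup.Gamma_mem] at hγ
  rw [mem_TT]
  have e1 : ∀ a : ℤ, ((a : ℤ) : ZMod (3 * N)) = 1 → (N : ℤ) ∣ a - 1 := by
    intro a ha
    have h1 : (((3 * N : ℕ) : ℤ)) ∣ a - 1 := by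
      rw [← ZMod.intCast_zmod_eq_zero_iff_dvd, Int.cast_sub, Int.cast_one, sub_eq_zero]
      exact ha
    exact (Dvd.intro_left (3 : ℤ) (by push_cast; ring)).trans h1
  have e2 : ∀ a : ℤ, ((a : ℤ) : ZMod (3 * N)) = 0 → (3 * N : ℤ) ∣ a := by
    intro a ha
    have h1 := (ZMod.intCast_zmod_eq_zero_iff_dvd a (3 * N)).1 ha
    push_cast at h1
    exact h1
  obtain ⟨h1, h2, h3, h4⟩ := hγ
  exact ⟨⟨⟨e1 _ h1, (Dvd.intro_left (3 : ℤ) (by push_cast; ring)).trans (e2 _ h2)⟩, e1 _ h4⟩,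
    e2 _ h3⟩

theorem TT_finiteIndex {N : ℕ} (hN : N ≠ 0) : (TT N).FiniteIndex := by
  have : NeZero (3 * N) := ⟨by omega⟩
  exact Subgroup.finiteIndex_of_le (Gamma_le_TT N)

theorem TT_le_Gamma {M N : ℕ} (h : M ∣ N) : TT N ≤ CongruenceSubgroup.Gamma M := by
  intro γ hγ
  rw [mem_TT] at hγ
  obtain ⟨⟨⟨h1, h2⟩, h3⟩, h4⟩ := hγ
  have hMN : (M : ℤ) ∣ N := by exact_mod_cast h
  rw [CongruenceSubgroup.Gamma_mem]
  have e1 : ∀ a : ℤ, (N : ℤ) ∣ a - 1 → ((a : ℤ) : ZMod M) = 1 := by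
    intro a ha
    have := (ZMod.intCast_zmod_eq_zero_iff_dvd (a - 1) M).2 (hMN.trans ha)
    rw [Int.cast_sub, Int.cast_one, sub_eq_zero] at this
    exact this
  have e2 : ∀ a : ℤ, (N : ℤ) ∣ a → ((a : ℤ) : ZMod M) = 0 := fun a ha =>
    (ZMod.intCast_zmod_eq_zero_iff_dvd a M).2 (hMN.trans ha)
  exact ⟨e1 _ h1, e2 _ h2, e2 _ ((Dvd.intro_left (3 : ℤ) rfl).trans h4), e1 _ h3⟩

/-- **Change of the group in the period.** -/
theorem period_of_le {Γ' Γ : Subgroup SL(2, ℤ)} (h : Γ' ≤ Γ) [Γ'.FiniteIndex] {f : ℍ → ℂ}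
    (hf : ∀ w, IsWtS Γ w → ∫ τ : ℍ, ((w τ).toReal : ℂ) * f τ ≠ 0) :
    ∀ w, IsWtS Γ' w → ∫ τ : ℍ, ((w τ).toReal : ℂ) * f τ ≠ 0 := by
  intro w hw h0
  apply hf _ (isWtS_of_le h hw)
  have h1 : ∀ τ : ℍ, (((w τ / ((Γ'.subgroupOf Γ).index : ℝ≥0∞)).toReal : ℝ) : ℂ) * f τ =
      ((Γ'.subgroupOf Γ).index : ℂ)⁻¹ * (((w τ).toReal : ℂ) * f τ) := by
    intro τ
    rw [ENNReal.toReal_div, ENNReal.toReal_natCast]
    push_cast
    ring
  simp_rw [h1]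
  rw [integral_const_mul, h0, mul_zero]

end Fermat.Agent.LT.Th
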