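import Fermat.Agent.LT.Th.Def
import Fermat.Agent.LT.Th.Gauss1
import Fermat.Agent.LT.Poisson

set_option autoImplicit false
set_option linter.unusedSimpArgs false

/-!
# The four dimensional Fourier transform of the kernels
-/

namespace Fermat.Agent.LT.Th

open Matrix ComplexConjugate MeasureTheory Complex
open scoped Real

/-- adapted orthogonal coordinates of a Hermitian form with respect to a point of `H3` -/
noncomputable def uc (w : H3) (X : HM) : Fin 4 → ℝ :=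
  ![(X.2.2 - X.2.1 * w.z).re, (X.2.2 - X.2.1 * w.z).im,
    (X.1 - 2 * (X.2.2 * conj w.z).re + X.2.1 * normSq w.z - X.2.1 * w.y ^ 2) / (2 * w.y),
    HM.t w X]

theorem q_uc (w : H3) (X : HM) :
    HM.q X = uc w X 0 ^ 2 + uc w X 1 ^ 2 + uc w X 2 ^ 2 - uc w X 3 ^ 2 := by
  have hy : w.y ≠ 0 := w.pos.ne'
  simp only [uc, HM.q, HM.t, Matrix.cons_val_zero, Matrix.cons_val_one, Matrix.cons_val,
    Complex.normSq_apply, Complex.sub_re, Complex.sub_im, Complex.mul_re,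
    Complex.mul_im, Complex.conj_re, Complex.conj_im, Complex.ofReal_re, Complex.ofReal_im]
  field_simp
  ring

theorem Q_uc (w : H3) (X : HM) :
    HM.Q w X = uc w X 0 ^ 2 + uc w X 1 ^ 2 + uc w X 2 ^ 2 + uc w X 3 ^ 2 := by
  rw [HM.Q, q_uc w X]
  have : uc w X 3 = HM.t w X := rfl
  rw [this]
  ring

theorem B_uc (w : H3) (X Y : HM) :
    HM.B X Y = 2 * (uc w X 0 * uc w Y 0 + uc w X 1 * uc w Y 1 + uc w X 2 * uc w Y 2 -
      uc w X 3 * uc w Y 3) := by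
  have hy : w.y ≠ 0 := w.pos.ne'
  simp only [uc, HM.B, HM.t, Matrix.cons_val_zero, Matrix.cons_val_one, Matrix.cons_val,
    Complex.normSq_apply, Complex.sub_re, Complex.sub_im, Complex.mul_re,
    Complex.mul_im, Complex.conj_re, Complex.conj_im, Complex.ofReal_re, Complex.ofReal_im]
  field_simp
  ring

theorem uc_add (w : H3) (X Y : HM) : uc w (X + Y) = uc w X + uc w Y := by
  funext i
  fin_cases i <;>
  · simp only [uc, HM.t, Fin.zero_eta, Fin.mk_one, Fin.reduceFinMk, Pi.add_apply,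
      Matrix.cons_val_zero, Matrix.cons_val_one, Matrix.cons_val,
      Prod.fst_add, Prod.snd_add, Complex.add_re, Complex.add_im, Complex.ofReal_add,
      Complex.normSq_apply, Complex.sub_re, Complex.sub_im, Complex.mul_re,
      Complex.mul_im, Complex.conj_re, Complex.conj_im, Complex.ofReal_re, Complex.ofReal_im]
    ring

/-- the matrix of `uc w ∘ cr` -/
noncomputable def uM (w : H3) : Matrix (Fin 4) (Fin 4) ℝ :=
  !![0, -w.z.re, 1, -1/2;
     0, -w.z.im, 0, √3/2;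
     1/(2*w.y), (normSq w.z - w.y^2)/(2*w.y), -w.z.re/w.y, (w.z.re/2 - √3/2*w.z.im)/w.y;
     1/(2*w.y), (normSq w.z + w.y^2)/(2*w.y), -w.z.re/w.y, (w.z.re/2 - √3/2*w.z.im)/w.y]

theorem det_uM (w : H3) : (uM w).det = √3 / 4 := by
  have hy : w.y ≠ 0 := w.pos.ne'
  simp [uM, Matrix.det_succ_row_zero, Fin.sum_univ_succ, Fin.succAbove]
  field_simp
  ring

theorem uc_cr (w : H3) (x : Fin 4 → ℝ) : uc w (cr x) = uM w *ᵥ x := by
  have hy : w.y ≠ 0 := w.pos.ne'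
  funext i
  fin_cases i <;>
  · simp only [uc, cr, uM, om, HM.t, Fin.zero_eta, Fin.mk_one, Fin.reduceFinMk,
      Matrix.mulVec, dotProduct, Fin.sum_univ_four, Matrix.of_apply, Matrix.cons_val',
      Matrix.cons_val_fin_one,
      Matrix.cons_val_zero, Matrix.cons_val_one, Matrix.cons_val,
      Prod.fst_add, Prod.snd_add, Complex.add_re, Complex.add_im, Complex.ofReal_add,
      Complex.normSq_apply, Complex.sub_re, Complex.sub_im, Complex.mul_re,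
      Complex.mul_im, Complex.conj_re, Complex.conj_im, Complex.ofReal_re, Complex.ofReal_im]
    field_simp
    ring

/-- the factors of the kernel -/
noncomputable def gfac (m : Fin 2) (τ : ℂ) : Fin 4 → ℝ → ℂ :=
  ![fun u => e (τ * u ^ 2), fun u => e (τ * u ^ 2), fun u => e (τ * u ^ 2),
    fun u => (P m (τ.im * u ^ 2) : ℂ) * e (-(conj τ * u ^ 2))]

theorem ker_eq_prod (m : Fin 2) (τ : UpperHalfPlane) (w : H3) (X : HM) :
    ker m τ w X = (√τ.im : ℝ) * ∏ i, gfac m τ i (uc w X i) := by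
  rw [ker, Fin.prod_univ_four]
  have hq := q_uc w X
  have hQ := Q_uc w X
  have h3 : HM.t w X = uc w X 3 := rfl
  rw [hq, hQ, h3]
  generalize uc w X = u
  simp only [gfac, Matrix.cons_val_zero, Matrix.cons_val_one, Matrix.cons_val, e]
  have h1 : (τ : ℂ) = τ.re + τ.im * I := (Complex.re_add_im (τ : ℂ)).symm
  have h2 : conj (τ : ℂ) = τ.re - τ.im * I := by
    rw [h1, map_add, map_mul, conj_ofReal, conj_ofReal, conj_I]
    ring
  have h3 : ((τ : ℂ)).im = τ.im := rfl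
  have hI : I ^ 2 = -1 := I_sq
  rw [h3, h2]
  push_cast
  have e1 : ((√τ.im : ℝ) : ℂ) * (P m (τ.im * u 3 ^ 2)) *
      cexp (-2 * π * τ.im * (u 0 ^ 2 + u 1 ^ 2 + u 2 ^ 2 + u 3 ^ 2)) *
      cexp (2 * π * I * (τ.re * (u 0 ^ 2 + u 1 ^ 2 + u 2 ^ 2 - u 3 ^ 2))) =
      ((√τ.im : ℝ) : ℂ) * (P m (τ.im * u 3 ^ 2)) *
      (cexp (-2 * π * τ.im * (u 0 ^ 2 + u 1 ^ 2 + u 2 ^ 2 + u 3 ^ 2)) *
      cexp (2 * π * I * (τ.re * (u 0 ^ 2 + u 1 ^ 2 + u 2 ^ 2 - u 3 ^ 2)))) := by ring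
  have e2 : ((√τ.im : ℝ) : ℂ) * (cexp (2 * π * I * (τ * u 0 ^ 2)) *
      cexp (2 * π * I * (τ * u 1 ^ 2)) * cexp (2 * π * I * (τ * u 2 ^ 2)) *
      ((P m (τ.im * u 3 ^ 2)) * cexp (2 * π * I * -((τ.re - τ.im * I) * u 3 ^ 2)))) =
      ((√τ.im : ℝ) : ℂ) * (P m (τ.im * u 3 ^ 2)) * (cexp (2 * π * I * (τ * u 0 ^ 2)) *
      cexp (2 * π * I * (τ * u 1 ^ 2)) * cexp (2 * π * I * (τ * u 2 ^ 2)) *
      cexp (2 * π * I * -((τ.re - τ.im * I) * u 3 ^ 2))) := by ring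
  rw [e1, e2, ← Complex.exp_add, ← Complex.exp_add, ← Complex.exp_add, ← Complex.exp_add]
  congr 2
  rw [h1]
  linear_combination (-2 * π * τ.im * (u 0 ^ 2 + u 1 ^ 2 + u 2 ^ 2 + u 3 ^ 2)) * hI

theorem gτ_sq (τ : ℂ) : gτ τ ^ 2 = 1 / (-2 * I * τ) := by
  rw [gτ, ← cpow_nat_mul]
  norm_num

theorem gτ_normSq (τ : ℂ) : gτ τ * conj (gτ τ) = 1 / (2 * ‖τ‖) := by
  have h1 : ‖gτ τ‖ ^ 2 = 1 / (2 * ‖τ‖) := by
    rw [← norm_pow, gτ_sq τ]
    simp
  rw [mul_conj']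
  rw [← ofReal_pow, h1]
  push_cast
  ring

/-- the factors with the phases -/
noncomputable def hfac (m : Fin 2) (τ : ℂ) (η : Fin 4 → ℝ) : Fin 4 → ℝ → ℂ :=
  ![fun u => cexp (2 * π * I * (τ * u ^ 2 - 2 * u * η 0)),
    fun u => cexp (2 * π * I * (τ * u ^ 2 - 2 * u * η 1)),
    fun u => cexp (2 * π * I * (τ * u ^ 2 - 2 * u * η 2)),
    fun u => (P m (τ.im * u ^ 2) : ℂ) * cexp (-(2 * π * I * (conj τ * u ^ 2 - 2 * u * η 3)))]

theorem ker_mul_e (m : Fin 2) (τ : UpperHalfPlane) (w : H3) (X Y : HM) :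
    ker m τ w X * e (-(HM.B X Y : ℝ)) = (√τ.im : ℝ) * ∏ i, hfac m τ (uc w Y) i (uc w X i) := by
  rw [ker_eq_prod, B_uc w, Fin.prod_univ_four, Fin.prod_univ_four]
  generalize uc w X = u
  generalize uc w Y = η
  simp only [gfac, hfac, Matrix.cons_val_zero, Matrix.cons_val_one, Matrix.cons_val, e]
  have e1 : ∀ (a b c d f g : ℂ), a * (b * c * d * (f * g)) = a * f * (b * c * d * g) := by
    intros; ring
  rw [e1, e1, mul_assoc]
  congr 1
  rw [← Complex.exp_add, ← Complex.exp_add, ← Complex.exp_add, ← Complex.exp_add,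
    ← Complex.exp_add, ← Complex.exp_add, ← Complex.exp_add]
  congr 1
  push_cast
  ring

theorem continuous_P (m : Fin 2) : Continuous (P m) := by
  unfold P
  split_ifs
  · exact continuous_const
  · fun_prop

theorem continuous_hfac (m : Fin 2) (τ : ℂ) (η : Fin 4 → ℝ) (i : Fin 4) :
    Continuous (hfac m τ η i) := by
  have := continuous_P m
  fin_cases i <;>
  · simp only [hfac, Fin.zero_eta, Fin.mk_one, Fin.reduceFinMk, Matrix.cons_val_zero,
      Matrix.cons_val_one, Matrix.cons_val]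
    fun_prop

theorem integral_uM (w : H3) (g : Fin 4 → ℝ → ℂ) (hg : ∀ i, Continuous (g i)) :
    ∫ x : Fin 4 → ℝ, ∏ i, g i ((uM w *ᵥ x) i) = (4 / √3 : ℝ) * ∏ i, ∫ u, g i u := by
  have hdet : (uM w).det ≠ 0 := by
    rw [det_uM]; positivity
  have h1 := Real.map_matrix_volume_pi_eq_smul_volume_pi hdet
  have hcont : Continuous (fun x : Fin 4 → ℝ => ∏ i, g i (x i)) :=
    continuous_finsetProd _ fun i _ => (hg i).comp (continuous_apply i)
  have hm : Measurable (Matrix.toLin' (uM w)) :=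
    (LinearMap.continuous_on_pi _).measurable
  have h2 : ∫ x : Fin 4 → ℝ, ∏ i, g i ((uM w *ᵥ x) i) =
      ∫ x, ∏ i, g i (x i) ∂(Measure.map (Matrix.toLin' (uM w)) volume) := by
    rw [integral_map hm.aemeasurable hcont.aestronglyMeasurable]
    rfl
  rw [h2, h1, integral_smul_measure, integral_fintype_prod_volume_eq_prod, det_uM]
  rw [ENNReal.toReal_ofReal (abs_nonneg _), inv_div, abs_of_nonneg (by positivity)]
  rw [Complex.real_smul]

/-- automorphy factors -/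
noncomputable def Jf (m : Fin 2) (z : ℂ) : ℂ := if m = 0 then z else conj z

theorem prod_hfac (m : Fin 2) (τ τ' : UpperHalfPlane) (h : (τ' : ℂ) * τ = -1) (η : Fin 4 → ℝ) :
    ((4 / √3 : ℝ) : ℂ) * ((√τ.im : ℝ) * ∏ i, ∫ u, hfac m τ η i u) =
      I / (√3 * Jf m τ) * ((√τ'.im : ℝ) * ∏ i, gfac m τ' i (η i)) := by
  have hτ : 0 < (τ : ℂ).im := τ.im_pos
  have hτ0 : (τ : ℂ) ≠ 0 := τ.ne_zero
  have hc0 : conj (τ : ℂ) ≠ 0 := (map_ne_zero _).mpr hτ0
  have hτ' : (τ' : ℂ) = -1 / τ := by rw [eq_div_iff hτ0, h]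
  have hn : (‖(τ : ℂ)‖ : ℝ) ≠ 0 := norm_ne_zero_iff.mpr hτ0
  have hv' : τ'.im = τ.im / ‖(τ : ℂ)‖ ^ 2 := by
    have h1 : τ'.im = (τ' : ℂ).im := rfl
    rw [h1, hτ', neg_div, Complex.neg_im, one_div, Complex.inv_im, Complex.sq_norm]
    rw [neg_div, neg_neg]
    rfl
  have hsq : √τ.im = ‖(τ : ℂ)‖ * √τ'.im := by
    rw [hv', Real.sqrt_div τ.im_pos.le, Real.sqrt_sq (norm_nonneg _)]
    field_simp
  have e0 : ∀ x : ℝ, cexp (2 * π * I * (-(x : ℂ) ^ 2 / τ)) = e (τ' * x ^ 2) := fun x => by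
    rw [e, hτ']
    congr 1
    ring
  have e3 : ∀ x : ℝ, cexp (2 * π * I * ((x : ℂ) ^ 2 / conj (τ : ℂ))) = e (-(conj (τ' : ℂ) * x ^ 2)) :=
    fun x => by
    rw [e, hτ']
    congr 1
    rw [map_div₀, map_neg, map_one]
    ring
  have hI : I ≠ 0 := I_ne_zero
  have hI2 : I ^ 2 = -1 := I_sq
  have h3 : ((√3 : ℝ) : ℂ) ≠ 0 := ofReal_ne_zero.mpr (by positivity)
  have hn' : ((‖(τ : ℂ)‖ : ℝ) : ℂ) ≠ 0 := ofReal_ne_zero.mpr hn
  have hg := gτ_sq (τ : ℂ)
  have hgg := gτ_normSq (τ : ℂ)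
  have key : gτ τ * gτ τ * gτ τ * conj (gτ τ) = 1 / (-2 * I * τ) * (1 / (2 * ‖(τ : ℂ)‖)) := by
    rw [← hg, ← hgg]; ring
  rw [Fin.prod_univ_four, Fin.prod_univ_four, hsq]
  simp only [hfac, gfac, Matrix.cons_val_zero, Matrix.cons_val_one, Matrix.cons_val]
  rw [integral_gauss0 hτ, integral_gauss0 hτ, integral_gauss0 hτ, e0, e0, e0]
  obtain rfl | rfl : m = 0 ∨ m = 1 := by fin_cases m <;> simp
  · simp only [P, Jf, if_true, ofReal_one, one_mul]
    rw [integral_gauss0' hτ, e3]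
    have e4 : ∀ (a b c d f g k l p : ℂ), a * (b * c * (d * f * (d * g) * (d * k) * (l * p))) =
        (a * b * c) * (d * d * d * l) * (f * g * k * p) := by intros; ring
    push_cast
    rw [e4, key]
    field_simp
    rw [hI2]
    ring
  · have hP : ∀ u : ℝ, ((P 1 (τ.im * u ^ 2) : ℝ) : ℂ) = 1 / 2 - 4 * π * (τ : ℂ).im * u ^ 2 := fun u => by
      simp only [P, one_ne_zero, if_false]
      push_cast
      have : ((τ : ℂ).im : ℂ) = (τ.im : ℂ) := rfl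
      rw [this]
      ring
    have hP' : ((P 1 (τ'.im * η 3 ^ 2) : ℝ) : ℂ) =
        1 / 2 - 4 * π * ((τ : ℂ).im / ‖(τ : ℂ)‖ ^ 2 : ℝ) * η 3 ^ 2 := by
      simp only [P, one_ne_zero, if_false]
      rw [hv']
      push_cast
      have : ((τ : ℂ).im : ℂ) = (τ.im : ℂ) := rfl
      rw [this]
      ring
    have hJ : Jf 1 (τ : ℂ) = conj (τ : ℂ) := by simp [Jf]
    have hint := integral_gauss1' hτ (η 3)
    have hP2 : ∀ u : ℝ, ((P 1 ((τ : ℂ).im * u ^ 2) : ℝ) : ℂ) =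
      1 / 2 - 4 * π * (τ : ℂ).im * u ^ 2 := hP
    have hP3 : ((P 1 ((τ' : ℂ).im * η 3 ^ 2) : ℝ) : ℂ) =
        1 / 2 - 4 * π * ((τ : ℂ).im / ‖(τ : ℂ)‖ ^ 2 : ℝ) * η 3 ^ 2 := hP'
    simp_rw [hP2]
    rw [hint, e3, hP3, hJ]
    generalize (1 / 2 - 4 * π * (((τ : ℂ).im / ‖(τ : ℂ)‖ ^ 2 : ℝ) : ℂ) * (η 3 : ℂ) ^ 2) = PP
    have e4 : ∀ (a b c d f g k l p q r : ℂ),
        a * (b * c * (d * f * (d * g) * (d * k) * (q * r * (l * p)))) =
        (a * b * c * q * r) * (d * d * d * l) * (f * g * k * p) := by intros; ring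
    push_cast
    rw [e4, key]
    field_simp
    rw [hI2]
    ring

/-- **The Fourier transform of the kernels.** -/
theorem ft_ker (m : Fin 2) (τ τ' : UpperHalfPlane) (h : (τ' : ℂ) * τ = -1) (w : H3) (Y : HM) :
    ∫ x : Fin 4 → ℝ, ker m τ w (cr x) * e (-(HM.B (cr x) Y : ℝ)) =
      I / (√3 * Jf m τ) * ker m τ' w Y := by
  simp_rw [ker_mul_e, uc_cr]
  rw [integral_const_mul, integral_uM w _ (continuous_hfac m τ (uc w Y)), ker_eq_prod, ← prod_hfac m τ τ' h]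
  ring

end Fermat.Agent.LT.Th
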