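import Fermat.Agent.LT.Th.LawS

set_option autoImplicit false
set_option linter.unusedSimpArgs false

/-!
# The transformation laws of the theta functions for `SL(2, ℤ)`
-/

namespace Fermat.Agent.LT.Th

open Matrix ComplexConjugate MeasureTheory Complex
open scoped Real MatrixGroups

theorem Jf_mul (m : Fin 2) (x y : ℂ) : Jf m (x * y) = Jf m x * Jf m y := by
  unfold Jf
  split_ifs
  · rfl
  · exact map_mul _ _ _

theorem Jf_ofReal (m : Fin 2) (x : ℝ) : Jf m x = x := by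
  unfold Jf
  split_ifs
  · rfl
  · exact conj_ofReal x

theorem Jf_one (m : Fin 2) : Jf m 1 = 1 := by
  have := Jf_ofReal m 1
  rwa [ofReal_one] at this

theorem Jf_neg (m : Fin 2) (x : ℂ) : Jf m (-x) = -Jf m x := by
  have h := Jf_mul m (-1 : ℝ) x
  rw [Jf_ofReal] at h
  push_cast at h
  rw [neg_one_mul, neg_one_mul] at h
  exact h

theorem Jf_ne_zero (m : Fin 2) {x : ℂ} (h : x ≠ 0) : Jf m x ≠ 0 := by
  unfold Jf
  split_ifs
  · exact h
  · exact (map_ne_zero _).mpr h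

theorem Jf_inv (m : Fin 2) (x : ℂ) : Jf m x⁻¹ = (Jf m x)⁻¹ := by
  unfold Jf
  split_ifs
  · rfl
  · exact map_inv₀ _ _

/-- the automorphy factor `c τ + d` -/
noncomputable def dn (γ : SL(2, ℤ)) (τ : UpperHalfPlane) : ℂ := (γ 1 0 : ℂ) * τ + (γ 1 1 : ℂ)

theorem dn_ne_zero (γ : SL(2, ℤ)) (τ : UpperHalfPlane) : dn γ τ ≠ 0 :=
  UpperHalfPlane.denom_ne_zero (γ : GL (Fin 2) ℝ) τ

theorem coe_smul_SL (γ : SL(2, ℤ)) (τ : UpperHalfPlane) :
    ((γ • τ : UpperHalfPlane) : ℂ) = ((γ 0 0 : ℂ) * τ + (γ 0 1 : ℂ)) / dn γ τ := by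
  rw [UpperHalfPlane.coe_specialLinearGroup_apply]
  simp [dn]

theorem dn_mul (γ γ' : SL(2, ℤ)) (τ : UpperHalfPlane) :
    dn (γ * γ') τ = dn γ (γ' • τ) * dn γ' τ := by
  have h := dn_ne_zero γ' τ
  rw [dn, dn, coe_smul_SL]
  simp only [Matrix.SpecialLinearGroup.coe_mul, Matrix.mul_apply, Fin.sum_univ_two]
  field_simp
  rw [dn]
  push_cast
  ring

/-- the action on the characteristics -/
noncomputable def cX (γ : SL(2, ℤ)) (X Y : HM) : HM := (γ 0 0 : ℝ) • X - (γ 1 0 : ℝ) • Y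

/-- the action on the characteristics -/
noncomputable def cY (γ : SL(2, ℤ)) (X Y : HM) : HM := (γ 1 1 : ℝ) • Y - (γ 0 1 : ℝ) • X

theorem cX_mul (γ γ' : SL(2, ℤ)) (X Y : HM) :
    cX (γ * γ') X Y = cX γ' (cX γ X Y) (cY γ X Y) := by
  simp only [cX, cY, Matrix.SpecialLinearGroup.coe_mul, Matrix.mul_apply, Fin.sum_univ_two]
  push_cast
  module

theorem cY_mul (γ γ' : SL(2, ℤ)) (X Y : HM) :
    cY (γ * γ') X Y = cY γ' (cX γ X Y) (cY γ X Y) := by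
  simp only [cX, cY, Matrix.SpecialLinearGroup.coe_mul, Matrix.mul_apply, Fin.sum_univ_two]
  push_cast
  module

/-- the transformation law of the vector of theta functions -/
def ThLaw (γ : SL(2, ℤ)) (ρ : Fin 3 → Fin 3 → ℂ) : Prop :=
  ∀ (m : Fin 2) (j : Fin 3) (τ : UpperHalfPlane) (w : H3) (X0 Y0 : HM),
    th m (j : ℤ) (γ • τ) w X0 Y0 =
      Jf m (dn γ τ) * ∑ k : Fin 3, ρ j k * th m (k : ℤ) τ w (cX γ X0 Y0) (cY γ X0 Y0)

theorem ThLaw.mul {γ γ' : SL(2, ℤ)} {ρ ρ' : Fin 3 → Fin 3 → ℂ} (h : ThLaw γ ρ) (h' : ThLaw γ' ρ') :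
    ThLaw (γ * γ') (fun j k => ∑ i, ρ j i * ρ' i k) := by
  intro m j τ w X0 Y0
  rw [mul_smul, h, dn_mul, Jf_mul]
  simp_rw [h' m _ τ w, ← cX_mul, ← cY_mul]
  rw [mul_assoc]
  congr 1
  simp_rw [Finset.mul_sum, Finset.sum_mul]
  rw [Finset.sum_comm]
  apply Finset.sum_congr rfl
  intro k _
  rw [Finset.mul_sum]
  apply Finset.sum_congr rfl
  intro i _
  ring

theorem ThLaw.one : ThLaw 1 (fun j k => if j = k then 1 else 0) := by
  intro m j τ w X0 Y0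
  simp [cX, cY, dn, Jf_one]

theorem law_T : ThLaw ModularGroup.T (fun j k => if j = k then e ((j : ℤ) ^ 2 / 3) else 0) := by
  intro m j τ w X0 Y0
  have h : ((ModularGroup.T • τ : UpperHalfPlane) : ℂ) = τ + 1 := by
    rw [coe_smul_SL]
    simp [dn, ModularGroup.T]
  rw [T_law m _ τ _ h]
  simp [cX, cY, dn, Jf_one, ModularGroup.T]

theorem law_T_inv :
    ThLaw ModularGroup.T⁻¹ (fun j k => if j = k then e (-((j : ℤ) ^ 2 / 3)) else 0) := by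
  intro m j τ w X0 Y0
  have h : (τ : ℂ) = ((ModularGroup.T⁻¹ • τ : UpperHalfPlane) : ℂ) + 1 := by
    rw [coe_smul_SL]
    simp [dn, ModularGroup.coe_T_inv]
  have h1 := T_law m j _ τ h w X0 (Y0 + X0)
  rw [add_sub_cancel_right] at h1
  simp only [cX, cY, dn, Jf_one, ModularGroup.coe_T_inv, Matrix.of_apply, Matrix.cons_val',
    Matrix.cons_val_zero, Matrix.cons_val_one, Matrix.cons_val_fin_one, Int.cast_one, Int.cast_zero,
    Int.cast_neg, zero_mul, zero_add, one_mul, ite_mul, Finset.sum_ite_eq, Finset.mem_univ, if_true,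
    one_smul, zero_smul, sub_zero, neg_smul, sub_neg_eq_add]
  rw [h1, ← mul_assoc, ← e_add, neg_add_cancel, e_zero, one_mul]

theorem law_S : ThLaw ModularGroup.S (fun j k => -I / √3 * e (-(2 * (j : ℤ) * (k : ℤ) / 3))) := by
  intro m j τ w X0 Y0
  have hτ := τ.ne_zero
  have h : (τ : ℂ) * ((ModularGroup.S • τ : UpperHalfPlane) : ℂ) = -1 := by
    rw [coe_smul_SL]
    simp [dn, ModularGroup.S]
    field_simp
  have h' : ((ModularGroup.S • τ : UpperHalfPlane) : ℂ) = -(τ : ℂ)⁻¹ := by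
    field_simp
    rw [mul_comm, h]
  have h3 : ((√3 : ℝ) : ℂ) ≠ 0 := ofReal_ne_zero.mpr (by positivity)
  have hJ := Jf_ne_zero m hτ
  have hd : dn ModularGroup.S τ = τ := by simp [dn, ModularGroup.S]
  have hx : cX ModularGroup.S X0 Y0 = -Y0 := by simp [cX, ModularGroup.S]
  have hy : cY ModularGroup.S X0 Y0 = X0 := by simp [cY, ModularGroup.S]
  rw [S_law m _ _ τ h w, hd, hx, hy, h', Jf_neg, Jf_inv]
  have h4 : ∀ k : Fin 3, e (2 * ((j : ℕ) : ℤ) * k / 3) * th m (k : ℤ) τ w Y0 (-X0) =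
      e (-(2 * ((j : ℕ) : ℤ) * ((-(k : ℤ) : ℤ) : ℂ) / 3)) * th m (-(k : ℤ)) τ w (-Y0) X0 := by
    intro k
    have := neg_law m (k : ℤ) τ w (-Y0) X0
    rw [neg_neg] at this
    rw [this]
    congr 2
    push_cast
    ring
  have h5 : ∀ a b : ℤ, a % 3 = b % 3 → e (-(2 * ((j : ℕ) : ℤ) * (a : ℂ) / 3)) *
      th m a τ w (-Y0) X0 = e (-(2 * ((j : ℕ) : ℤ) * (b : ℂ) / 3)) * th m b τ w (-Y0) X0 := by
    intro a b hab
    rw [th_congr m hab]
    congr 1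
    have h6 : a = b + 3 * (a / 3 - b / 3) := by omega
    rw [h6, ← e_add_int (-(2 * ((j : ℕ) : ℤ) * (b : ℂ) / 3)) (-(2 * j * (a / 3 - b / 3)))]
    congr 1
    push_cast
    ring
  have h7 : ∑ k : Fin 3, e (2 * ((j : ℕ) : ℤ) * k / 3) * th m (k : ℤ) τ w Y0 (-X0) =
      ∑ k : Fin 3, e (-(2 * ((j : ℕ) : ℤ) * ((k : ℕ) : ℤ) / 3)) * th m (k : ℤ) τ w (-Y0) X0 := by
    simp_rw [h4]
    rw [Fin.sum_univ_three, Fin.sum_univ_three]
    have e1 := h5 (-((1 : Fin 3) : ℤ)) ((2 : Fin 3) : ℤ) (by decide)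
    have e2 := h5 (-((2 : Fin 3) : ℤ)) ((1 : Fin 3) : ℤ) (by decide)
    have e0 := h5 (-((0 : Fin 3) : ℤ)) ((0 : Fin 3) : ℤ) (by decide)
    rw [e0, e1, e2]
    ring
  have h8 : ∑ k : Fin 3, e (2 * (((j : ℕ) : ℤ) : ℂ) * k / 3) * th m (k : ℤ) τ w Y0 (-X0) =
      ∑ k : Fin 3, e (2 * ((j : ℕ) : ℤ) * k / 3) * th m (k : ℤ) τ w Y0 (-X0) := rfl
  rw [h8, h7, Finset.mul_sum, Finset.mul_sum]
  apply Finset.sum_congr rfl
  intro k _
  field_simp

theorem coe_S_inv : (ModularGroup.S⁻¹ : SL(2, ℤ)).1 = !![0, 1; -1, 0] := by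
  simp [Matrix.SpecialLinearGroup.coe_inv, ModularGroup.coe_S, Matrix.adjugate_fin_two]

theorem law_S_inv : ThLaw ModularGroup.S⁻¹ (fun j k => I / √3 * e (2 * (j : ℤ) * (k : ℤ) / 3)) := by
  intro m j τ w X0 Y0
  have hτ := τ.ne_zero
  have hd : dn ModularGroup.S⁻¹ τ = -τ := by simp [dn, coe_S_inv]
  have h' : ((ModularGroup.S⁻¹ • τ : UpperHalfPlane) : ℂ) = -(τ : ℂ)⁻¹ := by
    rw [coe_smul_SL, hd]
    simp [coe_S_inv]
  have h : (τ : ℂ) * ((ModularGroup.S⁻¹ • τ : UpperHalfPlane) : ℂ) = -1 := by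
    rw [h']
    field_simp
  have h3 : ((√3 : ℝ) : ℂ) ≠ 0 := ofReal_ne_zero.mpr (by positivity)
  have hJ := Jf_ne_zero m hτ
  have hx : cX ModularGroup.S⁻¹ X0 Y0 = Y0 := by simp [cX, coe_S_inv]
  have hy : cY ModularGroup.S⁻¹ X0 Y0 = -X0 := by simp [cY, coe_S_inv]
  rw [S_law m _ _ τ h w, hd, hx, hy, h', Jf_neg, Jf_neg, Jf_inv, Finset.mul_sum, Finset.mul_sum]
  apply Finset.sum_congr rfl
  intro k _
  have h8 : e (2 * (((j : ℕ) : ℤ) : ℂ) * k / 3) = e (2 * ((j : ℕ) : ℤ) * ((k : ℕ) : ℤ) / 3) := rfl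
  rw [h8]
  field_simp

/-- **The general law.** -/
theorem exists_law (γ : SL(2, ℤ)) : ∃ ρ, ThLaw γ ρ := by
  have h : γ ∈ (Subgroup.closure {ModularGroup.S, ModularGroup.T}).toSubmonoid := by
    rw [_root_.SpecialLinearGroup.SL2Z_generators]
    trivial
  rw [Subgroup.closure_toSubmonoid] at h
  induction h using Submonoid.closure_induction with
  | mem x hx =>
    rcases hx with (rfl | rfl) | hx
    · exact ⟨_, law_S⟩
    · exact ⟨_, law_T⟩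
    · have hx' : x⁻¹ = ModularGroup.S ∨ x⁻¹ = ModularGroup.T := hx
      rcases hx' with hx' | hx'
      · rw [inv_eq_iff_eq_inv.mp hx']; exact ⟨_, law_S_inv⟩
      · rw [inv_eq_iff_eq_inv.mp hx']; exact ⟨_, law_T_inv⟩
  | one => exact ⟨_, ThLaw.one⟩
  | mul x y _ _ hx hy =>
    obtain ⟨ρ, h⟩ := hx
    obtain ⟨ρ', h'⟩ := hy
    exact ⟨_, h.mul h'⟩

end Fermat.Agent.LT.Th
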