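import Fermat.Agent.LT.Th.LawR

set_option autoImplicit false
set_option linter.unusedSimpArgs false

/-!
# The transformation laws of the theta kernels of level `N`, and their behaviour at the cusps
-/

namespace Fermat.Agent.LT.Th

open Matrix ComplexConjugate MeasureTheory Complex
open scoped Real MatrixGroups

theorem q_x0 : HM.q x0 = 1 := by simp [HM.q, x0]

theorem lp_zero_x0 (z : ℤ) : lp 0 ![0, 0, z, 0] = (z : ℝ) • x0 := by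
  rw [lp_zero, x0]
  simp

theorem ker_scale (m : Fin 2) {N : ℕ} (hN : 0 < N) (τ τ' : UpperHalfPlane)
    (h : (τ' : ℂ) = (N : ℂ) ^ 2 * τ) (w : H3) (X : HM) :
    ker m τ' w X = N * ker m τ w ((N : ℝ) • X) := by
  have hN' : (0 : ℝ) < N := by exact_mod_cast hN
  have h' : (τ' : ℂ) = (((N : ℝ) ^ 2 : ℝ) : ℂ) * τ := by rw [h]; push_cast; ring
  have him : τ'.im = (N : ℝ) ^ 2 * τ.im := by
    have := congrArg Complex.im h'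
    rwa [Complex.im_ofReal_mul] at this
  have hre : τ'.re = (N : ℝ) ^ 2 * τ.re := by
    have := congrArg Complex.re h'
    rwa [Complex.re_ofReal_mul] at this
  rw [ker, ker, him, hre, HM.q_smul, HM.Q_smul, HM.t_smul, Real.sqrt_mul (by positivity),
    Real.sqrt_sq hN'.le, mul_pow]
  rw [← mul_assoc (N : ℂ) (((_ : ℝ)) : ℂ) (e _)]
  congr 1
  · have e1 : (N : ℝ) ^ 2 * τ.im * HM.t w X ^ 2 = τ.im * ((N : ℝ) ^ 2 * HM.t w X ^ 2) := by ring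
    have e2 : -2 * π * ((N : ℝ) ^ 2 * τ.im) * HM.Q w X = -2 * π * τ.im * ((N : ℝ) ^ 2 * HM.Q w X) := by
      ring
    rw [e1, e2]
    push_cast
    ring
  · congr 1
    push_cast
    ring

/-- the theta kernel of level `N` as a theta function with characteristics -/
theorem TN_eq_th (m : Fin 2) {N : ℕ} (hN : 0 < N) (τ τ' : UpperHalfPlane)
    (h : (τ' : ℂ) = (N : ℂ) ^ 2 * τ) (w : H3) :
    TN m N τ w = (N : ℂ)⁻¹ * th m 0 τ' w (-(N : ℝ)⁻¹ • x0) 0 := by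
  have hN0 : (N : ℝ) ≠ 0 := by exact_mod_cast hN.ne'
  have hN1 : (N : ℂ) ≠ 0 := by exact_mod_cast hN.ne'
  rw [TN, th, ← tsum_mul_left]
  apply tsum_congr
  intro k
  rw [ker_scale m hN τ τ' h]
  have h1 : (N : ℝ) • (lp 0 k - -(N : ℝ)⁻¹ • x0) = x0 + (N : ℝ) • lp 0 k := by
    rw [neg_smul, sub_neg_eq_add, smul_add, smul_smul, mul_inv_cancel₀ hN0, one_smul, add_comm]
  have h2 : HM.B (lp 0 k) 0 - HM.B (-(N : ℝ)⁻¹ • x0) 0 / 2 = 0 := by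
    simp [HM.B]
  rw [h1, h2, ofReal_zero, e_zero, mul_one, ← mul_assoc, inv_mul_cancel₀ hN1, one_mul]

/-- **The theta kernel of level `N` has weight one (and anti-weight one for `m = 1`) on
`Γ₁(N) ∩ Γ₀(3N²)`.** -/
theorem TN_law (m : Fin 2) {N : ℕ} (hN : 0 < N) (γ : SL(2, ℤ)) (hc : (3 * N ^ 2 : ℤ) ∣ γ 1 0)
    (hdN : (N : ℤ) ∣ γ 1 1 - 1) (hd3 : (3 : ℤ) ∣ γ 1 1 - 1) (τ : UpperHalfPlane) (w : H3) :
    TN m N (γ • τ) w = Jf m (dn γ τ) * TN m N τ w := by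
  have hN0 : (N : ℝ) ≠ 0 := by exact_mod_cast hN.ne'
  have hN1 : (N : ℂ) ≠ 0 := by exact_mod_cast hN.ne'
  have hdet : γ 0 0 * γ 1 1 - γ 0 1 * γ 1 0 = 1 := by
    have := γ.2
    rwa [Matrix.det_fin_two] at this
  obtain ⟨c1, hc1⟩ := hc
  obtain ⟨d1, hd1⟩ := hdN
  obtain ⟨d3, hd3⟩ := hd3
  have hpos : ∀ σ : UpperHalfPlane, 0 < (((N : ℂ) ^ 2 * σ)).im := by
    intro σ
    have : ((N : ℂ) ^ 2 * σ) = (((N : ℝ) ^ 2 : ℝ) : ℂ) * σ := by push_cast; ring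
    rw [this, Complex.im_ofReal_mul]
    have := σ.im_pos
    positivity
  let τ' : UpperHalfPlane := ⟨(N : ℂ) ^ 2 * τ, hpos τ⟩
  have hτ' : (τ' : ℂ) = (N : ℂ) ^ 2 * τ := rfl
  let γ' : SL(2, ℤ) := ⟨!![γ 0 0, N ^ 2 * γ 0 1; 3 * c1, γ 1 1], by
    rw [Matrix.det_fin_two_of]
    rw [hc1] at hdet
    linear_combination hdet⟩
  have g1 : γ' 0 0 = γ 0 0 := rfl
  have g2 : γ' 0 1 = N ^ 2 * γ 0 1 := rfl
  have g3 : γ' 1 0 = 3 * c1 := rfl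
  have g4 : γ' 1 1 = γ 1 1 := rfl
  have hrow : ThRow γ' := by
    refine row_of_mem γ' ⟨c1, g3⟩ ?_
    rw [g4]
    omega
  have hdn : dn γ' τ' = dn γ τ := by
    rw [dn, dn, g3, g4, hc1, hτ']
    push_cast
    ring
  have hγτ : ((γ' • τ' : UpperHalfPlane) : ℂ) = (N : ℂ) ^ 2 * ((γ • τ : UpperHalfPlane) : ℂ) := by
    rw [coe_smul_SL, coe_smul_SL, hdn, g1, g2, hτ', mul_div_assoc']
    congr 1
    push_cast
    ring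
  -- `a = 1 + N a'`
  have ha : ∃ a', γ 0 0 = 1 + N * a' := by
    refine ⟨γ 0 1 * (3 * N * c1) - γ 0 0 * d1, ?_⟩
    have e1 : γ 1 1 = 1 + N * d1 := by linarith
    rw [hc1, e1] at hdet
    linear_combination hdet
  obtain ⟨a', ha'⟩ := ha
  rw [TN_eq_th m hN (γ • τ) (γ' • τ') hγτ, TN_eq_th m hN τ τ' hτ', hrow, hdn]
  have hx : cX γ' (-(N : ℝ)⁻¹ • x0) 0 = -(N : ℝ)⁻¹ • x0 + lp 0 ![0, 0, -a', 0] := by
    rw [cX, g1, g3, ha', lp_zero_x0, smul_zero, sub_zero, smul_smul, ← add_smul]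
    congr 1
    push_cast
    field_simp
    ring
  have hy : cY γ' (-(N : ℝ)⁻¹ • x0) 0 = 0 + lp 0 ![0, 0, N * γ 0 1, 0] := by
    rw [cY, g2, g4, lp_zero_x0, smul_zero, zero_sub, zero_add, smul_smul, ← neg_smul]
    congr 1
    push_cast
    field_simp
  rw [hx, hy, th_shift_left, th_shift_right]
  have e1 : HM.B (lp 0 ![0, 0, -a', 0]) (0 + lp 0 ![0, 0, N * γ 0 1, 0]) / 2 =
      ((-a' * (N * γ 0 1) : ℤ) : ℝ) := by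
    rw [zero_add, lp_zero_x0, lp_zero_x0, HM.B_smul_left, HM.B_smul_right, HM.B_self, q_x0]
    push_cast
    ring
  have e2 : -HM.B (-(N : ℝ)⁻¹ • x0) (lp 0 ![0, 0, N * γ 0 1, 0]) / 2 = ((γ 0 1 : ℤ) : ℝ) := by
    rw [lp_zero_x0, HM.B_smul_left, HM.B_smul_right, HM.B_self, q_x0]
    push_cast
    field_simp
  rw [e1, e2, ofReal_intCast, ofReal_intCast, e_int, e_int, one_mul, one_mul]
  ring

/-- matrices `(N², 0; 0, 1) γ = γ₁ (α, β; 0, δ)` -/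
theorem exists_decomp {N : ℕ} (hN : 0 < N) (γ : SL(2, ℤ)) : ∃ (γ₁ : SL(2, ℤ)) (α β δ : ℤ),
    0 < α ∧ 0 < δ ∧ α * δ = N ^ 2 ∧ (N : ℤ) ^ 2 * γ 0 0 = γ₁ 0 0 * α ∧
    (N : ℤ) ^ 2 * γ 0 1 = γ₁ 0 0 * β + γ₁ 0 1 * δ ∧ γ 1 0 = γ₁ 1 0 * α ∧
    γ 1 1 = γ₁ 1 0 * β + γ₁ 1 1 * δ := by
  have hN0 : (N : ℤ) ≠ 0 := by exact_mod_cast hN.ne'
  have hdet : γ 0 0 * γ 1 1 - γ 0 1 * γ 1 0 = 1 := by
    have := γ.2
    rwa [Matrix.det_fin_two] at this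
  set α : ℤ := ((Int.gcd ((N : ℤ) ^ 2 * γ 0 0) (γ 1 0) : ℕ) : ℤ) with hα
  have hα0 : 0 < Int.gcd ((N : ℤ) ^ 2 * γ 0 0) (γ 1 0) := by
    rw [Int.gcd_pos_iff]
    by_contra h
    push Not at h
    obtain ⟨h1, h2⟩ := h
    have h3 : γ 0 0 = 0 := by
      rcases mul_eq_zero.mp h1 with h | h
      · exact absurd (pow_eq_zero_iff (two_ne_zero)|>.mp h) hN0
      · exact h
    rw [h3, h2] at hdet
    norm_num at hdet
  obtain ⟨p, q, hpq, hp, hq⟩ : ∃ p q : ℤ, IsCoprime p q ∧ (N : ℤ) ^ 2 * γ 0 0 = p * α ∧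
      γ 1 0 = q * α := by
    obtain ⟨p, q, h1, h2, h3⟩ := Int.exists_gcd_one hα0
    exact ⟨p, q, Int.isCoprime_iff_gcd_eq_one.mpr h1, h2, h3⟩
  obtain ⟨s, r, hsr⟩ := hpq
  let γ₁ : SL(2, ℤ) := ⟨!![p, -r; q, s], by rw [Matrix.det_fin_two_of]; linear_combination hsr⟩
  have g1 : γ₁ 0 0 = p := rfl
  have g2 : γ₁ 0 1 = -r := rfl
  have g3 : γ₁ 1 0 = q := rfl
  have g4 : γ₁ 1 1 = s := rfl
  have hαδ : α * (-q * ((N : ℤ) ^ 2 * γ 0 1) + p * γ 1 1) = N ^ 2 := by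
    linear_combination (-γ 1 1) * hp + (N : ℤ) ^ 2 * γ 0 1 * hq + (N : ℤ) ^ 2 * hdet
  have hαp : 0 < α := Int.natCast_pos.mpr hα0
  refine ⟨γ₁, α, s * ((N : ℤ) ^ 2 * γ 0 1) + r * γ 1 1, -q * ((N : ℤ) ^ 2 * γ 0 1) + p * γ 1 1,
    hαp, ?_, hαδ, by rw [g1, hp], ?_, by rw [g3, hq], ?_⟩
  · have : 0 < α * (-q * ((N : ℤ) ^ 2 * γ 0 1) + p * γ 1 1) := by
      rw [hαδ]; positivity
    exact (pos_iff_pos_of_mul_pos this).mp hαp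
  · rw [g1, g2]
    linear_combination (-((N : ℤ) ^ 2 * γ 0 1)) * hsr
  · rw [g3, g4]
    linear_combination (-γ 1 1) * hsr

theorem moebius_aux {A B D N2 δ α β τ a b : ℂ} (hδ : δ ≠ 0) (hD : D ≠ 0) (e1 : N2 * a = A * α)
    (e2 : N2 * b = A * β + B * δ) :
    (A * ((α * τ + β) / δ) + B) / (δ⁻¹ * D) = N2 * ((a * τ + b) / D) := by
  field_simp
  linear_combination (-τ) * e1 - e2

/-- **The theta kernel of level `N` at the cusps.** -/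
theorem TN_cusp {N : ℕ} (hN : 0 < N) (γ : SL(2, ℤ)) : ∃ (α β δ : ℤ) (c : Fin 3 → ℂ) (x y : ℤ),
    0 < α ∧ 0 < δ ∧ α * δ = N ^ 2 ∧
    ∀ (m : Fin 2) (τ τ₂ : UpperHalfPlane), (τ₂ : ℂ) = (α * τ + β) / δ → ∀ w : H3,
      TN m N (γ • τ) w = Jf m (dn γ τ) *
        ∑ k : Fin 3, c k * th m (k : ℤ) τ₂ w ((x / N : ℝ) • x0) ((y / N : ℝ) • x0) := by
  have hN0 : (N : ℝ) ≠ 0 := by exact_mod_cast hN.ne'
  have hN1 : (N : ℂ) ≠ 0 := by exact_mod_cast hN.ne'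
  obtain ⟨γ₁, α, β, δ, hα, hδ, hαδ, e1, e2, e3, e4⟩ := exists_decomp hN γ
  obtain ⟨ρ, hρ⟩ := exists_law γ₁
  refine ⟨α, β, δ, fun k => (N : ℂ)⁻¹ * (δ : ℂ)⁻¹ * ρ 0 k, -γ₁ 0 0, γ₁ 0 1, hα, hδ, hαδ, ?_⟩
  intro m τ τ₂ hτ₂ w
  have hδ0 : (δ : ℂ) ≠ 0 := by exact_mod_cast hδ.ne'
  have hd0 := dn_ne_zero γ τ
  have hd1 := dn_ne_zero γ₁ τ₂
  have hdn : dn γ₁ τ₂ = ((δ : ℝ)⁻¹ : ℝ) * dn γ τ := by
    rw [dn, dn, hτ₂, e3, e4]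
    push_cast
    field_simp
    ring
  have hγτ : ((γ₁ • τ₂ : UpperHalfPlane) : ℂ) = (N : ℂ) ^ 2 * ((γ • τ : UpperHalfPlane) : ℂ) := by
    have e1' : (N : ℂ) ^ 2 * (γ 0 0 : ℂ) = γ₁ 0 0 * α := by exact_mod_cast e1
    have e2' : (N : ℂ) ^ 2 * (γ 0 1 : ℂ) = γ₁ 0 0 * β + γ₁ 0 1 * δ := by exact_mod_cast e2
    rw [coe_smul_SL, coe_smul_SL, hdn, hτ₂, ofReal_inv]
    exact moebius_aux hδ0 hd0 e1' e2'
  have hx : cX γ₁ (-(N : ℝ)⁻¹ • x0) 0 = (((-γ₁ 0 0 : ℤ) : ℝ) / N) • x0 := by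
    rw [cX, smul_zero, sub_zero, smul_smul]
    congr 1
    push_cast
    field_simp
  have hy : cY γ₁ (-(N : ℝ)⁻¹ • x0) 0 = (((γ₁ 0 1 : ℤ) : ℝ) / N) • x0 := by
    rw [cY, smul_zero, zero_sub, smul_smul, ← neg_smul]
    congr 1
    field_simp
  rw [TN_eq_th m hN (γ • τ) (γ₁ • τ₂) hγτ]
  have h := hρ m 0 τ₂ w (-(N : ℝ)⁻¹ • x0) 0
  have h0 : (((0 : Fin 3) : ℕ) : ℤ) = 0 := rfl
  rw [h0] at h
  rw [h, hdn, Jf_mul, Jf_ofReal, hx, hy]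
  simp_rw [Finset.mul_sum]
  apply Finset.sum_congr rfl
  intro k _
  push_cast
  ring

theorem exists_aff {α β δ : ℤ} (hα : 0 < α) (hδ : 0 < δ) (τ : UpperHalfPlane) :
    ∃ τ₂ : UpperHalfPlane, (τ₂ : ℂ) = (α * τ + β) / δ ∧ τ₂.im = (α / δ : ℝ) * τ.im ∧
      τ₂.re = (α * τ.re + β) / δ := by
  have h1 : ((α * τ + β) / δ : ℂ) = (((α * τ.re + β) / δ : ℝ) : ℂ) + ((α / δ : ℝ) * τ.im : ℝ) * I := by
    have : (τ : ℂ) = τ.re + τ.im * I := (Complex.re_add_im (τ : ℂ)).symm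
    rw [this]
    push_cast
    ring
  have h2 : ((α * τ + β) / δ : ℂ).im = (α / δ : ℝ) * τ.im := by
    rw [h1]; simp
  have h3 : ((α * τ + β) / δ : ℂ).re = (α * τ.re + β) / δ := by
    rw [h1]; simp
  have hα' : (0 : ℝ) < α := by exact_mod_cast hα
  have hδ' : (0 : ℝ) < δ := by exact_mod_cast hδ
  refine ⟨⟨(α * τ + β) / δ, ?_⟩, rfl, h2, h3⟩
  rw [h2]
  have := τ.im_pos
  positivity

end Fermat.Agent.LT.Th
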