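import Fermat.Agent.LT.Th.LawG

set_option autoImplicit false
set_option linter.unusedSimpArgs false

/-!
# The transformation laws of the theta kernels: `Γ₁(3)`, level `N`, cusps
-/

namespace Fermat.Agent.LT.Th

open Matrix ComplexConjugate MeasureTheory Complex
open scoped Real MatrixGroups

theorem ker_add_int (m : Fin 2) (n : ℤ) (τ τ' : UpperHalfPlane) (h : (τ' : ℂ) = τ + n) (w : H3)
    (X : HM) : ker m τ' w X = ker m τ w X * e (n * HM.q X) := by
  have him : τ'.im = τ.im := by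
    have := congrArg Complex.im h
    simpa using this
  have hre : τ'.re = τ.re + n := by
    have := congrArg Complex.re h
    simpa using this
  rw [ker, ker, him, hre, mul_assoc _ (e _) (e _), ← e_add]
  congr 2
  push_cast
  ring

/-- the law for integral translations -/
theorem T_law_int (m : Fin 2) (j n : ℤ) (τ τ' : UpperHalfPlane) (h : (τ' : ℂ) = τ + n) (w : H3)
    (X0 Y0 : HM) :
    th m j τ' w X0 Y0 = e (n * j ^ 2 / 3) * th m j τ w X0 (Y0 - (n : ℝ) • X0) := by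
  rw [th, th, ← tsum_mul_left]
  apply tsum_congr
  intro k
  obtain ⟨r, hr⟩ := q_lp j k
  rw [ker_add_int m n τ τ' h, mul_assoc, ← e_add, mul_left_comm, ← e_add,
    ← e_add_int ((n : ℂ) * (j : ℂ) ^ 2 / 3 + _) (n * r)]
  congr 2
  rw [sub_eq_add_neg (lp j k) X0, sub_eq_add_neg Y0 _, HM.q_add, HM.q_neg, hr, HM.B_neg_right,
    HM.B_add_right, HM.B_add_right, HM.B_neg_right, HM.B_neg_right, HM.B_smul_right,
    HM.B_smul_right, HM.B_self]
  push_cast
  ring

/-- the law for the theta function with `j = 0` -/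
def ThRow (γ : SL(2, ℤ)) : Prop :=
  ∀ (m : Fin 2) (τ : UpperHalfPlane) (w : H3) (X0 Y0 : HM),
    th m 0 (γ • τ) w X0 Y0 = Jf m (dn γ τ) * th m 0 τ w (cX γ X0 Y0) (cY γ X0 Y0)

theorem ThRow.mul {γ γ' : SL(2, ℤ)} (h : ThRow γ) (h' : ThRow γ') : ThRow (γ * γ') := by
  intro m τ w X0 Y0
  rw [mul_smul, h, dn_mul, Jf_mul, h', ← cX_mul, ← cY_mul, mul_assoc]

theorem row_T_zpow (n : ℤ) : ThRow (ModularGroup.T ^ n) := by
  intro m τ w X0 Y0
  have h := T_law_int m 0 n τ (ModularGroup.T ^ n • τ) (ModularGroup.coe_T_zpow_smul_eq τ) w X0 Y0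
  have h1 : dn (ModularGroup.T ^ n) τ = 1 := by simp [dn, ModularGroup.coe_T_zpow, -map_zpow]
  have h2 : cX (ModularGroup.T ^ n) X0 Y0 = X0 := by simp [cX, ModularGroup.coe_T_zpow, -map_zpow]
  have h3 : cY (ModularGroup.T ^ n) X0 Y0 = Y0 - (n : ℝ) • X0 := by
    simp [cY, ModularGroup.coe_T_zpow, -map_zpow]
  rw [h, h1, h2, h3, Jf_one]
  simp [e_zero]

/-- the matrices `(1, 0; 3k, 1)` -/
def Uk (k : ℤ) : SL(2, ℤ) := ⟨!![1, 0; 3 * k, 1], by simp [Matrix.det_fin_two]⟩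

theorem coe_Uk (k : ℤ) : (Uk k).1 = !![1, 0; 3 * k, 1] := rfl

theorem Uk_mul (k l : ℤ) : Uk k * Uk l = Uk (k + l) := by
  apply Subtype.ext
  rw [Matrix.SpecialLinearGroup.coe_mul]
  simp [Uk, Matrix.mul_fin_two]
  ring

theorem row_Uk (k : ℤ) : ThRow (Uk k) := by
  intro m τ w X0 Y0
  have hτ := τ.ne_zero
  have hd0 := dn_ne_zero (Uk k) τ
  have hd : dn (Uk k) τ = 3 * k * τ + 1 := by simp [dn, coe_Uk]
  have hx : cX (Uk k) X0 Y0 = X0 - (3 * k : ℝ) • Y0 := by simp [cX, coe_Uk]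
  have hy : cY (Uk k) X0 Y0 = Y0 := by simp [cY, coe_Uk]
  have hU : ((Uk k • τ : UpperHalfPlane) : ℂ) = τ / dn (Uk k) τ := by
    rw [coe_smul_SL]
    simp [coe_Uk]
  have hS : ((ModularGroup.S • τ : UpperHalfPlane) : ℂ) = -(τ : ℂ)⁻¹ := by
    rw [coe_smul_SL]
    simp [dn, ModularGroup.S]
    field_simp
  set σ : UpperHalfPlane := ModularGroup.S • τ with hσ
  set σ' : UpperHalfPlane := ModularGroup.T ^ (-(3 * k)) • σ with hσ'
  have h0 : (σ' : ℂ) = σ + ((-(3 * k) : ℤ) : ℂ) := ModularGroup.coe_T_zpow_smul_eq σ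
  have h1 : (σ : ℂ) * τ = -1 := by rw [hS]; field_simp
  have h2 : (σ' : ℂ) * ((Uk k • τ : UpperHalfPlane) : ℂ) = -1 := by
    rw [h0, hS, hU, hd]
    rw [hd] at hd0
    push_cast
    rw [mul_div_assoc', div_eq_iff hd0]
    field_simp
    ring
  have h3 : ((√3 : ℝ) : ℂ) ≠ 0 := ofReal_ne_zero.mpr (by positivity)
  have hJ := Jf_ne_zero m hτ
  have hJ' := Jf_ne_zero m hd0
  rw [S_law m 0 _ σ' h2 w X0 Y0, hx, hy, S_law m 0 τ σ h1 w, hU, div_eq_mul_inv (τ : ℂ), Jf_mul,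
    Jf_inv]
  have h4 : ∀ i : Fin 3, th m (i : ℤ) σ' w Y0 (-X0) = th m (i : ℤ) σ w Y0 (-(X0 - (3 * k : ℝ) • Y0)) := by
    intro i
    rw [T_law_int m i _ σ σ' h0]
    have h5 : (((-(3 * k) : ℤ) : ℂ) * ((i : ℤ) : ℂ) ^ 2 / 3) = ((-(k * (i : ℤ) ^ 2) : ℤ) : ℂ) := by
      push_cast
      ring
    rw [h5, e_int, one_mul]
    congr 1
    push_cast
    module
  simp_rw [h4]
  field_simp

theorem exists_near_int (a b : ℤ) (hb : b ≠ 0) : ∃ n : ℤ, 2 * |a + b * n| ≤ |b| := by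
  refine ⟨-round ((a : ℚ) / b), ?_⟩
  have h := abs_sub_round ((a : ℚ) / b)
  have hb' : (b : ℚ) ≠ 0 := by exact_mod_cast hb
  have h1 : ((a + b * -round ((a : ℚ) / b) : ℤ) : ℚ) = b * ((a : ℚ) / b - round ((a : ℚ) / b)) := by
    push_cast
    field_simp
    ring
  have h2 : (2 * |((a + b * -round ((a : ℚ) / b) : ℤ) : ℚ)|) ≤ |(b : ℚ)| := by
    rw [h1, abs_mul]
    nlinarith [abs_nonneg (b : ℚ)]
  exact_mod_cast h2

theorem T_zpow_apply (n : ℤ) : (ModularGroup.T ^ n : SL(2, ℤ)) 0 0 = 1 ∧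
    (ModularGroup.T ^ n : SL(2, ℤ)) 0 1 = n ∧ (ModularGroup.T ^ n : SL(2, ℤ)) 1 0 = 0 ∧
    (ModularGroup.T ^ n : SL(2, ℤ)) 1 1 = 1 := by
  have h := ModularGroup.coe_T_zpow n
  refine ⟨?_, ?_, ?_, ?_⟩ <;>
  · rw [h]
    simp

/-- **The law for `Γ₁(3)`.** -/
theorem row_of_mem (γ : SL(2, ℤ)) (hc : 3 ∣ γ 1 0) (hd : γ 1 1 % 3 = 1) : ThRow γ := by
  induction hn : (γ 1 0).natAbs using Nat.strong_induction_on generalizing γ with
  | _ n ih =>
    have hdet : γ 0 0 * γ 1 1 - γ 0 1 * γ 1 0 = 1 := by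
      have := γ.2
      rwa [Matrix.det_fin_two] at this
    by_cases hc0 : γ 1 0 = 0
    · rw [hc0, mul_zero, sub_zero] at hdet
      have h1 : γ 1 1 = 1 := by
        rcases Int.eq_one_or_neg_one_of_mul_eq_one' hdet with ⟨_, h⟩ | ⟨_, h⟩
        · exact h
        · rw [h] at hd; norm_num at hd
      have h0 : γ 0 0 = 1 := by rw [h1, mul_one] at hdet; exact hdet
      have hγ : γ = ModularGroup.T ^ (γ 0 1) := by
        obtain ⟨t1, t2, t3, t4⟩ := T_zpow_apply (γ 0 1)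
        ext i j
        fin_cases i <;> fin_cases j
        · exact h0.trans t1.symm
        · exact t2.symm
        · exact hc0.trans t3.symm
        · exact h1.trans t4.symm
      rw [hγ]
      exact row_T_zpow _
    · obtain ⟨r, hr⟩ := exists_near_int (γ 1 1) (γ 1 0) hc0
      set d' := γ 1 1 + γ 1 0 * r with hd'
      have hd0 : d' ≠ 0 := by
        intro h0
        have h1 : γ 1 1 = -(γ 1 0 * r) := by linarith
        rw [h1] at hdet
        have h2 : γ 1 0 ∣ 1 := ⟨-(γ 0 0 * r) - γ 0 1, by linear_combination -hdet⟩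
        have h3 : (3 : ℤ) ∣ 1 := hc.trans h2
        norm_num at h3
      obtain ⟨c, hc'⟩ := hc
      obtain ⟨s, hs⟩ := exists_near_int c d' hd0
      set γ' := γ * ModularGroup.T ^ r * Uk s with hγ'
      have hγγ : γ = γ' * Uk (-s) * ModularGroup.T ^ (-r) := by
        rw [hγ', mul_assoc _ (Uk s), Uk_mul, add_neg_cancel]
        have : Uk 0 = 1 := by
          apply Subtype.ext
          rw [coe_Uk]
          ext i j
          fin_cases i <;> fin_cases j <;> simp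
        rw [this, mul_one, mul_assoc, ← _root_.zpow_add, add_neg_cancel, zpow_zero, mul_one]
      obtain ⟨t1, t2, t3, t4⟩ := T_zpow_apply r
      have u1 : Uk s 0 0 = 1 := rfl
      have u2 : Uk s 0 1 = 0 := rfl
      have u3 : Uk s 1 0 = 3 * s := rfl
      have u4 : Uk s 1 1 = 1 := rfl
      have hcc : γ' 1 0 = 3 * (c + d' * s) := by
        simp only [hγ', Matrix.SpecialLinearGroup.coe_mul, Matrix.mul_apply, Fin.sum_univ_two]
        rw [t1, t2, t3, t4, u1, u3, hd', hc']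
        ring
      have hdd : γ' 1 1 = d' := by
        simp only [hγ', Matrix.SpecialLinearGroup.coe_mul, Matrix.mul_apply, Fin.sum_univ_two]
        rw [t1, t2, t3, t4, u2, u4, hd']
        ring
      have hrow : ThRow γ' := by
        refine ih _ ?_ γ' ⟨_, hcc⟩ ?_ rfl
        · rw [← hn, hcc]
          zify
          have e1 : |γ 1 0| = 3 * |c| := by rw [hc', abs_mul]; rfl
          have e2 : |3 * (c + d' * s)| = 3 * |c + d' * s| := by rw [abs_mul]; rfl
          rw [e2, e1]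
          rw [e1] at hr
          have : 0 < |c| := by
            rw [abs_pos]
            rintro rfl
            exact hc0 (by rw [hc', mul_zero])
          linarith
        · rw [hdd, hd', hc', mul_assoc, Int.add_mul_emod_self_left]
          exact hd
      rw [hγγ]
      exact (hrow.mul (row_Uk _)).mul (row_T_zpow _)

end Fermat.Agent.LT.Th
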