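import Fermat.Agent.LT.Th.Laws

set_option autoImplicit false
set_option linter.unusedSimpArgs false

/-!
# The transformation laws of the theta functions: `S` and `T`
-/

namespace Fermat.Agent.LT.Th

open Matrix ComplexConjugate MeasureTheory Complex
open scoped Real

theorem q_dl : HM.q dl = 1 / 3 := by
  have h : √3 * √3 = 3 := Real.mul_self_sqrt (by norm_num)
  simp only [HM.q, dl, s3_inv, Complex.normSq_apply]
  linear_combination (1 / 9) * h

theorem B_dl_lp_zero (l : Fin 4 → ℤ) : HM.B dl (lp 0 l) = -l 3 := by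
  have h : √3 * √3 = 3 := Real.mul_self_sqrt (by norm_num)
  rw [lp_zero]
  simp only [HM.B, dl, s3_inv, om, Complex.add_re, Complex.add_im, Complex.mul_re, Complex.mul_im,
    Complex.conj_re, Complex.conj_im, Complex.intCast_re, Complex.intCast_im]
  linear_combination (-l 3 / 3 : ℝ) * h

theorem B_dl_lp (k : ℤ) (l : Fin 4 → ℤ) : HM.B dl (lp k l) = 2 * k / 3 - l 3 := by
  rw [lp_eq, HM.B_add_right, B_dl_lp_zero, HM.B_smul_right, HM.B_self, q_dl]
  ring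

theorem q_lp_zero (l : Fin 4 → ℤ) :
    HM.q (lp 0 l) = ((l 2 ^ 2 - l 2 * l 3 + l 3 ^ 2 - l 0 * l 1 : ℤ) : ℝ) := by
  rw [lp_zero, HM.q, normSq_Oe]
  push_cast
  ring

/-- the norm of a point of `L + j δ` -/
theorem q_lp (j : ℤ) (l : Fin 4 → ℤ) : ∃ n : ℤ, HM.q (lp j l) = (j : ℝ) ^ 2 / 3 + n := by
  refine ⟨(l 2 ^ 2 - l 2 * l 3 + l 3 ^ 2 - l 0 * l 1) - j * l 3, ?_⟩
  rw [lp_eq, HM.q_add, HM.q_smul, q_dl, q_lp_zero, HM.B_comm, HM.B_smul_left, B_dl_lp_zero]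
  push_cast
  ring

theorem B_lp_zero (k l : Fin 4 → ℤ) : ∃ n : ℤ, HM.B (lp 0 k) (lp 0 l) = n := by
  refine ⟨2 * k 2 * l 2 + 2 * k 3 * l 3 - k 2 * l 3 - k 3 * l 2 - k 0 * l 1 - l 0 * k 1, ?_⟩
  have h : √3 * √3 = 3 := Real.mul_self_sqrt (by norm_num)
  rw [lp_zero, lp_zero]
  simp only [HM.B, om, Complex.add_re, Complex.add_im, Complex.mul_re, Complex.mul_im,
    Complex.conj_re, Complex.conj_im, Complex.intCast_re, Complex.intCast_im]
  push_cast
  linear_combination (k 3 * l 3 / 2 : ℝ) * h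

theorem e_add_int (x : ℂ) (n : ℤ) : e (x + n) = e x := by
  rw [e_add, e_int, mul_one]

/-- the summand of the theta function as a function on `ℝ⁴` -/
noncomputable def thf (m : Fin 2) (j : ℤ) (τ : UpperHalfPlane) (w : H3) (X0 Y0 : HM)
    (x : Fin 4 → ℝ) : ℂ :=
  ker m τ w (cr x + ((j : ℝ) • dl - X0)) * e ((HM.B (cr x + (j : ℝ) • dl) Y0 - HM.B X0 Y0 / 2 : ℝ))

theorem th_eq_thf (m : Fin 2) (j : ℤ) (τ : UpperHalfPlane) (w : H3) (X0 Y0 : HM) :
    th m j τ w X0 Y0 = ∑' k : Fin 4 → ℤ, thf m j τ w X0 Y0 (zc k) := by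
  unfold th thf
  apply tsum_congr
  intro k
  rw [lp, add_sub_assoc]
  rfl

theorem continuous_thf (m : Fin 2) (j : ℤ) (τ : UpperHalfPlane) (w : H3) (X0 Y0 : HM) :
    Continuous (thf m j τ w X0 Y0) := by
  unfold thf
  have h1 := continuous_ker_X m τ w
  have h2 := continuous_e
  have h3 := continuous_B_X Y0
  have h4 := continuous_cr
  fun_prop

theorem exists_thf_le (m : Fin 2) (j : ℤ) (τ : UpperHalfPlane) (w : H3) (X0 Y0 : HM) :
    ∃ C : ℝ, ∀ x, ‖thf m j τ w X0 Y0 x‖ ≤ C * pwt x := by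
  obtain ⟨C, hC⟩ := exists_ker_le_pwt m τ w ((j : ℝ) • dl - X0)
  refine ⟨C, fun x => ?_⟩
  rw [thf, norm_mul, norm_e, mul_one]
  exact hC x

theorem ee_neg_pmd (k : Fin 3) (l : Fin 4 → ℤ) (x : Fin 4 → ℝ) :
    ee (-(pmd k l)) x = e (-(HM.B (cr x) (lp (k : ℤ) l) : ℝ)) := by
  rw [B_cr_lp, ee, e]
  congr 1
  simp only [Pi.neg_apply]
  push_cast
  rw [← Finset.sum_neg_distrib]
  congr 1
  apply Finset.sum_congr rfl
  intro i _
  ring

/-- the Fourier transform of the summand -/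
theorem FT_thf (m : Fin 2) (j : ℤ) (τ τ' : UpperHalfPlane) (h : (τ' : ℂ) * τ = -1) (w : H3)
    (X0 Y0 : HM) (k : Fin 3) (l : Fin 4 → ℤ) :
    FT (thf m j τ w X0 Y0) (pmd k l) =
      I / (√3 * Jf m τ) * (e (2 * j * k / 3) * (ker m τ' w (lp (k : ℤ) l - Y0) *
        e ((HM.B (lp (k : ℤ) l) (-X0) - HM.B Y0 (-X0) / 2 : ℝ)))) := by
  obtain ⟨xc, hxc⟩ := cr_surjective ((j : ℝ) • dl - X0)
  have h1 : FT (thf m j τ w X0 Y0) (pmd k l) = ∫ x : Fin 4 → ℝ,
      e ((HM.B ((j : ℝ) • dl - X0) (lp (k : ℤ) l) + HM.B X0 Y0 / 2 : ℝ)) *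
      (ker m τ w (cr (x + xc)) * e (-(HM.B (cr (x + xc)) (lp (k : ℤ) l - Y0) : ℝ))) := by
    unfold FT
    apply integral_congr_ae
    filter_upwards with x
    rw [ee_neg_pmd, thf, cr_add, hxc]
    have h2 : ∀ a b c d : ℂ, a * (b * c) = b * (a * c) := by intros; ring
    rw [mul_left_comm, ← e_add, mul_left_comm (e _) (ker m τ w _), ← e_add]
    congr 2
    have h3 : HM.B X0 Y0 = HM.B ((j : ℝ) • dl) Y0 - HM.B ((j : ℝ) • dl - X0) Y0 := by
      rw [sub_eq_add_neg _ X0, HM.B_add_left, HM.B_neg_left]; ring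
    rw [sub_eq_add_neg (lp _ _) Y0, HM.B_add_right, HM.B_neg_right]
    rw [HM.B_add_left (cr x) ((j : ℝ) • dl) Y0,
      HM.B_add_left (cr x) ((j : ℝ) • dl - X0), HM.B_add_left (cr x) ((j : ℝ) • dl - X0) Y0]
    rw [h3]
    push_cast
    ring
  rw [h1, integral_const_mul]
  have h2 := integral_add_right_eq_self (μ := (volume : Measure (Fin 4 → ℝ)))
    (fun x : Fin 4 → ℝ => ker m τ w (cr x) * e (-(HM.B (cr x) (lp (k : ℤ) l - Y0) : ℝ))) xc
  rw [h2, ft_ker m τ τ' h]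
  have h3 : e ((HM.B ((j : ℝ) • dl - X0) (lp (k : ℤ) l) + HM.B X0 Y0 / 2 : ℝ)) =
      e (2 * j * k / 3) * e ((HM.B (lp (k : ℤ) l) (-X0) - HM.B Y0 (-X0) / 2 : ℝ)) := by
    rw [← e_add, ← e_add_int (2 * (j : ℂ) * k / 3 + _) (-(j * l 3))]
    congr 1
    rw [sub_eq_add_neg _ X0, HM.B_add_left, HM.B_smul_left, B_dl_lp, HM.B_neg_left,
      HM.B_neg_right, HM.B_neg_right, HM.B_comm X0 (lp _ _), HM.B_comm Y0 X0]
    push_cast
    ring
  rw [h3]
  ring

/-- summation over `L^#` -/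
theorem summable_prod_fin {f : Fin 3 × (Fin 4 → ℤ) → ℂ} (h : ∀ k, Summable fun l => ‖f (k, l)‖) :
    Summable f := by
  apply Summable.of_norm
  rw [summable_prod_of_nonneg fun _ => norm_nonneg _]
  exact ⟨h, Summable.of_finite⟩

theorem summable_FT_thf (m : Fin 2) (j : ℤ) (τ τ' : UpperHalfPlane) (h : (τ' : ℂ) * τ = -1) (w : H3)
    (X0 Y0 : HM) : Summable fun p : Fin 3 × (Fin 4 → ℤ) => FT (thf m j τ w X0 Y0) (pmEquiv p) := by
  apply summable_prod_fin
  intro k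
  simp_rw [pmEquiv_apply, FT_thf m j τ τ' h w X0 Y0]
  have h1 := (summable_th m (k : ℤ) τ' w Y0 (-X0)).norm
  refine (h1.mul_left ‖I / (√3 * Jf m τ) * e (2 * j * k / 3)‖).congr fun l => ?_
  rw [← norm_mul]
  congr 1
  ring

/-- **The `S`-law.** -/
theorem S_law (m : Fin 2) (j : ℤ) (τ τ' : UpperHalfPlane) (h : (τ' : ℂ) * τ = -1) (w : H3)
    (X0 Y0 : HM) : th m j τ w X0 Y0 =
      I / (√3 * Jf m τ) * ∑ k : Fin 3, e (2 * j * k / 3) * th m (k : ℤ) τ' w Y0 (-X0) := by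
  obtain ⟨C, hC⟩ := exists_thf_le m j τ w X0 Y0
  have hs := summable_FT_thf m j τ τ' h w X0 Y0
  have hs' : Summable (fun n : Fin 4 → ℤ => FT (thf m j τ w X0 Y0) n) :=
    (pmEquiv.summable_iff).mp hs
  have h1 := poisson (continuous_thf m j τ w X0 Y0) hC hs' 0
  simp only [zero_add] at h1
  have h2 : ∀ n : Fin 4 → ℤ, ee n 0 = 1 := fun n => by simp [ee]
  simp only [h2, mul_one] at h1
  rw [th_eq_thf, h1, ← pmEquiv.tsum_eq, hs.tsum_prod, tsum_fintype, Finset.mul_sum]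
  apply Finset.sum_congr rfl
  intro k _
  simp_rw [pmEquiv_apply, FT_thf m j τ τ' h w X0 Y0]
  rw [tsum_mul_left, tsum_mul_left, th]

theorem ker_add_one (m : Fin 2) (τ τ' : UpperHalfPlane) (h : (τ' : ℂ) = τ + 1) (w : H3) (X : HM) :
    ker m τ' w X = ker m τ w X * e (HM.q X) := by
  have him : τ'.im = τ.im := by
    have := congrArg Complex.im h
    simpa using this
  have hre : τ'.re = τ.re + 1 := by
    have := congrArg Complex.re h
    simpa using this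
  rw [ker, ker, him, hre, mul_assoc _ (e _) (e _), ← e_add]
  congr 2
  push_cast
  ring

/-- **The `T`-law.** -/
theorem T_law (m : Fin 2) (j : ℤ) (τ τ' : UpperHalfPlane) (h : (τ' : ℂ) = τ + 1) (w : H3)
    (X0 Y0 : HM) : th m j τ' w X0 Y0 = e (j ^ 2 / 3) * th m j τ w X0 (Y0 - X0) := by
  rw [th, th, ← tsum_mul_left]
  apply tsum_congr
  intro k
  obtain ⟨n, hn⟩ := q_lp j k
  rw [ker_add_one m τ τ' h, mul_assoc, ← e_add, mul_left_comm, ← e_add,
    ← e_add_int ((j : ℂ) ^ 2 / 3 + _) n]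
  congr 2
  rw [sub_eq_add_neg (lp j k) X0, sub_eq_add_neg Y0 X0, HM.q_add, HM.q_neg, hn, HM.B_neg_right,
    HM.B_add_right, HM.B_add_right, HM.B_neg_right, HM.B_neg_right, HM.B_self]
  push_cast
  ring

/-- the sign law -/
theorem neg_law (m : Fin 2) (j : ℤ) (τ : UpperHalfPlane) (w : H3) (X0 Y0 : HM) :
    th m j τ w (-X0) (-Y0) = th m (-j) τ w X0 Y0 := by
  rw [th, th, ← (Equiv.neg (Fin 4 → ℤ)).tsum_eq]
  apply tsum_congr
  intro k
  have h1 : lp j ((Equiv.neg (Fin 4 → ℤ)) k) = -lp (-j) k := by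
    rw [lp_eq, lp_eq (-j), lp_zero, lp_zero]
    simp only [Equiv.neg_apply, Pi.neg_apply]
    push_cast
    rw [neg_smul, neg_add, neg_neg, Prod.neg_mk, Prod.neg_mk]
    congr 4
    ring
  rw [h1]
  have h2 : ker m τ w (-lp (-j) k - -X0) = ker m τ w (lp (-j) k - X0) := by
    rw [← neg_sub', ker, ker, HM.t_neg, neg_sq, HM.q_neg, HM.Q, HM.Q, HM.t_neg, neg_sq, HM.q_neg]
  rw [h2, HM.B_neg_left, HM.B_neg_right, HM.B_neg_left, HM.B_neg_right, neg_neg, neg_neg]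

theorem three_dl : (3 : ℝ) • dl = lp 0 ![0, 0, -1, -2] := by
  rw [lp_zero, dl]
  have h : √3 * √3 = 3 := Real.mul_self_sqrt (by norm_num)
  simp only [Prod.smul_mk, smul_zero, Matrix.cons_val_zero, Matrix.cons_val_one, Matrix.cons_val,
    Int.cast_zero]
  refine Prod.ext rfl (Prod.ext rfl ?_)
  simp only [Complex.real_smul, s3_inv, om]
  apply Complex.ext
  · simp; norm_num
  · simp
    ring

theorem lp_add (j : ℤ) (k l : Fin 4 → ℤ) : lp j (k + l) = lp j k + lp 0 l := by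
  have h : (fun i => (((k + l) i : ℤ) : ℝ)) = (fun i => (k i : ℝ)) + fun i => (l i : ℝ) := by
    funext i
    simp only [Pi.add_apply]
    push_cast
    ring
  rw [lp, lp, lp, h, cr_add, Int.cast_zero, zero_smul, add_zero]
  abel

/-- periodicity in `j` -/
theorem th_add_three (m : Fin 2) (j : ℤ) (τ : UpperHalfPlane) (w : H3) (X0 Y0 : HM) :
    th m (j + 3) τ w X0 Y0 = th m j τ w X0 Y0 := by
  symm
  rw [th, th, ← (Equiv.addRight (![0, 0, -1, -2] : Fin 4 → ℤ)).tsum_eq]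
  apply tsum_congr
  intro k
  have h1 : lp (j + 3) k = lp j (Equiv.addRight (![0, 0, -1, -2] : Fin 4 → ℤ) k) := by
    rw [Equiv.coe_addRight, lp_add, ← three_dl, lp, lp, add_assoc, ← add_smul]
    push_cast
    rfl
  rw [h1]

theorem th_add_three_mul (m : Fin 2) (j n : ℤ) (τ : UpperHalfPlane) (w : H3) (X0 Y0 : HM) :
    th m (j + 3 * n) τ w X0 Y0 = th m j τ w X0 Y0 := by
  induction n using Int.induction_on with
  | zero => simp
  | succ n ih => rw [mul_add, mul_one, ← add_assoc, th_add_three, ih]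
  | pred n ih => rw [← th_add_three, ← ih]; congr 1; ring

theorem th_congr (m : Fin 2) {j j' : ℤ} (h : j % 3 = j' % 3) (τ : UpperHalfPlane) (w : H3)
    (X0 Y0 : HM) : th m j τ w X0 Y0 = th m j' τ w X0 Y0 := by
  have h1 : j = j' + 3 * (j / 3 - j' / 3) := by omega
  rw [h1, th_add_three_mul]

/-- translation of the first characteristic by lattice vectors -/
theorem th_shift_left (m : Fin 2) (j : ℤ) (τ : UpperHalfPlane) (w : H3) (X0 Y0 : HM)
    (l : Fin 4 → ℤ) : th m j τ w (X0 + lp 0 l) Y0 =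
      e ((HM.B (lp 0 l) Y0 / 2 : ℝ)) * th m j τ w X0 Y0 := by
  rw [th, th, ← tsum_mul_left, ← (Equiv.addRight l).tsum_eq]
  apply tsum_congr
  intro k
  rw [Equiv.coe_addRight, lp_add, add_sub_add_right_eq_sub, mul_left_comm, ← e_add]
  congr 2
  rw [HM.B_add_left, HM.B_add_left]
  push_cast
  ring

/-- translation of the second characteristic by lattice vectors -/
theorem th_shift_right (m : Fin 2) (τ : UpperHalfPlane) (w : H3) (X0 Y0 : HM)
    (l : Fin 4 → ℤ) : th m 0 τ w X0 (Y0 + lp 0 l) =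
      e ((-HM.B X0 (lp 0 l) / 2 : ℝ)) * th m 0 τ w X0 Y0 := by
  rw [th, th, ← tsum_mul_left]
  apply tsum_congr
  intro k
  obtain ⟨n, hn⟩ := B_lp_zero k l
  rw [mul_left_comm, ← e_add, ← e_add_int (_ + _) n]
  congr 2
  rw [HM.B_add_right, HM.B_add_right, hn]
  push_cast
  ring

end Fermat.Agent.LT.Th
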