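import Fermat.Agent.LT.Th.Ker4
import Fermat.Agent.LT.Th.Lift

set_option autoImplicit false
set_option linter.unusedSimpArgs false

/-!
# The transformation laws of the theta functions: `S` and `T`
-/

namespace Fermat.Agent.LT.Th

open Matrix ComplexConjugate MeasureTheory Complex
open scoped Real

theorem cr_add (x y : Fin 4 → ℝ) : cr (x + y) = cr x + cr y := by
  simp only [cr, Pi.add_apply, Prod.mk_add_mk, ofReal_add]
  refine Prod.ext rfl (Prod.ext rfl ?_)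
  simp only
  ring

theorem cr_surjective (X : HM) : ∃ x, cr x = X := by
  have h3 : √3 ≠ 0 := by positivity
  refine ⟨![X.1, X.2.1, X.2.2.re + X.2.2.im / √3, 2 * X.2.2.im / √3], ?_⟩
  refine Prod.ext rfl (Prod.ext rfl ?_)
  simp only [cr, Matrix.cons_val, om]
  apply Complex.ext
  · simp only [add_re, mul_re, ofReal_re, ofReal_im]
    ring
  · simp only [add_im, mul_im, ofReal_re, ofReal_im]
    field_simp
    ring

/-! ### Bounds -/

theorem norm_ker_le_exp (m : Fin 2) (τ : UpperHalfPlane) (w : H3) (X : HM) :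
    ‖ker m τ w X‖ ≤ 4 * √τ.im * Real.exp (-π * τ.im * HM.Q w X) := by
  have hv := τ.im_pos
  have hQ := HM.Q_nonneg w X
  have hpi := Real.pi_pos
  have ht : HM.t w X ^ 2 ≤ HM.Q w X := by
    rw [Q_uc w X]
    have : uc w X 3 = HM.t w X := rfl
    rw [this]
    nlinarith [sq_nonneg (uc w X 0), sq_nonneg (uc w X 1), sq_nonneg (uc w X 2)]
  have hP : |P m (τ.im * HM.t w X ^ 2)| ≤ 4 * Real.exp (π * τ.im * HM.Q w X) := by
    have h1 : π * τ.im * HM.Q w X + 1 ≤ Real.exp (π * τ.im * HM.Q w X) := Real.add_one_le_exp _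
    have h2 : 0 ≤ π * τ.im * HM.Q w X := by positivity
    have h3 : π * τ.im * HM.t w X ^ 2 ≤ π * τ.im * HM.Q w X :=
      mul_le_mul_of_nonneg_left ht (by positivity)
    have h4 : 0 ≤ π * τ.im * HM.t w X ^ 2 := by positivity
    rw [P]
    split_ifs
    · rw [abs_one]; linarith
    · rw [abs_le]
      constructor <;> nlinarith
  rw [ker, norm_mul, ← ofReal_mul τ.re, norm_e, mul_one, norm_real, Real.norm_eq_abs, abs_mul, abs_mul,
    abs_of_nonneg (Real.sqrt_nonneg _), abs_of_pos (Real.exp_pos _)]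
  have h5 : Real.exp (-2 * π * τ.im * HM.Q w X) =
      Real.exp (-π * τ.im * HM.Q w X) * Real.exp (-π * τ.im * HM.Q w X) := by
    rw [← Real.exp_add]; congr 1; ring
  have h6 : Real.exp (π * τ.im * HM.Q w X) * Real.exp (-π * τ.im * HM.Q w X) = 1 := by
    rw [← Real.exp_add]; simp
  rw [h5]
  calc √τ.im * |P m (τ.im * HM.t w X ^ 2)| *
        (Real.exp (-π * τ.im * HM.Q w X) * Real.exp (-π * τ.im * HM.Q w X))
      ≤ √τ.im * (4 * Real.exp (π * τ.im * HM.Q w X)) *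
        (Real.exp (-π * τ.im * HM.Q w X) * Real.exp (-π * τ.im * HM.Q w X)) := by
        apply mul_le_mul_of_nonneg_right _ (by positivity)
        exact mul_le_mul_of_nonneg_left hP (Real.sqrt_nonneg _)
    _ = 4 * √τ.im * (Real.exp (π * τ.im * HM.Q w X) * Real.exp (-π * τ.im * HM.Q w X)) *
        Real.exp (-π * τ.im * HM.Q w X) := by ring
    _ = _ := by rw [h6, mul_one]

theorem exists_norm_le_Q (w : H3) (c : HM) :
    ∃ K : ℝ, 0 < K ∧ ∀ x : Fin 4 → ℝ, 1 + ‖x‖ ^ 2 ≤ K * (1 + HM.Q w (cr x + c)) := by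
  have hdet : IsUnit (uM w).det := by
    rw [det_uM]; exact (by positivity : (√3 / 4 : ℝ) ≠ 0).isUnit
  let L := LinearMap.toContinuousLinearMap (Matrix.toLin' (uM w)⁻¹)
  set M := ‖L‖
  set c' := uc w c
  refine ⟨1 + 2 * M ^ 2 * (1 + ‖c'‖ ^ 2), by positivity, fun x => ?_⟩
  have h1 : x = L (uM w *ᵥ x) := by
    change x = (uM w)⁻¹ *ᵥ (uM w *ᵥ x)
    rw [Matrix.mulVec_mulVec, Matrix.nonsing_inv_mul _ hdet, Matrix.one_mulVec]
  have h2 : uM w *ᵥ x = uc w (cr x + c) - c' := by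
    rw [uc_add, uc_cr, add_sub_cancel_right]
  set u := uc w (cr x + c) with hu
  have h3 : ‖x‖ ≤ M * (‖u‖ + ‖c'‖) := by
    calc ‖x‖ = ‖L (uM w *ᵥ x)‖ := by rw [← h1]
      _ ≤ M * ‖uM w *ᵥ x‖ := L.le_opNorm _
      _ ≤ M * (‖u‖ + ‖c'‖) := by
        rw [h2]
        exact mul_le_mul_of_nonneg_left (norm_sub_le _ _) (norm_nonneg _)
  have h4 : ‖u‖ ^ 2 ≤ HM.Q w (cr x + c) := by
    have h5 : ∀ i, u i ^ 2 ≤ HM.Q w (cr x + c) := by
      intro i
      rw [Q_uc w (cr x + c), ← hu]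
      fin_cases i <;> simp only [Fin.zero_eta, Fin.mk_one, Fin.reduceFinMk] <;>
        nlinarith [sq_nonneg (u 0), sq_nonneg (u 1), sq_nonneg (u 2), sq_nonneg (u 3)]
    have h6 : ‖u‖ ≤ √(HM.Q w (cr x + c)) := by
      rw [pi_norm_le_iff_of_nonneg (Real.sqrt_nonneg _)]
      intro i
      rw [Real.norm_eq_abs]
      exact Real.abs_le_sqrt (h5 i)
    calc ‖u‖ ^ 2 ≤ √(HM.Q w (cr x + c)) ^ 2 := pow_le_pow_left₀ (norm_nonneg _) h6 2
      _ = _ := Real.sq_sqrt (HM.Q_nonneg _ _)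
  have hQ := HM.Q_nonneg w (cr x + c)
  have h7 : ‖x‖ ^ 2 ≤ M ^ 2 * (2 * (‖u‖ ^ 2 + ‖c'‖ ^ 2)) := by
    calc ‖x‖ ^ 2 ≤ (M * (‖u‖ + ‖c'‖)) ^ 2 := pow_le_pow_left₀ (norm_nonneg _) h3 2
      _ = M ^ 2 * (‖u‖ + ‖c'‖) ^ 2 := by ring
      _ ≤ _ := mul_le_mul_of_nonneg_left (by nlinarith [sq_nonneg (‖u‖ - ‖c'‖)]) (sq_nonneg _)
  have h8 : M ^ 2 * (2 * (‖u‖ ^ 2 + ‖c'‖ ^ 2)) ≤
      M ^ 2 * (2 * (HM.Q w (cr x + c) + ‖c'‖ ^ 2)) := by
    apply mul_le_mul_of_nonneg_left _ (sq_nonneg _)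
    linarith
  nlinarith [mul_nonneg (sq_nonneg M) hQ, mul_nonneg (mul_nonneg (sq_nonneg M) hQ) (sq_nonneg ‖c'‖),
    mul_nonneg (sq_nonneg M) (sq_nonneg ‖c'‖), sq_nonneg M]

/-- `exp(-aQ)` dominates polynomials -/
theorem one_add_pow_le_exp {a : ℝ} (ha : 0 < a) : ∃ C : ℝ, 0 < C ∧ ∀ Q : ℝ, 0 ≤ Q →
    (1 + Q) ^ 4 * Real.exp (-(a * Q)) ≤ C := by
  refine ⟨(1 + 4 / a) ^ 4, by positivity, fun Q hQ => ?_⟩
  have h1 : a * Q / 4 + 1 ≤ Real.exp (a * Q / 4) := Real.add_one_le_exp _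
  have h2 : 1 + Q ≤ (1 + 4 / a) * Real.exp (a * Q / 4) := by
    have h3 : (1 + 4 / a) * (a * Q / 4 + 1) = 1 + 4 / a + a * Q / 4 + Q := by
      field_simp; ring
    have h4 : (1 + 4 / a) * (a * Q / 4 + 1) ≤ (1 + 4 / a) * Real.exp (a * Q / 4) :=
      mul_le_mul_of_nonneg_left h1 (by positivity)
    have h5 : 0 ≤ 4 / a := by positivity
    have h6 : 0 ≤ a * Q / 4 := by positivity
    linarith
  have h3 : (1 + Q) ^ 4 ≤ ((1 + 4 / a) * Real.exp (a * Q / 4)) ^ 4 :=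
    pow_le_pow_left₀ (by positivity) h2 4
  have h4 : Real.exp (a * Q / 4) ^ 4 = Real.exp (a * Q) := by
    rw [← Real.exp_nat_mul]; congr 1; push_cast; ring
  calc (1 + Q) ^ 4 * Real.exp (-(a * Q))
      ≤ ((1 + 4 / a) * Real.exp (a * Q / 4)) ^ 4 * Real.exp (-(a * Q)) :=
        mul_le_mul_of_nonneg_right h3 (Real.exp_pos _).le
    _ = (1 + 4 / a) ^ 4 * (Real.exp (a * Q) * Real.exp (-(a * Q))) := by
        rw [mul_pow, h4]; ring
    _ = _ := by rw [← Real.exp_add]; simp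

theorem exists_ker_le_pwt (m : Fin 2) (τ : UpperHalfPlane) (w : H3) (c : HM) :
    ∃ C : ℝ, ∀ x : Fin 4 → ℝ, ‖ker m τ w (cr x + c)‖ ≤ C * pwt x := by
  obtain ⟨K, hK, hK'⟩ := exists_norm_le_Q w c
  have ha : 0 < π * τ.im := mul_pos Real.pi_pos τ.im_pos
  obtain ⟨C, hC, hC'⟩ := one_add_pow_le_exp ha
  refine ⟨4 * √τ.im * C * K ^ 4, fun x => ?_⟩
  have hp : 0 < pwt x := pwt_pos x
  have h1 : 1 ≤ (1 + ‖x‖ ^ 2) ^ 4 * pwt x := by
    have h2 : (pwt x)⁻¹ ≤ (1 + ‖x‖ ^ 2) ^ 4 := by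
      rw [pwt, ← Finset.prod_inv_distrib]
      simp_rw [inv_inv]
      calc ∏ i, (1 + x i ^ 2) ≤ ∏ _i : Fin 4, (1 + ‖x‖ ^ 2) := by
            apply Finset.prod_le_prod
            · intro i _; positivity
            · intro i _
              have h3 : |x i| ≤ ‖x‖ := norm_le_pi_norm x i
              have h4 : x i ^ 2 ≤ ‖x‖ ^ 2 := by
                rw [← sq_abs]; exact pow_le_pow_left₀ (abs_nonneg _) h3 2
              linarith
        _ = _ := by simp
    calc 1 = (pwt x)⁻¹ * pwt x := (inv_mul_cancel₀ hp.ne').symm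
      _ ≤ _ := mul_le_mul_of_nonneg_right h2 hp.le
  have hQ := HM.Q_nonneg w (cr x + c)
  calc ‖ker m τ w (cr x + c)‖ ≤ 4 * √τ.im * Real.exp (-π * τ.im * HM.Q w (cr x + c)) :=
        norm_ker_le_exp m τ w _
    _ ≤ 4 * √τ.im * Real.exp (-π * τ.im * HM.Q w (cr x + c)) *
        ((1 + ‖x‖ ^ 2) ^ 4 * pwt x) := le_mul_of_one_le_right (by positivity) h1
    _ ≤ 4 * √τ.im * Real.exp (-π * τ.im * HM.Q w (cr x + c)) *
        ((K * (1 + HM.Q w (cr x + c))) ^ 4 * pwt x) := by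
        apply mul_le_mul_of_nonneg_left _ (by positivity)
        apply mul_le_mul_of_nonneg_right _ hp.le
        exact pow_le_pow_left₀ (by positivity) (hK' x) 4
    _ = 4 * √τ.im * ((1 + HM.Q w (cr x + c)) ^ 4 *
        Real.exp (-(π * τ.im * HM.Q w (cr x + c)))) * K ^ 4 * pwt x := by
        rw [show -π * τ.im * HM.Q w (cr x + c) = -(π * τ.im * HM.Q w (cr x + c)) by ring]
        ring
    _ ≤ 4 * √τ.im * C * K ^ 4 * pwt x := by
        apply mul_le_mul_of_nonneg_right _ hp.le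
        apply mul_le_mul_of_nonneg_right _ (by positivity)
        exact mul_le_mul_of_nonneg_left (hC' _ hQ) (by positivity)

theorem continuous_cr : Continuous (cr : (Fin 4 → ℝ) → HM) := by
  unfold cr
  fun_prop

theorem continuous_e : Continuous e := by
  unfold e
  fun_prop

theorem continuous_q_X : Continuous HM.q := by
  unfold HM.q
  fun_prop

theorem continuous_t_X (w : H3) : Continuous (HM.t w) := by
  unfold HM.t
  fun_prop

theorem continuous_Q_X (w : H3) : Continuous (HM.Q w) := by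
  unfold HM.Q
  exact continuous_q_X.add (((continuous_t_X w).pow 2).const_mul 2)

theorem continuous_B_X (Y : HM) : Continuous fun X => HM.B X Y := by
  unfold HM.B
  fun_prop

theorem continuous_ker_X (m : Fin 2) (τ : UpperHalfPlane) (w : H3) : Continuous (ker m τ w) := by
  unfold ker
  have h1 := continuous_P m
  have h2 := continuous_t_X w
  have h3 := continuous_Q_X w
  have h4 := continuous_q_X
  have h5 := continuous_e
  fun_prop

/-- the dual vector: `B (cr x) (dv m) = ∑ m i * x i` for `m = pmd k l` -/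
def pmd (k : Fin 3) (l : Fin 4 → ℤ) : Fin 4 → ℤ :=
  ![-l 1, -l 0, 2 * l 2 - l 3, -l 2 + 2 * l 3 - (k : ℤ)]

theorem s3_inv : s3⁻¹ = ⟨0, -(√3 / 3)⟩ := by
  have h : √3 * √3 = 3 := Real.mul_self_sqrt (by norm_num)
  refine inv_eq_of_mul_eq_one_right ?_
  apply Complex.ext
  · simp only [s3, mul_re, one_re]
    linarith
  · simp only [s3, mul_im, one_im]
    ring

theorem B_cr_lp (x : Fin 4 → ℝ) (k : Fin 3) (l : Fin 4 → ℤ) :
    HM.B (cr x) (lp (k : ℤ) l) = ∑ i, (pmd k l i : ℝ) * x i := by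
  have h : √3 * √3 = 3 := Real.mul_self_sqrt (by norm_num)
  rw [Fin.sum_univ_four]
  simp only [HM.B, lp, cr, dl, pmd, om, s3_inv, Prod.fst_add, Prod.snd_add, Prod.smul_fst, Prod.smul_snd,
    Matrix.cons_val_zero, Matrix.cons_val_one, Matrix.cons_val, smul_zero, add_zero,
    Complex.real_smul, Complex.add_re, Complex.add_im, Complex.mul_re, Complex.mul_im,
    Complex.conj_re, Complex.conj_im, Complex.ofReal_re, Complex.ofReal_im]
  push_cast
  linear_combination (x 3 * l 3 / 2 - x 3 * k / 3) * h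

/-- the lattice `L^#` in coordinates -/
noncomputable def pmEquiv : Fin 3 × (Fin 4 → ℤ) ≃ (Fin 4 → ℤ) :=
  Equiv.ofBijective (fun p => pmd p.1 p.2) (by
    constructor
    · rintro ⟨k, l⟩ ⟨k', l'⟩ h
      have h0 := congrFun h 0
      have h1 := congrFun h 1
      have h2 := congrFun h 2
      have h3 := congrFun h 3
      simp only [pmd, Matrix.cons_val_zero, Matrix.cons_val_one, Matrix.cons_val] at h0 h1 h2 h3
      have hk := k.2
      have hk' := k'.2
      have hkk : (k : ℕ) = k' := by omega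
      refine Prod.ext (Fin.ext hkk) (funext fun i => ?_)
      fin_cases i <;> simp only [Fin.zero_eta, Fin.mk_one, Fin.reduceFinMk] <;> omega
    · intro m
      let r : ℤ := (m 2 + 2 * m 3) % 3
      have hr0 : 0 ≤ r := Int.emod_nonneg _ (by norm_num)
      have hr3 : r < 3 := Int.emod_lt_of_pos _ (by norm_num)
      refine ⟨(⟨r.toNat, by omega⟩, ![-m 1, -m 0, (2 * m 2 + m 3 + r) / 3,
        (m 2 + 2 * m 3 + 2 * r) / 3]), ?_⟩
      funext i
      have hrr : ((r.toNat : ℕ) : ℤ) = r := Int.toNat_of_nonneg hr0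
      fin_cases i <;> simp only [pmd, Fin.zero_eta, Fin.mk_one, Fin.reduceFinMk,
        Matrix.cons_val_zero, Matrix.cons_val_one, Matrix.cons_val, hrr] <;> omega)

theorem pmEquiv_apply (k : Fin 3) (l : Fin 4 → ℤ) : pmEquiv (k, l) = pmd k l := rfl

theorem summable_ker_cr (m : Fin 2) (τ : UpperHalfPlane) (w : H3) (c : HM) :
    Summable fun k : Fin 4 → ℤ => ‖ker m τ w (cr (zc k) + c)‖ := by
  obtain ⟨C, hC⟩ := exists_ker_le_pwt m τ w c
  exact Summable.of_nonneg_of_le (fun k => norm_nonneg _) (fun k => hC _)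
    (summable_pwt.mul_left C)

theorem summable_th (m : Fin 2) (j : ℤ) (τ : UpperHalfPlane) (w : H3) (X0 Y0 : HM) :
    Summable fun k : Fin 4 → ℤ =>
      ker m τ w (lp j k - X0) * e ((HM.B (lp j k) Y0 - HM.B X0 Y0 / 2 : ℝ)) := by
  apply Summable.of_norm
  refine (summable_ker_cr m τ w ((j : ℝ) • dl - X0)).congr fun k => ?_
  rw [norm_mul, norm_e, mul_one, lp, add_sub_assoc]
  rfl

end Fermat.Agent.LT.Th
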