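import Fermat.Agent.LT.Th.Mod2

set_option autoImplicit false
set_option linter.unusedSimpArgs false

/-!
# Modularity of the theta lift: the cusp form (abstract)
-/

namespace Fermat.Agent.LT.Th

open Matrix ComplexConjugate MeasureTheory Complex
open scoped Real MatrixGroups Manifold ModularForm

section

variable {F : UpperHalfPlane → ℂ} {c : ℤ → ℝ → ℂ} {K : ℤ → ℂ} {s : ℤ}

theorem series_aux (hs1 : s = 1 ∨ s = -1)
    (hs : ∀ τ : UpperHalfPlane, HasSum (fun n : ℤ => c n τ.im * e (n * τ.re)) (F τ))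
    (hK : ∀ n v, 0 < v → c n v = K n * Real.exp (-2 * π * s * n * v))
    (hK0 : ∀ n, s * n ≤ 0 → K n = 0) (τ τ' : UpperHalfPlane) (him : τ'.im = τ.im)
    (hre : τ'.re = s * τ.re) : HasSum (fun n : ℕ => K (s * n) * e (n * τ)) (F τ') := by
  have hss : s * s = 1 := by rcases hs1 with rfl | rfl <;> norm_num
  have hinj : Function.Injective fun n : ℕ => s * (n : ℤ) := by
    intro a b hab
    have h1 : s * (s * (a : ℤ)) = s * (s * (b : ℤ)) := congrArg (s * ·) hab
    rw [← mul_assoc, ← mul_assoc, hss, one_mul, one_mul] at h1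
    exact_mod_cast h1
  have h1 := hs τ'
  rw [← hinj.hasSum_iff] at h1
  · refine h1.congr_fun ?_ |> fun h4 => h4
    intro n
    simp only [Function.comp_apply]
    rw [hK _ _ τ'.im_pos, mul_assoc]
    congr 1
    rw [him, hre, e, e, Complex.ofReal_exp, ← Complex.exp_add]
    congr 1
    have h2 : (τ : ℂ) = τ.re + τ.im * I := (Complex.re_add_im (τ : ℂ)).symm
    have hss' : (s : ℂ) * s = 1 := by exact_mod_cast hss
    rw [h2]
    push_cast
    have hI : I ^ 2 = -1 := I_sq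
    linear_combination (2 * π * n * τ.im - 2 * π * I * n * τ.re) * hss' + 2 * π * n * τ.im * hI
  · intro x hx
    have hx0 : s * x ≤ 0 := by
      by_contra h
      push Not at h
      apply hx
      refine ⟨(s * x).toNat, ?_⟩
      simp only
      rw [Int.toNat_of_nonneg h.le, ← mul_assoc, hss, one_mul]
    rw [hK _ _ τ'.im_pos, hK0 x hx0, zero_mul, zero_mul]

theorem hecke_aux (hs1 : s = 1 ∨ s = -1)
    (hs : ∀ τ : UpperHalfPlane, HasSum (fun n : ℤ => c n τ.im * e (n * τ.re)) (F τ))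
    (hK : ∀ n v, 0 < v → c n v = K n * Real.exp (-2 * π * s * n * v)) {l : ℕ} (hl : 0 < l)
    {lam : ℂ} (h : HeckeRel l lam F) (n : ℕ) :
    K (s * (l * n : ℕ)) + (if l ∣ n then K (s * (n / l : ℕ)) else 0) = lam * K (s * n) := by
  have hl0 : (l : ℝ) ≠ 0 := by exact_mod_cast hl.ne'
  have hlr : (0 : ℝ) < l := by exact_mod_cast hl
  have h1 := h.coeff hl hs (s * n) 1 one_pos
  have hdvd : (l : ℤ) ∣ s * n ↔ l ∣ n := by
    rcases hs1 with rfl | rfl
    · rw [one_mul, Int.natCast_dvd_natCast]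
    · rw [neg_one_mul, dvd_neg, Int.natCast_dvd_natCast]
  have hne : (Real.exp (-2 * π * s * (s * n : ℤ) * 1) : ℂ) ≠ 0 :=
    ofReal_ne_zero.mpr (Real.exp_pos _).ne'
  rw [hK (s * n) 1 one_pos, hK (l * (s * n)) (1 / l) (by positivity)] at h1
  have e1 : -2 * π * s * ((l * (s * n) : ℤ) : ℝ) * (1 / l) = -2 * π * s * (s * n : ℤ) * 1 := by
    push_cast
    field_simp
  have e2 : (l : ℤ) * (s * n) = s * ((l * n : ℕ) : ℤ) := by push_cast; ring
  rw [e1, e2] at h1
  by_cases hn : l ∣ n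
  · rw [if_pos (hdvd.mpr hn)] at h1
    rw [if_pos hn]
    obtain ⟨r, rfl⟩ := hn
    have e3 : (s * ((l * r : ℕ) : ℤ)) / (l : ℤ) = s * ((l * r / l : ℕ) : ℤ) := by
      rw [Nat.mul_div_cancel_left _ hl]
      push_cast
      rw [mul_left_comm, Int.mul_ediv_cancel_left _ (by exact_mod_cast hl.ne')]
    rw [e3, hK _ _ (by positivity)] at h1
    have e4 : -2 * π * s * ((s * ((l * r / l : ℕ) : ℤ) : ℤ) : ℝ) * (l * 1) =
        -2 * π * s * ((s * ((l * r : ℕ) : ℤ) : ℤ) : ℝ) * 1 := by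
      rw [Nat.mul_div_cancel_left _ hl]
      push_cast
      ring
    rw [e4] at h1
    apply mul_right_cancel₀ hne
    rw [add_mul, mul_assoc lam, ← h1]
    ring
  · rw [if_neg (fun h => hn (hdvd.mp h))] at h1
    rw [if_neg hn]
    apply mul_right_cancel₀ hne
    rw [add_mul, mul_assoc lam, ← h1]
    ring

end

/-- `-conj τ` -/
noncomputable def ncj (τ : UpperHalfPlane) : UpperHalfPlane :=
  ⟨-conj (τ : ℂ), by
    have := τ.im_pos
    simpa using this⟩

theorem coe_ncj (τ : UpperHalfPlane) : (ncj τ : ℂ) = -conj (τ : ℂ) := rfl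

theorem ncj_im (τ : UpperHalfPlane) : (ncj τ).im = τ.im := by
  change (-conj (τ : ℂ)).im = _
  simp

theorem ncj_re (τ : UpperHalfPlane) : (ncj τ).re = -τ.re := by
  change (-conj (τ : ℂ)).re = _
  simp

/-- conjugation by `diag(-1, 1)` -/
def gcj (γ : SL(2, ℤ)) : SL(2, ℤ) := ⟨!![γ 0 0, -γ 0 1; -γ 1 0, γ 1 1], by
  have := γ.2
  rw [Matrix.det_fin_two] at this
  rw [Matrix.det_fin_two_of]
  linear_combination this⟩

theorem dn_gcj (γ : SL(2, ℤ)) (τ : UpperHalfPlane) : dn (gcj γ) (ncj τ) = conj (dn γ τ) := by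
  have g3 : gcj γ 1 0 = -γ 1 0 := rfl
  have g4 : gcj γ 1 1 = γ 1 1 := rfl
  rw [dn, dn, g3, g4, coe_ncj, map_add, map_mul, map_intCast, map_intCast]
  push_cast
  ring

theorem gcj_smul (γ : SL(2, ℤ)) (τ : UpperHalfPlane) : gcj γ • ncj τ = ncj (γ • τ) := by
  have g1 : gcj γ 0 0 = γ 0 0 := rfl
  have g2 : gcj γ 0 1 = -γ 0 1 := rfl
  apply UpperHalfPlane.ext
  rw [coe_smul_SL, coe_ncj, coe_ncj, coe_smul_SL, dn_gcj, g1, g2, map_div₀, map_add, map_mul,
    map_intCast, map_intCast]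
  push_cast
  ring

theorem gcj_mem {M : ℕ} {γ : SL(2, ℤ)} (h : γ ∈ CongruenceSubgroup.Gamma1 M) :
    gcj γ ∈ CongruenceSubgroup.Gamma1 M := by
  rw [CongruenceSubgroup.Gamma1_mem] at h ⊢
  obtain ⟨h1, h2, h3⟩ := h
  have g1 : gcj γ 0 0 = γ 0 0 := rfl
  have g3 : gcj γ 1 0 = -γ 1 0 := rfl
  have g4 : gcj γ 1 1 = γ 1 1 := rfl
  rw [g1, g3, g4]
  refine ⟨h1, h2, ?_⟩
  push_cast
  rw [h3, neg_zero]

/-- **(G4), abstract form.** -/
theorem exists_cuspForm_abs {M : ℕ} [NeZero M] (F : Fin 2 → UpperHalfPlane → ℂ)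
    (c : Fin 2 → ℤ → ℝ → ℂ)
    (hs : ∀ m (τ : UpperHalfPlane), HasSum (fun n : ℤ => c m n τ.im * e (n * τ.re)) (F m τ))
    (hmod : ∀ m, ∀ γ ∈ CongruenceSubgroup.Gamma1 M, ∀ τ, F m (γ • τ) = Jf m (dn γ τ) * F m τ)
    (hcusp : ∀ γ : SL(2, ℤ), ∃ A C : ℝ, 0 < A ∧ 0 ≤ C ∧ ∀ (m : Fin 2) (τ : UpperHalfPlane),
      A ≤ τ.im → ‖F m (γ • τ)‖ ≤ ‖dn γ τ‖ * (C / √τ.im))
    (harm1 : ∀ n : ℤ, ∃ K : ℂ, (∀ v : ℝ, 0 < v → c 1 n v = K * Real.exp (2 * π * n * v)) ∧
      (0 ≤ n → K = 0))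
    (harm0 : (∀ n v, 0 < v → c 1 n v = 0) → ∀ n : ℤ, ∃ α : ℂ,
      (∀ v : ℝ, 0 < v → c 0 n v = α * Real.exp (-2 * π * n * v)) ∧ (n ≤ 0 → α = 0))
    (hne : (∀ n v, 0 < v → c 1 n v = 0) → ∃ n v, 0 < v ∧ c 0 n v ≠ 0) :
    ∃ f : CuspForm (CongruenceSubgroup.Gamma1 M) 1, f ≠ 0 ∧
      ∀ l : ℕ, 0 < l → ∀ lam : ℂ, (∀ m, HeckeRel l lam (F m)) → ∀ n : ℕ,
        ModularFormClass.qCoeff f (l * n) +
          (if l ∣ n then ModularFormClass.qCoeff f (n / l) else 0) =
            lam * ModularFormClass.qCoeff f n := by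
  by_cases hA : ∀ n v, 0 < v → c 1 n v = 0
  · -- case B
    choose K hK hK0 using harm0 hA
    have hK' : ∀ n v, 0 < v → c 0 n v = K n * Real.exp (-2 * π * ((1 : ℤ) : ℝ) * n * v) := by
      intro n v hv
      rw [hK n v hv]
      congr 3
      push_cast
      ring
    have hK0' : ∀ n : ℤ, 1 * n ≤ 0 → K n = 0 := fun n hn => hK0 n (by linarith)
    obtain ⟨f, hf, hfq⟩ := exists_cuspForm_of_series (M := M) (F 0) (fun n => K (1 * n))
      (fun τ => series_aux (Or.inl rfl) (hs 0) hK' hK0' τ τ rfl (by push_cast; ring)) (by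
        intro γ hγ τ
        rw [hmod 0 γ hγ τ]
        rfl) (by
        intro γ
        obtain ⟨A, C, -, -, h⟩ := hcusp γ
        exact ⟨A, C, fun τ hτ => h 0 τ hτ⟩)
    refine ⟨f, ?_, ?_⟩
    · rintro rfl
      obtain ⟨n, v, hv, hn⟩ := hne hA
      apply hn
      have h0 : ∀ τ, F 0 τ = 0 := fun τ => (hf τ).symm
      have h1 : HasSum (fun n : ℤ => c 0 n v * e (n * (0 : ℝ))) 0 := by
        have := hs 0 ⟨v * I, by simpa using hv⟩
        rw [h0] at this
        have e1 : (⟨v * I, by simpa using hv⟩ : UpperHalfPlane).im = v := by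
          change (v * I : ℂ).im = v
          simp
        have e2 : (⟨v * I, by simpa using hv⟩ : UpperHalfPlane).re = 0 := by
          change (v * I : ℂ).re = 0
          simp
        rw [e1, e2] at this
        exact this
      have hb : Summable fun n : ℤ => ‖c 0 n v‖ := by
        have := h1.summable.norm
        simpa [e_zero] using this
      refine fourier_unique hb (fun u => ?_) n
      have := hs 0 ⟨u + v * I, by simpa using hv⟩
      rw [h0] at this
      have e1 : (⟨u + v * I, by simpa using hv⟩ : UpperHalfPlane).im = v := by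
        change (u + v * I : ℂ).im = v
        simp
      have e2 : (⟨u + v * I, by simpa using hv⟩ : UpperHalfPlane).re = u := by
        change (u + v * I : ℂ).re = u
        simp
      rw [e1, e2] at this
      exact this.tsum_eq
    · intro l hl lam h n
      rw [hfq, hfq, hfq]
      exact hecke_aux (Or.inl rfl) (hs 0) hK' hl (h 0) n
  · -- case A
    choose K hK hK0 using harm1
    have hK' : ∀ n v, 0 < v → c 1 n v = K n * Real.exp (-2 * π * ((-1 : ℤ) : ℝ) * n * v) := by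
      intro n v hv
      rw [hK n v hv]
      congr 3
      push_cast
      ring
    have hK0' : ∀ n : ℤ, -1 * n ≤ 0 → K n = 0 := fun n hn => hK0 n (by linarith)
    obtain ⟨f, hf, hfq⟩ := exists_cuspForm_of_series (M := M) (fun τ => F 1 (ncj τ))
      (fun n => K (-1 * n))
      (fun τ => series_aux (Or.inr rfl) (hs 1) hK' hK0' τ (ncj τ) (ncj_im τ)
        (by rw [ncj_re]; push_cast; ring)) (by
        intro γ hγ τ
        rw [← gcj_smul, hmod 1 _ (gcj_mem hγ), dn_gcj]
        have : Jf 1 (conj (dn γ τ)) = dn γ τ := by simp [Jf]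
        rw [this]) (by
        intro γ
        obtain ⟨A, C, -, -, h⟩ := hcusp (gcj γ)
        refine ⟨A, C, fun τ hτ => ?_⟩
        have h1 := h 1 (ncj τ) (by rw [ncj_im]; exact hτ)
        rw [gcj_smul, dn_gcj, ncj_im, Complex.norm_conj] at h1
        exact h1)
    refine ⟨f, ?_, ?_⟩
    · rintro rfl
      apply hA
      have h0 : ∀ n : ℕ, K (-1 * n) = 0 := by
        intro n
        rw [← hfq n]
        have h2 := exists_cuspForm_of_series (M := M) (fun _ => 0) (fun _ => 0)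
          (fun τ => by simp) (fun γ _ τ => by simp) (fun γ => ⟨0, 0, by simp⟩)
        obtain ⟨g, hg, hgq⟩ := h2
        have h3 : g = 0 := by
          ext τ
          exact hg τ
        rw [← h3]
        exact hgq n
      intro n v hv
      rw [hK n v hv]
      by_cases hn : 0 ≤ n
      · rw [hK0 n hn, zero_mul]
      · have h1 := h0 (-n).toNat
        rw [Int.toNat_of_nonneg (by omega)] at h1
        have h2 : -1 * -n = n := by ring
        rw [h2] at h1
        rw [h1, zero_mul]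
    · intro l hl lam h n
      rw [hfq, hfq, hfq]
      exact hecke_aux (Or.inr rfl) (hs 1) hK' hl (h 1) n

end Fermat.Agent.LT.Th
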