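import Fermat.Agent.LT.Th.Mod1
import Fermat.Agent.LT.Th.Mod3

set_option autoImplicit false

/-!
# Modularity of the theta lift: the cusp form
-/

namespace Fermat.Agent.LT.Th

open Matrix ComplexConjugate MeasureTheory Complex
open scoped Real MatrixGroups

/-- **(G) The cusp form attached to `φ`.** -/
theorem lift_cuspForm {N : ℕ} (hN : 2 ≤ N) {φ : H3 → ℂ} (hφ : Input N φ) (ν : Measure H3)
    [IsFiniteMeasure ν] (hmean : ∫ w, φ w ∂ν = 0)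
    (harm1 : ∀ n : ℤ, ∃ K : ℂ, (∀ v : ℝ, 0 < v → cf N φ ν 1 n v = K * Real.exp (2 * π * n * v)) ∧
      (0 ≤ n → K = 0))
    (harm0 : (∀ n v, 0 < v → cf N φ ν 1 n v = 0) → ∀ n : ℤ, ∃ α : ℂ,
      (∀ v : ℝ, 0 < v → cf N φ ν 0 n v = α * Real.exp (-2 * π * n * v)) ∧ (n ≤ 0 → α = 0))
    (hne : (∀ n v, 0 < v → cf N φ ν 1 n v = 0) → ∃ n v, 0 < v ∧ cf N φ ν 0 n v ≠ 0) :
    ∃ f : CuspForm (CongruenceSubgroup.Gamma1 (3 * N ^ 2)) 1, f ≠ 0 ∧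
      ∀ l : ℕ, 0 < l → ∀ lam : ℂ, (∀ m, HeckeRel l lam (lift N φ ν m)) → ∀ n : ℕ,
        ModularFormClass.qCoeff f (l * n) +
          (if l ∣ n then ModularFormClass.qCoeff f (n / l) else 0) =
            lam * ModularFormClass.qCoeff f n := by
  have hN0 : 0 < N := by omega
  have : NeZero (3 * N ^ 2) := ⟨by positivity⟩
  refine exists_cuspForm_abs (M := 3 * N ^ 2) (lift N φ ν) (cf N φ ν)
    (fun m τ => hasSum_lift hN hφ ν m τ) ?_ (lift_cusp hN0 hφ ν hmean) harm1 harm0 hne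
  intro m γ hγ τ
  rw [CongruenceSubgroup.Gamma1_mem] at hγ
  obtain ⟨-, h2, h3⟩ := hγ
  have hc : (3 * N ^ 2 : ℤ) ∣ γ 1 0 := by
    have := (ZMod.intCast_zmod_eq_zero_iff_dvd (γ 1 0) (3 * N ^ 2)).mp h3
    exact_mod_cast this
  have hd : (3 * N ^ 2 : ℤ) ∣ γ 1 1 - 1 := by
    have h4 : ((γ 1 1 - 1 : ℤ) : ZMod (3 * N ^ 2)) = 0 := by
      push_cast
      rw [h2, sub_self]
    have := (ZMod.intCast_zmod_eq_zero_iff_dvd (γ 1 1 - 1) (3 * N ^ 2)).mp h4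
    exact_mod_cast this
  exact lift_law hN0 φ ν m γ hc (Dvd.dvd.trans ⟨3 * N, by ring⟩ hd)
    (Dvd.dvd.trans ⟨N ^ 2, by ring⟩ hd) τ

end Fermat.Agent.LT.Th
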