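import Fermat.Agent.LT.Th.Per2
import Fermat.Agent.LT.Th.HkOut
import Fermat.Agent.LT.Th.Mod4
import Fermat.Agent.LT.Th.Harm
import Fermat.Agent.LT.Th.Wt

set_option autoImplicit false

/-!
# The theta lift from `H3` to weight one
-/

namespace Fermat.Agent.LT.Th

open Matrix ComplexConjugate MeasureTheory Complex HM Set UpperHalfPlane Filter Topology
open scoped Real MatrixGroups ENNReal NNReal
open Fermat.Agent.LT.FA Fermat.Agent.LT.Asai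

/-- **the theta lift** -/
theorem exists_lift {N1 : ℕ} (h3 : 3 ∣ N1) (hN1 : N1 ≠ 0) {φ : H3 → ℂ}
    (hφ : Input (4 * N1) φ) (hinv : ∀ g ∈ Gam N1, ∀ w, φ (g • w) = φ w) {M0 : ℕ}
    (hM0 : M0 ∣ 4 * N1) (hper : ∀ w, IsWtS (CongruenceSubgroup.Gamma M0) w →
      ∫ τ : ℍ, ((w τ).toReal : ℂ) * φ (wp τ 0) ≠ 0) :
    ∃ f : CuspForm (CongruenceSubgroup.Gamma1 (3 * (4 * N1) ^ 2)) 1, f ≠ 0 ∧
      ∀ (l : ℕ) (H : HkData (4 * N1) l) (lam : ℂ),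
        (∀ w, ∑ j, φ (H.S (H.rep j) w) = √l * lam * φ w) → ∀ n : ℕ,
        ModularFormClass.qCoeff f (l * n) +
          (if l ∣ n then ModularFormClass.qCoeff f (n / l) else 0) =
            lam * ModularFormClass.qCoeff f n := by
  have hN : 2 ≤ 4 * N1 := by omega
  have hN0 : 4 * N1 ≠ 0 := by omega
  obtain ⟨wt, hwt, hfm⟩ := exists_wt hN0
  obtain ⟨C, _, hb⟩ := norm_phi_le hφ
  have hmean : ∫ w, φ w ∂(wtM volume wt) = 0 :=
    integral_phi_eq_zero hφ.cont hφ.inv hφ.mean hwt ⟨C, hb⟩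
  have B0 : ∀ c : ℝ, 0 < c → ∃ C : ℝ, ∀ w : H3,
      Summable (fun k => Real.exp (-c * Q w (Xk (4 * N1) k))) ∧
      ‖φ w‖ * ∑' k, Real.exp (-c * Q w (Xk (4 * N1) k)) ≤ C := by
    obtain ⟨D, -, hD⟩ := phi_sum_Xk hN hφ
    exact fun c hc => ⟨D c, hD c hc⟩
  have B1 : ∃ C : ℝ, ∀ (m : Fin 2) (n : ℤ) (v : ℝ), 1 ≤ v →
      ‖cf (4 * N1) φ (wtM (volume : Measure H3) wt) m n v‖ ≤ C / √v := by
    obtain ⟨D, hD, h1⟩ := norm_cf_le hN hφ (wtM (volume : Measure H3) wt)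
    obtain ⟨C1, _, hdec⟩ := hD.decay
    exact ⟨C1, fun m n v hv => (h1 m n v (by linarith)).trans (hdec v hv)⟩
  obtain ⟨harm1, harm0⟩ := harm hN0 hφ.cont hφ.inv hφ.mean hwt B0 B1
  have harm0' : (∀ (n : ℤ) (v : ℝ), 0 < v → cf (4 * N1) φ (wtM volume wt) 1 n v = 0) →
      ∀ n : ℤ, ∃ α : ℂ, (∀ v : ℝ, 0 < v → cf (4 * N1) φ (wtM volume wt) 0 n v =
        α * Real.exp (-2 * π * n * v)) ∧ (n ≤ 0 → α = 0) := by
    intro h n
    obtain ⟨α, hα, hα0⟩ := harm0 h n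
    refine ⟨α, fun v hv => ?_, hα0⟩
    rw [hα v hv]
    congr 3
    ring
  obtain ⟨f, hf, hT⟩ := lift_cuspForm hN hφ (wtM volume wt) hmean harm1 harm0'
    (fun _ => exists_cf_ne_zero h3 hN1 hφ hinv hwt hM0 hper)
  refine ⟨f, hf, fun l H lam hlam n => hT l H.l_pos lam (fun m => ?_) n⟩
  intro τ τl τi h1 h2
  have h4 := H.lift_hecke hN hφ hwt hfm hlam m h1 (τi := fun i => τi i) (fun i => h2 i)
  rw [← h4, Finset.sum_range]

end Fermat.Agent.LT.Th
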