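import Fermat.Agent.LT.Th.Bd2
import Fermat.Agent.LT.Th.LawN

set_option autoImplicit false
set_option linter.unusedSimpArgs false

/-!
# Modularity of the theta lift: Fourier series, transformation law, behaviour at the cusps
-/

namespace Fermat.Agent.LT.Th

open Matrix ComplexConjugate MeasureTheory Complex HM Set
open scoped Real MatrixGroups ENNReal NNReal
open Fermat.Agent.LT.FA

/-- the integral norm -/
theorem exists_nn (N : ℕ) (k : Fin 4 → ℤ) : ∃ n : ℤ, q (Xk N k) = n := exists_q_Lat (Xk_mem N k)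

/-- partition of `x0 + N L` according to the norm -/
noncomputable def snEquiv (N : ℕ) : (Σ n : ℤ, Sn N n) ≃ (Fin 4 → ℤ) where
  toFun p := p.2
  invFun k := ⟨(exists_nn N k).choose, ⟨k, (exists_nn N k).choose_spec⟩⟩
  left_inv := by
    rintro ⟨n, k, hk⟩
    have h1 : (exists_nn N k).choose = n := by
      have h2 := (exists_nn N k).choose_spec
      have h3 : q (Xk N k) = n := hk
      rw [h2] at h3
      exact_mod_cast h3
    simp only
    subst h1
    rfl
  right_inv k := rfl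

theorem snEquiv_apply (N : ℕ) (n : ℤ) (k : Sn N n) : snEquiv N ⟨n, k⟩ = k := rfl

section

variable {N : ℕ} (hN : 2 ≤ N) {φ : H3 → ℂ} (hφ : Input N φ)

include hN hφ

theorem hasSum_TN (m : Fin 2) (τ : UpperHalfPlane) (w : H3) :
    HasSum (fun n : ℤ => ((∑' k : Sn N n, kv m τ.im w (Xk N k) : ℝ) : ℂ) * e (n * τ.re))
      (TN m N τ w) := by
  obtain ⟨D, hD, hb⟩ := phi_kv_Xk hN hφ
  obtain ⟨hS, -⟩ := hb m τ.im τ.im_pos w
  have h1 : HasSum (fun k => ker m τ w (Xk N k)) (TN m N τ w) := (summable_ker_of hS).hasSum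
  have h2 := (snEquiv N).hasSum_iff.mpr h1
  refine h2.sigma fun n => ?_
  have h3 : Summable fun k : Sn N n => kv m τ.im w (Xk N k) := by
    apply Summable.of_norm
    exact hS.comp_injective Subtype.val_injective
  have h4 := ((Complex.hasSum_ofReal.mpr h3.hasSum).mul_right (e (n * τ.re)))
  have h5 : (fun k : Sn N n => ker m τ w (Xk N k)) =
      fun k : Sn N n => ((kv m τ.im w (Xk N k) : ℝ) : ℂ) * e (n * τ.re) := by
    funext k
    have hk : q (Xk N k) = n := k.2
    rw [ker_eq, hk]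
    congr 2
    push_cast
    ring
  have h6 : HasSum (fun k : Sn N n => ker m τ w (Xk N k))
      (((∑' k : Sn N n, kv m τ.im w (Xk N k) : ℝ) : ℂ) * e (n * τ.re)) := by
    rw [h5]
    exact h4
  exact h6

/-- **(G1)** the Fourier expansion of the lift -/
theorem hasSum_lift (ν : Measure H3) [IsFiniteMeasure ν] (m : Fin 2) (τ : UpperHalfPlane) :
    HasSum (fun n : ℤ => cf N φ ν m n τ.im * e (n * τ.re)) (lift N φ ν m τ) := by
  obtain ⟨D, hD, hb⟩ := phi_kv_Xk hN hφ
  have hmφ : Measurable φ := hφ.cont.measurable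
  have hms : ∀ n : ℤ, Measurable fun w : H3 => ∑' k : Sn N n, kv m τ.im w (Xk N k) := by
    intro n
    refine measurable_tsum_of_summable (fun k => (continuous_kv m τ.im _).measurable) (fun w => ?_)
    apply Summable.of_norm
    exact (hb m τ.im τ.im_pos w).1.comp_injective Subtype.val_injective
  have hma : ∀ n : ℤ, Measurable fun w : H3 => ∑' k : Sn N n, |kv m τ.im w (Xk N k)| := by
    intro n
    refine measurable_tsum_of_summable (fun k => (continuous_kv m τ.im _).abs.measurable)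
      (fun w => ?_)
    exact (hb m τ.im τ.im_pos w).1.comp_injective Subtype.val_injective
  have hsig : ∀ w, HasSum (fun n : ℤ => ∑' k : Sn N n, |kv m τ.im w (Xk N k)|)
      (∑' k, |kv m τ.im w (Xk N k)|) := by
    intro w
    have hS := (hb m τ.im τ.im_pos w).1
    have h2 := (snEquiv N).hasSum_iff.mpr hS.hasSum
    refine h2.sigma fun n => ?_
    exact (hS.comp_injective (Subtype.val_injective (p := fun k => k ∈ Sn N n))).hasSum
  have key := hasSum_integral_of_dominated_convergence (μ := ν)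
    (F := fun (n : ℤ) w => φ w * (((∑' k : Sn N n, kv m τ.im w (Xk N k) : ℝ) : ℂ) * e (n * τ.re)))
    (f := fun w => φ w * TN m N τ w)
    (fun (n : ℤ) w => ‖φ w‖ * ∑' k : Sn N n, |kv m τ.im w (Xk N k)|)
    (fun n => (hmφ.mul ((Complex.measurable_ofReal.comp (hms n)).mul_const _)).aestronglyMeasurable)
    ?_ ?_ ?_ ?_
  · unfold lift cf
    have h1 : (fun n : ℤ => ∫ w, φ w * (((∑' k : Sn N n, kv m τ.im w (Xk N k) : ℝ) : ℂ) *
        e (n * τ.re)) ∂ν) = fun n : ℤ => (∫ w, φ w * ((∑' k : Sn N n, kv m τ.im w (Xk N k) : ℝ) : ℂ)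
          ∂ν) * e (n * τ.re) := by
      funext n
      rw [← integral_mul_const]
      congr 1
      funext w
      ring
    rw [h1] at key
    exact key
  · intro n
    refine Filter.Eventually.of_forall fun w => ?_
    have hS : Summable fun k : Sn N n => ‖kv m τ.im w (Xk N k)‖ :=
      (hb m τ.im τ.im_pos w).1.comp_injective Subtype.val_injective
    have h3 : ‖e (n * τ.re)‖ = 1 := by
      have := norm_e (n * τ.re)
      push_cast at this
      exact this
    rw [norm_mul, norm_mul, h3, mul_one, Complex.norm_real]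
    exact mul_le_mul_of_nonneg_left (norm_tsum_le_tsum_norm hS) (norm_nonneg _)
  · exact Filter.Eventually.of_forall fun w => ((hsig w).summable.mul_left _)
  · have h4 : (fun w => ∑' n : ℤ, ‖φ w‖ * ∑' k : Sn N n, |kv m τ.im w (Xk N k)|) =
        fun w => ‖φ w‖ * ∑' k, |kv m τ.im w (Xk N k)| := by
      funext w
      rw [tsum_mul_left, (hsig w).tsum_eq]
    rw [h4]
    refine Integrable.of_bound (C := D τ.im) ?_ (Filter.Eventually.of_forall fun w => ?_)
    · refine (hmφ.norm.mul (measurable_tsum_of_summable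
        (fun k => (continuous_kv m τ.im _).abs.measurable) (fun w => ?_))).aestronglyMeasurable
      exact (hb m τ.im τ.im_pos w).1
    · rw [Real.norm_eq_abs, abs_of_nonneg (mul_nonneg (norm_nonneg _)
        (tsum_nonneg fun k => abs_nonneg _))]
      exact (hb m τ.im τ.im_pos w).2
  · exact Filter.Eventually.of_forall fun w => (hasSum_TN hN hφ m τ w).mul_left _

end

/-- **(G2)** the transformation law of the lift -/
theorem lift_law {N : ℕ} (hN : 0 < N) (φ : H3 → ℂ) (ν : Measure H3) (m : Fin 2) (γ : SL(2, ℤ))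
    (hc : (3 * N ^ 2 : ℤ) ∣ γ 1 0) (hdN : (N : ℤ) ∣ γ 1 1 - 1) (hd3 : (3 : ℤ) ∣ γ 1 1 - 1)
    (τ : UpperHalfPlane) :
    lift N φ ν m (γ • τ) = Jf m (dn γ τ) * lift N φ ν m τ := by
  unfold lift
  rw [← integral_const_mul]
  congr 1
  funext w
  rw [TN_law m hN γ hc hdN hd3]
  ring

/-! ### The cusps -/

theorem ker_zero (m : Fin 2) (τ : UpperHalfPlane) (w : H3) :
    ker m τ w 0 = (√τ.im * P m 0 : ℝ) := by
  have h1 : q 0 = 0 := by simp [q]
  have h2 : t w 0 = 0 := by simp [t]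
  rw [ker, Q, h1, h2]
  simp [e_zero]

theorem lp_mem_of_smul (N : ℕ) (j : ℤ) (k : Fin 4 → ℤ) (x : ℤ) (hN : N ≠ 0) :
    ((3 * N : ℕ) : ℝ) • (lp j k - (x / N : ℝ) • x0) ∈ Lat := by
  have hN0 : (N : ℝ) ≠ 0 := by exact_mod_cast hN
  have h1 : ((3 * N : ℕ) : ℝ) • (lp j k - (x / N : ℝ) • x0) =
      (3 * N) • lp 0 k + (N * j) • ((3 : ℝ) • dl) - (3 * x) • x0 := by
    rw [lp_eq, ← Nat.cast_smul_eq_nsmul ℝ, ← Int.cast_smul_eq_zsmul ℝ, ← Int.cast_smul_eq_zsmul ℝ,
      smul_sub, smul_add, smul_smul, smul_smul, smul_smul]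
    congr 1
    · congr 2
      push_cast
      ring
    · congr 1
      push_cast
      field_simp
  rw [h1, three_dl]
  exact Lat.sub_mem (Lat.add_mem (Lat.nsmul_mem (lp_zero_mem k) _)
    (Lat.zsmul_mem (lp_zero_mem _) _)) (Lat.zsmul_mem x0_mem _)

/-- the integral of a theta function with characteristics against `φ` tends to zero -/
theorem th_int_bound {N : ℕ} (hN : 0 < N) {φ : H3 → ℂ} (hφ : Input N φ) (ν : Measure H3)
    [IsFiniteMeasure ν] (hmean : ∫ w, φ w ∂ν = 0) (j : ℤ) (x : ℤ) (Y0 : HM) :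
    ∃ C : ℝ, 0 ≤ C ∧ ∀ (m : Fin 2) (τ : UpperHalfPlane),
      Integrable (fun w => φ w * th m j τ w ((x / N : ℝ) • x0) Y0) ν ∧ (1 ≤ τ.im →
      ‖∫ w, φ w * th m j τ w ((x / N : ℝ) • x0) Y0 ∂ν‖ ≤ C / √τ.im) := by
  obtain ⟨D, hD, hb⟩ := phi_kv (N := N) (M := 3 * N) (by omega) hφ
  obtain ⟨C1, hC1, hdec⟩ := hD.decay
  have hmφ : Measurable φ := hφ.cont.measurable
  set X0 : HM := (x / N : ℝ) • x0 with hX0
  let s : Set (Fin 4 → ℤ) := {k | lp j k ≠ X0}
  have hinj : Function.Injective fun k : s => lp j k - X0 := by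
    intro k k' h
    have h' : lp j k - X0 = lp j k' - X0 := h
    exact Subtype.ext (lp_injective j (sub_left_injective h'))
  have hb' := hb (fun k : s => lp j k - X0) hinj (fun k => lp_mem_of_smul N j k x hN.ne')
    (fun k => sub_ne_zero.mpr k.2)
  refine ⟨C1 * ν.real univ, mul_nonneg hC1 measureReal_nonneg, fun m τ => ?_⟩
  have hS : ∀ w, Summable fun k : s => |kv m τ.im w (lp j k - X0)| :=
    fun w => (hb' m τ.im τ.im_pos w).1
  -- the main part
  let g : H3 → ℂ := fun w => ∑' k : s, ker m τ w (lp j k - X0) *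
    e ((B (lp j k) Y0 - B X0 Y0 / 2 : ℝ))
  have hnorm : ∀ (w : H3) (k : s), ‖ker m τ w (lp j k - X0) *
      e ((B (lp j k) Y0 - B X0 Y0 / 2 : ℝ))‖ = |kv m τ.im w (lp j k - X0)| := by
    intro w k
    rw [norm_mul, norm_e, mul_one, norm_ker]
  have hSg : ∀ w, Summable fun k : s => ker m τ w (lp j k - X0) *
      e ((B (lp j k) Y0 - B X0 Y0 / 2 : ℝ)) := by
    intro w
    apply Summable.of_norm
    simp_rw [hnorm]
    exact hS w
  have hgm : Measurable g :=
    measurable_tsum_of_summable (fun k => ((continuous_ker m τ _).mul continuous_const).measurable)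
      hSg
  have hgb : ∀ w, ‖φ w * g w‖ ≤ D τ.im := by
    intro w
    rw [norm_mul]
    refine le_trans (mul_le_mul_of_nonneg_left ?_ (norm_nonneg _)) (hb' m τ.im τ.im_pos w).2
    have h1 := norm_tsum_le_tsum_norm (hSg w).norm
    simp_rw [hnorm] at h1
    exact h1
  have hgi : Integrable (fun w => φ w * g w) ν :=
    Integrable.of_bound (hmφ.mul hgm).aestronglyMeasurable _ (Filter.Eventually.of_forall hgb)
  -- the exceptional part
  obtain ⟨c, hc⟩ : ∃ c : ℂ, ∀ w : H3, ∑' k : (sᶜ : Set (Fin 4 → ℤ)), ker m τ w (lp j k - X0) *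
      e ((B (lp j k) Y0 - B X0 Y0 / 2 : ℝ)) = c := by
    refine ⟨∑' k : (sᶜ : Set (Fin 4 → ℤ)), ((√τ.im * P m 0 : ℝ) : ℂ) *
      e ((B (lp j k) Y0 - B X0 Y0 / 2 : ℝ)), fun w => ?_⟩
    apply tsum_congr
    intro k
    have hk : lp j k = X0 := by
      by_contra h
      exact k.2 h
    rw [hk, sub_self, ker_zero]
  have hth : ∀ w, th m j τ w X0 Y0 = g w + c := by
    intro w
    rw [← hc w]
    exact ((summable_th m j τ w X0 Y0).tsum_subtype_add_tsum_subtype_compl s).symm
  have hint : ∫ w, φ w * th m j τ w X0 Y0 ∂ν = ∫ w, φ w * g w ∂ν := by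
    simp_rw [hth, mul_add]
    rw [integral_add hgi ((integrable_phi hφ ν).mul_const c), integral_mul_const, hmean, zero_mul,
      add_zero]
  refine ⟨?_, fun hτ => ?_⟩
  · simp_rw [hth, mul_add]
    exact hgi.add ((integrable_phi hφ ν).mul_const c)
  rw [hint]
  refine (norm_integral_le_of_norm_le_const (Filter.Eventually.of_forall hgb)).trans ?_
  have h1 := mul_le_mul_of_nonneg_right (hdec _ hτ) (measureReal_nonneg (μ := ν) (s := univ))
  exact h1.trans_eq (by ring)

/-- **(G3)** the lift at the cusps -/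
theorem lift_cusp {N : ℕ} (hN : 0 < N) {φ : H3 → ℂ} (hφ : Input N φ) (ν : Measure H3)
    [IsFiniteMeasure ν] (hmean : ∫ w, φ w ∂ν = 0) (γ : SL(2, ℤ)) :
    ∃ A C : ℝ, 0 < A ∧ 0 ≤ C ∧ ∀ (m : Fin 2) (τ : UpperHalfPlane), A ≤ τ.im →
      ‖lift N φ ν m (γ • τ)‖ ≤ ‖dn γ τ‖ * (C / √τ.im) := by
  obtain ⟨α, β, δ, c, x, y, hα, hδ, hαδ, hlaw⟩ := TN_cusp hN γ
  choose C hC0 hC using fun k : Fin 3 =>
    th_int_bound hN hφ ν hmean (k : ℤ) x ((y / N : ℝ) • x0)
  have hα' : (0 : ℝ) < α := by exact_mod_cast hα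
  have hδ' : (0 : ℝ) < δ := by exact_mod_cast hδ
  refine ⟨δ / α, (∑ k : Fin 3, ‖c k‖ * C k) / √(α / δ), by positivity, ?_, fun m τ hτ => ?_⟩
  · apply div_nonneg _ (Real.sqrt_nonneg _)
    exact Finset.sum_nonneg fun k _ => mul_nonneg (norm_nonneg _) (hC0 k)
  obtain ⟨τ₂, h1, h2, -⟩ := exists_aff (β := β) hα hδ τ
  have hτ2 : 1 ≤ τ₂.im := by
    rw [h2]
    calc (1 : ℝ) = (α / δ : ℝ) * (δ / α) := by field_simp
      _ ≤ _ := mul_le_mul_of_nonneg_left hτ (by positivity)
  have h3 : lift N φ ν m (γ • τ) = Jf m (dn γ τ) * ∑ k : Fin 3,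
      c k * ∫ w, φ w * th m (k : ℤ) τ₂ w ((x / N : ℝ) • x0) ((y / N : ℝ) • x0) ∂ν := by
    unfold lift
    have h4 : ∀ w, φ w * TN m N (γ • τ) w = ∑ k : Fin 3, Jf m (dn γ τ) * c k *
        (φ w * th m (k : ℤ) τ₂ w ((x / N : ℝ) • x0) ((y / N : ℝ) • x0)) := by
      intro w
      rw [hlaw m τ τ₂ h1 w, Finset.mul_sum, Finset.mul_sum]
      apply Finset.sum_congr rfl
      intro k _
      ring
    simp_rw [h4]
    rw [integral_finsetSum]
    · rw [Finset.mul_sum]
      apply Finset.sum_congr rfl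
      intro k _
      rw [integral_const_mul]
      ring
    · intro k _
      exact (hC k m τ₂).1.const_mul _
  have hJ : ‖Jf m (dn γ τ)‖ = ‖dn γ τ‖ := by
    unfold Jf
    split_ifs
    · rfl
    · exact Complex.norm_conj _
  rw [h3, norm_mul, hJ]
  apply mul_le_mul_of_nonneg_left _ (norm_nonneg _)
  calc ‖∑ k : Fin 3, c k * ∫ w, φ w * th m (k : ℤ) τ₂ w ((x / N : ℝ) • x0) ((y / N : ℝ) • x0) ∂ν‖
      ≤ ∑ k : Fin 3, ‖c k‖ * (C k / √τ₂.im) := by
        refine (norm_sum_le _ _).trans (Finset.sum_le_sum fun k _ => ?_)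
        rw [norm_mul]
        exact mul_le_mul_of_nonneg_left ((hC k m τ₂).2 hτ2) (norm_nonneg _)
    _ = (∑ k : Fin 3, ‖c k‖ * C k) / √(α / δ) / √τ.im := by
        rw [h2, Real.sqrt_mul (by positivity), Finset.sum_div, Finset.sum_div]
        apply Finset.sum_congr rfl
        intro k _
        field_simp

end Fermat.Agent.LT.Th
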