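import Fermat.Agent.LT.Th.LawN
import Fermat.Agent.Igusa.Exp
import Fermat.Prelude.Def_FLTPrelim_Modularity

set_option autoImplicit false
set_option linter.unusedSimpArgs false

/-!
# Modularity of the theta lift: abstract part
-/

namespace Fermat.Agent.LT.Th

open Matrix ComplexConjugate MeasureTheory Complex
open scoped Real MatrixGroups Manifold ModularForm

theorem integral_e_int (j : ℤ) : ∫ u in (0 : ℝ)..1, e (j * u) = if j = 0 then 1 else 0 := by
  split_ifs with hj
  · rw [hj]
    simp [e_zero]
  · have hc : (2 * π * I * j : ℂ) ≠ 0 := by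
      have : (j : ℂ) ≠ 0 := by exact_mod_cast hj
      have := Real.pi_ne_zero
      simp [Complex.I_ne_zero, *]
    have h1 : ∀ u : ℝ, e (j * u) = cexp (2 * π * I * j * u) := fun u => by
      rw [e]; congr 1; ring
    simp_rw [h1]
    rw [integral_exp_mul_complex hc]
    have h2 : cexp (2 * π * I * j * (1 : ℝ)) = 1 := by
      have := e_int j
      rw [e] at this
      rwa [ofReal_one, mul_one]
    rw [h2]
    simp

/-- uniqueness of Fourier coefficients -/
theorem fourier_unique {b : ℤ → ℂ} (hb : Summable fun n => ‖b n‖)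
    (h : ∀ u : ℝ, ∑' n, b n * e (n * u) = 0) (k : ℤ) : b k = 0 := by
  let F : ℤ → C(ℝ, ℂ) := fun n => ⟨fun u => b n * e (n * u) * e ((-k : ℤ) * u), by
    have := continuous_e
    fun_prop⟩
  have hn : ∀ (n : ℤ) (u : ℝ), ‖F n u‖ = ‖b n‖ := by
    intro n u
    have e1 : (n : ℂ) * (u : ℂ) = ((n * u : ℝ) : ℂ) := by push_cast; ring
    have e2 : ((-k : ℤ) : ℂ) * (u : ℂ) = ((-k * u : ℝ) : ℂ) := by push_cast; ring
    change ‖b n * e (n * u) * e ((-k : ℤ) * u)‖ = _
    rw [norm_mul, norm_mul, e1, e2, norm_e, norm_e, mul_one, mul_one]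
  have h1 := intervalIntegral.hasSum_intervalIntegral_of_summable_norm (f := F) (a := 0) (b := 1) ?_
  · have h2 : ∀ u : ℝ, ∑' n, F n u = 0 := by
      intro u
      have : ∀ n, F n u = (b n * e (n * u)) * e ((-k : ℤ) * u) := fun n => rfl
      simp_rw [this]
      rw [tsum_mul_right, h u, zero_mul]
    simp_rw [h2] at h1
    rw [intervalIntegral.integral_zero] at h1
    have h3 : ∀ n, ∫ u in (0 : ℝ)..1, F n u = if n = k then b k else 0 := by
      intro n
      have e1 : ∀ u : ℝ, F n u = b n * e (((n - k : ℤ) : ℂ) * u) := by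
        intro u
        change b n * e (n * u) * e ((-k : ℤ) * u) = _
        rw [mul_assoc, ← e_add]
        congr 2
        push_cast
        ring
      simp_rw [e1]
      rw [intervalIntegral.integral_const_mul, integral_e_int]
      by_cases hnk : n = k
      · rw [if_pos (by omega), if_pos hnk, hnk, mul_one]
      · rw [if_neg (by omega), if_neg hnk, mul_zero]
    simp_rw [h3] at h1
    have h4 := hasSum_ite_eq k (b k)
    exact h4.unique h1
  · refine Summable.of_nonneg_of_le (fun n => norm_nonneg _) (fun n => ?_) hb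
    rw [ContinuousMap.norm_le _ (norm_nonneg _)]
    intro u
    exact (hn n u).le

theorem exists_cuspForm_of_series {M : ℕ} [NeZero M] (h : UpperHalfPlane → ℂ) (a : ℕ → ℂ)
    (ha : ∀ τ : UpperHalfPlane, HasSum (fun n : ℕ => a n * e (n * τ)) (h τ))
    (hmod : ∀ γ ∈ CongruenceSubgroup.Gamma1 M, ∀ τ, h (γ • τ) = dn γ τ * h τ)
    (hcusp : ∀ γ : SL(2, ℤ), ∃ A C : ℝ, ∀ τ : UpperHalfPlane, A ≤ τ.im →
      ‖h (γ • τ)‖ ≤ ‖dn γ τ‖ * (C / √τ.im)) :
    ∃ f : CuspForm (CongruenceSubgroup.Gamma1 M) 1, (∀ τ, f τ = h τ) ∧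
      ∀ n, ModularFormClass.qCoeff f n = a n := by
  have hq : ∀ (τ : UpperHalfPlane) (n : ℕ), e (n * τ) = Function.Periodic.qParam 1 (τ : ℂ) ^ n := by
    intro τ n
    rw [e, Function.Periodic.qParam, ← Complex.exp_nat_mul]
    congr 1
    push_cast
    ring
  have hps : Igusa.PSConv 1 h (PowerSeries.mk a) := by
    intro τ
    refine (ha τ).congr_fun ?_ |> fun h4 => h4
    intro n
    rw [PowerSeries.coeff_mk, hq]
    simp
  have hdn : ∀ (γ : SL(2, ℤ)) (τ : UpperHalfPlane), UpperHalfPlane.denom γ τ = dn γ τ := by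
    intro γ τ
    rfl
  let f : CuspForm (CongruenceSubgroup.Gamma1 M) 1 :=
    { toFun := h
      slash_action_eq' := by
        rintro _ ⟨γ, hγ, rfl⟩
        funext τ
        change (h ∣[(1 : ℤ)] γ) τ = h τ
        rw [ModularForm.SL_slash_apply, hdn, hmod γ hγ τ, _root_.zpow_neg, zpow_one]
        have := dn_ne_zero γ τ
        field_simp
      holo' := hps.mdifferentiable
      zero_at_cusps' := by
        intro c hc
        rw [Subgroup.IsArithmetic.isCusp_iff_isCusp_SL2Z] at hc
        rw [OnePoint.isZeroAt_iff_forall_SL2Z hc]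
        intro γ _
        rw [UpperHalfPlane.isZeroAtImInfty_iff]
        intro ε hε
        obtain ⟨A, C, hC⟩ := hcusp γ
        refine ⟨max A ((|C| / ε) ^ 2 + 1), fun τ hτ => ?_⟩
        have h1 := hC τ ((le_max_left _ _).trans hτ)
        have h2 : (|C| / ε) ^ 2 + 1 ≤ τ.im := (le_max_right _ _).trans hτ
        have h0 := dn_ne_zero γ τ
        have h0' : 0 < ‖dn γ τ‖ := norm_pos_iff.mpr h0
        rw [ModularForm.SL_slash_apply, hdn, _root_.zpow_neg, zpow_one, norm_mul, norm_inv]
        rw [← div_eq_mul_inv, div_le_iff₀ h0', mul_comm ε]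
        refine h1.trans (mul_le_mul_of_nonneg_left ?_ h0'.le)
        have h3 : |C| / ε ≤ √τ.im := by
          apply Real.le_sqrt_of_sq_le
          linarith
        have h4 : 0 < √τ.im := Real.sqrt_pos.mpr τ.im_pos
        rw [div_le_iff₀ h4]
        rw [div_le_iff₀ hε] at h3
        have := le_abs_self C
        linarith }
  refine ⟨f, fun τ => rfl, fun n => ?_⟩
  have h1 := ModularFormClass.qExpansion_coeff_unique (f := f) (h := 1) (c := a) one_pos ?_ ?_ n
  · exact h1.symm
  · simp
  · intro τ
    have := ha τ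
    simp_rw [hq] at this
    exact this

theorem e_eq_one_iff (x : ℂ) : e x = 1 ↔ ∃ n : ℤ, x = n := by
  have h0 : (2 * π * I : ℂ) ≠ 0 := Complex.two_pi_I_ne_zero
  rw [e, Complex.exp_eq_one_iff]
  constructor
  · rintro ⟨n, hn⟩
    exact ⟨n, mul_left_cancel₀ h0 (by rw [hn]; ring)⟩
  · rintro ⟨n, rfl⟩
    exact ⟨n, by ring⟩

theorem e_nat_mul (n : ℕ) (x : ℂ) : e (n * x) = e x ^ n := by
  rw [e, e, ← Complex.exp_nat_mul]
  congr 1
  ring

/-- sums of roots of unity -/
theorem sum_e_range {l : ℕ} (hl : 0 < l) (n : ℤ) :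
    ∑ i ∈ Finset.range l, e (i * (n / l)) = if (l : ℤ) ∣ n then (l : ℂ) else 0 := by
  have hl0 : (l : ℂ) ≠ 0 := by exact_mod_cast hl.ne'
  simp_rw [e_nat_mul]
  split_ifs with h
  · obtain ⟨r, rfl⟩ := h
    have : e (((l * r : ℤ) : ℂ) / l) = 1 := by
      rw [e_eq_one_iff]
      exact ⟨r, by push_cast; field_simp⟩
    rw [this]
    simp
  · have h1 : e (n / l) ≠ 1 := by
      rw [Ne, e_eq_one_iff]
      rintro ⟨r, hr⟩
      apply h
      rw [div_eq_iff hl0] at hr
      exact ⟨r, by exact_mod_cast (by rw [hr]; ring : (n : ℂ) = l * r)⟩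
    rw [geom_sum_eq h1]
    have h2 : e (n / l) ^ l = 1 := by
      rw [← e_nat_mul, e_eq_one_iff]
      exact ⟨n, by field_simp⟩
    rw [h2, sub_self, zero_div]

/-- the Hecke relation for functions -/
def HeckeRel (l : ℕ) (lam : ℂ) (F : UpperHalfPlane → ℂ) : Prop :=
  ∀ (τ τl : UpperHalfPlane) (τi : ℕ → UpperHalfPlane), (τl : ℂ) = l * τ →
    (∀ i, (τi i : ℂ) = (τ + i) / l) →
    F τl + 1 / l * ∑ i ∈ Finset.range l, F (τi i) = lam * F τ

/-- the Hecke relation for coefficients -/
theorem HeckeRel.coeff {l : ℕ} (hl : 0 < l) {lam : ℂ} {F : UpperHalfPlane → ℂ} {c : ℤ → ℝ → ℂ}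
    (hs : ∀ τ : UpperHalfPlane, HasSum (fun n : ℤ => c n τ.im * e (n * τ.re)) (F τ))
    (h : HeckeRel l lam F) (n : ℤ) (v : ℝ) (hv : 0 < v) :
    (if (l : ℤ) ∣ n then c (n / l) (l * v) else 0) + c (l * n) (v / l) = lam * c n v := by
  have hl0 : (l : ℂ) ≠ 0 := by exact_mod_cast hl.ne'
  have hlr : (0 : ℝ) < l := by exact_mod_cast hl
  have hlz : (l : ℤ) ≠ 0 := by exact_mod_cast hl.ne'
  have hinj : Function.Injective fun n : ℤ => (l : ℤ) * n := fun a b hab =>
    mul_left_cancel₀ hlz hab
  let b : ℤ → ℂ := fun n => (if (l : ℤ) ∣ n then c (n / l) (l * v) else 0) +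
    c (l * n) (v / l) - lam * c n v
  have key : ∀ u : ℝ, HasSum (fun n => b n * e (n * u)) 0 := by
    intro u
    let τ : UpperHalfPlane := ⟨u + v * I, by simpa using hv⟩
    let τl : UpperHalfPlane := ⟨l * u + l * v * I, by simp; positivity⟩
    let τi : ℕ → UpperHalfPlane := fun i => ⟨((u + i) / l : ℝ) + (v / l : ℝ) * I, by
      simp only [Complex.add_im, Complex.ofReal_im, Complex.mul_im, Complex.ofReal_re, Complex.I_im,
        mul_one, Complex.I_re, mul_zero, add_zero, zero_add]
      positivity⟩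
    have hre : τ.re = u := by
      change (u + v * I : ℂ).re = u
      simp
    have him : τ.im = v := by
      change (u + v * I : ℂ).im = v
      simp
    have hlre : τl.re = l * u := by
      change (l * u + l * v * I : ℂ).re = l * u
      simp
    have hlim : τl.im = l * v := by
      change (l * u + l * v * I : ℂ).im = l * v
      simp
    have hire : ∀ i, (τi i).re = (u + i) / l := by
      intro i
      change (((u + i) / l : ℝ) + (v / l : ℝ) * I : ℂ).re = (u + i) / l
      simp only [Complex.add_re, Complex.ofReal_im, Complex.mul_re, Complex.ofReal_re, Complex.I_im,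
        mul_one, Complex.I_re, mul_zero, add_zero, sub_zero]
    have hiim : ∀ i, (τi i).im = v / l := by
      intro i
      change (((u + i) / l : ℝ) + (v / l : ℝ) * I : ℂ).im = v / l
      simp only [Complex.add_im, Complex.ofReal_im, Complex.mul_im, Complex.ofReal_re, Complex.I_im,
        mul_one, Complex.I_re, mul_zero, add_zero, zero_add]
    have h1 := h τ τl τi (by change (l * u + l * v * I : ℂ) = l * (u + v * I); ring) (by
      intro i
      change (((u + i) / l : ℝ) + (v / l : ℝ) * I : ℂ) = ((u + v * I) + i) / l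
      push_cast
      field_simp
      ring)
    -- first term
    have s1 : HasSum (fun n : ℤ => (if (l : ℤ) ∣ n then c (n / l) (l * v) else 0) * e (n * u))
        (F τl) := by
      have h2 := hs τl
      rw [hlre, hlim] at h2
      rw [← hinj.hasSum_iff]
      · refine h2.congr_fun ?_ |> fun h4 => h4
        intro n
        simp only [Function.comp_apply]
        rw [if_pos (dvd_mul_right _ _), Int.mul_ediv_cancel_left _ hlz]
        congr 2
        push_cast
        ring
      · intro x hx
        rw [if_neg, zero_mul]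
        rintro ⟨r, rfl⟩
        exact hx ⟨r, rfl⟩
    -- second term
    have s2 : HasSum (fun n : ℤ => c (l * n) (v / l) * e (n * u))
        (1 / l * ∑ i ∈ Finset.range l, F (τi i)) := by
      have h2 := (hasSum_sum (s := Finset.range l) fun i _ => hs (τi i)).mul_left (1 / l : ℂ)
      have h3 : (fun n : ℤ => (1 / l : ℂ) * ∑ i ∈ Finset.range l, c n (τi i).im *
          e (n * (τi i).re)) = fun n : ℤ => if (l : ℤ) ∣ n then c n (v / l) * e (n / l * u) else 0 := by
        funext n
        simp_rw [hire, hiim]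
        have h4 : ∀ i : ℕ, c n (v / l) * e (n * ((u + i) / l : ℝ)) =
            c n (v / l) * e (n / l * u) * e (i * (n / l)) := by
          intro i
          rw [mul_assoc, ← e_add]
          congr 2
          push_cast
          field_simp
        simp_rw [h4]
        rw [← Finset.mul_sum, sum_e_range hl]
        split_ifs
        · field_simp
        · simp
      rw [h3, ← hinj.hasSum_iff] at h2
      · refine h2.congr_fun ?_ |> fun h4 => h4
        intro n
        simp only [Function.comp_apply]
        rw [if_pos (dvd_mul_right _ _)]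
        congr 2
        push_cast
        field_simp
      · intro x hx
        rw [if_neg]
        rintro ⟨r, rfl⟩
        exact hx ⟨r, rfl⟩
    have s3 := (hs τ).mul_left lam
    rw [hre, him] at s3
    have s4 := (s1.add s2).sub s3
    rw [h1, sub_self] at s4
    refine s4.congr_fun ?_ |> fun h4 => h4
    intro n
    simp only [b]
    ring
  have hb : Summable fun n => ‖b n‖ := by
    have := (key 0).summable.norm
    simpa [e_zero] using this
  have := fourier_unique hb (fun u => (key u).tsum_eq) n
  exact sub_eq_zero.mp this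

end Fermat.Agent.LT.Th
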