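import Fermat.Agent.LT.Th.Def
import Fermat.Agent.LT.T6.Orb

set_option autoImplicit false

/-!
# The orbit claim for the ring `Oe`

`Oe` is a principal ideal ring, and every `X ∈ x0 + 4 N L` with `q X = 1` is of the form
`g x0 g*` with `g ∈ Gam N` (for `3 ∣ N`).
-/

namespace Fermat.Agent.LT.Th

open Matrix ComplexConjugate Complex
open scoped Real MatrixGroups

theorem normSq_real_om (x y : ℝ) : normSq (x + y * om) = x ^ 2 - x * y + y ^ 2 := by
  have h : √3 * √3 = 3 := Real.mul_self_sqrt (by norm_num)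
  rw [Complex.normSq_apply]
  simp only [om, Complex.add_re, Complex.add_im, Complex.mul_re, Complex.mul_im, Complex.ofReal_re,
    Complex.ofReal_im]
  nlinarith

/-- every complex number is close to an Eisenstein integer -/
theorem exists_near (z : ℂ) : ∃ o ∈ Oe, normSq (z - o) ≤ 3 / 4 := by
  have h3 : √3 ≠ 0 := by positivity
  obtain ⟨y, hy⟩ : ∃ y : ℝ, y = z.im * (2 / √3) := ⟨_, rfl⟩
  obtain ⟨x, hx⟩ : ∃ x : ℝ, x = z.re + y / 2 := ⟨_, rfl⟩
  have hz : z = x + y * om := by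
    apply Complex.ext
    · simp only [om, Complex.add_re, Complex.mul_re, Complex.ofReal_re, Complex.ofReal_im, hx]
      ring
    · simp only [om, Complex.add_im, Complex.mul_im, Complex.ofReal_re, Complex.ofReal_im, hy]
      field_simp
      ring
  refine ⟨(round x : ℤ) + (round y : ℤ) * om, ⟨_, _, rfl⟩, ?_⟩
  have e1 : z - ((round x : ℤ) + (round y : ℤ) * om) =
      ((x - round x : ℝ) : ℂ) + ((y - round y : ℝ) : ℂ) * om := by
    rw [hz]; push_cast; ring
  rw [e1, normSq_real_om]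
  have h1 := abs_le.1 (abs_sub_round x)
  have h2 := abs_le.1 (abs_sub_round y)
  nlinarith [mul_nonneg (sub_nonneg.2 h1.1) (sub_nonneg.2 h2.1), mul_nonneg (sub_nonneg.2 h1.2)
    (sub_nonneg.2 h2.2), mul_nonneg (sub_nonneg.2 h1.1) (sub_nonneg.2 h2.2),
    mul_nonneg (sub_nonneg.2 h1.2) (sub_nonneg.2 h2.1), mul_nonneg (sub_nonneg.2 h1.1)
    (sub_nonneg.2 h1.2), mul_nonneg (sub_nonneg.2 h2.1) (sub_nonneg.2 h2.2)]

theorem exists_nat_normSq (z : Oe) : ∃ n : ℕ, normSq (z : ℂ) = n := by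
  obtain ⟨x, y, hz⟩ := z.2
  have h := normSq_Oe x y
  rw [← hz] at h
  have h0 : (0 : ℝ) ≤ ((x ^ 2 - x * y + y ^ 2 : ℤ) : ℝ) := h ▸ Complex.normSq_nonneg _
  have h1 : 0 ≤ x ^ 2 - x * y + y ^ 2 := by exact_mod_cast h0
  refine ⟨(x ^ 2 - x * y + y ^ 2).toNat, ?_⟩
  rw [h]
  have := Int.toNat_of_nonneg h1
  exact_mod_cast congrArg (Int.cast (R := ℝ)) this.symm

/-- the norm -/
noncomputable def nrm (z : Oe) : ℕ := (exists_nat_normSq z).choose

theorem nrm_eq (z : Oe) : normSq (z : ℂ) = nrm z := (exists_nat_normSq z).choose_spec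

instance : IsPrincipalIdealRing Oe := by
  classical
  refine ⟨fun I => ?_⟩
  by_cases hI : I = ⊥
  · subst hI
    exact bot_isPrincipal
  · obtain ⟨a0, ha0, ha0'⟩ := Submodule.exists_mem_ne_zero_of_ne_bot hI
    have hne : ∃ n : ℕ, ∃ a ∈ I, a ≠ 0 ∧ nrm a = n := ⟨_, a0, ha0, ha0', rfl⟩
    obtain ⟨a, ha, hane, han⟩ := Nat.find_spec hne
    refine ⟨a, ?_⟩
    apply le_antisymm
    · intro b hb
      have haC : (a : ℂ) ≠ 0 := fun h => hane (Subtype.ext h)
      obtain ⟨o, ho, hn⟩ := exists_near ((b : ℂ) / a)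
      by_contra hcon
      have hr : b - a * ⟨o, ho⟩ ∈ I := I.sub_mem hb (I.mul_mem_right _ ha)
      have hrne : b - a * ⟨o, ho⟩ ≠ 0 := by
        intro h0
        apply hcon
        rw [Submodule.mem_span_singleton]
        exact ⟨⟨o, ho⟩, by rw [smul_eq_mul, mul_comm]; exact (sub_eq_zero.1 h0).symm⟩
      have h2 := Nat.find_min' hne ⟨_, hr, hrne, rfl⟩
      have h3 : (Nat.find hne : ℝ) ≤ normSq ((b : ℂ) - a * o) := by
        have := nrm_eq (b - a * ⟨o, ho⟩)
        have h4 : ((b - a * ⟨o, ho⟩ : Oe) : ℂ) = (b : ℂ) - a * o := rfl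
        rw [h4] at this
        rw [this]
        exact_mod_cast h2
      have h5 : (b : ℂ) - a * o = a * ((b : ℂ) / a - o) := by
        field_simp
      rw [h5, Complex.normSq_mul, nrm_eq a, han] at h3
      have h6 : (0 : ℝ) < (Nat.find hne : ℝ) := by
        rw [← han, ← nrm_eq a]
        exact Complex.normSq_pos.2 haC
      nlinarith
    · rw [Submodule.span_singleton_le_iff_mem]
      exact ha

theorem om_indep {x y : ℤ} (h : (x : ℂ) + y * om = 0) : x = 0 ∧ y = 0 := by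
  have h1 := congrArg normSq h
  rw [normSq_Oe, map_zero] at h1
  have h2 : x ^ 2 - x * y + y ^ 2 = 0 := by exact_mod_cast h1
  constructor
  · nlinarith [sq_nonneg (2 * y - x), sq_nonneg x]
  · nlinarith [sq_nonneg (2 * x - y), sq_nonneg y]

/-- conjugation on `Oe` -/
noncomputable def cOe : Oe →+* Oe := (starRingEnd ℂ).restrict Oe Oe (fun _ h => conj_mem h)

theorem coe_cOe (z : Oe) : ((cOe z : Oe) : ℂ) = conj (z : ℂ) := rfl

/-- `Oe` as an abstract Eisenstein ring -/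
noncomputable def eisOe : T6.Eis Oe where
  ω := ⟨om, om_mem⟩
  c := cOe
  rel := Subtype.ext (by
    change om ^ 2 + om + 1 = 0
    linear_combination om_sq)
  c_ω := Subtype.ext (by
    change conj om = om ^ 2
    rw [conj_om]
    linear_combination -om_sq)
  span := by
    rintro ⟨z, x, y, rfl⟩
    exact ⟨x, y, Subtype.ext (by push_cast; rfl)⟩
  indep := by
    intro x y h
    have := congrArg (Subtype.val) h
    push_cast at this
    exact om_indep this

theorem mat_herm (A : ℤ) (B : Oe) (D : ℤ) :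
    HM.mat ((A : ℝ), (D : ℝ), (B : ℂ)) = (eisOe.herm A B D).map Oe.subtype := by
  ext i j
  fin_cases i <;> fin_cases j <;> simp [HM.mat, T6.Eis.herm, eisOe, coe_cOe]

theorem actM_herm (g : SL(2, Oe)) (A A' : ℤ) (B B' : Oe) (D D' : ℤ)
    (h : eisOe.act g (eisOe.herm A B D) = eisOe.herm A' B' D') :
    HM.actM (toGL g) ((A : ℝ), (D : ℝ), (B : ℂ)) = ((A' : ℝ), (D' : ℝ), (B' : ℂ)) := by
  apply HM.mat_injective
  rw [HM.mat_actM, mat_herm, mat_herm, ← h, T6.Eis.act, Matrix.map_mul, Matrix.map_mul]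
  congr 1

/-- **The orbit claim.** -/
theorem orb {N : ℕ} (h3 : 3 ∣ N) (hN : N ≠ 0) {X : HM} {k : Fin 4 → ℤ}
    (hX : X = x0 + ((4 * N : ℕ) : ℝ) • lp 0 k) (hq : HM.q X = 1) :
    ∃ g ∈ Gam N, HM.actM (toGL g) x0 = X := by
  have hX' : X = (((4 * N * k 0 : ℤ) : ℝ), ((4 * N * k 1 : ℤ) : ℝ),
      ((1 + 4 * N * (k 2 + k 3 * ⟨om, om_mem⟩) : Oe) : ℂ)) := by
    rw [hX, lp, cr, x0]
    refine Prod.ext ?_ (Prod.ext ?_ ?_)
    · simp
    · simp
    · simp only [Nat.cast_mul, Nat.cast_ofNat, Int.cast_zero, zero_smul, add_zero, Prod.smul_mk,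
        smul_eq_mul, Prod.mk_add_mk, zero_add]
      rw [Complex.real_smul]
      push_cast
      rfl
  have hq1 : (1 + 4 * N * (k 2 + k 3 * ⟨om, om_mem⟩) : Oe) *
      eisOe.c (1 + 4 * N * (k 2 + k 3 * ⟨om, om_mem⟩) : Oe) -
        ((4 * N * k 0 : ℤ) : Oe) * ((4 * N * k 1 : ℤ) : Oe) = 1 := by
    apply Subtype.ext
    rw [hX', HM.q] at hq
    have h1 := congrArg (Complex.ofReal) hq
    rw [Complex.ofReal_sub, ← Complex.mul_conj] at h1
    push_cast at h1 ⊢
    exact h1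
  obtain ⟨g, hg, h⟩ := eisOe.exists_orb_one (N : ℤ) (by exact_mod_cast h3) (by exact_mod_cast hN)
    (4 * N * k 0) (1 + 4 * N * (k 2 + k 3 * ⟨om, om_mem⟩)) (4 * N * k 1)
    (Dvd.intro _ rfl) ⟨k 2 + k 3 * ⟨om, om_mem⟩, by push_cast; ring⟩ (Dvd.intro _ rfl) hq1
  refine ⟨g, fun i j => by simpa using hg i j, ?_⟩
  have := actM_herm g _ _ _ _ _ _ h
  rw [hX', ← this]
  congr 1
  simp [x0]

end Fermat.Agent.LT.Th
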