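import Fermat.Agent.LT.Th.Mod4
import Fermat.Agent.LT.Th.Harm
import Fermat.Agent.LT.Th.HkOut

set_option autoImplicit false

/-!
# Output of the theta lift
-/

namespace Fermat.Agent.LT.Th

open Matrix ComplexConjugate MeasureTheory Complex HM
open scoped Real MatrixGroups NNReal
open Fermat.Agent.LT.FA

theorem cexp_bd {N : ℕ} (hN : 2 ≤ N) {φ : H3 → ℂ} (hφ : Input N φ) :
    ∀ c : ℝ, 0 < c → ∃ C, ∀ w, Summable (fun k => Real.exp (-c * Q w (Xk N k))) ∧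
      ‖φ w‖ * ∑' k, Real.exp (-c * Q w (Xk N k)) ≤ C := by
  obtain ⟨C, -, h⟩ := phi_sum_Xk hN hφ
  exact fun c hc => ⟨C c, h c hc⟩

/-- **Output of the theta lift**: a cusp form of weight one. -/
theorem theta_out {N : ℕ} (hN : 2 ≤ N) {φ : H3 → ℂ} (hφ : Input N φ)
    (hE : ∀ wt : H3 → ℝ≥0, IsWt (Gam N) volume wt → IsFiniteMeasure (wtM volume wt) →
      ∃ n v, 0 < v ∧ cf N φ (wtM volume wt) 0 n v ≠ 0) :
    ∃ f : CuspForm (CongruenceSubgroup.Gamma1 (3 * N ^ 2)) 1, f ≠ 0 ∧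
      ∀ (l : ℕ) (H : HkData N l) (lam : ℂ),
        (∀ w, ∑ j, φ (H.S (H.rep j) w) = √l * lam * φ w) → ∀ n : ℕ,
          ModularFormClass.qCoeff f (l * n) +
            (if l ∣ n then ModularFormClass.qCoeff f (n / l) else 0) =
              lam * ModularFormClass.qCoeff f n := by
  have hN0 : N ≠ 0 := by omega
  obtain ⟨wt, hwt, hfin⟩ := exists_wt hN0
  have hB1 : ∃ C, ∀ (m : Fin 2) (n : ℤ) (v : ℝ), 1 ≤ v →
      ‖cf N φ (wtM volume wt) m n v‖ ≤ C / √v := by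
    obtain ⟨D, hD, h⟩ := norm_cf_le hN hφ (wtM volume wt)
    obtain ⟨C, -, hC⟩ := hD.decay
    exact ⟨C, fun m n v hv => (h m n v (by linarith)).trans (hC v hv)⟩
  obtain ⟨h1, h0⟩ := harm hN0 hφ.cont hφ.inv hφ.mean hwt (cexp_bd hN hφ) hB1
  have hmean : ∫ w, φ w ∂(wtM volume wt) = 0 := by
    obtain ⟨C, -, hC⟩ := norm_phi_le hφ
    exact integral_phi_eq_zero hφ.cont hφ.inv hφ.mean hwt ⟨C, hC⟩
  obtain ⟨f, hf, hH⟩ := lift_cuspForm hN hφ (wtM volume wt) hmean h1 (by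
    intro h n
    obtain ⟨α, hα, hα0⟩ := h0 h n
    refine ⟨α, fun v hv => ?_, hα0⟩
    rw [hα v hv]
    congr 3
    ring) (fun _ => hE wt hwt hfin)
  refine ⟨f, hf, fun l H lam hlam => hH l H.prime.pos lam fun m => ?_⟩
  intro τ τl τi hτl hτi
  have := H.lift_hecke hN hφ hwt hfin hlam m (τ := τ) (τl := τl) hτl
    (τi := fun i : Fin l => τi i) (fun i => hτi i)
  rw [Finset.sum_range]
  exact this

end Fermat.Agent.LT.Th
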