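import Fermat.Agent.LT.Th.Stab
import Fermat.Agent.LT.Asai.Unfold

set_option autoImplicit false

/-!
# The stabiliser of `x0`
-/

namespace Fermat.Agent.LT.Th

open Matrix ComplexConjugate MeasureTheory Complex HM Set UpperHalfPlane
open scoped Real MatrixGroups ENNReal NNReal
open Fermat.Agent.LT.FA Fermat.Agent.LT.Asai

/-- `√-3` -/
noncomputable def s3O : Oe := ⟨s3, s3_mem⟩

theorem s3O_sq : s3O * s3O = -3 := by
  have h : s3O * s3O = ((-3 : ℤ) : Oe) := by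
    apply Subtype.ext
    rw [Subring.coe_mul, Subring.coe_intCast]
    change s3 * s3 = _
    rw [s3_sq]
    norm_num
  rw [h]
  norm_num

theorem mem_TT_div {N : ℕ} {γ : SL(2, ℤ)} (h : γ ∈ TT N) : γ 1 0 = 3 * (γ 1 0 / 3) := by
  have h1 : (3 : ℤ) ∣ γ 1 0 := (Dvd.intro _ rfl).trans (mem_TT.mp h).2
  rw [Int.mul_ediv_cancel' h1]

/-- the embedding -/
noncomputable def emb {N : ℕ} (γ : TT N) : SL(2, Oe) :=
  ⟨!![((γ.1 0 0 : ℤ) : Oe), (γ.1 0 1 : ℤ) * s3O; -((γ.1 1 0 / 3 : ℤ) : Oe) * s3O,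
      ((γ.1 1 1 : ℤ) : Oe)], by
    rw [Matrix.det_fin_two_of]
    have h1 := det_SL γ.1
    have h2 := mem_TT_div γ.2
    have h3 : ((γ.1 0 0 : ℤ) : Oe) * (γ.1 1 1 : ℤ) - (γ.1 0 1 : ℤ) * (γ.1 1 0 : ℤ) = 1 := by
      exact_mod_cast h1
    have h4 : ((γ.1 1 0 : ℤ) : Oe) = 3 * (γ.1 1 0 / 3 : ℤ) := by
      exact_mod_cast congrArg (Int.cast : ℤ → Oe) h2
    linear_combination h3 + ((γ.1 0 1 : ℤ) : Oe) * h4 + ((γ.1 0 1 : ℤ) : Oe) * (γ.1 1 0 / 3 : ℤ) * s3O_sq⟩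

theorem emb00 {N : ℕ} (γ : TT N) : (emb γ 0 0 : Oe) = (γ.1 0 0 : ℤ) := rfl
theorem emb01 {N : ℕ} (γ : TT N) : (emb γ 0 1 : Oe) = (γ.1 0 1 : ℤ) * s3O := rfl
theorem emb10 {N : ℕ} (γ : TT N) : (emb γ 1 0 : Oe) = -((γ.1 1 0 / 3 : ℤ) : Oe) * s3O := rfl
theorem emb11 {N : ℕ} (γ : TT N) : (emb γ 1 1 : Oe) = (γ.1 1 1 : ℤ) := rfl

theorem coe_s3O : (s3O : ℂ) = s3 := rfl

theorem dvd_cast {N : ℕ} {a : ℤ} (h : (N : ℤ) ∣ a) : ((N : ℕ) : Oe) ∣ (a : Oe) := by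
  obtain ⟨b, rfl⟩ := h
  exact ⟨b, by push_cast; rfl⟩

theorem emb_mem {N : ℕ} (γ : TT N) : emb γ ∈ Gam N := by
  obtain ⟨⟨⟨h1, h2⟩, h3⟩, h4⟩ := mem_TT.mp γ.2
  have h5 : (N : ℤ) ∣ γ.1 1 0 / 3 := by
    obtain ⟨k, hk⟩ := h4
    refine ⟨k, ?_⟩
    rw [hk, mul_assoc, Int.mul_ediv_cancel_left _ (by norm_num)]
  intro i j
  fin_cases i <;> fin_cases j
  · change ((N : ℕ) : Oe) ∣ emb γ 0 0 - 1
    rw [emb00]
    have := dvd_cast h1
    push_cast at this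
    exact this
  · change ((N : ℕ) : Oe) ∣ emb γ 0 1 - 0
    rw [emb01, sub_zero]
    exact (dvd_cast h2).mul_right _
  · change ((N : ℕ) : Oe) ∣ emb γ 1 0 - 0
    rw [emb10, sub_zero]
    exact (dvd_neg.mpr (dvd_cast h5)).mul_right _
  · change ((N : ℕ) : Oe) ∣ emb γ 1 1 - 1
    rw [emb11]
    have := dvd_cast h3
    push_cast at this
    exact this

theorem emb_smul_wp {N : ℕ} (γ : TT N) (τ : ℍ) (s : ℝ) :
    emb γ • wp τ s = wp ((γ : SL(2, ℤ)) • τ) s := by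
  refine smul_wp (k := γ.1 1 0 / 3) (mem_TT_div γ.2) ?_ ?_ ?_ ?_ τ s
  · rw [emb00]; push_cast; rfl
  · rw [emb01]; push_cast; rw [coe_s3O]
  · rw [emb10]; push_cast; rw [coe_s3O]
  · rw [emb11]; push_cast; rfl

theorem foot_emb {N : ℕ} (γ : TT N) (w : H3) : foot (emb γ • w) = (γ : SL(2, ℤ)) • foot w := by
  rw [← wp_foot w, emb_smul_wp, foot_wp, foot_wp]

theorem emb_x0 {N : ℕ} (γ : TT N) : actM (toGL (emb γ)) x0 = x0 := by
  have h00 : ((emb γ 0 0 : Oe) : ℂ) = ((γ.1 0 0 : ℤ) : ℂ) := by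
    rw [emb00]; push_cast; rfl
  have h01 : ((emb γ 0 1 : Oe) : ℂ) = ((γ.1 0 1 : ℤ) : ℂ) * s3 := by
    rw [emb01]; push_cast; rw [coe_s3O]
  have h10 : ((emb γ 1 0 : Oe) : ℂ) = -((γ.1 1 0 / 3 : ℤ) : ℂ) * s3 := by
    rw [emb10]; push_cast; rw [coe_s3O]
  have h11 : ((emb γ 1 1 : Oe) : ℂ) = ((γ.1 1 1 : ℤ) : ℂ) := by
    rw [emb11]; push_cast; rfl
  have hG : ((toGL (emb γ) : GL (Fin 2) ℂ) : Matrix (Fin 2) (Fin 2) ℂ) =
      !![((γ.1 0 0 : ℤ) : ℂ), ((γ.1 0 1 : ℤ) : ℂ) * s3; -((γ.1 1 0 / 3 : ℤ) : ℂ) * s3,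
        ((γ.1 1 1 : ℤ) : ℂ)] := by
    ext i j
    fin_cases i <;> fin_cases j
    · exact h00
    · exact h01
    · exact h10
    · exact h11
  have hdet : ((γ.1 0 0 : ℤ) : ℂ) * (γ.1 1 1 : ℤ) - (γ.1 0 1 : ℤ) * (γ.1 1 0 : ℤ) = 1 := by
    exact_mod_cast det_SL γ.1
  have h4 : ((γ.1 1 0 : ℤ) : ℂ) = 3 * ((γ.1 1 0 / 3 : ℤ) : ℂ) := by
    exact_mod_cast congrArg (Int.cast : ℤ → ℂ) (mem_TT_div γ.2)
  rw [hG]
  generalize γ.1 1 0 / 3 = k at *
  generalize γ.1 0 0 = a at *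
  generalize γ.1 0 1 = b at *
  generalize γ.1 1 1 = d at *
  generalize γ.1 1 0 = c at *
  apply mat_injective
  rw [mat_actM]
  ext i j
  fin_cases i <;> fin_cases j
  · simp [mat, x0, Matrix.mul_apply, Fin.sum_univ_two, conj_s3]
    ring
  · simp [mat, x0, Matrix.mul_apply, Fin.sum_univ_two, conj_s3]
    linear_combination hdet + (b : ℂ) * h4 + (b : ℂ) * k * s3_sq
  · simp [mat, x0, Matrix.mul_apply, Fin.sum_univ_two, conj_s3]
    linear_combination hdet + (b : ℂ) * h4 + (b : ℂ) * k * s3_sq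
  · simp [mat, x0, Matrix.mul_apply, Fin.sum_univ_two, conj_s3]
    ring

/-- real Eisenstein integers -/
theorem real_Oe {z : Oe} (h : (z : ℂ) = conj (z : ℂ)) : ∃ a : ℤ, z = (a : Oe) := by
  obtain ⟨x, y, hxy⟩ := z.2
  rw [hxy, map_add, map_mul, conj_om, map_intCast, map_intCast] at h
  have h1 : ((x : ℤ) : ℂ) + (y : ℤ) * om = ((x - y : ℤ) : ℂ) + ((-y : ℤ) : ℂ) * om := by
    rw [h]; push_cast; ring
  obtain ⟨_, h2⟩ := add_om_inj h1
  have h3 : y = 0 := by omega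
  refine ⟨x, Subtype.ext ?_⟩
  rw [hxy, h3]
  push_cast
  ring

/-- imaginary Eisenstein integers -/
theorem imag_Oe {z : Oe} (h : (z : ℂ) = -conj (z : ℂ)) : ∃ a : ℤ, z = (a : Oe) * s3O := by
  obtain ⟨x, y, hxy⟩ := z.2
  rw [hxy, map_add, map_mul, conj_om, map_intCast, map_intCast] at h
  have h1 : ((x : ℤ) : ℂ) + (y : ℤ) * om = ((y - x : ℤ) : ℂ) + ((y : ℤ) : ℂ) * om := by
    rw [h]; push_cast; ring
  obtain ⟨h2, _⟩ := add_om_inj h1
  have h3 : y = 2 * x := by omega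
  refine ⟨x, Subtype.ext ?_⟩
  rw [hxy, h3]
  push_cast
  rw [coe_s3O, s3_eq]
  ring

theorem dvd_of_cast {N : ℕ} {a : ℤ} (h : ((N : ℕ) : Oe) ∣ (a : Oe)) : (N : ℤ) ∣ a := by
  obtain ⟨z, hz⟩ := h
  obtain ⟨x, y, hxy⟩ := z.2
  have h1 : ((a : ℤ) : ℂ) + ((0 : ℤ) : ℂ) * om = ((N * x : ℤ) : ℂ) + ((N * y : ℤ) : ℂ) * om := by
    have h2 := congrArg (Subtype.val : Oe → ℂ) hz
    push_cast at h2
    rw [hxy] at h2
    push_cast
    linear_combination h2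
  exact ⟨x, (add_om_inj h1).1⟩

theorem dvd_of_cast_s3 {N : ℕ} {a : ℤ} (h : ((N : ℕ) : Oe) ∣ (a : Oe) * s3O) : (N : ℤ) ∣ a := by
  obtain ⟨z, hz⟩ := h
  obtain ⟨x, y, hxy⟩ := z.2
  have h1 : ((a : ℤ) : ℂ) + ((2 * a : ℤ) : ℂ) * om = ((N * x : ℤ) : ℂ) + ((N * y : ℤ) : ℂ) * om := by
    have h2 := congrArg (Subtype.val : Oe → ℂ) hz
    push_cast at h2
    rw [hxy, coe_s3O, s3_eq] at h2
    push_cast
    linear_combination h2
  exact ⟨x, (add_om_inj h1).1⟩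

/-- **the elements fixing `x0`** -/
theorem exists_emb {N : ℕ} {g : SL(2, Oe)} (hg : g ∈ Gam N) (hx : actM (toGL g) x0 = x0) :
    ∃ γ : TT N, emb γ = g := by
  have hm := mat_actM (toGL g : GL (Fin 2) ℂ) x0
  rw [hx] at hm
  set a : ℂ := (g 0 0 : ℂ) with ha
  set b : ℂ := (g 0 1 : ℂ) with hb
  set c : ℂ := (g 1 0 : ℂ) with hc
  set d : ℂ := (g 1 1 : ℂ) with hd
  have hdet : a * d - b * c = 1 := by
    have h1 : (g 0 0 : Oe) * g 1 1 - g 0 1 * g 1 0 = 1 := by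
      have h2 := g.2
      rwa [Matrix.det_fin_two] at h2
    have h3 := congrArg (Subtype.val : Oe → ℂ) h1
    push_cast at h3
    exact h3
  have hdet' : conj a * conj d - conj b * conj c = 1 := by
    have := congrArg conj hdet
    rwa [map_sub, map_mul, map_mul, map_one] at this
  have hG : ((toGL g : GL (Fin 2) ℂ) : Matrix (Fin 2) (Fin 2) ℂ) = !![a, b; c, d] := by
    ext i j
    fin_cases i <;> fin_cases j <;> rfl
  rw [hG] at hm
  have e00 := congrFun (congrFun hm 0) 0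
  have e01 := congrFun (congrFun hm 0) 1
  have e10 := congrFun (congrFun hm 1) 0
  have e11 := congrFun (congrFun hm 1) 1
  simp only [mat, x0, Matrix.mul_apply, Fin.sum_univ_two, Matrix.of_apply, Matrix.cons_val',
    Matrix.cons_val_zero, Matrix.cons_val_one, Matrix.cons_val_fin_one,
    Matrix.conjTranspose_apply, RCLike.star_def, Complex.ofReal_zero, map_one, mul_zero, mul_one,
    zero_add, add_zero] at e00 e01 e10 e11
  have hra : a = conj a := by linear_combination (-a) * hdet' + conj c * e00 - conj a * e01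
  have hrb : b = -conj b := by linear_combination (-b) * hdet' - conj d * e00 + conj b * e01
  have hrd : d = conj d := by linear_combination (-d) * hdet' - conj d * e10 + conj b * e11
  have hrc : c = -conj c := by linear_combination (-c) * hdet' + conj c * e10 - conj a * e11
  obtain ⟨a', ha'⟩ := real_Oe hra
  obtain ⟨b', hb'⟩ := imag_Oe hrb
  obtain ⟨c', hc'⟩ := imag_Oe hrc
  obtain ⟨d', hd'⟩ := real_Oe hrd
  have hdetO : (g 0 0 : Oe) * g 1 1 - g 0 1 * g 1 0 = 1 := by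
    have h2 := g.2
    rwa [Matrix.det_fin_two] at h2
  have hdetZ : a' * d' - b' * (-(3 * c')) = 1 := by
    have h1 : ((a' * d' - b' * (-(3 * c')) : ℤ) : Oe) = ((1 : ℤ) : Oe) := by
      rw [ha', hb', hc', hd'] at hdetO
      push_cast
      linear_combination hdetO + (b' : Oe) * c' * s3O_sq
    have h2 : (((a' * d' - b' * (-(3 * c')) : ℤ) : Oe) : ℂ) = (((1 : ℤ) : Oe) : ℂ) :=
      congrArg _ h1
    rw [Subring.coe_intCast, Subring.coe_intCast] at h2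
    exact_mod_cast h2
  have h00 := hg 0 0
  have h01 := hg 0 1
  have h10 := hg 1 0
  have h11 := hg 1 1
  change ((N : ℕ) : Oe) ∣ g 0 0 - 1 at h00
  change ((N : ℕ) : Oe) ∣ g 0 1 - 0 at h01
  change ((N : ℕ) : Oe) ∣ g 1 0 - 0 at h10
  change ((N : ℕ) : Oe) ∣ g 1 1 - 1 at h11
  have k00 : (N : ℤ) ∣ a' - 1 := dvd_of_cast (by rw [ha'] at h00; push_cast; exact h00)
  have k01 : (N : ℤ) ∣ b' := dvd_of_cast_s3 (by rw [hb', sub_zero] at h01; exact h01)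
  have k10 : (N : ℤ) ∣ c' := dvd_of_cast_s3 (by rw [hc', sub_zero] at h10; exact h10)
  have k11 : (N : ℤ) ∣ d' - 1 := dvd_of_cast (by rw [hd'] at h11; push_cast; exact h11)
  let γ0 : SL(2, ℤ) := ⟨!![a', b'; -(3 * c'), d'], by rw [Matrix.det_fin_two_of]; exact hdetZ⟩
  have hγ : γ0 ∈ TT N := by
    rw [mem_TT]
    refine ⟨⟨⟨k00, k01⟩, k11⟩, ?_⟩
    change (3 * N : ℤ) ∣ -(3 * c')
    exact dvd_neg.mpr (mul_dvd_mul_left 3 k10)
  refine ⟨⟨γ0, hγ⟩, ?_⟩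
  refine Subtype.ext (Matrix.ext fun i j => ?_)
  fin_cases i <;> fin_cases j
  · change emb ⟨γ0, hγ⟩ 0 0 = g 0 0
    rw [emb00, ha']
    rfl
  · change emb ⟨γ0, hγ⟩ 0 1 = g 0 1
    rw [emb01, hb']
    rfl
  · change emb ⟨γ0, hγ⟩ 1 0 = g 1 0
    rw [emb10, hc']
    change -(((-(3 * c') / 3 : ℤ)) : Oe) * s3O = _
    have h5 : -(3 * c') / 3 = -c' := by omega
    rw [h5]
    push_cast
    ring
  · change emb ⟨γ0, hγ⟩ 1 1 = g 1 1
    rw [emb11, hd']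
    rfl

theorem emb_injective {N : ℕ} : Function.Injective (emb (N := N)) := by
  intro γ γ' h
  have key : ∀ a b : ℤ, (a : Oe) = b → a = b := by
    intro a b hab
    have h2 : ((a : Oe) : ℂ) = ((b : Oe) : ℂ) := congrArg _ hab
    rw [Subring.coe_intCast, Subring.coe_intCast] at h2
    exact_mod_cast h2
  have hs : (s3O : Oe) ≠ 0 := by
    intro h0
    have h1 := s3O_sq
    rw [h0, mul_zero] at h1
    have h2 : (((0 : ℤ) : Oe)) = ((-3 : ℤ) : Oe) := by push_cast; exact h1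
    have := key _ _ h2
    omega
  have k00 : emb γ 0 0 = emb γ' 0 0 := by rw [h]
  have k01 : emb γ 0 1 = emb γ' 0 1 := by rw [h]
  have k10 : emb γ 1 0 = emb γ' 1 0 := by rw [h]
  have k11 : emb γ 1 1 = emb γ' 1 1 := by rw [h]
  rw [emb00, emb00] at k00
  rw [emb01, emb01] at k01
  rw [emb10, emb10] at k10
  rw [emb11, emb11] at k11
  have e00 := key _ _ k00
  have e01 := key _ _ (mul_right_cancel₀ hs k01)
  have e10 := key _ _ (neg_injective (mul_right_cancel₀ hs k10))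
  have e11 := key _ _ k11
  have e10' : γ.1 1 0 = γ'.1 1 0 := by
    rw [mem_TT_div γ.2, mem_TT_div γ'.2, e10]
  apply Subtype.ext
  apply Subtype.ext
  ext i j
  fin_cases i <;> fin_cases j
  · exact e00
  · exact e01
  · exact e10'
  · exact e11

/-- the stabiliser of the base point -/
noncomputable def stabEquiv (N : ℕ) : TT N ≃ MulAction.stabilizer (Gam N) (bpt N) :=
  Equiv.ofBijective (fun γ => ⟨⟨emb γ, emb_mem γ⟩, mem_stab.mpr (emb_x0 γ)⟩) (by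
    constructor
    · intro γ γ' h
      apply emb_injective
      exact congrArg (fun t : MulAction.stabilizer (Gam N) (bpt N) => ((t : Gam N) : SL(2, Oe))) h
    · intro t
      obtain ⟨γ, hγ⟩ := exists_emb (t : Gam N).2 (mem_stab.mp t.2)
      exact ⟨γ, Subtype.ext (Subtype.ext hγ)⟩)

theorem foot_stabEquiv {N : ℕ} (γ : TT N) (w : H3) :
    foot (stabEquiv N γ • w) = (γ : SL(2, ℤ)) • foot w := foot_emb γ w

/-! ### the weight -/

/-- the weight on the plane -/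
noncomputable def W0 (N : ℕ) (τ : ℍ) : ℝ≥0 := (Petersson.wtG (TT N) τ).toNNReal

instance (N : ℕ) [NeZero N] : (TT N).FiniteIndex := by
  have : NeZero (3 * N) := ⟨mul_ne_zero (by norm_num) (NeZero.ne N)⟩
  unfold TT
  infer_instance

theorem coe_W0 (N : ℕ) [NeZero N] (τ : ℍ) : (W0 N τ : ℝ≥0∞) = Petersson.wtG (TT N) τ :=
  ENNReal.coe_toNNReal ((isWtS_wtG (TT N)).ne_top τ)

theorem measurable_W0 (N : ℕ) [NeZero N] : Measurable (W0 N) :=
  (isWtS_wtG (TT N)).meas.ennreal_toNNReal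

theorem isWt_foot (N : ℕ) [NeZero N] :
    IsWt (MulAction.stabilizer (Gam N) (bpt N)) volume (fun w => W0 N (foot w)) := by
  refine ⟨(measurable_W0 N).comp measurable_foot, Filter.Eventually.of_forall fun w => ?_⟩
  rw [← (stabEquiv N).tsum_eq]
  simp_rw [foot_stabEquiv, coe_W0]
  exact (isWtS_wtG (TT N)).sum_eq (foot w)


end Fermat.Agent.LT.Th
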