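import Fermat.Agent.LT.Th.Per

set_option autoImplicit false

/-!
# The class integral and the period
-/

namespace Fermat.Agent.LT.Th

open Matrix ComplexConjugate MeasureTheory Complex HM Set UpperHalfPlane Filter Topology
open scoped Real MatrixGroups ENNReal NNReal
open Fermat.Agent.LT.FA Fermat.Agent.LT.Asai

/-- the density -/
noncomputable def rho (s : ℝ) : ℝ≥0 := Real.toNNReal √(1 + s ^ 2)

theorem measurable_rho : Measurable rho := by
  unfold rho
  fun_prop

theorem dμ_eq : dμ = wtM volume rho := rfl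

theorem integral_dμ {E : Type*} [NormedAddCommGroup E] [NormedSpace ℝ E] (g : ℝ → E) :
    ∫ s, g s ∂dμ = ∫ s, √(1 + s ^ 2) • g s := by
  rw [dμ_eq, integral_wtM measurable_rho]
  refine integral_congr_ae (Eventually.of_forall fun s => ?_)
  simp only [rho]
  rw [NNReal.smul_def, Real.coe_toNNReal _ (Real.sqrt_nonneg _)]

theorem integrable_dμ {E : Type*} [NormedAddCommGroup E] [NormedSpace ℝ E] {g : ℝ → E} :
    Integrable g dμ ↔ Integrable (fun s => √(1 + s ^ 2) • g s) volume := by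
  rw [dμ_eq, integrable_wtM measurable_rho]
  refine integrable_congr (Eventually.of_forall fun s => ?_)
  simp only [rho]
  rw [NNReal.smul_def, Real.coe_toNNReal _ (Real.sqrt_nonneg _)]

theorem sqrt_exp_le {b : ℝ} (hb : 0 < b) (s : ℝ) :
    √(1 + s ^ 2) * Real.exp (-b * s ^ 2) ≤ (1 + 2 / b) * Real.exp (-(b / 2) * s ^ 2) := by
  have h1 : √(1 + s ^ 2) ≤ 1 + s ^ 2 := by
    rw [Real.sqrt_le_left (by positivity)]
    nlinarith [sq_nonneg s]
  have h2 : b / 2 * s ^ 2 + 1 ≤ Real.exp (b / 2 * s ^ 2) := Real.add_one_le_exp _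
  have h3 : 1 + s ^ 2 ≤ (1 + 2 / b) * Real.exp (b / 2 * s ^ 2) := by
    have h4 : 1 + s ^ 2 ≤ (1 + 2 / b) * (b / 2 * s ^ 2 + 1) := by
      have h5 : (1 + 2 / b) * (b / 2 * s ^ 2 + 1) = 1 + s ^ 2 + (b / 2 * s ^ 2 + 2 / b) := by
        field_simp
        ring
      rw [h5]
      have : 0 ≤ b / 2 * s ^ 2 + 2 / b := by positivity
      linarith
    exact h4.trans (mul_le_mul_of_nonneg_left h2 (by positivity))
  have h6 : Real.exp (-b * s ^ 2) = Real.exp (-(b / 2) * s ^ 2) * Real.exp (-(b / 2) * s ^ 2) := by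
    rw [← Real.exp_add]; ring_nf
  have h7 : Real.exp (b / 2 * s ^ 2) * Real.exp (-(b / 2) * s ^ 2) = 1 := by
    rw [← Real.exp_add]; ring_nf; exact Real.exp_zero
  calc √(1 + s ^ 2) * Real.exp (-b * s ^ 2)
      ≤ ((1 + 2 / b) * Real.exp (b / 2 * s ^ 2)) * Real.exp (-b * s ^ 2) :=
        mul_le_mul_of_nonneg_right (h1.trans h3) (Real.exp_pos _).le
    _ = (1 + 2 / b) * Real.exp (-(b / 2) * s ^ 2) := by
        rw [h6]
        linear_combination ((1 + 2 / b) * Real.exp (-(b / 2) * s ^ 2)) * h7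

theorem integrable_gauss {b : ℝ} (hb : 0 < b) :
    Integrable (fun s : ℝ => √(1 + s ^ 2) * Real.exp (-b * s ^ 2)) := by
  have h1 : Integrable (fun s : ℝ => (1 + 2 / b) * Real.exp (-(b / 2) * s ^ 2)) :=
    (integrable_exp_neg_mul_sq (by positivity)).const_mul _
  refine h1.mono' ?_ (Eventually.of_forall fun s => ?_)
  · have : Continuous fun s : ℝ => √(1 + s ^ 2) * Real.exp (-b * s ^ 2) := by fun_prop
    exact this.aestronglyMeasurable
  · rw [Real.norm_of_nonneg (by positivity)]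
    exact sqrt_exp_le hb s

theorem integrable_W0 (N : ℕ) [NeZero N] : Integrable (fun τ : ℍ => (W0 N τ : ℝ)) volume := by
  refine ⟨((measurable_W0 N).coe_nnreal_real).aestronglyMeasurable, ?_⟩
  rw [HasFiniteIntegral]
  have h1 : ∀ τ : ℍ, ‖(W0 N τ : ℝ)‖ₑ = Petersson.wtG (TT N) τ := by
    intro τ
    rw [← coe_W0, NNReal.enorm_eq]
  simp_rw [h1]
  exact (isWtS_wtG (TT N)).lint

section

variable {N : ℕ} [NeZero N] {φ : H3 → ℂ}

/-- the integrand in coordinates -/
noncomputable def GI (N : ℕ) (φ : H3 → ℂ) (v : ℝ) (p : ℍ × ℝ) : ℂ :=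
  (W0 N p.1 : ℂ) * φ (wp p.1 p.2) * (√v * Real.exp (-2 * π * v) * Real.exp (-(4 * π * v) * p.2 ^ 2) : ℝ)

/-- the integral over the planes parallel to `Re z = 0` -/
noncomputable def JJ (N : ℕ) (φ : H3 → ℂ) (s : ℝ) : ℂ := ∫ τ : ℍ, (W0 N τ : ℂ) * φ (wp τ s)

theorem kv_wp (v : ℝ) (τ : ℍ) (s : ℝ) : kv 0 v (wp τ s) x0 =
    √v * Real.exp (-2 * π * v) * Real.exp (-(4 * π * v) * s ^ 2) := by
  rw [kv, Q_wp, P, if_pos rfl, mul_one, mul_assoc (√v), ← Real.exp_add]
  congr 2
  ring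

theorem measurable_GI (hφ : Continuous φ) (v : ℝ) : Measurable (GI N φ v) := by
  unfold GI
  have h1 : Measurable fun p : ℍ × ℝ => (W0 N p.1 : ℂ) := by
    have h2 : Measurable fun p : ℍ × ℝ => W0 N p.1 := (measurable_W0 N).comp measurable_fst
    exact Complex.measurable_ofReal.comp h2.coe_nnreal_real
  have h3 : Measurable fun p : ℍ × ℝ => φ (wp p.1 p.2) := (hφ.comp continuous_wp).measurable
  have h4 : Measurable fun p : ℍ × ℝ => ((√v * Real.exp (-2 * π * v) *
      Real.exp (-(4 * π * v) * p.2 ^ 2) : ℝ) : ℂ) := by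
    have h5 : Measurable fun p : ℍ × ℝ => p.2 := measurable_snd
    have h6 : Measurable fun s : ℝ => ((√v * Real.exp (-2 * π * v) *
      Real.exp (-(4 * π * v) * s ^ 2) : ℝ) : ℂ) := by fun_prop
    exact h6.comp h5
  exact (h1.mul h3).mul h4

theorem integrable_GI (hφ : Continuous φ) {C : ℝ} (hC : ∀ w, ‖φ w‖ ≤ C) {v : ℝ} (hv : 0 < v) :
    Integrable (GI N φ v) ((volume : Measure ℍ).prod dμ) := by
  have h1 : Integrable (fun s : ℝ => Real.exp (-(4 * π * v) * s ^ 2)) dμ := by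
    rw [integrable_dμ]
    simp_rw [smul_eq_mul]
    exact integrable_gauss (by positivity)
  have h2 := (integrable_W0 N).mul_prod h1
  have h3 := h2.const_mul (C * (√v * Real.exp (-2 * π * v)))
  refine h3.mono' (measurable_GI hφ v).aestronglyMeasurable (Eventually.of_forall fun p => ?_)
  rw [GI, norm_mul, norm_mul, Complex.norm_real, Complex.norm_real, Real.norm_of_nonneg
    (NNReal.coe_nonneg _), Real.norm_of_nonneg (by positivity)]
  have h4 := hC (wp p.1 p.2)
  have h5 : 0 ≤ (W0 N p.1 : ℝ) * (√v * Real.exp (-2 * π * v) *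
      Real.exp (-(4 * π * v) * p.2 ^ 2)) := by positivity
  have h6 := mul_le_mul_of_nonneg_left h4 h5
  linarith

/-- **the class integral in coordinates** -/
theorem qint_eq_JJ (hφ : Input N φ) {v : ℝ} (hv : 0 < v) :
    qint (MulAction.stabilizer (Gam N) (bpt N)) volume (FX φ v x0) =
      ∫ s : ℝ, √(1 + s ^ 2) • (JJ N φ s *
        (√v * Real.exp (-2 * π * v) * Real.exp (-(4 * π * v) * s ^ 2) : ℝ)) := by
  obtain ⟨C, hC, hb⟩ := norm_phi_le hφ
  have h1 := (isWt_foot N).qint_eq (F := FX φ v x0) (measurable_FX hφ v x0).aestronglyMeasurable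
    (fun t => Eventually.of_forall fun w => by
      have h2 : φ (t • w) = φ w := hφ.inv ((t : Gam N) : SL(2, Oe)) (t : Gam N).2 w
      have h3 : kv 0 v (t • w) x0 = kv 0 v w x0 := by
        have h4 := kv_SL 0 v ((t : Gam N) : SL(2, Oe)) w x0
        have h5 : actM (toGL ((t : Gam N) : SL(2, Oe))) x0 = x0 := mem_stab.mp t.2
        rw [h5] at h4
        exact h4
      simp only [FX]
      rw [h2, h3])
  have hmw : Measurable fun w => W0 N (foot w) := (measurable_W0 N).comp measurable_foot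
  rw [h1, integral_wtM hmw]
  have hm : Measurable (fun w => W0 N (foot w) • FX φ v x0 w) :=
    ((measurable_W0 N).comp measurable_foot).smul (measurable_FX hφ v x0)
  have h2 : ∫ w : H3, W0 N (foot w) • FX φ v x0 w =
      ∫ p : ℍ × ℝ, GI N φ v p ∂((volume : Measure ℍ).prod dμ) := by
    have hmap := measurePreserving_wp.map_eq
    rw [← hmap, integral_map measurePreserving_wp.measurable.aemeasurable hm.aestronglyMeasurable]
    refine integral_congr_ae (Eventually.of_forall fun p => ?_)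
    simp only
    rw [foot_wp, FX, kv_wp, NNReal.smul_def, Complex.real_smul, GI]
    ring
  rw [h2, integral_prod_symm _ (integrable_GI hφ.cont hb hv), integral_dμ]
  refine integral_congr_ae (Eventually.of_forall fun s => ?_)
  simp only
  rw [JJ, ← integral_mul_const]
  rfl

theorem norm_JJ_le (hC : ∃ C : ℝ, ∀ w, ‖φ w‖ ≤ C) : ∃ C : ℝ, ∀ s, ‖JJ N φ s‖ ≤ C := by
  obtain ⟨C, hC⟩ := hC
  refine ⟨∫ τ : ℍ, (W0 N τ : ℝ) * C, fun s => ?_⟩
  refine norm_integral_le_of_norm_le ((integrable_W0 N).mul_const C) (Eventually.of_forall fun τ => ?_)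
  rw [norm_mul, Complex.norm_real, Real.norm_of_nonneg (NNReal.coe_nonneg _)]
  exact mul_le_mul_of_nonneg_left (hC _) (NNReal.coe_nonneg _)

theorem continuous_JJ (hφ : Continuous φ) (hC : ∃ C : ℝ, ∀ w, ‖φ w‖ ≤ C) : Continuous (JJ N φ) := by
  obtain ⟨C, hC⟩ := hC
  refine continuous_of_dominated (F := fun s (τ : ℍ) => (W0 N τ : ℂ) * φ (wp τ s))
    (bound := fun τ => (W0 N τ : ℝ) * C) (fun s => ?_) (fun s => Eventually.of_forall fun τ => ?_)
    ((integrable_W0 N).mul_const C) (Eventually.of_forall fun τ => ?_)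
  · have h1 : Measurable fun τ : ℍ => (W0 N τ : ℂ) :=
      Complex.measurable_ofReal.comp (measurable_W0 N).coe_nnreal_real
    have h2 : Continuous fun τ : ℍ => wp τ s :=
      continuous_wp.comp (continuous_id.prodMk continuous_const)
    exact (h1.mul (hφ.comp h2).measurable).aestronglyMeasurable
  · rw [norm_mul, Complex.norm_real, Real.norm_of_nonneg (NNReal.coe_nonneg _)]
    exact mul_le_mul_of_nonneg_left (hC _) (NNReal.coe_nonneg _)
  · have h2 : Continuous fun s : ℝ => wp τ s :=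
      continuous_wp.comp (continuous_const.prodMk continuous_id)
    exact continuous_const.mul (hφ.comp h2)

/-- **concentration on the plane** -/
theorem limit_zero {J : ℝ → ℂ} (hJ : Continuous J) (hb : ∃ C : ℝ, ∀ s, ‖J s‖ ≤ C)
    (h : ∀ v : ℝ, 0 < v → ∫ s : ℝ, √(1 + s ^ 2) • (J s *
        (√v * Real.exp (-2 * π * v) * Real.exp (-(4 * π * v) * s ^ 2) : ℝ)) = 0) : J 0 = 0 := by
  obtain ⟨C, hC⟩ := hb
  -- rescaled integrals
  have h1 : ∀ n : ℕ, ∫ u : ℝ, √(1 + (u / (n + 1)) ^ 2) • (J (u / (n + 1)) *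
      (Real.exp (-(4 * π) * u ^ 2) : ℝ)) = 0 := by
    intro n
    have hn : (0 : ℝ) < (n : ℝ) + 1 := by positivity
    have h2 := h (((n : ℝ) + 1) ^ 2) (by positivity)
    have h3 := Measure.integral_comp_div (fun s : ℝ => √(1 + s ^ 2) • (J s *
      (Real.exp (-(4 * π * ((n : ℝ) + 1) ^ 2) * s ^ 2) : ℝ))) ((n : ℝ) + 1)
    have h4 : ∫ s : ℝ, √(1 + s ^ 2) • (J s *
        (Real.exp (-(4 * π * ((n : ℝ) + 1) ^ 2) * s ^ 2) : ℝ)) = 0 := by
      have h5 : (fun s : ℝ => √(1 + s ^ 2) • (J s * (√(((n : ℝ) + 1) ^ 2) *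
          Real.exp (-2 * π * ((n : ℝ) + 1) ^ 2) *
          Real.exp (-(4 * π * ((n : ℝ) + 1) ^ 2) * s ^ 2) : ℝ))) =
          fun s : ℝ => (√(((n : ℝ) + 1) ^ 2) * Real.exp (-2 * π * ((n : ℝ) + 1) ^ 2) : ℝ) •
            (√(1 + s ^ 2) • (J s * (Real.exp (-(4 * π * ((n : ℝ) + 1) ^ 2) * s ^ 2) : ℝ))) := by
        funext s
        simp only [Complex.real_smul]
        push_cast
        ring
      rw [h5, integral_smul, smul_eq_zero] at h2
      rcases h2 with h2 | h2
      · exfalso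
        have : 0 < √(((n : ℝ) + 1) ^ 2) * Real.exp (-2 * π * ((n : ℝ) + 1) ^ 2) := by
          have : 0 < √(((n : ℝ) + 1) ^ 2) := Real.sqrt_pos.mpr (by positivity)
          positivity
        exact this.ne' h2
      · exact h2
    rw [h4, smul_zero] at h3
    rw [← h3]
    refine integral_congr_ae (Eventually.of_forall fun u => ?_)
    simp only
    congr 4
    rw [div_pow]
    field_simp
  have h2 : Tendsto (fun n : ℕ => ∫ u : ℝ, √(1 + (u / (n + 1)) ^ 2) • (J (u / (n + 1)) *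
      (Real.exp (-(4 * π) * u ^ 2) : ℝ))) atTop
      (𝓝 (∫ u : ℝ, J 0 * (Real.exp (-(4 * π) * u ^ 2) : ℝ))) := by
    refine tendsto_integral_of_dominated_convergence
      (fun u => C * (√(1 + u ^ 2) * Real.exp (-(4 * π) * u ^ 2))) (fun n => ?_) ?_
      (fun n => Eventually.of_forall fun u => ?_) (Eventually.of_forall fun u => ?_)
    · have : Continuous fun u : ℝ => √(1 + (u / (n + 1)) ^ 2) • (J (u / (n + 1)) *
        (Real.exp (-(4 * π) * u ^ 2) : ℝ)) := by fun_prop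
      exact this.aestronglyMeasurable
    · exact (integrable_gauss (by positivity)).const_mul C
    · rw [norm_smul, norm_mul, Complex.norm_real, Real.norm_of_nonneg (Real.sqrt_nonneg _),
        Real.norm_of_nonneg (Real.exp_pos _).le]
      have h3 : (u / (n + 1)) ^ 2 ≤ u ^ 2 := by
        rw [div_pow]
        refine div_le_self (sq_nonneg u) ?_
        have : (1 : ℝ) ≤ (n : ℝ) + 1 := by linarith [(Nat.cast_nonneg n : (0 : ℝ) ≤ n)]
        nlinarith
      have h4 : √(1 + (u / (n + 1)) ^ 2) ≤ √(1 + u ^ 2) := Real.sqrt_le_sqrt (by linarith)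
      have h5 := hC (u / (n + 1))
      have h6 : 0 ≤ C := (norm_nonneg _).trans h5
      calc √(1 + (u / (n + 1)) ^ 2) * (‖J (u / (n + 1))‖ * Real.exp (-(4 * π) * u ^ 2))
          ≤ √(1 + u ^ 2) * (C * Real.exp (-(4 * π) * u ^ 2)) := by gcongr
        _ = C * (√(1 + u ^ 2) * Real.exp (-(4 * π) * u ^ 2)) := by ring
    · have h3 : Tendsto (fun n : ℕ => u / ((n : ℝ) + 1)) atTop (𝓝 0) :=
        tendsto_const_div_atTop_nhds_zero_nat u |>.comp (tendsto_add_atTop_nat 1) |>.congr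
          (fun n => by simp)
      have h4 : Continuous fun x : ℝ => √(1 + x ^ 2) • (J x * (Real.exp (-(4 * π) * u ^ 2) : ℝ)) := by
        fun_prop
      have h5 := (h4.tendsto 0).comp h3
      have h6 : √(1 + (0 : ℝ) ^ 2) • (J 0 * ((Real.exp (-(4 * π) * u ^ 2) : ℝ) : ℂ)) =
          J 0 * (Real.exp (-(4 * π) * u ^ 2) : ℝ) := by
        rw [zero_pow two_ne_zero, add_zero, Real.sqrt_one, one_smul]
      rw [h6] at h5
      exact h5
  simp_rw [h1] at h2
  have h3 := tendsto_nhds_unique h2 tendsto_const_nhds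
  rw [integral_const_mul, mul_eq_zero] at h3
  rcases h3 with h3 | h3
  · exact h3
  · exfalso
    have h4 : ∫ u : ℝ, ((Real.exp (-(4 * π) * u ^ 2) : ℝ) : ℂ) =
        ((∫ u : ℝ, Real.exp (-(4 * π) * u ^ 2) : ℝ) : ℂ) := integral_ofReal
    rw [h4, integral_gaussian] at h3
    have : 0 < √(π / (4 * π)) := Real.sqrt_pos.mpr (by positivity)
    exact this.ne' (by exact_mod_cast h3)

end

/-! ### periods -/

/-- weights for larger groups -/
theorem isWtS_wtG_div {S G : Subgroup SL(2, ℤ)} (h : S ≤ G) [S.FiniteIndex] :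
    ∃ m : ℕ, m ≠ 0 ∧ IsWtS G (fun z => Petersson.wtG S z / m) := by
  classical
  have hw := isWtS_wtG S
  have hfin : Finite (G ⧸ S.subgroupOf G) := inferInstance
  have := Fintype.ofFinite (G ⧸ S.subgroupOf G)
  have hm : Fintype.card (G ⧸ S.subgroupOf G) ≠ 0 := Fintype.card_ne_zero
  refine ⟨Fintype.card (G ⧸ S.subgroupOf G), hm, ?_, ?_, ?_⟩
  · exact hw.meas.div_const _
  · intro z
    simp_rw [div_eq_mul_inv]
    rw [ENNReal.tsum_mul_right]
    have h1 : ∑' γ : G, Petersson.wtG S ((γ : SL(2, ℤ)) • z) =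
        Fintype.card (G ⧸ S.subgroupOf G) := by
      rw [← (Equiv.inv G).tsum_eq, ← (outEquiv (S.subgroupOf G)).tsum_eq, ENNReal.tsum_prod']
      have h2 : ∀ q : G ⧸ S.subgroupOf G, ∑' t : S.subgroupOf G, Petersson.wtG S
          (((((Equiv.inv G) ((outEquiv (S.subgroupOf G)) (q, t))) : G) : SL(2, ℤ)) • z) = 1 := by
        intro q
        have h3 : ∀ t : S.subgroupOf G, ((((Equiv.inv G) ((outEquiv (S.subgroupOf G)) (q, t))) : G) :
            SL(2, ℤ)) • z = ((Subgroup.subgroupOfEquivOfLe h t : S) : SL(2, ℤ))⁻¹ •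
              (((q.out : G) : SL(2, ℤ))⁻¹ • z) := by
          intro t
          change ((((q.out * (t : G))⁻¹ : G)) : SL(2, ℤ)) • z = _
          rw [_root_.mul_inv_rev, Subgroup.coe_mul, mul_smul]
          rfl
        simp_rw [h3]
        have h5 := (Subgroup.subgroupOfEquivOfLe h).toEquiv.tsum_eq (fun t : S => Petersson.wtG S
          ((t : SL(2, ℤ))⁻¹ • (((q.out : G) : SL(2, ℤ))⁻¹ • z)))
        refine Eq.trans h5 ?_
        have h4 := (Equiv.inv S).tsum_eq (fun t : S => Petersson.wtG S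
          ((t : SL(2, ℤ)) • (((q.out : G) : SL(2, ℤ))⁻¹ • z)))
        rw [hw.sum_eq] at h4
        exact h4
      simp_rw [h2]
      rw [tsum_fintype, Finset.sum_const, Finset.card_univ, nsmul_eq_mul, mul_one]
    rw [h1]
    exact ENNReal.mul_inv_cancel (by exact_mod_cast hm) (ENNReal.natCast_ne_top _)
  · simp_rw [div_eq_mul_inv]
    rw [lintegral_mul_const _ hw.meas]
    refine ENNReal.mul_lt_top hw.lint ?_
    rw [ENNReal.inv_lt_top]
    exact_mod_cast Nat.pos_of_ne_zero hm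

theorem TT_le {M N : ℕ} (h : M ∣ N) : TT N ≤ CongruenceSubgroup.Gamma M := by
  intro γ hγ
  have h1 : γ ∈ CongruenceSubgroup.Gamma N := (Subgroup.mem_inf.mp hγ).1
  rw [CongruenceSubgroup.Gamma_mem] at h1 ⊢
  have key : ∀ a : ℤ, ∀ b : ℤ, (a : ZMod N) = b → (a : ZMod M) = b := by
    intro a b hab
    rw [← sub_eq_zero, ← Int.cast_sub, ZMod.intCast_zmod_eq_zero_iff_dvd] at hab ⊢
    exact (Int.natCast_dvd_natCast.mpr h).trans hab
  obtain ⟨h00, h01, h10, h11⟩ := h1
  refine ⟨?_, ?_, ?_, ?_⟩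
  · simpa using key _ 1 (by simpa using h00)
  · simpa using key _ 0 (by simpa using h01)
  · simpa using key _ 0 (by simpa using h10)
  · simpa using key _ 1 (by simpa using h11)

/-- **comparison of periods** -/
theorem period_ne {M N : ℕ} [NeZero N] (h : M ∣ N) {φ : H3 → ℂ}
    (hper : ∀ w, IsWtS (CongruenceSubgroup.Gamma M) w →
      ∫ τ : ℍ, ((w τ).toReal : ℂ) * φ (wp τ 0) ≠ 0) : JJ N φ 0 ≠ 0 := by
  obtain ⟨m, hm, hw⟩ := isWtS_wtG_div (TT_le h)
  have h1 := hper _ hw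
  intro h0
  apply h1
  have h2 : ∀ τ : ℍ, (((Petersson.wtG (TT N) τ / m).toReal : ℝ) : ℂ) * φ (wp τ 0) =
      (m : ℂ)⁻¹ * ((W0 N τ : ℂ) * φ (wp τ 0)) := by
    intro τ
    rw [ENNReal.toReal_div, ENNReal.toReal_natCast]
    have h3 : (Petersson.wtG (TT N) τ).toReal = (W0 N τ : ℝ) := rfl
    rw [h3]
    push_cast
    ring
  simp_rw [h2]
  rw [integral_const_mul]
  have h4 : ∫ τ : ℍ, (W0 N τ : ℂ) * φ (wp τ 0) = 0 := h0
  rw [h4, mul_zero]

/-- **the first coefficient of the lift does not vanish** -/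
theorem exists_cf_ne_zero {N1 : ℕ} (h3 : 3 ∣ N1) (hN1 : N1 ≠ 0) {φ : H3 → ℂ}
    (hφ : Input (4 * N1) φ) (hinv : ∀ g ∈ Gam N1, ∀ w, φ (g • w) = φ w) {wt : H3 → ℝ≥0}
    (hwt : IsWt (Gam (4 * N1)) volume wt) [IsFiniteMeasure (wtM volume wt)] {M : ℕ}
    (hM : M ∣ 4 * N1) (hper : ∀ w, IsWtS (CongruenceSubgroup.Gamma M) w →
      ∫ τ : ℍ, ((w τ).toReal : ℂ) * φ (wp τ 0) ≠ 0) :
    ∃ (n : ℤ) (v : ℝ), 0 < v ∧ cf (4 * N1) φ (wtM volume wt) 0 n v ≠ 0 := by
  have : NeZero (4 * N1) := ⟨by omega⟩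
  obtain ⟨C, _, hC⟩ := norm_phi_le hφ
  by_contra hcon
  push Not at hcon
  refine period_ne hM hper (limit_zero (continuous_JJ hφ.cont ⟨C, hC⟩) (norm_JJ_le ⟨C, hC⟩)
    fun v hv => ?_)
  rw [← qint_eq_JJ hφ hv]
  by_contra hne
  exact cf_ne_zero h3 hN1 hφ hinv hwt hv hne (hcon 1 v hv)

end Fermat.Agent.LT.Th
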