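import Fermat.Agent.LT.Th.Bd2
import Fermat.Agent.LT.Th.Orb

set_option autoImplicit false

/-!
# Unfolding the first Fourier coefficient
-/

namespace Fermat.Agent.LT.Th

open Matrix ComplexConjugate MeasureTheory Complex HM Set
open scoped Real MatrixGroups ENNReal NNReal
open Fermat.Agent.LT.FA

/-- the points of norm `n` -/
def PtS (N : ℕ) (n : ℤ) : Type := {X : HM // (∃ k, Xk N k = X) ∧ q X = n}

theorem PtS.ext {N : ℕ} {n : ℤ} {X Y : PtS N n} (h : X.1 = Y.1) : X = Y := Subtype.ext h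

noncomputable instance (N : ℕ) (n : ℤ) : MulAction (Gam N) (PtS N n) where
  smul g X := ⟨actM (toGL (g : SL(2, Oe))) X.1, by
    obtain ⟨⟨k, hk⟩, hq⟩ := X.2
    obtain ⟨k', hk'⟩ := exists_Xk_actM g.2 k
    exact ⟨⟨k', by rw [hk', hk]⟩, by rw [q_SL, hq]⟩⟩
  one_smul X := PtS.ext (by
    change actM (toGL ((1 : Gam N) : SL(2, Oe))) X.1 = X.1
    rw [Subgroup.coe_one, map_one, Units.val_one, actM_one])
  mul_smul g h X := PtS.ext (by
    change actM (toGL ((g * h : Gam N) : SL(2, Oe))) X.1 =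
      actM (toGL (g : SL(2, Oe))) (actM (toGL (h : SL(2, Oe))) X.1)
    rw [Subgroup.coe_mul, map_mul, Units.val_mul, actM_mul])

theorem PtS.smul_val {N : ℕ} {n : ℤ} (g : Gam N) (X : PtS N n) :
    (g • X).1 = actM (toGL (g : SL(2, Oe))) X.1 := rfl

/-- parametrisation of the points -/
noncomputable def ptEquiv {N : ℕ} (hN : N ≠ 0) (n : ℤ) : Sn N n ≃ PtS N n :=
  Equiv.ofBijective (fun k => ⟨Xk N k.1, ⟨k.1, rfl⟩, k.2⟩) (by
    constructor
    · intro k k' h
      apply Subtype.ext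
      apply Xk_injective hN
      exact congrArg Subtype.val h
    · rintro ⟨X, ⟨k, rfl⟩, hq⟩
      exact ⟨⟨k, hq⟩, rfl⟩)

theorem ptEquiv_val {N : ℕ} (hN : N ≠ 0) (n : ℤ) (k : Sn N n) : (ptEquiv hN n k).1 = Xk N k := rfl

theorem countable_PtS {N : ℕ} (hN : N ≠ 0) (n : ℤ) : Countable (PtS N n) :=
  (ptEquiv hN n).symm.injective.countable

/-- the base point -/
noncomputable def bpt (N : ℕ) : PtS N 1 := ⟨x0, ⟨0, by
  rw [Xk, lp_zero]
  refine Prod.ext ?_ (Prod.ext ?_ ?_) <;> simp [x0]⟩, by simp [q, x0]⟩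

instance (N : ℕ) : SMulInvariantMeasure (Gam N) H3 volume :=
  ⟨fun g _ hs => SMulInvariantMeasure.measure_preimage_smul (g : SL(2, Oe)) hs⟩

/-- the integrand -/
noncomputable def FX (φ : H3 → ℂ) (v : ℝ) (X : HM) (w : H3) : ℂ := φ w * (kv 0 v w X : ℂ)

theorem measurable_FX {N : ℕ} {φ : H3 → ℂ} (hφ : Input N φ) (v : ℝ) (X : HM) :
    Measurable (FX φ v X) :=
  hφ.cont.measurable.mul (Complex.measurable_ofReal.comp (continuous_kv 0 v X).measurable)

section

variable {N : ℕ} {φ : H3 → ℂ} {wt : H3 → ℝ≥0}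

/-- **unfolding of the coefficients** -/
theorem hasSum_cf (hN : 2 ≤ N) (hφ : Input N φ) (hwt : IsWt (Gam N) volume wt)
    [IsFiniteMeasure (wtM volume wt)] (n : ℤ) {v : ℝ} (hv : 0 < v) :
    HasSum (fun ω : MulAction.orbitRel.Quotient (Gam N) (PtS N n) =>
      qint (MulAction.stabilizer (Gam N) ω.out) volume (FX φ v ω.out.1))
      (cf N φ (wtM volume wt) 0 n v) := by
  have hN0 : N ≠ 0 := by omega
  have := countable_PtS hN0 n
  obtain ⟨D, hD, hb⟩ := phi_kv_Xk hN hφ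
  have hcf : cf N φ (wtM volume wt) 0 n v =
      ∫ w, ∑' X : PtS N n, FX φ v X.1 w ∂(wtM volume wt) := by
    rw [cf]
    refine integral_congr_ae (Filter.Eventually.of_forall fun w => ?_)
    simp only
    rw [Complex.ofReal_tsum, ← tsum_mul_left, ← (ptEquiv hN0 n).tsum_eq]
    rfl
  rw [hcf]
  refine hwt.integral_classes_qint (F := fun (X : PtS N n) w => FX φ v X.1 w)
    (fun X => (measurable_FX hφ v X.1).aestronglyMeasurable) ?_ ?_
  · intro g X
    refine Filter.Eventually.of_forall fun w => ?_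
    simp only [FX, PtS.smul_val]
    have h1 : φ (g • w) = φ w := hφ.inv g g.2 w
    have h2 : kv 0 v (g • w) (actM (toGL (g : SL(2, Oe))) X.1) = kv 0 v w X.1 := kv_SL 0 v g w X.1
    rw [h1, h2]
  · have hm : ∀ X : PtS N n, AEMeasurable (fun w => ‖FX φ v X.1 w‖ₑ) (wtM volume wt) := fun X =>
      (measurable_FX hφ v X.1).enorm.aemeasurable
    rw [← lintegral_tsum hm]
    have hle : ∀ w, ∑' X : PtS N n, ‖FX φ v X.1 w‖ₑ ≤ ENNReal.ofReal (D v) := by
      intro w
      obtain ⟨hS, hle⟩ := hb 0 v hv w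
      rw [← (ptEquiv hN0 n).tsum_eq]
      simp only [ptEquiv_val]
      have hS' : Summable (fun k : Sn N n => ‖φ w‖ * |kv 0 v w (Xk N k)|) :=
        (hS.comp_injective Subtype.val_injective).mul_left _
      have e1 : ∀ k : Sn N n, ‖FX φ v (Xk N k) w‖ₑ =
          ENNReal.ofReal (‖φ w‖ * |kv 0 v w (Xk N k)|) := by
        intro k
        rw [FX, ← ofReal_norm, norm_mul, Complex.norm_real, Real.norm_eq_abs]
      simp_rw [e1]
      rw [← ENNReal.ofReal_tsum_of_nonneg (fun k => by positivity) hS']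
      apply ENNReal.ofReal_le_ofReal
      refine le_trans ?_ hle
      rw [tsum_mul_left]
      gcongr
      exact tsum_comp_le_tsum_of_inj hS (fun _ => abs_nonneg _) Subtype.val_injective
    refine (lt_of_le_of_lt (lintegral_mono hle) ?_).ne
    rw [lintegral_const]
    exact ENNReal.mul_lt_top ENNReal.ofReal_lt_top (measure_lt_top _ _)

/-- `Γ(N)` is normal -/
theorem conj_mem_Gam {h : SL(2, Oe)} (hh : h ∈ Gam N) (g : SL(2, Oe)) : g * h * g⁻¹ ∈ Gam N := by
  intro i j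
  have e1 : ((g * h * g⁻¹ : SL(2, Oe)) : Matrix (Fin 2) (Fin 2) Oe) - 1 =
      (g : Matrix (Fin 2) (Fin 2) Oe) * ((h : Matrix (Fin 2) (Fin 2) Oe) - 1) *
        ((g⁻¹ : SL(2, Oe)) : Matrix (Fin 2) (Fin 2) Oe) := by
    have e2 : (1 : Matrix (Fin 2) (Fin 2) Oe) = ((g * g⁻¹ : SL(2, Oe)) : Matrix (Fin 2) (Fin 2) Oe) := by
      rw [mul_inv_cancel, Matrix.SpecialLinearGroup.coe_one]
    rw [Matrix.mul_sub, Matrix.sub_mul, Matrix.mul_one]
    conv_lhs => rw [e2]
    simp only [Matrix.SpecialLinearGroup.coe_mul]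
  have e3 : ((g * h * g⁻¹ : SL(2, Oe)) : Matrix (Fin 2) (Fin 2) Oe) i j -
      (1 : Matrix (Fin 2) (Fin 2) Oe) i j =
      ((g : Matrix (Fin 2) (Fin 2) Oe) * ((h : Matrix (Fin 2) (Fin 2) Oe) - 1) *
        ((g⁻¹ : SL(2, Oe)) : Matrix (Fin 2) (Fin 2) Oe)) i j := by
    rw [← e1]; rfl
  rw [e3, Matrix.mul_apply]
  refine Finset.dvd_sum fun k _ => Dvd.dvd.mul_right ?_ _
  rw [Matrix.mul_apply]
  exact Finset.dvd_sum fun l _ => Dvd.dvd.mul_left (hh l k) _

theorem mem_stab {n : ℤ} {X : PtS N n} {t : Gam N} : t ∈ MulAction.stabilizer (Gam N) X ↔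
    actM (toGL (t : SL(2, Oe))) X.1 = X.1 := by
  rw [MulAction.mem_stabilizer_iff]
  constructor
  · intro h; exact congrArg Subtype.val h
  · intro h; exact PtS.ext h

theorem actM_toGL_mul (a b : SL(2, Oe)) (Y : HM) :
    actM (toGL (a * b)) Y = actM (toGL a) (actM (toGL b) Y) := by
  rw [map_mul, Units.val_mul, actM_mul]

/-- **all classes contribute the same** -/
theorem qint_class {N1 : ℕ} (hφ : Input N φ)
    (hinv : ∀ g ∈ Gam N1, ∀ w, φ (g • w) = φ w)
    (hwt : IsWt (Gam N) volume wt) (v : ℝ) (X : PtS N 1) {g : SL(2, Oe)} (hg : g ∈ Gam N1)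
    (hgX : actM (toGL g) x0 = X.1) :
    qint (MulAction.stabilizer (Gam N) X) volume (FX φ v X.1) =
      qint (MulAction.stabilizer (Gam N) (bpt N)) volume (FX φ v x0) := by
  have hgX' : actM (toGL g⁻¹) X.1 = x0 := by rw [← hgX, actM_toGL_inv]
  let e : MulAction.stabilizer (Gam N) (bpt N) ≃ MulAction.stabilizer (Gam N) X :=
    { toFun := fun t => ⟨⟨g * (t : Gam N) * g⁻¹, conj_mem_Gam (t : Gam N).2 g⟩, by
        rw [mem_stab]
        change actM (toGL (g * ((t : Gam N) : SL(2, Oe)) * g⁻¹)) X.1 = X.1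
        have h1 : actM (toGL ((t : Gam N) : SL(2, Oe))) x0 = x0 := mem_stab.mp t.2
        rw [actM_toGL_mul, actM_toGL_mul, hgX', h1, hgX]⟩
      invFun := fun t => ⟨⟨g⁻¹ * (t : Gam N) * g, by
          have := conj_mem_Gam (t : Gam N).2 g⁻¹
          rwa [inv_inv] at this⟩, by
        rw [mem_stab]
        change actM (toGL (g⁻¹ * ((t : Gam N) : SL(2, Oe)) * g)) x0 = x0
        have h1 : actM (toGL ((t : Gam N) : SL(2, Oe))) X.1 = X.1 := mem_stab.mp t.2
        rw [actM_toGL_mul, actM_toGL_mul, hgX, h1, hgX']⟩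
      left_inv := fun t => Subtype.ext (Subtype.ext (by simp [mul_assoc]))
      right_inv := fun t => Subtype.ext (Subtype.ext (by simp [mul_assoc])) }
  have hmp : MeasurePreserving (fun w : H3 => g • w) volume volume :=
    H3.measurePreserving_smul_H3 (toGL g)
  have h1 := IsWt.qint_comp (hwt.sub (MulAction.stabilizer (Gam N) X)) hmp e
    (fun t => Filter.Eventually.of_forall fun w => by
      change g • (((t : Gam N) : SL(2, Oe)) • w) = (g * ((t : Gam N) : SL(2, Oe)) * g⁻¹) • (g • w)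
      rw [← mul_smul, ← mul_smul, inv_mul_cancel_right])
    (F := FX φ v X.1) (measurable_FX hφ v X.1).aestronglyMeasurable
    (fun t => Filter.Eventually.of_forall fun w => by
      have h2 : φ (t • w) = φ w := hφ.inv ((t : Gam N) : SL(2, Oe)) (t : Gam N).2 w
      have h3 : kv 0 v (t • w) X.1 = kv 0 v w X.1 := by
        have h4 := kv_SL 0 v ((t : Gam N) : SL(2, Oe)) w X.1
        have h5 : actM (toGL ((t : Gam N) : SL(2, Oe))) X.1 = X.1 := mem_stab.mp t.2
        rw [h5] at h4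
        exact h4
      simp only [FX]
      rw [h2, h3])
  rw [← h1]
  congr 1
  funext w
  simp only [FX]
  rw [hinv g hg w, ← hgX, kv_SL]

/-- **the first coefficient does not vanish if the class integral does not vanish** -/
theorem cf_ne_zero {N1 : ℕ} (h3 : 3 ∣ N1) (hN1 : N1 ≠ 0) (hφ : Input (4 * N1) φ)
    (hinv : ∀ g ∈ Gam N1, ∀ w, φ (g • w) = φ w)
    (hwt : IsWt (Gam (4 * N1)) volume wt) [IsFiniteMeasure (wtM volume wt)] {v : ℝ} (hv : 0 < v)
    (hne : qint (MulAction.stabilizer (Gam (4 * N1)) (bpt (4 * N1))) volume (FX φ v x0) ≠ 0) :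
    cf (4 * N1) φ (wtM volume wt) 0 1 v ≠ 0 := by
  have hN : 2 ≤ 4 * N1 := by omega
  have h1 := hasSum_cf hN hφ hwt 1 hv
  set c := qint (MulAction.stabilizer (Gam (4 * N1)) (bpt (4 * N1))) volume (FX φ v x0) with hc
  have h2 : ∀ ω : MulAction.orbitRel.Quotient (Gam (4 * N1)) (PtS (4 * N1) 1),
      qint (MulAction.stabilizer (Gam (4 * N1)) ω.out) volume (FX φ v ω.out.1) = c := by
    intro ω
    obtain ⟨⟨k, hk⟩, hq⟩ := ω.out.2
    have hq1 : q ω.out.1 = 1 := by rw [hq]; norm_num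
    obtain ⟨g, hg, hgX⟩ := orb h3 hN1 (X := ω.out.1) (k := k) (by rw [← hk]; rfl) hq1
    exact qint_class hφ hinv hwt v ω.out hg hgX
  simp_rw [h2] at h1
  have hs : Summable (fun _ : MulAction.orbitRel.Quotient (Gam (4 * N1)) (PtS (4 * N1) 1) => c) :=
    h1.summable
  have hfin : Finite (MulAction.orbitRel.Quotient (Gam (4 * N1)) (PtS (4 * N1) 1)) := by
    by_contra hcon
    rw [not_finite_iff_infinite] at hcon
    exact hne (summable_const_iff c |>.mp hs)
  have := Fintype.ofFinite (MulAction.orbitRel.Quotient (Gam (4 * N1)) (PtS (4 * N1) 1))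
  rw [← h1.tsum_eq, tsum_fintype, Finset.sum_const]
  have hcard : (Finset.univ : Finset (MulAction.orbitRel.Quotient (Gam (4 * N1))
      (PtS (4 * N1) 1))).card ≠ 0 := by
    rw [Finset.card_ne_zero]
    exact ⟨Quotient.mk'' (bpt (4 * N1)), Finset.mem_univ _⟩
  exact smul_ne_zero hcard hne

end

end Fermat.Agent.LT.Th
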