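import Fermat.Agent.LT.Th.Coord
import Fermat.Agent.LT.Th.Pts

set_option autoImplicit false

/-!
# The stabiliser of `x0` and its action on the plane
-/

namespace Fermat.Agent.LT.Th

open Matrix ComplexConjugate MeasureTheory Complex HM Set UpperHalfPlane
open scoped Real MatrixGroups ENNReal NNReal
open Fermat.Agent.LT.FA

/-- the foot of a point on the plane -/
noncomputable def foot (w : H3) : ℍ := ⟨⟨w.z.im / √3, √(w.z.re ^ 2 + w.y ^ 2) / √3⟩, by
  have := w.pos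
  show 0 < √(w.z.re ^ 2 + w.y ^ 2) / √3
  positivity⟩

theorem foot_wp (τ : ℍ) (s : ℝ) : foot (wp τ s) = τ := by
  have hi := τ.im_pos
  have hc : 0 < √(1 + s ^ 2) := by positivity
  have h4 : √(1 + s ^ 2) ^ 2 = 1 + s ^ 2 := Real.sq_sqrt (by positivity)
  have h1 : (wp τ s).z.re ^ 2 + (wp τ s).y ^ 2 = (√3 * τ.im) ^ 2 := by
    have e1 : (wp τ s).z.re = -(√3 * τ.im / √(1 + s ^ 2) * s) := rfl
    have e2 : (wp τ s).y = √3 * τ.im / √(1 + s ^ 2) := rfl
    rw [e1, e2]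
    have e3 : (-(√3 * τ.im / √(1 + s ^ 2) * s)) ^ 2 + (√3 * τ.im / √(1 + s ^ 2)) ^ 2 =
        (√3 * τ.im) ^ 2 * (1 + s ^ 2) / √(1 + s ^ 2) ^ 2 := by field_simp; ring
    rw [e3, h4]
    field_simp
  apply UpperHalfPlane.ext
  apply Complex.ext
  · show (wp τ s).z.im / √3 = τ.re
    have e1 : (wp τ s).z.im = √3 * τ.re := rfl
    rw [e1]; field_simp
  · show √((wp τ s).z.re ^ 2 + (wp τ s).y ^ 2) / √3 = τ.im
    rw [h1, Real.sqrt_sq (by positivity)]
    field_simp

theorem wp_foot (w : H3) : wp (foot w) (t w x0) = w := by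
  have hy := w.pos
  have ht : t w x0 = -w.z.re / w.y := by
    rw [t]
    simp only [x0, one_mul, Complex.conj_re, zero_mul, add_zero, zero_sub]
    field_simp
  have hR : 0 < √(w.z.re ^ 2 + w.y ^ 2) := by positivity
  have h1 : √(1 + (t w x0) ^ 2) = √(w.z.re ^ 2 + w.y ^ 2) / w.y := by
    rw [ht]
    have e1 : 1 + (-w.z.re / w.y) ^ 2 = (w.z.re ^ 2 + w.y ^ 2) / w.y ^ 2 := by
      field_simp; ring
    rw [e1, Real.sqrt_div (by positivity), Real.sqrt_sq hy.le]
  have him : (foot w).im = √(w.z.re ^ 2 + w.y ^ 2) / √3 := rfl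
  have hre : (foot w).re = w.z.im / √3 := rfl
  have h2 : √3 * (foot w).im / √(1 + (t w x0) ^ 2) = w.y := by
    rw [h1, him]; field_simp
  apply H3.ext
  · apply Complex.ext
    · show -(√3 * (foot w).im / √(1 + (t w x0) ^ 2) * t w x0) = w.z.re
      rw [h2, ht]; field_simp
    · show √3 * (foot w).re = w.z.im
      rw [hre]; field_simp
  · exact h2

theorem measurable_foot : Measurable foot := by
  refine Continuous.measurable ?_
  refine UpperHalfPlane.isEmbedding_coe.continuous_iff.mpr ?_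
  have h1 : Continuous fun w : H3 => w.z.im / √3 :=
    (Complex.continuous_im.comp H3.continuous_z).div_const _
  have h2 : Continuous fun w : H3 => √(w.z.re ^ 2 + w.y ^ 2) / √3 := by
    have h3 := Complex.continuous_re.comp H3.continuous_z
    have h4 := H3.continuous_y
    have : Continuous fun w : H3 => w.z.re ^ 2 + w.y ^ 2 := (h3.pow 2).add (h4.pow 2)
    exact (Real.continuous_sqrt.comp this).div_const _
  have h5 : (UpperHalfPlane.coe ∘ foot) = fun w : H3 =>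
      ((w.z.im / √3 : ℝ) : ℂ) + ((√(w.z.re ^ 2 + w.y ^ 2) / √3 : ℝ) : ℂ) * Complex.I := by
    funext w
    apply Complex.ext
    · show w.z.im / √3 = _
      simp only [Complex.add_re, Complex.ofReal_re, Complex.mul_re, Complex.I_re, mul_zero,
        Complex.ofReal_im, Complex.I_im, zero_mul, sub_zero, add_zero]
    · show √(w.z.re ^ 2 + w.y ^ 2) / √3 = _
      simp only [Complex.add_im, Complex.ofReal_im, Complex.mul_im, Complex.I_re, mul_zero,
        Complex.ofReal_re, Complex.I_im, zero_add, mul_one, add_zero]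
  rw [h5]
  exact (Complex.continuous_ofReal.comp h1).add
    ((Complex.continuous_ofReal.comp h2).mul continuous_const)

/-- the group acting on the plane -/
def TT (N : ℕ) : Subgroup SL(2, ℤ) :=
  CongruenceSubgroup.Gamma N ⊓ CongruenceSubgroup.Gamma0 (3 * N)

theorem mem_TT {N : ℕ} {γ : SL(2, ℤ)} : γ ∈ TT N ↔
    (((N : ℤ) ∣ γ 0 0 - 1 ∧ (N : ℤ) ∣ γ 0 1) ∧ (N : ℤ) ∣ γ 1 1 - 1) ∧ (3 * N : ℤ) ∣ γ 1 0 := by
  rw [TT, Subgroup.mem_inf, CongruenceSubgroup.Gamma_mem, CongruenceSubgroup.Gamma0_mem]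
  have e1 : ∀ a : ℤ, ((a : ℤ) : ZMod N) = 1 ↔ (N : ℤ) ∣ a - 1 := by
    intro a
    rw [← ZMod.intCast_zmod_eq_zero_iff_dvd, Int.cast_sub, Int.cast_one, sub_eq_zero]
  have e2 : ∀ a : ℤ, ((a : ℤ) : ZMod N) = 0 ↔ (N : ℤ) ∣ a := fun a =>
    ZMod.intCast_zmod_eq_zero_iff_dvd a N
  have e3 : ((γ 1 0 : ℤ) : ZMod (3 * N)) = 0 ↔ (3 * N : ℤ) ∣ γ 1 0 := by
    have := ZMod.intCast_zmod_eq_zero_iff_dvd (γ 1 0) (3 * N)
    push_cast at this
    exact this
  rw [e1, e2, e1, e2, e3]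
  constructor
  · rintro ⟨⟨h1, h2, h3, h4⟩, h5⟩
    exact ⟨⟨⟨h1, h2⟩, h4⟩, h5⟩
  · rintro ⟨⟨⟨h1, h2⟩, h4⟩, h5⟩
    exact ⟨⟨h1, h2, (Dvd.intro_left 3 rfl).trans h5, h4⟩, h5⟩

theorem det_SL (γ : SL(2, ℤ)) : γ 0 0 * γ 1 1 - γ 0 1 * γ 1 0 = 1 := by
  have h := γ.2
  rwa [Matrix.det_fin_two] at h

/-- **the action on the coordinates** -/
theorem smul_wp {g : SL(2, Oe)} {γ : SL(2, ℤ)} {k : ℤ} (hk : γ 1 0 = 3 * k)
    (h00 : (g 0 0 : ℂ) = γ 0 0) (h01 : (g 0 1 : ℂ) = γ 0 1 * s3) (h10 : (g 1 0 : ℂ) = -k * s3)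
    (h11 : (g 1 1 : ℂ) = γ 1 1) (τ : ℍ) (s : ℝ) : g • wp τ s = wp (γ • τ) s := by
  have hdet : (γ 0 0 : ℝ) * γ 1 1 - γ 0 1 * γ 1 0 = 1 := by exact_mod_cast det_SL γ
  have hkR : (γ 1 0 : ℝ) = 3 * k := by rw [hk]; push_cast; ring
  set p : ℝ := (γ 0 0 : ℝ) with hp
  set q' : ℝ := (γ 0 1 : ℝ) with hq'
  set r : ℝ := (γ 1 0 : ℝ) with hr
  set d : ℝ := (γ 1 1 : ℝ) with hd
  set kk : ℝ := (k : ℝ) with hkk
  have hi := τ.im_pos
  have h3 : √3 ^ 2 = 3 := Real.sq_sqrt (by norm_num)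
  have hc2 : √(1 + s ^ 2) ^ 2 = 1 + s ^ 2 := Real.sq_sqrt (by positivity)
  have hc : 0 < √(1 + s ^ 2) := by positivity
  set Y : ℝ := √3 * τ.im / √(1 + s ^ 2) with hY
  have hYpos : 0 < Y := by positivity
  have hY2 : Y ^ 2 * (1 + s ^ 2) = 3 * τ.im ^ 2 := by
    rw [hY, div_pow, mul_pow, h3, hc2]; field_simp
  set D : ℝ := (r * τ.re + d) ^ 2 + r ^ 2 * τ.im ^ 2 with hD
  have hs3re : s3.re = 0 := rfl
  have hs3im : s3.im = √3 := rfl
  -- the denominator
  have hG : ∀ i j, ((toGL g : GL (Fin 2) ℂ) : Matrix (Fin 2) (Fin 2) ℂ) i j = (g i j : ℂ) :=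
    fun i j => rfl
  have hwz : (wp τ s).z = ⟨-(Y * s), √3 * τ.re⟩ := rfl
  have hwy : (wp τ s).y = Y := rfl
  have hden : (wp τ s).den (g 1 0 : ℂ) (g 1 1 : ℂ) = D := by
    rw [H3.den, hwz, hwy, h10, h11, Complex.sq_norm, Complex.sq_norm, Complex.normSq_apply,
      Complex.normSq_apply]
    simp only [Complex.add_re, Complex.add_im, Complex.mul_re, Complex.mul_im, Complex.neg_re,
      Complex.neg_im, Complex.intCast_re, Complex.intCast_im, hs3re, hs3im]
    rw [← hd, ← hkk, hD, hkR]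
    ring_nf
    have e1 : √3 ^ 4 = 9 := by rw [show √3 ^ 4 = (√3 ^ 2) ^ 2 by ring, h3]; norm_num
    rw [e1, h3]
    linear_combination (3 * kk ^ 2) * hY2
  have hDpos : 0 < D := by
    rw [← hden]
    exact (wp τ s).den_pos (row_ne_SL g 1)
  have hnum : (wp τ s).num (g 0 0 : ℂ) (g 0 1 : ℂ) (g 1 0 : ℂ) (g 1 1 : ℂ) =
      ⟨-(Y * s), √3 * (p * r * (τ.re ^ 2 + τ.im ^ 2) + (p * d + q' * r) * τ.re + q' * d)⟩ := by
    rw [H3.num, hwz, hwy, h00, h01, h10, h11]
    apply Complex.ext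
    · simp only [Complex.add_re, Complex.add_im, Complex.mul_re, Complex.mul_im, Complex.neg_re,
        Complex.neg_im, Complex.intCast_re, Complex.intCast_im, hs3re, hs3im, Complex.conj_re,
        Complex.conj_im, ← Complex.ofReal_pow, Complex.ofReal_re, Complex.ofReal_im, map_add,
        map_mul, map_neg]
      rw [← hd, ← hkk, ← hp, ← hq']
      rw [hkR] at hdet
      ring_nf
      rw [h3]
      linear_combination (-(Y * s)) * hdet
    · simp only [Complex.add_re, Complex.add_im, Complex.mul_re, Complex.mul_im, Complex.neg_re,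
        Complex.neg_im, Complex.intCast_re, Complex.intCast_im, hs3re, hs3im, Complex.conj_re,
        Complex.conj_im, ← Complex.ofReal_pow, Complex.ofReal_re, Complex.ofReal_im, map_add,
        map_mul, map_neg]
      rw [← hd, ← hkk, ← hp, ← hq', hkR]
      ring_nf
      have e1 : √3 ^ 3 = 3 * √3 := by rw [show √3 ^ 3 = √3 ^ 2 * √3 by ring, h3]
      rw [e1]
      linear_combination (√3 * p * kk) * hY2
  -- the action on the upper half plane
  have hdenom : normSq (UpperHalfPlane.denom γ τ) = D := by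
    rw [ModularGroup.denom_apply, Complex.normSq_apply]
    simp only [Complex.add_re, Complex.add_im, Complex.mul_re, Complex.mul_im,
      Complex.intCast_re, Complex.intCast_im, UpperHalfPlane.coe_re, UpperHalfPlane.coe_im]
    rw [← hd, ← hr, hD]
    ring
  have him : (γ • τ).im = τ.im / D := by
    rw [ModularGroup.im_smul_eq_div_normSq, hdenom]
  have hre : (γ • τ).re = (p * r * (τ.re ^ 2 + τ.im ^ 2) + (p * d + q' * r) * τ.re + q' * d) / D := by
    rw [← UpperHalfPlane.coe_re, UpperHalfPlane.coe_specialLinearGroup_apply]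
    simp only [algebraMap_int_eq, eq_intCast]
    push_cast
    rw [Complex.div_re]
    have e1 : normSq (((γ 1 0 : ℤ) : ℂ) * (τ : ℂ) + ((γ 1 1 : ℤ) : ℂ)) = D := by
      rw [← hdenom, ModularGroup.denom_apply]
    rw [e1]
    simp only [Complex.add_re, Complex.add_im, Complex.mul_re, Complex.mul_im,
      Complex.intCast_re, Complex.intCast_im, UpperHalfPlane.coe_re, UpperHalfPlane.coe_im]
    rw [← hd, ← hr, ← hp, ← hq']
    field_simp
    ring
  have hy' : (g • wp τ s).y = √3 * (γ • τ).im / √(1 + s ^ 2) := by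
    rw [y_smul_SL, hden, hwy, him, hY]
    field_simp
  apply H3.ext
  · rw [smul_def, H3.smul_z]
    have e1 : (wp τ s).den (toGL g 1 0) (toGL g 1 1) = D := hden
    have e2 : (wp τ s).num (toGL g 0 0) (toGL g 0 1) (toGL g 1 0) (toGL g 1 1) =
      ⟨-(Y * s), √3 * (p * r * (τ.re ^ 2 + τ.im ^ 2) + (p * d + q' * r) * τ.re + q' * d)⟩ := hnum
    rw [e1, e2]
    apply Complex.ext
    · rw [Complex.div_ofReal_re]
      show -(Y * s) / D = -(√3 * (γ • τ).im / √(1 + s ^ 2) * s)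
      rw [him, hY]
      field_simp
    · rw [Complex.div_ofReal_im]
      show √3 * _ / D = √3 * (γ • τ).re
      rw [hre]
      field_simp
  · exact hy'

end Fermat.Agent.LT.Th
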